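import Mathlib
import Fermat.Statements.S16

/-!
# S16 (Mazur's Eisenstein ideal index): frozen interface of the S16L library

Everything is phrased with formal power series over `ℚ` (q-expansions); the analytic input is
packaged in the structure `TraceData p` (constructed once in `AN.lean`), so that the arithmetic
files never touch analysis.  See `S16PLAN.md` (origin/helper8) for the mathematics.

* `psU p`, `psV p` : the operators `U_p`, `V_p` on power series; `psTheta` : `q d/dq`.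
* `psSigma k`, `psE4`, `psE6`, `psEk k`, `psDelta`, `psEis p` : the classical q-expansions.
* `TraceData p` : the pairs `(qexp g, qexp ĝ)` for `g ∈ M_w(Γ₀(p))`, the level-one q-expansions,
  and the trace formula relating them.
-/

set_option autoImplicit false

open PowerSeries

namespace Fermat.Agent.S16L

/-- `U_p` on power series: `a_n ↦ a_{pn}`. -/
noncomputable def psU {R : Type*} [Semiring R] (p : ℕ) (a : R⟦X⟧) : R⟦X⟧ :=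
  PowerSeries.mk fun n => a.coeff (p * n)

/-- `V_p` on power series: `a(q) ↦ a(q^p)`. -/
noncomputable def psV {R : Type*} [Semiring R] (p : ℕ) (a : R⟦X⟧) : R⟦X⟧ :=
  PowerSeries.mk fun n => if p ∣ n then a.coeff (n / p) else 0

/-- `θ = q d/dq` on power series. -/
noncomputable def psTheta {R : Type*} [Semiring R] (a : R⟦X⟧) : R⟦X⟧ :=
  PowerSeries.mk fun n => (n : R) * a.coeff n

/-- `∑_{n ≥ 1} σ_k(n) q^n`. -/
noncomputable def psSigma (k : ℕ) : ℚ⟦X⟧ :=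
  PowerSeries.mk fun n => ((ArithmeticFunction.sigma k n : ℕ) : ℚ)

/-- the q-expansion of `E₄`. -/
noncomputable def psE4 : ℚ⟦X⟧ := 1 + (240 : ℚ) • psSigma 3

/-- the q-expansion of `E₆`. -/
noncomputable def psE6 : ℚ⟦X⟧ := 1 - (504 : ℚ) • psSigma 5

/-- the q-expansion of the normalised Eisenstein series `E_k` (even `k ≥ 4`). -/
noncomputable def psEk (k : ℕ) : ℚ⟦X⟧ := 1 - (2 * (k : ℚ) / bernoulli k) • psSigma (k - 1)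

/-- the q-expansion of `Δ = (E₄³ - E₆²)/1728`. -/
noncomputable def psDelta : ℚ⟦X⟧ := (1 / 1728 : ℚ) • (psE4 ^ 3 - psE6 ^ 2)

/-- `σ'(k)`: the sum of the divisors of `k` prime to `p`. -/
def sigmaP (p k : ℕ) : ℕ := ∑ d ∈ k.divisors with ¬ p ∣ d, d

/-- the q-expansion of the weight-2 Eisenstein series of level `p`:
`(p-1)/24 + ∑_{k ≥ 1} σ'(k) q^k`. -/
noncomputable def psEis (p : ℕ) : ℚ⟦X⟧ :=
  PowerSeries.mk fun k => if k = 0 then ((p : ℚ) - 1) / 24 else (sigmaP p k : ℚ)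

/-- The analytic input.  `MM w` is (a subspace of) the set of pairs `(qexp g, qexp ĝ)`, where
`g ∈ M_w(Γ₀(p))` has rational q-expansion and `ĝ(z) = (g ∣_w S)(p z)`; `LL k` is the space of
rational q-expansions of level-one forms of weight `k`. -/
structure TraceData (p : ℕ) where
  /-- pairs `(qexp g, qexp ĝ)`, `g` of weight `w` on `Γ₀(p)` -/
  MM : ℤ → Submodule ℚ (ℚ⟦X⟧ × ℚ⟦X⟧)
  /-- q-expansions of level-one forms of weight `k` -/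
  LL : ℤ → Submodule ℚ ℚ⟦X⟧
  MM_one : ((1 : ℚ⟦X⟧), (1 : ℚ⟦X⟧)) ∈ MM 0
  MM_mul : ∀ {w w' : ℤ} {x y : ℚ⟦X⟧ × ℚ⟦X⟧}, x ∈ MM w → y ∈ MM w' →
    (x.1 * y.1, x.2 * y.2) ∈ MM (w + w')
  MM_of_LL : ∀ {k : ℤ} {φ : ℚ⟦X⟧}, φ ∈ LL k → (φ, psV p φ) ∈ MM k
  MM_V_of_LL : ∀ {k : ℤ} {φ : ℚ⟦X⟧}, φ ∈ LL k → (psV p φ, ((p : ℚ) ^ (-k)) • φ) ∈ MM k
  /-- the trace to level one -/
  trace_mem : ∀ {w : ℤ} {x : ℚ⟦X⟧ × ℚ⟦X⟧}, x ∈ MM w → x.1 + (p : ℚ) • psU p x.2 ∈ LL w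
  /-- in weight 2: `ĝ = -p⁻¹ U_p g` -/
  MM_two : ∀ {x : ℚ⟦X⟧ × ℚ⟦X⟧}, x ∈ MM 2 → x.2 = (-(p : ℚ)⁻¹) • psU p x.1
  LL_eq_bot : ∀ {k : ℤ}, (k < 0 ∨ Odd k ∨ k = 2) → LL k = ⊥
  LL_zero : ∀ {φ : ℚ⟦X⟧}, φ ∈ LL 0 → ∃ c : ℚ, φ = PowerSeries.C c
  one_mem_LL : (1 : ℚ⟦X⟧) ∈ LL 0
  LL_mul : ∀ {k k' : ℤ} {φ ψ : ℚ⟦X⟧}, φ ∈ LL k → ψ ∈ LL k' → φ * ψ ∈ LL (k + k')
  E4_mem : psE4 ∈ LL 4
  E6_mem : psE6 ∈ LL 6
  Ek_mem : ∀ k : ℕ, 4 ≤ k → Even k → psEk k ∈ LL (k : ℤ)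
  /-- `φ = φ(0) E₄^x E₆^y + Δ φ'` -/
  LL_decomp : ∀ {k : ℤ} {φ : ℚ⟦X⟧} (x y : ℕ), φ ∈ LL k → 4 * (x : ℤ) + 6 * (y : ℤ) = k →
    ∃ φ' ∈ LL (k - 12),
      φ = PowerSeries.C (φ.coeff 0) * psE4 ^ x * psE6 ^ y + psDelta * φ'
  /-- Ramanujan: `θ Δ = E₂ Δ` -/
  theta_delta : psTheta psDelta = (1 - (24 : ℚ) • psSigma 1) * psDelta
  /-- cusp forms of weight 2 on `Γ₀(p)` with rational q-expansion -/
  cusp_mem : ∀ (f : CuspForm (CongruenceSubgroup.Gamma0 p) 2) (a : ℚ⟦X⟧),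
    (∀ n, ((a.coeff n : ℚ) : ℂ) = ModularFormClass.qCoeff (⇑f) n) → ∃ b, (a, b) ∈ MM 2
  /-- the Eisenstein series of weight 2 on `Γ₀(p)` -/
  eis_mem : ∃ b, (psEis p, b) ∈ MM 2

/-- `A` is the (integral) q-expansion of a weight-2 modular form on `Γ₀(p)`. -/
def InM2 {p : ℕ} (D : TraceData p) (A : ℤ⟦X⟧) : Prop :=
  ∃ b, (A.map (Int.castRingHom ℚ), b) ∈ D.MM 2

/-- `A ≡ c mod ℓ^a` with `ℓ ∤ c = A(0)`. -/
def IsUnitConstMod (ℓ a : ℕ) (A : ℤ⟦X⟧) : Prop :=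
  ¬ ((ℓ : ℤ) ∣ A.coeff 0) ∧ ∀ k, 1 ≤ k → ((ℓ : ℤ) ^ a ∣ A.coeff k)

end Fermat.Agent.S16L
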