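import Mathlib
import Fermat.Prelude.Def_ModularForm_HeckeOperator
import Fermat.Agent.S16L.Defs
import Fermat.Agent.S20T.Conj

/-!
# S16L / AN: concrete analytic definitions (frozen)

* `anV p w F`   : the function `z ↦ F (p z)` (written with the GL₂-slash by `diag(p,1)`).
* `anHat p w g` : `ĝ(z) = (g ∣_w S)(p z)`.
* `anMM p w`, `anLL k` : the rational pairs / rational level-one q-expansions of the plan.
-/

set_option autoImplicit false

open UpperHalfPlane ModularFormClass CongruenceSubgroup PowerSeries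
open scoped MatrixGroups ModularForm Manifold

namespace Fermat.Agent.S16L

/-- `z ↦ F (p z)`, as `p^(1-w) • (F ∣[w] diag(p,1))`. -/
noncomputable def anV (p : ℕ) (w : ℤ) (F : ℍ → ℂ) : ℍ → ℂ :=
  ((p : ℂ) ^ (1 - w)) • (F ∣[w] ModularForm.heckeDiagMatrix p)

/-- `ĝ(z) = (g ∣[w] S)(p z)`. -/
noncomputable def anHat (p : ℕ) (w : ℤ) (g : ℍ → ℂ) : ℍ → ℂ :=
  anV p w (g ∣[w] ModularGroup.S)

/-- coefficientwise embedding `ℚ⟦X⟧ → ℂ⟦X⟧`. -/
noncomputable abbrev anC (a : ℚ⟦X⟧) : ℂ⟦X⟧ := a.map (algebraMap ℚ ℂ)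

/-- the set of rational pairs `(qexp g, qexp ĝ)`, `g ∈ M_w(Γ₀(p))`. -/
def anMMset (p : ℕ) (w : ℤ) : Set (ℚ⟦X⟧ × ℚ⟦X⟧) :=
  {x | ∃ g ∈ S20T.R p w, qExpansion 1 g = anC x.1 ∧ qExpansion 1 (anHat p w g) = anC x.2}

/-- the set of rational q-expansions of level-one forms of weight `k`. -/
def anLLset (k : ℤ) : Set ℚ⟦X⟧ :=
  {φ | ∃ F ∈ S20T.A k, qExpansion 1 F = anC φ}

end Fermat.Agent.S16L
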