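import Mathlib
import Fermat.Agent.S16L.ANDefs
import Fermat.Agent.S22.Hermite

/-!
# S16L / AN leaf EIS: the weight-2 Eisenstein series of level `p`  (plan §2, AN5)
`E(z) = (p E₂(pz) - E₂(z))/24 ∈ M₂(Γ₀(p))` with q-expansion `(p-1)/24 + ∑ σ'(k) q^k`.
-/

set_option autoImplicit false

open UpperHalfPlane ModularFormClass CongruenceSubgroup PowerSeries
open scoped MatrixGroups ModularForm Manifold

namespace Fermat.Agent.S16L

/-- `σ₁(n) = σ'(n) + p σ₁(n/p)` (the last term only when `p ∣ n`). -/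
theorem an_eis_sigma (p : ℕ) (hp : p.Prime) (n : ℕ) :
    ArithmeticFunction.sigma 1 n =
      sigmaP p n + (if p ∣ n then p * ArithmeticFunction.sigma 1 (n / p) else 0) := by
  rw [ArithmeticFunction.sigma_one_apply, sigmaP,
    ← Finset.sum_filter_not_add_sum_filter n.divisors (fun d => p ∣ d)]
  congr 1
  split_ifs with h
  · obtain ⟨m, rfl⟩ := h
    rw [Nat.mul_div_cancel_left m hp.pos, ArithmeticFunction.sigma_one_apply, Finset.mul_sum]
    refine Finset.sum_nbij' (fun d => d / p) (fun d => p * d) ?_ ?_ ?_ ?_ ?_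
    · intro d hd
      rw [Finset.mem_filter, Nat.mem_divisors] at hd
      obtain ⟨⟨hd1, hd2⟩, e, rfl⟩ := hd
      rw [Nat.mul_div_cancel_left e hp.pos, Nat.mem_divisors]
      exact ⟨(Nat.mul_dvd_mul_iff_left hp.pos).mp hd1, fun h0 => hd2 (by rw [h0, mul_zero])⟩
    · intro e he
      rw [Nat.mem_divisors] at he
      rw [Finset.mem_filter, Nat.mem_divisors]
      exact ⟨⟨Nat.mul_dvd_mul_left p he.1, Nat.mul_ne_zero hp.ne_zero he.2⟩, dvd_mul_right p e⟩
    · intro d hd
      rw [Finset.mem_filter] at hd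
      exact Nat.mul_div_cancel' hd.2
    · intro e _
      exact Nat.mul_div_cancel_left e hp.pos
    · intro d hd
      rw [Finset.mem_filter] at hd
      exact (Nat.mul_div_cancel' hd.2).symm
  · apply Finset.sum_eq_zero
    intro d hd
    rw [Finset.mem_filter, Nat.mem_divisors] at hd
    exact absurd (hd.2.trans hd.1.1) h

/-- the weight-2 Eisenstein series of level `p`: `(p E₂(pz) - E₂(z))/24`. -/
noncomputable def an_eis_fun (p : ℕ) : ℍ → ℂ :=
  (1 / 24 : ℂ) •
    (EisensteinSeries.E2 ∣[(2 : ℤ)] ModularForm.heckeDiagMatrix p - EisensteinSeries.E2)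

/-- `an_eis_fun p` is holomorphic. -/
theorem an_eis_mdiff (p : ℕ) : MDiff (an_eis_fun p) := by
  unfold an_eis_fun
  exact ((E2_mdifferentiable.slash 2 _).sub E2_mdifferentiable).const_smul _

/-- the defect `D2 γ` is bounded at `i∞`. -/
theorem an_eis_D2_bdd (γ : SL(2, ℤ)) : IsBoundedAtImInfty (EisensteinSeries.D2 γ) := by
  rw [UpperHalfPlane.isBoundedAtImInfty_iff]
  refine ⟨2 * Real.pi, 1, fun z hz => ?_⟩
  simp only [EisensteinSeries.D2]
  by_cases hc : γ 1 0 = 0
  · simp only [hc, Int.cast_zero, mul_zero, zero_div, norm_zero]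
    positivity
  · have hden : |((γ 1 0 : ℤ) : ℝ)| ≤ ‖denom γ z‖ := by
      have h1 : (denom γ z).im = ((γ 1 0 : ℤ) : ℝ) * z.im := by
        rw [ModularGroup.denom_apply]
        simp
      calc |((γ 1 0 : ℤ) : ℝ)| ≤ |((γ 1 0 : ℤ) : ℝ)| * z.im :=
            le_mul_of_one_le_right (abs_nonneg _) hz
        _ = |(denom γ z).im| := by rw [h1, abs_mul, abs_of_pos z.im_pos]
        _ ≤ ‖denom γ z‖ := Complex.abs_im_le_norm _
    have hpos : 0 < |((γ 1 0 : ℤ) : ℝ)| := abs_pos.mpr (by exact_mod_cast hc)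
    have hnum : ‖(2 * (Real.pi : ℂ) * Complex.I * ((γ 1 0 : ℤ) : ℂ))‖
        = 2 * Real.pi * |((γ 1 0 : ℤ) : ℝ)| := by
      rw [norm_mul, norm_mul, norm_mul, Complex.norm_I, mul_one]
      simp [abs_of_pos Real.pi_pos]
    rw [norm_div, hnum, div_le_iff₀ (lt_of_lt_of_le hpos hden)]
    exact mul_le_mul_of_nonneg_left hden (by positivity)

/-- every `SL₂(ℤ)`-translate of `E₂` is bounded at `i∞`. -/
theorem an_eis_E2_slash_bdd (γ : SL(2, ℤ)) :
    IsBoundedAtImInfty (EisensteinSeries.E2 ∣[(2 : ℤ)] γ) := by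
  rw [EisensteinSeries.E2_slash_action, sub_eq_add_neg]
  exact EisensteinSeries.isBoundedAtImInfty_E2.add ((an_eis_D2_bdd γ).smul _).neg

/-- every `SL₂(ℤ)`-translate of `an_eis_fun p` is bounded at `i∞`. -/
theorem an_eis_bdd (p : ℕ) [NeZero p] (γ : SL(2, ℤ)) :
    IsBoundedAtImInfty (an_eis_fun p ∣[(2 : ℤ)] γ) := by
  have hp0 : (0 : ℤ) < (p : ℤ) := by exact_mod_cast Nat.pos_of_ne_zero (NeZero.ne p)
  obtain ⟨g', a', b', d', ha', hd', -, -, hGL⟩ :=
    Fermat.Agent.S22.hermite (p : ℤ) 0 1 hp0 one_pos γ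
  have h1 : ((p : ℤ) : ℝ) * ((1 : ℤ) : ℝ) ≠ 0 := by
    have : ((p : ℤ) : ℝ) ≠ 0 := by exact_mod_cast hp0.ne'
    simpa using this
  have h' : (a' : ℝ) * (d' : ℝ) ≠ 0 :=
    mul_ne_zero (by exact_mod_cast ha'.ne') (by exact_mod_cast hd'.ne')
  have hdiag : ModularForm.heckeDiagMatrix p
      = ModularForm.upperTriangularGL ((p : ℤ) : ℝ) ((0 : ℤ) : ℝ) ((1 : ℤ) : ℝ) h1 := by
    apply Matrix.GeneralLinearGroup.ext
    intro i j
    rw [ModularForm.val_heckeDiagMatrix (NeZero.ne p), ModularForm.val_upperTriangularGL]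
    fin_cases i <;> fin_cases j <;> simp
  have key : (EisensteinSeries.E2 ∣[(2 : ℤ)] ModularForm.heckeDiagMatrix p) ∣[(2 : ℤ)] γ
      = (EisensteinSeries.E2 ∣[(2 : ℤ)] g') ∣[(2 : ℤ)]
          ModularForm.upperTriangularGL (a' : ℝ) (b' : ℝ) (d' : ℝ) h' := by
    have e1 : (EisensteinSeries.E2 ∣[(2 : ℤ)] ModularForm.heckeDiagMatrix p) ∣[(2 : ℤ)] γ
        = EisensteinSeries.E2 ∣[(2 : ℤ)]
            (ModularForm.heckeDiagMatrix p * Matrix.SpecialLinearGroup.mapGL ℝ γ) := by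
      rw [SlashAction.slash_mul]
      rfl
    rw [e1, hdiag, hGL h1 h', SlashAction.slash_mul]
    rfl
  have hB : (ModularForm.upperTriangularGL (a' : ℝ) (b' : ℝ) (d' : ℝ) h' : GL (Fin 2) ℝ) 1 0
      = 0 := by
    rw [ModularForm.val_upperTriangularGL]
    rfl
  unfold an_eis_fun
  rw [ModularForm.SL_smul_slash, sub_eq_add_neg, SlashAction.add_slash, SlashAction.neg_slash,
    key]
  exact (((an_eis_E2_slash_bdd g').slash 2 hB).add (an_eis_E2_slash_bdd γ).neg).smul _

/-- `an_eis_fun p` is invariant under `Γ₀(p)`. -/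
theorem an_eis_inv (p : ℕ) [NeZero p] (γ : SL(2, ℤ)) (hγ : γ ∈ Gamma0 p) :
    an_eis_fun p ∣[(2 : ℤ)] γ = an_eis_fun p := by
  have hp : p ≠ 0 := NeZero.ne p
  have hc : (p : ℤ) ∣ γ 1 0 := by
    have := (Gamma0_mem (N := p) (A := γ)).mp hγ
    exact (ZMod.intCast_zmod_eq_zero_iff_dvd _ _).mp this
  obtain ⟨c', hc'⟩ := hc
  have hdet := γ.det_coe
  rw [Matrix.det_fin_two] at hdet
  let γ' : SL(2, ℤ) := ⟨!![γ 0 0, p * γ 0 1; c', γ 1 1], by
    rw [Matrix.det_fin_two_of]
    rw [hc'] at hdet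
    linear_combination hdet⟩
  have e00 : γ' 0 0 = γ 0 0 := rfl
  have e01 : γ' 0 1 = p * γ 0 1 := rfl
  have e10 : γ' 1 0 = c' := rfl
  have e11 : γ' 1 1 = γ 1 1 := rfl
  have hGL : ModularForm.heckeDiagMatrix p * Matrix.SpecialLinearGroup.mapGL ℝ γ
      = Matrix.SpecialLinearGroup.mapGL ℝ γ' * ModularForm.heckeDiagMatrix p := by
    apply Matrix.GeneralLinearGroup.ext
    intro i j
    rw [Matrix.GeneralLinearGroup.coe_mul, Matrix.GeneralLinearGroup.coe_mul,
      ModularForm.val_heckeDiagMatrix hp]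
    have h10 : ((γ 1 0 : ℤ) : ℝ) = (p : ℝ) * (c' : ℝ) := by rw [hc']; push_cast; ring
    fin_cases i <;> fin_cases j <;>
      simp [Matrix.mul_apply, Fin.sum_univ_two, e00, e01, e10, e11, h10, mul_comm]
  have key : (EisensteinSeries.E2 ∣[(2 : ℤ)] ModularForm.heckeDiagMatrix p) ∣[(2 : ℤ)] γ
      = (EisensteinSeries.E2 ∣[(2 : ℤ)] γ') ∣[(2 : ℤ)] ModularForm.heckeDiagMatrix p := by
    have e1 : (EisensteinSeries.E2 ∣[(2 : ℤ)] ModularForm.heckeDiagMatrix p) ∣[(2 : ℤ)] γ
        = EisensteinSeries.E2 ∣[(2 : ℤ)]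
            (ModularForm.heckeDiagMatrix p * Matrix.SpecialLinearGroup.mapGL ℝ γ) := by
      rw [SlashAction.slash_mul]
      rfl
    rw [e1, hGL, SlashAction.slash_mul]
    rfl
  have hD : EisensteinSeries.D2 γ' ∣[(2 : ℤ)] ModularForm.heckeDiagMatrix p
      = EisensteinSeries.D2 γ := by
    ext z
    rw [ModularForm.slash_heckeDiagMatrix_apply 2 hp]
    simp only [EisensteinSeries.D2]
    have hden : denom γ' ((ModularForm.heckeDiagMatrix p • z : ℍ) : ℂ) = denom γ z := by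
      rw [ModularGroup.denom_apply, ModularGroup.denom_apply,
        ModularForm.coe_heckeDiagMatrix_smul hp]
      rw [e10, e11, hc']
      push_cast
      ring
    rw [hden, e10, hc']
    norm_num
    ring
  unfold an_eis_fun
  rw [ModularForm.SL_smul_slash, sub_eq_add_neg, SlashAction.add_slash, SlashAction.neg_slash,
    key, EisensteinSeries.E2_slash_action, EisensteinSeries.E2_slash_action, sub_eq_add_neg,
    SlashAction.add_slash, SlashAction.neg_slash, ModularForm.smul_slash,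
    ModularForm.σ_heckeDiagMatrix, hD]
  simp only [ContinuousAlgEquiv.refl_apply]
  congr 1
  abel

/-- `an_eis_fun p` is a modular form of weight 2 on `Γ₀(p)`. -/
theorem an_eis_mem (p : ℕ) [NeZero p] : an_eis_fun p ∈ S20T.R p 2 :=
  S20T.mem_R_of_invariant (an_eis_mdiff p) (an_eis_inv p) (an_eis_bdd p)

/-- the coefficients of `psEis p` in terms of those of `E₂`. -/
theorem an_eis_coeff (p : ℕ) (hp : p.Prime) (n : ℕ) :
    algebraMap ℚ ℂ ((psEis p).coeff n) =
      (1 / 24 : ℂ) * ((p : ℂ) * (if p ∣ n then (if n / p = 0 then (1 : ℂ)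
          else -24 * (ArithmeticFunction.sigma 1 (n / p) : ℂ)) else 0)
        - (if n = 0 then (1 : ℂ) else -24 * (ArithmeticFunction.sigma 1 n : ℂ))) := by
  have hs := an_eis_sigma p hp n
  rw [psEis, PowerSeries.coeff_mk]
  rcases Nat.eq_zero_or_pos n with rfl | hn
  · simp
    ring
  · have hn0 : n ≠ 0 := hn.ne'
    rw [if_neg hn0, if_neg hn0]
    by_cases hd : p ∣ n
    · have hnp : n / p ≠ 0 := (Nat.div_pos (Nat.le_of_dvd hn hd) hp.pos).ne'
      rw [if_pos hd, if_neg hnp]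
      rw [if_pos hd] at hs
      have hs' : (ArithmeticFunction.sigma 1 n : ℂ)
          = (sigmaP p n : ℂ) + (p : ℂ) * (ArithmeticFunction.sigma 1 (n / p) : ℂ) := by
        exact_mod_cast hs
      rw [hs']
      simp
      ring
    · rw [if_neg hd]
      rw [if_neg hd, add_zero] at hs
      rw [hs]
      simp

/-- the q-expansion of `an_eis_fun p`, as a convergent sum. -/
theorem an_eis_hasSum (p : ℕ) [Fact p.Prime] (τ : ℍ) :
    HasSum (fun m : ℕ => (algebraMap ℚ ℂ ((psEis p).coeff m)) •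
      Function.Periodic.qParam 1 τ ^ m) (an_eis_fun p τ) := by
  have hp : p.Prime := Fact.out
  have hp0 : p ≠ 0 := hp.ne_zero
  set q : ℂ := Function.Periodic.qParam 1 τ with hq
  have h1 : HasSum (fun m : ℕ => (if m = 0 then (1 : ℂ)
      else -24 * (ArithmeticFunction.sigma 1 m : ℂ)) • q ^ m) (EisensteinSeries.E2 τ) := by
    have := EisensteinSeries.hasSum_qExpansion_E2 (z := τ)
    simpa only [hq, Function.Periodic.qParam, Complex.ofReal_one, div_one] using this
  have h2 : HasSum (fun m : ℕ => (if m = 0 then (1 : ℂ)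
      else -24 * (ArithmeticFunction.sigma 1 m : ℂ)) • (q ^ p) ^ m)
      (EisensteinSeries.E2 (ModularForm.heckeDiagMatrix p • τ)) := by
    have := EisensteinSeries.hasSum_qExpansion_E2 (z := ModularForm.heckeDiagMatrix p • τ)
    rw [ModularForm.coe_heckeDiagMatrix_smul hp0] at this
    have hqp : Complex.exp (2 * (Real.pi : ℂ) * Complex.I * ((p : ℂ) * (τ : ℂ))) = q ^ p := by
      rw [hq, Function.Periodic.qParam, Complex.ofReal_one, div_one, ← Complex.exp_nat_mul]
      congr 1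
      ring
    rw [hqp] at this
    exact this
  have hinj : Function.Injective (fun m : ℕ => p * m) := fun a b hab =>
    Nat.eq_of_mul_eq_mul_left hp.pos hab
  have h3 : HasSum (fun n : ℕ => (if p ∣ n then (if n / p = 0 then (1 : ℂ)
      else -24 * (ArithmeticFunction.sigma 1 (n / p) : ℂ)) else 0) • q ^ n)
      (EisensteinSeries.E2 (ModularForm.heckeDiagMatrix p • τ)) := by
    rw [← hinj.hasSum_iff]
    · refine h2.congr_fun ?_
      intro m
      simp only [Function.comp_apply, dvd_mul_right, if_true, Nat.mul_div_cancel_left m hp.pos,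
        pow_mul]
    · intro n hn
      have hnd : ¬ p ∣ n := fun ⟨m, hm⟩ => hn ⟨m, hm.symm⟩
      rw [if_neg hnd, zero_smul]
  have h4 := ((h3.mul_left (p : ℂ)).sub h1).mul_left (1 / 24 : ℂ)
  have hval : an_eis_fun p τ = (1 / 24 : ℂ) *
      ((p : ℂ) * EisensteinSeries.E2 (ModularForm.heckeDiagMatrix p • τ)
        - EisensteinSeries.E2 τ) := by
    unfold an_eis_fun
    rw [Pi.smul_apply, Pi.sub_apply, ModularForm.slash_heckeDiagMatrix_apply 2 hp0, smul_eq_mul]
    norm_num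
  rw [hval]
  refine h4.congr_fun ?_
  intro n
  rw [an_eis_coeff p hp n]
  simp only [smul_eq_mul]
  ring

theorem an_eis (p : ℕ) [Fact p.Prime] :
    ∃ g ∈ S20T.R p 2, qExpansion 1 g = anC (psEis p) := by
  have : NeZero p := ⟨(Fact.out : p.Prime).ne_zero⟩
  have hmem : an_eis_fun p ∈ S20T.R p 2 := an_eis_mem p
  refine ⟨an_eis_fun p, hmem, ?_⟩
  obtain ⟨f, hf⟩ := hmem
  ext m
  rw [PowerSeries.coeff_map, ← hf]
  exact (ModularFormClass.qExpansion_coeff_unique (f := f) one_pos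
    (CongruenceSubgroup.one_mem_strictPeriods_Gamma0 p)
    (c := fun m => algebraMap ℚ ℂ ((psEis p).coeff m))
    (fun τ => by rw [hf]; exact an_eis_hasSum p τ) m).symm

end Fermat.Agent.S16L
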