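import Mathlib
import Fermat.Agent.S16L.ANDefs

/-!
# S16L / AN leaf HAT part 1: formal rules for `anHat`
-/

set_option autoImplicit false

open UpperHalfPlane ModularFormClass CongruenceSubgroup PowerSeries
open scoped MatrixGroups ModularForm Manifold

namespace Fermat.Agent.S16L

variable {p : ℕ} {w w' k : ℤ} {g g' F : ℍ → ℂ}

/-- pointwise formula: `anV p w F τ = F (p τ)` for `p ≠ 0`. -/
theorem an_h1_anV_apply (hp : p ≠ 0) (w : ℤ) (F : ℍ → ℂ) (τ : ℍ) :
    anV p w F τ = F (ModularForm.heckeDiagMatrix p • τ) := by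
  have hp' : (p : ℂ) ≠ 0 := by exact_mod_cast hp
  unfold anV
  rw [Pi.smul_apply, ModularForm.slash_heckeDiagMatrix_apply w hp, smul_eq_mul, ← mul_assoc,
    ← zpow_add₀ hp', show 1 - w + (w - 1) = 0 by ring, zpow_zero, one_mul]

/-- `anV` is additive. -/
theorem an_h1_anV_add (p : ℕ) (w : ℤ) (F G : ℍ → ℂ) :
    anV p w (F + G) = anV p w F + anV p w G := by
  unfold anV
  rw [SlashAction.add_slash, smul_add]

/-- `anV` is `ℂ`-homogeneous. -/
theorem an_h1_anV_smul (p : ℕ) (w : ℤ) (c : ℂ) (F : ℍ → ℂ) :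
    anV p w (c • F) = c • anV p w F := by
  unfold anV
  rw [ModularForm.smul_slash, ModularForm.σ_heckeDiagMatrix, ContinuousAlgEquiv.refl_apply,
    smul_comm]

/-- `anV` is multiplicative (for `p ≠ 0`). -/
theorem an_h1_anV_mul (hp : p ≠ 0) (w w' : ℤ) (F G : ℍ → ℂ) :
    anV p (w + w') (F * G) = anV p w F * anV p w' G := by
  funext τ
  rw [Pi.mul_apply, an_h1_anV_apply hp, an_h1_anV_apply hp, an_h1_anV_apply hp, Pi.mul_apply]

/-- `anV` of the constant function `1` (for `p ≠ 0`). -/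
theorem an_h1_anV_one (hp : p ≠ 0) (w : ℤ) : anV p w (1 : ℍ → ℂ) = 1 := by
  funext τ
  rw [an_h1_anV_apply hp, Pi.one_apply, Pi.one_apply]

theorem an_hat_of_mem_A (p : ℕ) (hF : F ∈ S20T.A k) : anHat p k F = anV p k F := by
  unfold anHat
  rw [S20T.slash_of_mem_A hF ModularGroup.S]

theorem an_hat_add (p : ℕ) (w : ℤ) (g g' : ℍ → ℂ) :
    anHat p w (g + g') = anHat p w g + anHat p w g' := by
  unfold anHat
  rw [SlashAction.add_slash, an_h1_anV_add]

theorem an_hat_smul (p : ℕ) (w : ℤ) (c : ℂ) (g : ℍ → ℂ) :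
    anHat p w (c • g) = c • anHat p w g := by
  unfold anHat
  rw [ModularForm.SL_smul_slash, an_h1_anV_smul]

theorem an_hat_mul [Fact p.Prime] (w w' : ℤ) (g g' : ℍ → ℂ) :
    anHat p (w + w') (g * g') = anHat p w g * anHat p w' g' := by
  have hp : p ≠ 0 := (Fact.out : p.Prime).ne_zero
  unfold anHat
  rw [ModularForm.mul_slash_SL2, an_h1_anV_mul hp]

theorem an_hat_one [Fact p.Prime] : anHat p 0 (1 : ℍ → ℂ) = 1 := by
  have hp : p ≠ 0 := (Fact.out : p.Prime).ne_zero
  unfold anHat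
  rw [ModularForm.is_invariant_one, an_h1_anV_one hp]

end Fermat.Agent.S16L
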