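import Mathlib
import Fermat.Agent.S16L.ANDefs

/-!
# S16L / AN leaf HAT part 2: `F(pz)` is a form on `Γ₀(p)`
-/

set_option autoImplicit false

open UpperHalfPlane ModularFormClass CongruenceSubgroup PowerSeries
open scoped MatrixGroups ModularForm Manifold

namespace Fermat.Agent.S16L

variable {p : ℕ} {w w' k : ℤ} {g g' F : ℍ → ℂ}

/-- `diag(p,1) · γ = γ' · diag(p,1)` with `γ' ∈ SL₂(ℤ)`, for `γ ∈ Γ₀(p)`. -/
theorem an_h2_exists_conj (hp : p ≠ 0) (γ : SL(2, ℤ)) (hγ : γ ∈ Gamma0 p) :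
    ∃ γ' : SL(2, ℤ),
      ModularForm.heckeDiagMatrix p * (Matrix.SpecialLinearGroup.mapGL ℝ γ) =
        (Matrix.SpecialLinearGroup.mapGL ℝ γ') * ModularForm.heckeDiagMatrix p := by
  rw [Gamma0_mem] at hγ
  obtain ⟨c', hc'⟩ := (ZMod.intCast_zmod_eq_zero_iff_dvd _ p).mp hγ
  have hdet : γ 0 0 * γ 1 1 - γ 0 1 * γ 1 0 = 1 := by
    have := γ.det_coe
    rwa [Matrix.det_fin_two] at this
  refine ⟨⟨!![γ 0 0, p * γ 0 1; c', γ 1 1], ?_⟩, ?_⟩
  · rw [Matrix.det_fin_two_of]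
    linear_combination hdet + γ 0 1 * hc'
  · apply Matrix.GeneralLinearGroup.ext
    intro i j
    have h10 : ((γ 1 0 : ℤ) : ℝ) = (p : ℝ) * (c' : ℝ) := by exact_mod_cast hc'
    fin_cases i <;> fin_cases j <;>
      simp [Matrix.mul_apply, Fin.sum_univ_two, ModularForm.val_heckeDiagMatrix hp, h10,
        mul_comm]

/-- the point `diag(p,1) · γ · ∞` is a cusp of `SL₂(ℤ)`. -/
theorem an_h2_isCusp (hp : p ≠ 0) (γ : SL(2, ℤ)) :
    IsCusp ((ModularForm.heckeDiagMatrix p * (Matrix.SpecialLinearGroup.mapGL ℝ γ)) •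
      (OnePoint.infty : OnePoint ℝ)) 𝒮ℒ := by
  rw [isCusp_SL2Z_iff, OnePoint.smul_infty_eq_ite]
  have h10 : (ModularForm.heckeDiagMatrix p * (Matrix.SpecialLinearGroup.mapGL ℝ γ)) 1 0
      = ((γ 1 0 : ℤ) : ℝ) := by
    simp [Matrix.mul_apply, Fin.sum_univ_two, ModularForm.val_heckeDiagMatrix hp]
  have h00 : (ModularForm.heckeDiagMatrix p * (Matrix.SpecialLinearGroup.mapGL ℝ γ)) 0 0
      = (p : ℝ) * ((γ 0 0 : ℤ) : ℝ) := by
    simp [Matrix.mul_apply, Fin.sum_univ_two, ModularForm.val_heckeDiagMatrix hp]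
  rw [h10, h00]
  by_cases h : γ 1 0 = 0
  · refine ⟨OnePoint.infty, ?_⟩
    simp [h]
  · refine ⟨(((p : ℚ) * (γ 0 0 : ℚ) / (γ 1 0 : ℚ) : ℚ) : OnePoint ℚ), ?_⟩
    have h' : ((γ 1 0 : ℤ) : ℝ) ≠ 0 := by exact_mod_cast h
    rw [if_neg h']
    simp

/-- `F(pz)` for a level-one form is a form on `Γ₀(p)`. -/
theorem an_V_mem_R [Fact p.Prime] (hF : F ∈ S20T.A k) : anV p k F ∈ S20T.R p k := by
  have hp : p ≠ 0 := (Fact.out : p.Prime).ne_zero
  have : NeZero p := ⟨hp⟩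
  have hmd : MDiff F := S20T.mdiff_of_mem_A hF
  apply S20T.mem_R_of_invariant
  · -- holomorphy
    unfold anV
    exact (hmd.slash k _).const_smul _
  · -- invariance
    intro γ hγ
    obtain ⟨γ', hγ'⟩ := an_h2_exists_conj hp γ hγ
    have hγ'' : ModularForm.heckeDiagMatrix p * (γ : GL (Fin 2) ℝ) =
        (γ' : GL (Fin 2) ℝ) * ModularForm.heckeDiagMatrix p := hγ'
    unfold anV
    rw [ModularForm.SL_smul_slash, ModularForm.SL_slash, ← SlashAction.slash_mul, hγ'',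
      SlashAction.slash_mul, ← ModularForm.SL_slash, S20T.slash_of_mem_A hF γ']
  · -- boundedness at all cusps
    intro γ
    obtain ⟨f, rfl⟩ := hF
    unfold anV
    rw [ModularForm.SL_smul_slash, ModularForm.SL_slash, ← SlashAction.slash_mul]
    have hb : IsBoundedAtImInfty
        (⇑f ∣[k] (ModularForm.heckeDiagMatrix p * (γ : GL (Fin 2) ℝ))) :=
      (ModularFormClass.bdd_at_cusps f (an_h2_isCusp hp γ)) _ rfl
    exact hb.smul _

end Fermat.Agent.S16L
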