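import Mathlib
import Fermat.Agent.S16L.ANDefs

/-!
# S16L / AN leaf HAT part 3: the Fricke transform preserves `M_w(Γ₀(p))`
-/

set_option autoImplicit false

open UpperHalfPlane ModularFormClass CongruenceSubgroup PowerSeries
open scoped MatrixGroups ModularForm Manifold

namespace Fermat.Agent.S16L

variable {p : ℕ} {w w' k : ℤ} {g g' F : ℍ → ℂ}

/-- the Fricke matrix `W = S * diag(p, 1) = [[0, -1], [p, 0]]` in `GL₂(ℝ)` -/
noncomputable def an_h3_W (p : ℕ) : GL (Fin 2) ℝ :=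
  Matrix.SpecialLinearGroup.mapGL ℝ ModularGroup.S * ModularForm.heckeDiagMatrix p

/-- `ĝ = p^(1-w) • (g ∣[w] W)` -/
theorem an_h3_hat_eq (p : ℕ) (w : ℤ) (g : ℍ → ℂ) :
    anHat p w g = ((p : ℂ) ^ (1 - w)) • (g ∣[w] an_h3_W p) := by
  unfold anHat anV an_h3_W
  rw [SlashAction.slash_mul]
  rfl

theorem an_h3_W_val (hp : p ≠ 0) :
    ((an_h3_W p : GL (Fin 2) ℝ) : Matrix (Fin 2) (Fin 2) ℝ) = !![0, -1; (p : ℝ), 0] := by
  unfold an_h3_W
  rw [Units.val_mul, ModularForm.val_heckeDiagMatrix hp,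
    Matrix.SpecialLinearGroup.mapGL_coe_matrix]
  ext i j
  fin_cases i <;> fin_cases j <;> simp [ModularGroup.S, Matrix.mul_apply, Fin.sum_univ_two]

/-- the conjugate `W γ W⁻¹ = [[d, -c/p], [-p b, a]]` of `γ = [[a, b], [c, d]]`, `c = p c'` -/
def an_h3_conj (p : ℕ) (γ : SL(2, ℤ)) (c' : ℤ) (hc : γ 1 0 = p * c') : SL(2, ℤ) :=
  ⟨!![γ 1 1, -c'; -(p : ℤ) * γ 0 1, γ 0 0], by
    rw [Matrix.det_fin_two_of]
    have h := γ.det_coe
    rw [Matrix.det_fin_two, hc] at h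
    linear_combination h⟩

theorem an_h3_conj_mem (p : ℕ) (γ : SL(2, ℤ)) (c' : ℤ) (hc : γ 1 0 = p * c') :
    an_h3_conj p γ c' hc ∈ Gamma0 p := by
  rw [Gamma0_mem]
  simp [an_h3_conj]

theorem an_h3_W_mul (hp : p ≠ 0) (γ : SL(2, ℤ)) (c' : ℤ) (hc : γ 1 0 = p * c') :
    an_h3_W p * Matrix.SpecialLinearGroup.mapGL ℝ γ =
      Matrix.SpecialLinearGroup.mapGL ℝ (an_h3_conj p γ c' hc) * an_h3_W p := by
  apply Units.ext
  rw [Units.val_mul, Units.val_mul, an_h3_W_val hp, Matrix.SpecialLinearGroup.mapGL_coe_matrix,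
    Matrix.SpecialLinearGroup.mapGL_coe_matrix]
  have hc' : ((γ 1 0 : ℤ) : ℝ) = (p : ℝ) * (c' : ℝ) := by
    exact_mod_cast congrArg (Int.cast : ℤ → ℝ) hc
  ext i j
  fin_cases i <;> fin_cases j <;>
    simp [an_h3_conj, Matrix.mul_apply, Fin.sum_univ_two, hc', mul_comm]

theorem an_h3_mdiff (hg : g ∈ S20T.R p w) : MDiff (anHat p w g) := by
  rw [an_h3_hat_eq]
  exact ((S20T.mdiff_of_mem_R hg).slash w _).const_smul _

theorem an_h3_inv (hp : p ≠ 0) (hg : g ∈ S20T.R p w) (γ : SL(2, ℤ)) (hγ : γ ∈ Gamma0 p) :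
    anHat p w g ∣[w] γ = anHat p w g := by
  rw [an_h3_hat_eq, ModularForm.SL_smul_slash]
  congr 1
  obtain ⟨c', hc⟩ : (p : ℤ) ∣ γ 1 0 := by
    rw [Gamma0_mem] at hγ
    exact (ZMod.intCast_zmod_eq_zero_iff_dvd _ _).mp hγ
  have h1 : (g ∣[w] an_h3_W p) ∣[w] γ =
      g ∣[w] (an_h3_W p * Matrix.SpecialLinearGroup.mapGL ℝ γ) := by
    rw [SlashAction.slash_mul]
    rfl
  have h2 : g ∣[w] (Matrix.SpecialLinearGroup.mapGL ℝ (an_h3_conj p γ c' hc)) = g :=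
    S20T.slash_of_mem_R hg _ (an_h3_conj_mem p γ c' hc)
  rw [h1, an_h3_W_mul hp γ c' hc, SlashAction.slash_mul, h2]

/-- a real matrix whose first column is rational maps `∞` to a cusp of `SL₂(ℤ)` -/
theorem an_h3_isCusp (M : GL (Fin 2) ℝ) (q₀ q₁ : ℚ) (h0 : M 0 0 = q₀) (h1 : M 1 0 = q₁) :
    IsCusp (M • (OnePoint.infty : OnePoint ℝ)) 𝒮ℒ := by
  rw [isCusp_SL2Z_iff, OnePoint.smul_infty_eq_ite]
  split_ifs with h
  · exact ⟨OnePoint.infty, rfl⟩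
  · refine ⟨((q₀ / q₁ : ℚ) : OnePoint ℚ), ?_⟩
    rw [h0, h1]
    simp

theorem an_h3_bdd [NeZero p] (hg : g ∈ S20T.R p w) (γ : SL(2, ℤ)) :
    IsBoundedAtImInfty (anHat p w g ∣[w] γ) := by
  have hp : p ≠ 0 := NeZero.ne p
  rw [an_h3_hat_eq, ModularForm.SL_smul_slash]
  have h1 : (g ∣[w] an_h3_W p) ∣[w] γ =
      g ∣[w] (an_h3_W p * Matrix.SpecialLinearGroup.mapGL ℝ γ) := by
    rw [SlashAction.slash_mul]
    rfl
  rw [h1]
  obtain ⟨f, rfl⟩ := hg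
  have hcusp : IsCusp ((an_h3_W p * Matrix.SpecialLinearGroup.mapGL ℝ γ) •
      (OnePoint.infty : OnePoint ℝ)) (Gamma0 p : Subgroup (GL (Fin 2) ℝ)) := by
    rw [Subgroup.IsArithmetic.isCusp_iff_isCusp_SL2Z]
    refine an_h3_isCusp _ (-(γ 1 0 : ℚ)) ((p : ℚ) * (γ 0 0 : ℚ)) ?_ ?_
    · rw [Units.val_mul, an_h3_W_val hp, Matrix.SpecialLinearGroup.mapGL_coe_matrix]
      simp [Matrix.mul_apply, Fin.sum_univ_two]
    · rw [Units.val_mul, an_h3_W_val hp, Matrix.SpecialLinearGroup.mapGL_coe_matrix]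
      simp [Matrix.mul_apply, Fin.sum_univ_two]
  have hb := ModularFormClass.bdd_at_cusps f hcusp
    (an_h3_W p * Matrix.SpecialLinearGroup.mapGL ℝ γ) rfl
  exact hb.const_smul_left _

/-- the Fricke transform preserves `M_w(Γ₀(p))`. -/
theorem an_hat_mem_R [Fact p.Prime] (hg : g ∈ S20T.R p w) : anHat p w g ∈ S20T.R p w := by
  have : NeZero p := ⟨(Fact.out : p.Prime).ne_zero⟩
  exact S20T.mem_R_of_invariant (an_h3_mdiff hg)
    (fun γ hγ => an_h3_inv (NeZero.ne p) hg γ hγ) (fun γ => an_h3_bdd hg γ)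

end Fermat.Agent.S16L
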