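import Mathlib
import Fermat.Agent.S16L.ANDefs

/-!
# S16L / AN leaf HAT part 4: the Fricke transform is an involution up to `p^(-w)`
-/

set_option autoImplicit false

open UpperHalfPlane ModularFormClass CongruenceSubgroup PowerSeries
open scoped MatrixGroups ModularForm Manifold

namespace Fermat.Agent.S16L

variable {p : ℕ} {w w' k : ℤ} {g g' F : ℍ → ℂ}

/-- the scalar matrix `p • 1` in `GL (Fin 2) ℝ` -/
noncomputable def an_h4_scal (p : ℕ) : GL (Fin 2) ℝ :=
  if hp : p = 0 then 1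
  else ModularForm.upperTriangularGL (p : ℝ) 0 (p : ℝ)
    (mul_self_ne_zero.mpr (Nat.cast_ne_zero.mpr hp))

theorem an_h4_val_scal {p : ℕ} (hp : p ≠ 0) :
    ((an_h4_scal p : GL (Fin 2) ℝ) : Matrix (Fin 2) (Fin 2) ℝ) = !![(p : ℝ), 0; 0, (p : ℝ)] := by
  simp [an_h4_scal, hp]

theorem an_h4_det_scal {p : ℕ} (hp : p ≠ 0) : ((an_h4_scal p).det : ℝ) = (p : ℝ) * p := by
  rw [Matrix.GeneralLinearGroup.val_det_apply, an_h4_val_scal hp, Matrix.det_fin_two_of]
  ring

theorem an_h4_det_scal_pos {p : ℕ} (hp : p ≠ 0) : 0 < ((an_h4_scal p).det : ℝ) := by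
  rw [an_h4_det_scal hp]
  have : (0 : ℝ) < p := by exact_mod_cast Nat.pos_of_ne_zero hp
  positivity

theorem an_h4_scal_smul {p : ℕ} (hp : p ≠ 0) (τ : ℍ) : an_h4_scal p • τ = τ := by
  have hp' : (p : ℂ) ≠ 0 := by exact_mod_cast hp
  apply UpperHalfPlane.ext
  rw [UpperHalfPlane.coe_smul_of_det_pos (an_h4_det_scal_pos hp)]
  simp [UpperHalfPlane.num, UpperHalfPlane.denom, an_h4_val_scal hp]
  field_simp

/-- slash by the scalar matrix `p • 1` is multiplication by `p^(w-2)` -/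
theorem an_h4_slash_scal (w : ℤ) {p : ℕ} (hp : p ≠ 0) (f : ℍ → ℂ) :
    f ∣[w] an_h4_scal p = ((p : ℂ) ^ (w - 2)) • f := by
  have hp' : (p : ℂ) ≠ 0 := by exact_mod_cast hp
  ext τ
  have hσ : UpperHalfPlane.σ (an_h4_scal p) = .refl ℝ ℂ := by
    rw [UpperHalfPlane.σ, if_pos (an_h4_det_scal_pos hp)]
  have hden : UpperHalfPlane.denom (an_h4_scal p) τ = p := by
    simp [UpperHalfPlane.denom, an_h4_val_scal hp]
  rw [ModularForm.slash_apply, hσ, an_h4_det_scal hp, hden, an_h4_scal_smul hp]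
  simp only [ContinuousAlgEquiv.refl_apply, Pi.smul_apply, smul_eq_mul]
  have h1 : ((|(p : ℝ) * (p : ℝ)| : ℝ) : ℂ) = (p : ℂ) ^ (2 : ℤ) := by
    rw [abs_of_nonneg (by positivity), zpow_two]
    push_cast
    rfl
  rw [h1, ← zpow_mul, mul_assoc, ← zpow_add₀ hp', mul_comm]
  congr 2
  ring

/-- `(S D) (S D) = (-1) (p • 1)` -/
theorem an_h4_mat_hat {p : ℕ} (hp : p ≠ 0) :
    Matrix.SpecialLinearGroup.mapGL ℝ ModularGroup.S * ModularForm.heckeDiagMatrix p *
        Matrix.SpecialLinearGroup.mapGL ℝ ModularGroup.S * ModularForm.heckeDiagMatrix p =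
      Matrix.SpecialLinearGroup.mapGL ℝ (-1 : SL(2, ℤ)) * an_h4_scal p := by
  apply Matrix.GeneralLinearGroup.ext
  intro i j
  fin_cases i <;> fin_cases j <;>
    simp [Matrix.mul_apply, Fin.sum_univ_two, ModularForm.val_heckeDiagMatrix hp,
      an_h4_val_scal hp, ModularGroup.coe_S]

/-- `D S D = S (p • 1)` -/
theorem an_h4_mat_V {p : ℕ} (hp : p ≠ 0) :
    ModularForm.heckeDiagMatrix p * Matrix.SpecialLinearGroup.mapGL ℝ ModularGroup.S *
        ModularForm.heckeDiagMatrix p =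
      Matrix.SpecialLinearGroup.mapGL ℝ ModularGroup.S * an_h4_scal p := by
  apply Matrix.GeneralLinearGroup.ext
  intro i j
  fin_cases i <;> fin_cases j <;>
    simp [Matrix.mul_apply, Fin.sum_univ_two, ModularForm.val_heckeDiagMatrix hp,
      an_h4_val_scal hp, ModularGroup.coe_S, Matrix.vecMul, dotProduct, Matrix.map_apply]

theorem an_hat_hat [Fact p.Prime] (hg : g ∈ S20T.R p w) :
    anHat p w (anHat p w g) = ((p : ℂ) ^ (-w)) • g := by
  have hp : p ≠ 0 := (Fact.out : p.Prime).ne_zero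
  have hp' : (p : ℂ) ≠ 0 := by exact_mod_cast hp
  have hneg : (-1 : SL(2, ℤ)) ∈ Gamma0 p := by simp [Gamma0_mem]
  have h1 : g ∣[w] (Matrix.SpecialLinearGroup.mapGL ℝ (-1 : SL(2, ℤ))) = g :=
    S20T.slash_of_mem_R hg (-1) hneg
  have h2 : (((g ∣[w] (Matrix.SpecialLinearGroup.mapGL ℝ ModularGroup.S)) ∣[w]
      ModularForm.heckeDiagMatrix p) ∣[w] (Matrix.SpecialLinearGroup.mapGL ℝ ModularGroup.S)) ∣[w]
      ModularForm.heckeDiagMatrix p = ((p : ℂ) ^ (w - 2)) • g := by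
    rw [← SlashAction.slash_mul, ← SlashAction.slash_mul, ← SlashAction.slash_mul,
      ← mul_assoc, ← mul_assoc, an_h4_mat_hat hp, SlashAction.slash_mul, h1,
      an_h4_slash_scal w hp]
  unfold anHat anV
  rw [ModularForm.SL_smul_slash, ModularForm.smul_slash, ModularForm.σ_heckeDiagMatrix,
    ContinuousAlgEquiv.refl_apply, smul_smul]
  have h3 : (((g ∣[w] ModularGroup.S) ∣[w] ModularForm.heckeDiagMatrix p) ∣[w] ModularGroup.S) ∣[w]
      ModularForm.heckeDiagMatrix p = ((p : ℂ) ^ (w - 2)) • g := h2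
  rw [h3, smul_smul, ← zpow_add₀ hp', ← zpow_add₀ hp']
  congr 2
  ring

theorem an_hat_V [Fact p.Prime] (hF : F ∈ S20T.A k) :
    anHat p k (anV p k F) = ((p : ℂ) ^ (-k)) • F := by
  have hp : p ≠ 0 := (Fact.out : p.Prime).ne_zero
  have hp' : (p : ℂ) ≠ 0 := by exact_mod_cast hp
  have h1 : F ∣[k] (Matrix.SpecialLinearGroup.mapGL ℝ ModularGroup.S) = F :=
    S20T.slash_of_mem_A hF ModularGroup.S
  have h2 : ((F ∣[k] ModularForm.heckeDiagMatrix p) ∣[k]
      (Matrix.SpecialLinearGroup.mapGL ℝ ModularGroup.S)) ∣[k]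
      ModularForm.heckeDiagMatrix p = ((p : ℂ) ^ (k - 2)) • F := by
    rw [← SlashAction.slash_mul, ← SlashAction.slash_mul, ← mul_assoc,
      an_h4_mat_V hp, SlashAction.slash_mul, h1, an_h4_slash_scal k hp]
  unfold anHat anV
  rw [ModularForm.SL_smul_slash, ModularForm.smul_slash, ModularForm.σ_heckeDiagMatrix,
    ContinuousAlgEquiv.refl_apply, smul_smul]
  have h3 : ((F ∣[k] ModularForm.heckeDiagMatrix p) ∣[k] ModularGroup.S) ∣[k]
      ModularForm.heckeDiagMatrix p = ((p : ℂ) ^ (k - 2)) • F := h2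
  rw [h3, smul_smul, ← zpow_add₀ hp', ← zpow_add₀ hp']
  congr 2
  ring

end Fermat.Agent.S16L
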