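import Mathlib
import Fermat.Agent.S16L.ANDefs

/-!
# S16L / AN leaf HAT part 5: the conjugates `g ∣ S T^j` in terms of `ĝ`
-/

set_option autoImplicit false

open UpperHalfPlane ModularFormClass CongruenceSubgroup PowerSeries
open scoped MatrixGroups ModularForm Manifold

namespace Fermat.Agent.S16L

variable {p : ℕ} {w w' k : ℤ} {g g' F : ℍ → ℂ}

/-- `anV p w F` is the function `τ ↦ F (p τ)`. -/
theorem an_h5_V_apply (hp : p ≠ 0) (w : ℤ) (F : ℍ → ℂ) (τ : ℍ) :
    anV p w F τ = F (ModularForm.heckeDiagMatrix p • τ) := by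
  have hp' : (p : ℂ) ≠ 0 := by exact_mod_cast hp
  rw [anV, Pi.smul_apply, ModularForm.slash_heckeDiagMatrix_apply w hp, smul_eq_mul, ← mul_assoc,
    ← zpow_add₀ hp', show 1 - w + (w - 1) = 0 by ring, zpow_zero, one_mul]

/-- `diag(p,1) • ([[1,j],[0,p]] • τ) = T^j • τ`. -/
theorem an_h5_smul_smul (hp : p ≠ 0) (j : ℕ) (τ : ℍ) :
    ModularForm.heckeDiagMatrix p • (ModularForm.heckeMatrix p j • τ) =
      (ModularGroup.T ^ j : SL(2, ℤ)) • τ := by
  have hp' : (p : ℂ) ≠ 0 := by exact_mod_cast hp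
  apply UpperHalfPlane.ext
  rw [ModularForm.coe_heckeDiagMatrix_smul hp, ModularForm.coe_heckeMatrix_smul hp,
    mul_div_cancel₀ _ hp']
  have h := ModularGroup.coe_T_zpow_smul_eq (z := τ) (n := (j : ℤ))
  rw [zpow_natCast] at h
  rw [h]
  simp

/-- the conjugates of `g` by `S T^j` in terms of `ĝ`:
`g ∣[w] (S T^j) = p • (ĝ ∣[w] heckeMatrix p j)`. -/
theorem an_slash_ST_pow [Fact p.Prime] (w : ℤ) (g : ℍ → ℂ) (j : ℕ) :
    g ∣[w] (ModularGroup.S * ModularGroup.T ^ j) =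
      (p : ℂ) • (anHat p w g ∣[w] ModularForm.heckeMatrix p j) := by
  have hp : p ≠ 0 := (Fact.out : p.Prime).ne_zero
  have hp' : (p : ℂ) ≠ 0 := by exact_mod_cast hp
  ext τ
  rw [Pi.smul_apply, ModularForm.slash_heckeMatrix_apply w hp, smul_eq_mul, ← mul_assoc,
    mul_inv_cancel₀ hp', one_mul, anHat, an_h5_V_apply hp, an_h5_smul_smul hp,
    SlashAction.slash_mul, ModularForm.SL_slash_apply (g ∣[w] ModularGroup.S)]
  have hden : denom (ModularGroup.T ^ j : SL(2, ℤ)) τ = 1 := by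
    have h := ModularGroup.coe_T_zpow (j : ℤ)
    rw [zpow_natCast] at h
    have h10 : (ModularGroup.T ^ j : SL(2, ℤ)) 1 0 = 0 := by
      have h1 := congrFun (congrFun h 1) 0
      simpa using h1
    have h11 : (ModularGroup.T ^ j : SL(2, ℤ)) 1 1 = 1 := by
      have h1 := congrFun (congrFun h 1) 1
      simpa using h1
    rw [ModularGroup.denom_apply, h10, h11]
    simp
  rw [hden, one_zpow, mul_one]

end Fermat.Agent.S16L
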