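import Mathlib
import Fermat.Agent.S16L.ANDefs
import Fermat.Agent.S16L.ANHat1
import Fermat.Agent.S16L.ANHat2
import Fermat.Agent.S16L.ANHat3
import Fermat.Agent.S16L.ANHat4
import Fermat.Agent.S16L.ANHat5

/-!
# S16L / AN leaf HAT: slash computations for `anV` and `anHat`  (plan §2, AN1, AN2, AN4)

Aggregator: the statements live in `ANHat1` … `ANHat5`.
-/
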