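import Mathlib
import Fermat.Agent.S16L.ANDefs
import Fermat.Agent.S20T.LevelOne
import Fermat.Agent.S28L.AnTheta

/-!
# S16L / AN leaf LEVELONE: q-expansions of level-one forms  (plan §2, AN6–AN9)
-/

set_option autoImplicit false

open UpperHalfPlane ModularFormClass CongruenceSubgroup PowerSeries
open scoped MatrixGroups ModularForm Manifold

namespace Fermat.Agent.S16L

/-! ### auxiliary statements -/

theorem an_lo_anC_injective : Function.Injective anC :=
  PowerSeries.map_injective (algebraMap ℚ ℂ) (algebraMap ℚ ℂ).injective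

theorem an_lo_coeff_psSigma (k n : ℕ) :
    (psSigma k).coeff n = ((ArithmeticFunction.sigma k n : ℕ) : ℚ) := by
  rw [psSigma, PowerSeries.coeff_mk]

theorem an_lo_constantCoeff_psSigma (k : ℕ) : PowerSeries.constantCoeff (psSigma k) = 0 := by
  rw [← PowerSeries.coeff_zero_eq_constantCoeff_apply, an_lo_coeff_psSigma]
  simp

theorem an_lo_coeff_one_psSigma (k : ℕ) : (psSigma k).coeff 1 = 1 := by
  rw [an_lo_coeff_psSigma]
  simp

theorem an_lo_constantCoeff_psE4 : PowerSeries.constantCoeff psE4 = 1 := by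
  rw [psE4, map_add, map_one, ← PowerSeries.coeff_zero_eq_constantCoeff_apply,
    PowerSeries.coeff_smul, PowerSeries.coeff_zero_eq_constantCoeff_apply,
    an_lo_constantCoeff_psSigma]
  simp

theorem an_lo_constantCoeff_psE6 : PowerSeries.constantCoeff psE6 = 1 := by
  rw [psE6, map_sub, map_one, ← PowerSeries.coeff_zero_eq_constantCoeff_apply,
    PowerSeries.coeff_smul, PowerSeries.coeff_zero_eq_constantCoeff_apply,
    an_lo_constantCoeff_psSigma]
  simp

theorem an_lo_coeff_one_psE4 : psE4.coeff 1 = 240 := by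
  rw [psE4, map_add, PowerSeries.coeff_smul, an_lo_coeff_one_psSigma, PowerSeries.coeff_one]
  simp

theorem an_lo_coeff_one_psE6 : psE6.coeff 1 = -504 := by
  rw [psE6, map_sub, PowerSeries.coeff_smul, an_lo_coeff_one_psSigma, PowerSeries.coeff_one]
  simp

theorem an_lo_constantCoeff_psDelta : PowerSeries.constantCoeff psDelta = 0 := by
  rw [psDelta, ← PowerSeries.coeff_zero_eq_constantCoeff_apply, PowerSeries.coeff_smul,
    PowerSeries.coeff_zero_eq_constantCoeff_apply, map_sub, map_pow, map_pow,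
    an_lo_constantCoeff_psE4, an_lo_constantCoeff_psE6]
  simp

theorem an_lo_coeff_one_psDelta : psDelta.coeff 1 = 1 := by
  rw [psDelta, PowerSeries.coeff_smul, map_sub, PowerSeries.coeff_one_pow,
    PowerSeries.coeff_one_pow, an_lo_constantCoeff_psE4, an_lo_constantCoeff_psE6,
    an_lo_coeff_one_psE4, an_lo_coeff_one_psE6]
  norm_num

/-- `Δ = q · (unit)` as a rational power series -/
theorem an_lo_psDelta_eq :
    ∃ v : ℚ⟦X⟧, psDelta = PowerSeries.X * v ∧ PowerSeries.constantCoeff v = 1 := by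
  obtain ⟨v, hv⟩ := PowerSeries.X_dvd_iff.mpr an_lo_constantCoeff_psDelta
  refine ⟨v, hv, ?_⟩
  have h1 := an_lo_coeff_one_psDelta
  rw [hv, show (1 : ℕ) = 0 + 1 from rfl, PowerSeries.coeff_succ_X_mul,
    PowerSeries.coeff_zero_eq_constantCoeff_apply] at h1
  exact h1

/-- the value at `i∞` of a level-one form is the constant term of its q-expansion -/
theorem an_lo_tendsto {k : ℤ} (f : ModularForm 𝒮ℒ k) :
    Filter.Tendsto (⇑f) atImInfty (nhds ((qExpansion 1 (⇑f)).coeff 0)) := by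
  have hper := SlashInvariantFormClass.periodic_comp_ofComplex f
    one_mem_strictPeriods_SL
  have han := ModularFormClass.analyticAt_cuspFunction_zero f one_pos
    one_mem_strictPeriods_SL
  have h0 : (qExpansion 1 (⇑f)).coeff 0 = cuspFunction 1 f 0 := by
    simp [qExpansion_coeff]
  have : (cuspFunction 1 f ∘ fun τ : ℍ ↦ Function.Periodic.qParam 1 τ : ℍ → ℂ) = f := by
    funext τ
    simpa using eq_cuspFunction τ one_ne_zero hper
  rw [h0]
  simpa [this] using han.continuousAt.tendsto.comp (qParam_tendsto_atImInfty one_pos)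

/-! ### the statements of the leaf -/

theorem an_qexp_E4 : qExpansion 1 S20T.E4 = anC psE4 := by
  ext m
  rw [EisensteinSeries.E_qExpansion_coeff (by norm_num) ⟨2, rfl⟩ m, PowerSeries.coeff_map,
    psE4, map_add, PowerSeries.coeff_smul, an_lo_coeff_psSigma, PowerSeries.coeff_one]
  have hb : bernoulli 4 = -1 / 30 := by decide +kernel
  split_ifs with h
  · subst h
    simp
  · simp [hb]
    norm_num

theorem an_qexp_E6 : qExpansion 1 S20T.E6 = anC psE6 := by
  ext m
  rw [EisensteinSeries.E_qExpansion_coeff (by norm_num) ⟨3, rfl⟩ m, PowerSeries.coeff_map,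
    psE6, map_sub, PowerSeries.coeff_smul, an_lo_coeff_psSigma, PowerSeries.coeff_one]
  have hb : bernoulli 6 = 1 / 42 := by decide +kernel
  split_ifs with h
  · subst h
    simp
  · simp [hb]
    norm_num

theorem an_qexp_Ek (k : ℕ) (hk : 4 ≤ k) (hk2 : Even k) :
    ∃ F ∈ S20T.A (k : ℤ), qExpansion 1 F = anC (psEk k) := by
  have hk3 : 3 ≤ k := by omega
  refine ⟨⇑(ModularForm.E hk3), ⟨ModularForm.E hk3, rfl⟩, ?_⟩
  ext m
  rw [EisensteinSeries.E_qExpansion_coeff hk3 hk2 m, PowerSeries.coeff_map,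
    psEk, map_sub, PowerSeries.coeff_smul, an_lo_coeff_psSigma, PowerSeries.coeff_one]
  split_ifs with h
  · subst h
    simp
  · simp

theorem an_qexp_Dl : qExpansion 1 S20T.Dl = anC psDelta := by
  have h := Fermat.Agent.S28L.anTheta_P1
  have h4 : qExpansion 1 (⇑ModularForm.E₄) = anC psE4 := an_qexp_E4
  have h6 : qExpansion 1 (⇑ModularForm.E₆) = anC psE6 := an_qexp_E6
  rw [h4, h6] at h
  have h2 : anC psDelta = PowerSeries.C ((1728 : ℂ)⁻¹) * (anC psE4 ^ 3 - anC psE6 ^ 2) := by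
    rw [psDelta]
    ext n
    simp only [PowerSeries.coeff_map, PowerSeries.coeff_smul, PowerSeries.coeff_C_mul, map_sub]
    simp only [smul_eq_mul, map_mul, ← PowerSeries.coeff_map, map_sub, map_pow]
    norm_num
  rw [h2, h, ← mul_assoc, ← map_mul]
  norm_num

/-- `F = a₀(F) E₄^x E₆^y + Δ F'`. -/
theorem an_A_decomp {k : ℤ} {F : ℍ → ℂ} (x y : ℕ) (hF : F ∈ S20T.A k)
    (hxy : 4 * (x : ℤ) + 6 * (y : ℤ) = k) :
    ∃ F' ∈ S20T.A (k - 12),
      F = ((qExpansion 1 F).coeff 0) • (S20T.E4 ^ x * S20T.E6 ^ y) + S20T.Dl * F' := by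
  have hM : S20T.E4 ^ x * S20T.E6 ^ y ∈ S20T.A k := S20T.A_cast hxy (S20T.lo_monomial_mem x y)
  have hc : Filter.Tendsto F atImInfty (nhds ((qExpansion 1 F).coeff 0)) := by
    obtain ⟨f, rfl⟩ := hF
    exact an_lo_tendsto f
  have hG : F - ((qExpansion 1 F).coeff 0) • (S20T.E4 ^ x * S20T.E6 ^ y) ∈ S20T.A0 k := by
    rw [S20T.mem_A0_iff]
    refine ⟨Submodule.sub_mem _ hF (Submodule.smul_mem _ _ hM), ?_⟩
    have := hc.sub ((S20T.lo_tendsto_monomial x y).const_smul ((qExpansion 1 F).coeff 0))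
    simp only [smul_eq_mul, mul_one, sub_self] at this
    exact this
  obtain ⟨F', hF', hFF'⟩ := S20T.mem_A0_iff_exists.mp hG
  exact ⟨F', hF', by rw [← hFF']; ring⟩

/-- rationality descends through division by `Δ`. -/
theorem an_rat_of_delta_mul (ψ : ℂ⟦X⟧) (χ : ℚ⟦X⟧) (h : anC psDelta * ψ = anC χ) :
    ∃ ψ₀ : ℚ⟦X⟧, anC ψ₀ = ψ := by
  obtain ⟨v, hv, hv1⟩ := an_lo_psDelta_eq
  have hv0 : PowerSeries.constantCoeff v ≠ 0 := by rw [hv1]; exact one_ne_zero
  rw [hv] at h
  have hX : anC (PowerSeries.X * v) = PowerSeries.X * anC v := by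
    rw [anC, map_mul, PowerSeries.map_X]
  rw [hX, mul_assoc] at h
  have hχ0 : PowerSeries.constantCoeff χ = 0 := by
    have h0 := congrArg (PowerSeries.coeff 0) h
    rw [PowerSeries.coeff_zero_X_mul, PowerSeries.coeff_map,
      PowerSeries.coeff_zero_eq_constantCoeff_apply] at h0
    have h1 : ((PowerSeries.constantCoeff χ : ℚ) : ℂ) = 0 := h0.symm
    exact_mod_cast h1
  obtain ⟨χ', hχ'⟩ := PowerSeries.X_dvd_iff.mpr hχ0
  have hX' : anC χ = PowerSeries.X * anC χ' := by
    rw [hχ', anC, map_mul, PowerSeries.map_X]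
  rw [hX'] at h
  have h2 : anC v * ψ = anC χ' := mul_left_cancel₀ PowerSeries.X_ne_zero h
  refine ⟨v⁻¹ * χ', ?_⟩
  have h3 : anC v⁻¹ * anC v = 1 := by
    rw [anC, ← map_mul, PowerSeries.inv_mul_cancel _ hv0, map_one]
  calc anC (v⁻¹ * χ') = anC v⁻¹ * anC χ' := by rw [anC, map_mul]
    _ = anC v⁻¹ * (anC v * ψ) := by rw [h2]
    _ = ψ := by rw [← mul_assoc, h3, one_mul]

theorem an_A_two_eq_bot : S20T.A 2 = ⊥ := by
  have h := S20T.lo_finrank_A_eq_zero 2 (Or.inr (Or.inr rfl))
  rwa [Submodule.finrank_eq_zero] at h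

end Fermat.Agent.S16L
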