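import Mathlib
import Fermat.Prelude.Thm_UpperHalfPlane_qCoeff_heckeU
import Fermat.Prelude.Thm_UpperHalfPlane_qCoeff_heckeT
import Fermat.Prelude.Thm_CongruenceSubgroup_one_mem_strictPeriods_Gamma0
import Fermat.Prelude.Thm_ModularForm_mdifferentiable_heckeU
import Fermat.Prelude.Thm_ModularForm_periodic_heckeU_comp_ofComplex
import Fermat.Prelude.Thm_ModularForm_isBoundedAtImInfty_heckeU
import Fermat.Prelude.Thm_ModularForm_mdifferentiable_heckeT
import Fermat.Prelude.Thm_ModularForm_periodic_heckeT_comp_ofComplex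
import Fermat.Prelude.Thm_ModularForm_isBoundedAtImInfty_heckeT
import Fermat.Agent.S16L.ANDefs

/-!
# S16L / AN leaf QEXP: rules for `qExpansion 1` on `M_w(Γ₀(p))`  (plan §2)
-/

set_option autoImplicit false

open UpperHalfPlane ModularFormClass CongruenceSubgroup PowerSeries
open scoped MatrixGroups ModularForm Manifold

namespace Fermat.Agent.S16L

variable {p : ℕ} {w w' k : ℤ} {g g' F : ℍ → ℂ}

/-- `1` is a strict period of `Γ₀(p)`. -/
theorem an_qx_one_mem_strictPeriods (N : ℕ) :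
    (1 : ℝ) ∈ ((Gamma0 N : Subgroup SL(2, ℤ)) : Subgroup (GL (Fin 2) ℝ)).strictPeriods :=
  CongruenceSubgroup.one_mem_strictPeriods_Gamma0 N

/-- forms on `Γ₀(p)` are `1`-periodic. -/
theorem an_qx_periodic_of_mem_R (hg : g ∈ S20T.R p w) :
    Function.Periodic (g ∘ UpperHalfPlane.ofComplex) 1 := by
  obtain ⟨f, rfl⟩ := hg
  exact SlashInvariantFormClass.periodic_comp_ofComplex f (an_qx_one_mem_strictPeriods p)

/-- forms on `Γ₀(p)` are bounded at `i∞`. -/
theorem an_qx_bdd_of_mem_R (hg : g ∈ S20T.R p w) : IsBoundedAtImInfty g := by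
  obtain ⟨f, rfl⟩ := hg
  have : Fact (IsCusp OnePoint.infty
      ((Gamma0 p : Subgroup SL(2, ℤ)) : Subgroup (GL (Fin 2) ℝ))) :=
    ⟨Subgroup.isCusp_of_mem_strictPeriods one_pos (an_qx_one_mem_strictPeriods p)⟩
  exact ModularFormClass.bdd_at_infty f

/-- the cusp function of a form on `Γ₀(p)` is analytic at `0`. -/
theorem an_qx_analytic_of_mem_R (hg : g ∈ S20T.R p w) :
    AnalyticAt ℂ (cuspFunction 1 g) 0 := by
  obtain ⟨f, rfl⟩ := hg
  exact ModularFormClass.analyticAt_cuspFunction_zero f one_pos (an_qx_one_mem_strictPeriods p)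

/-- the cusp function of `U_p g` is analytic at `0`. -/
theorem an_qx_analytic_heckeU (hg : g ∈ S20T.R p w) :
    AnalyticAt ℂ (cuspFunction 1 (ModularForm.heckeU w p g)) 0 :=
  UpperHalfPlane.analyticAt_cuspFunction_zero one_pos
    (ModularForm.periodic_heckeU_comp_ofComplex (an_qx_periodic_of_mem_R hg) w p)
    (ModularForm.mdifferentiable_heckeU (S20T.mdiff_of_mem_R hg) w p)
    (ModularForm.isBoundedAtImInfty_heckeU (an_qx_bdd_of_mem_R hg) w p)

/-- the cusp function of `T_p g` is analytic at `0`. -/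
theorem an_qx_analytic_heckeT (hg : g ∈ S20T.R p w) :
    AnalyticAt ℂ (cuspFunction 1 (ModularForm.heckeT w p g)) 0 :=
  UpperHalfPlane.analyticAt_cuspFunction_zero one_pos
    (ModularForm.periodic_heckeT_comp_ofComplex (an_qx_periodic_of_mem_R hg) w p)
    (ModularForm.mdifferentiable_heckeT (S20T.mdiff_of_mem_R hg) w p)
    (ModularForm.isBoundedAtImInfty_heckeT (an_qx_bdd_of_mem_R hg) w p)

theorem an_qexp_zero : qExpansion 1 (0 : ℍ → ℂ) = 0 := by
  exact UpperHalfPlane.qExpansion_zero 1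

theorem an_qexp_one : qExpansion 1 (1 : ℍ → ℂ) = 1 := by
  exact UpperHalfPlane.qExpansion_one 1

theorem an_qexp_const (c : ℂ) : qExpansion 1 (Function.const ℍ c) = PowerSeries.C c := by
  have h1 : AnalyticAt ℂ (cuspFunction 1 (1 : ℍ → ℂ)) 0 :=
    an_qx_analytic_of_mem_R (S20T.bs_one_mem_R 1)
  have h2 : Function.const ℍ c = c • (1 : ℍ → ℂ) := by
    funext z
    simp
  rw [h2, UpperHalfPlane.qExpansion_smul h1, UpperHalfPlane.qExpansion_one]
  ext n
  simp [PowerSeries.coeff_C, PowerSeries.coeff_one]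

theorem an_qexp_add [Fact p.Prime] (hg : g ∈ S20T.R p w) (hg' : g' ∈ S20T.R p w) :
    qExpansion 1 (g + g') = qExpansion 1 g + qExpansion 1 g' := by
  exact UpperHalfPlane.qExpansion_add (an_qx_analytic_of_mem_R hg) (an_qx_analytic_of_mem_R hg')

theorem an_qexp_smul [Fact p.Prime] (hg : g ∈ S20T.R p w) (c : ℂ) :
    qExpansion 1 (c • g) = c • qExpansion 1 g := by
  exact UpperHalfPlane.qExpansion_smul (an_qx_analytic_of_mem_R hg) c

theorem an_qexp_mul [Fact p.Prime] (hg : g ∈ S20T.R p w) (hg' : g' ∈ S20T.R p w') :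
    qExpansion 1 (g * g') = qExpansion 1 g * qExpansion 1 g' := by
  exact UpperHalfPlane.qExpansion_mul (an_qx_analytic_of_mem_R hg) (an_qx_analytic_of_mem_R hg')

/-- q-expansion of `F(pz)`. -/
theorem an_qexp_V [Fact p.Prime] (hF : F ∈ S20T.A k) :
    qExpansion 1 (anV p k F) = psV p (qExpansion 1 F) := by
  have hp : p ≠ 0 := (Fact.out : p.Prime).ne_zero
  have hp' : (p : ℂ) ≠ 0 := Nat.cast_ne_zero.mpr hp
  have hR : F ∈ S20T.R p k := S20T.A_le_R p k hF
  have hper := an_qx_periodic_of_mem_R hR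
  have hhol := S20T.mdiff_of_mem_R hR
  have hbdd := an_qx_bdd_of_mem_R hR
  have hT := an_qx_analytic_heckeT hR
  have hU := an_qx_analytic_heckeU hR
  have hdiag : (F ∣[k] ModularForm.heckeDiagMatrix p) =
      ModularForm.heckeT k p F - ModularForm.heckeU k p F := by
    rw [ModularForm.heckeT_eq_heckeU_add, add_sub_cancel_left]
  have hD : AnalyticAt ℂ (cuspFunction 1 (F ∣[k] ModularForm.heckeDiagMatrix p)) 0 := by
    rw [hdiag, UpperHalfPlane.cuspFunction_sub hT.continuousAt hU.continuousAt]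
    exact hT.sub hU
  unfold anV
  rw [UpperHalfPlane.qExpansion_smul hD, hdiag, UpperHalfPlane.qExpansion_sub hT hU]
  ext n
  have e1 := UpperHalfPlane.qCoeff_heckeT hper hhol hbdd k hp n
  have e2 := UpperHalfPlane.qCoeff_heckeU hper hhol hbdd k hp n
  simp only [ModularFormClass.qCoeff, ModularForm.coeffHeckeT, ModularForm.coeffHeckeU] at e1 e2
  simp only [psV, map_smul, map_sub, PowerSeries.coeff_mk, e1, e2, smul_eq_mul]
  split_ifs with h
  · rw [add_sub_cancel_left, ← mul_assoc, ← zpow_add₀ hp']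
    simp
  · simp

/-- q-expansion of `U_p g`. -/
theorem an_qexp_heckeU [Fact p.Prime] (hg : g ∈ S20T.R p w) :
    qExpansion 1 (ModularForm.heckeU w p g) = psU p (qExpansion 1 g) := by
  have hp : p ≠ 0 := (Fact.out : p.Prime).ne_zero
  ext n
  have e2 := UpperHalfPlane.qCoeff_heckeU (an_qx_periodic_of_mem_R hg)
    (S20T.mdiff_of_mem_R hg) (an_qx_bdd_of_mem_R hg) w hp n
  simp only [ModularFormClass.qCoeff, ModularForm.coeffHeckeU] at e2
  simp only [psU, PowerSeries.coeff_mk, e2, mul_comm]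

/-- `g + p • U_p g'` has the expected q-expansion (`g, g' ∈ M_w(Γ₀(p))`). -/
theorem an_qexp_add_heckeU [Fact p.Prime] (hg : g ∈ S20T.R p w) (hg' : g' ∈ S20T.R p w) :
    qExpansion 1 (g + (p : ℂ) • ModularForm.heckeU w p g') =
      qExpansion 1 g + (p : ℂ) • psU p (qExpansion 1 g') := by
  have hU := an_qx_analytic_heckeU hg'
  have hpU : AnalyticAt ℂ (cuspFunction 1 ((p : ℂ) • ModularForm.heckeU w p g')) 0 := by
    rw [UpperHalfPlane.cuspFunction_smul hU.continuousAt]
    exact analyticAt_const.smul hU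
  rw [UpperHalfPlane.qExpansion_add (an_qx_analytic_of_mem_R hg) hpU,
    UpperHalfPlane.qExpansion_smul hU, an_qexp_heckeU hg']

end Fermat.Agent.S16L
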