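import Mathlib
import Fermat.Agent.S16L.ANDefs
import Fermat.Agent.S16L.ANLevelOne

/-!
# S16L / AN leaf THETA: Ramanujan's `θ Δ = E₂ Δ` as an identity of formal power series
-/

set_option autoImplicit false

open PowerSeries UpperHalfPlane
open scoped MatrixGroups ModularForm Manifold

namespace Fermat.Agent.S16L

open Fermat.Agent.X0S24.EtaBridge Fermat.Agent.X0L1 in
/-- the cusp function of `E₂` at `q(z)` -/
theorem an_th_cusp_E2 (z : ℍ) :
    cuspFunction 1 EisensteinSeries.E2 (Function.Periodic.qParam 1 (z : ℂ))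
      = EisensteinSeries.E2 z := by
  simpa using eq_cuspFunction z one_ne_zero Ramanujan.E2_periodic

/-- uniqueness of `q`-expansion coefficients, for plain functions -/
theorem an_th_coeff_unique {f : ℍ → ℂ} {c : ℕ → ℂ}
    (hfanalytic : AnalyticAt ℂ (cuspFunction 1 f) 0)
    (hf : ∀ τ : ℍ, HasSum (fun m ↦ c m • Function.Periodic.qParam 1 (τ : ℂ) ^ m) (f τ)) (m : ℕ) :
    c m = (qExpansion 1 f).coeff m := by
  have h1 := (UpperHalfPlane.hasFPowerSeriesOnBall_cuspFunction one_pos hfanalytic
    hf).hasFPowerSeriesAt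
  have h2 : HasFPowerSeriesAt (cuspFunction 1 f) (FormalMultilinearSeries.ofScalars ℂ
      (fun n ↦ iteratedDeriv n (cuspFunction 1 f) 0 / n.factorial)) 0 :=
    hfanalytic.hasFPowerSeriesAt
  have h3 := congr_arg (FormalMultilinearSeries.coeff · m) (h1.eq_formalMultilinearSeries h2)
  simpa [qExpansion_coeff, div_eq_mul_inv, mul_comm] using h3

open Fermat.Agent.X0S24.EtaBridge Fermat.Agent.X0L1 in
/-- the `q`-expansion of `E₂` -/
theorem an_th_tay_E2 :
    tay (cuspFunction 1 EisensteinSeries.E2) = anC (1 - (24 : ℚ) • psSigma 1) := by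
  have hs : ∀ τ : ℍ, HasSum (fun m : ℕ ↦
      (if m = 0 then 1 else -24 * ArithmeticFunction.sigma 1 m : ℂ) •
        Function.Periodic.qParam 1 (τ : ℂ) ^ m) (EisensteinSeries.E2 τ) := fun τ ↦ by
    simpa only [Function.Periodic.qParam, Complex.ofReal_one, div_one] using
      EisensteinSeries.hasSum_qExpansion_E2 (z := τ)
  rw [← Fermat.Agent.S28L.anTheta_qExpansion_eq_tay]
  ext m
  rw [← an_th_coeff_unique Ramanujan.analyticAt_cuspFunction_E2 hs m, PowerSeries.coeff_map,
    map_sub, PowerSeries.coeff_smul, an_lo_coeff_psSigma, PowerSeries.coeff_one]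
  split_ifs with h
  · subst h
    simp
  · simp

open Fermat.Agent.X0S24.EtaBridge Fermat.Agent.X0L1 in
/-- Ramanujan's `θ Δ = E₂ Δ` for complex `q`-expansions -/
theorem an_th_complex :
    PowerSeries.X * PowerSeries.derivative ℂ (qExpansion 1 ModularForm.discriminant)
      = anC (1 - (24 : ℚ) • psSigma 1) * qExpansion 1 ModularForm.discriminant := by
  have hd := Fermat.Agent.S28L.anTheta_analyticAt_disc
  have h2 := Ramanujan.analyticAt_cuspFunction_E2
  have hid : AnalyticAt ℂ (fun q : ℂ => q) 0 := analyticAt_id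
  have key : tay ((fun w : ℂ => w) * deriv (cuspFunction 1 ModularForm.discriminant))
      = tay (cuspFunction 1 EisensteinSeries.E2 * cuspFunction 1 ModularForm.discriminant) := by
    apply Fermat.Agent.S28L.anTheta_tay_eq_of_punctured (hid.mul hd.deriv) (h2.mul hd)
    intro z
    simp only [Pi.mul_apply]
    have ed : Derivative.normalizedDerivOfComplex ModularForm.discriminant z
        = Function.Periodic.qParam 1 (z : ℂ)
          * deriv (cuspFunction 1 ModularForm.discriminant)
            (Function.Periodic.qParam 1 (z : ℂ)) :=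
      Ramanujan.D_eq_qParam_mul_deriv_cuspFunction (CuspForm.discriminant : ModularForm 𝒮ℒ 12) z
    rw [an_th_cusp_E2, Fermat.Agent.S28L.anTheta_cusp_disc, ← ed, D_discriminant]
  rw [Fermat.Agent.S28L.anTheta_tay_id_mul_deriv hd, tay_mul h2 hd, an_th_tay_E2] at key
  rw [Fermat.Agent.S28L.anTheta_qExpansion_eq_tay]
  exact key

/-- `X · d/dX` on complex power series is `psTheta` -/
theorem an_th_psTheta_map (a : ℚ⟦X⟧) :
    anC (psTheta a) = PowerSeries.X * PowerSeries.derivative ℂ (anC a) := by
  ext n
  cases n with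
  | zero =>
    rw [PowerSeries.coeff_zero_X_mul, PowerSeries.coeff_map, psTheta, PowerSeries.coeff_mk]
    simp
  | succ m =>
    rw [PowerSeries.coeff_succ_X_mul, PowerSeries.coeff_derivative, PowerSeries.coeff_map,
      PowerSeries.coeff_map, psTheta, PowerSeries.coeff_mk]
    push_cast
    ring

theorem an_theta_delta : psTheta psDelta = (1 - (24 : ℚ) • psSigma 1) * psDelta := by
  apply an_lo_anC_injective
  have h := an_th_complex
  have hD : qExpansion 1 ModularForm.discriminant = anC psDelta := an_qexp_Dl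
  rw [hD] at h
  rw [an_th_psTheta_map, h]
  exact (map_mul (PowerSeries.map (algebraMap ℚ ℂ)) _ _).symm

end Fermat.Agent.S16L
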