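import Mathlib
import Fermat.Agent.S16L.ANDefs
import Fermat.Agent.S16L.ANHat
import Fermat.Agent.S20T.CountBridge
import Fermat.Agent.X0Count.Index

/-!
# S16L / AN leaf TRACE part 1: the trace to level one in terms of `ĝ`  (plan §2, AN3)
-/

set_option autoImplicit false

open UpperHalfPlane ModularFormClass CongruenceSubgroup PowerSeries
open scoped MatrixGroups ModularForm Manifold

namespace Fermat.Agent.S16L

variable {p : ℕ} {w w' k : ℤ} {g g' F : ℍ → ℂ}

section an_t1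

open Fermat.Agent.S23L.Data (Q G0 perm toSL fintypeQ)

attribute [local instance] fintypeQ

/-- the lower row of `S T^j` is `(1, j)`. -/
theorem an_t1_ST_entries (j : ℕ) :
    (ModularGroup.S * ModularGroup.T ^ j) 1 0 = 1 ∧
      (ModularGroup.S * ModularGroup.T ^ j) 1 1 = (j : ℤ) := by
  have hT : (ModularGroup.T ^ j).1 = !![1, (j : ℤ); 0, 1] := by
    rw [← zpow_natCast]
    exact ModularGroup.coe_T_zpow j
  constructor
  · show ((ModularGroup.S * ModularGroup.T ^ j).1) 1 0 = 1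
    rw [Matrix.SpecialLinearGroup.coe_mul, hT, ModularGroup.coe_S]
    simp [Matrix.mul_apply, Fin.sum_univ_two]
  · show ((ModularGroup.S * ModularGroup.T ^ j).1) 1 1 = (j : ℤ)
    rw [Matrix.SpecialLinearGroup.coe_mul, hT, ModularGroup.coe_S]
    simp [Matrix.mul_apply, Fin.sum_univ_two]

/-- the lower left entry of `A B⁻¹`. -/
theorem an_t1_mul_inv_entry (A B : SL(2, ℤ)) :
    (A * B⁻¹) 1 0 = A 1 0 * B 1 1 - A 1 1 * B 1 0 := by
  show ((A * B⁻¹).1) 1 0 = A.1 1 0 * B.1 1 1 - A.1 1 1 * B.1 1 0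
  rw [Matrix.SpecialLinearGroup.coe_mul, Matrix.SpecialLinearGroup.SL2_inv_expl B]
  simp [Matrix.mul_apply, Fin.sum_univ_two]
  ring

/-- the translate of the trivial coset by `γ` is the coset of `γ⁻¹`. -/
theorem an_t1_perm_one (N : ℕ) (γ : SL(2, ℤ)) :
    perm N γ ((1 : 𝒮ℒ) : Q N) = ((toSL γ⁻¹ : 𝒮ℒ) : Q N) := by
  have h1 : ((1 : 𝒮ℒ) : Q N) = ((toSL 1 : 𝒮ℒ) : Q N) := by rw [S20T.pm_toSL_one]
  rw [h1, S20T.pm_perm_mk, mul_one]

theorem an_t1_perm_one_eq_iff (N : ℕ) (γ γ' : SL(2, ℤ)) :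
    perm N γ ((1 : 𝒮ℒ) : Q N) = perm N γ' ((1 : 𝒮ℒ) : Q N) ↔ γ * γ'⁻¹ ∈ Gamma0 N := by
  rw [an_t1_perm_one, an_t1_perm_one, S20T.pm_mk_eq_iff, inv_inv]

theorem an_t1_perm_one_eq_one_iff (N : ℕ) (γ : SL(2, ℤ)) :
    perm N γ ((1 : 𝒮ℒ) : Q N) = ((1 : 𝒮ℒ) : Q N) ↔ γ ∈ Gamma0 N := by
  have h1 : ((1 : 𝒮ℒ) : Q N) = perm N 1 ((1 : 𝒮ℒ) : Q N) := (S20T.perm_one _).symm
  conv_lhs => rhs; rw [h1]
  rw [an_t1_perm_one_eq_iff, inv_one, mul_one]

/-- the coset representatives `1`, `S T^j` (`j < p`). -/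
noncomputable def an_t1_phi (p : ℕ) : Option (Fin p) → Q p
  | none => ((1 : 𝒮ℒ) : Q p)
  | some j => perm p (ModularGroup.S * ModularGroup.T ^ (j : ℕ)) ((1 : 𝒮ℒ) : Q p)

theorem an_t1_phi_injective [Fact p.Prime] : Function.Injective (an_t1_phi p) := by
  have hp : p.Prime := Fact.out
  have hnot : ∀ j : ℕ, ModularGroup.S * ModularGroup.T ^ j ∉ Gamma0 p := by
    intro j hj
    rw [Gamma0_mem, (an_t1_ST_entries j).1] at hj
    simp at hj
  intro x y hxy
  cases x with
  | none =>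
    cases y with
    | none => rfl
    | some j =>
      exfalso
      exact hnot j ((an_t1_perm_one_eq_one_iff p _).mp hxy.symm)
  | some i =>
    cases y with
    | none =>
      exfalso
      exact hnot i ((an_t1_perm_one_eq_one_iff p _).mp hxy)
    | some j =>
      have h1 := (an_t1_perm_one_eq_iff p _ _).mp hxy
      rw [Gamma0_mem, an_t1_mul_inv_entry, (an_t1_ST_entries i).1, (an_t1_ST_entries i).2,
        (an_t1_ST_entries j).1, (an_t1_ST_entries j).2, one_mul, mul_one,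
        ZMod.intCast_zmod_eq_zero_iff_dvd] at h1
      have hi := i.2
      have hj := j.2
      have h2 : ((j : ℕ) : ℤ) - ((i : ℕ) : ℤ) = 0 := by
        apply Int.eq_zero_of_abs_lt_dvd h1
        rw [abs_lt]
        constructor <;> omega
      congr 1
      apply Fin.ext
      omega

theorem an_t1_phi_bijective [Fact p.Prime] [NeZero p] : Function.Bijective (an_t1_phi p) := by
  have hp : p.Prime := Fact.out
  rw [Fintype.bijective_iff_injective_and_card]
  refine ⟨an_t1_phi_injective, ?_⟩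
  rw [Fintype.card_option, Fintype.card_fin, ← Nat.card_eq_fintype_card, S20T.card_Q,
    Fermat.Agent.X0Count.ix_psi_prime hp]

/-- the sum over the cosets in terms of the representatives `1`, `S T^j`. -/
theorem an_t1_sum [Fact p.Prime] [NeZero p] (hg : g ∈ S20T.R p w) :
    ∑ q : Q p, S20T.conj p w g q =
      g + (p : ℂ) • ModularForm.heckeU w p (anHat p w g) := by
  rw [← an_t1_phi_bijective.sum_comp (fun q => S20T.conj p w g q), Fintype.sum_option]
  have h0 : S20T.conj p w g (an_t1_phi p none) = g := S20T.conj_one hg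
  have h1 : ∀ j : Fin p, S20T.conj p w g (an_t1_phi p (some j)) =
      (p : ℂ) • (anHat p w g ∣[w] ModularForm.heckeMatrix p (j : ℕ)) := by
    intro j
    show S20T.conj p w g (perm p (ModularGroup.S * ModularGroup.T ^ (j : ℕ)) ((1 : 𝒮ℒ) : Q p)) = _
    rw [← S20T.conj_slash hg, S20T.conj_one hg, an_slash_ST_pow (p := p) w g (j : ℕ)]
  rw [h0, Finset.sum_congr rfl (fun j _ => h1 j), ← Finset.smul_sum,
    Fin.sum_univ_eq_sum_range (fun j => anHat p w g ∣[w] ModularForm.heckeMatrix p j) p,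
    ModularForm.heckeU_def]

end an_t1

/-- `tr g = g + ∑_{j<p} g ∣ S T^j = g + p • U_p ĝ`  (coset representatives `1, S T^j`). -/
theorem an_tr_eq [Fact p.Prime] (hg : g ∈ S20T.R p w) :
    haveI : NeZero p := ⟨(Fact.out : p.Prime).ne_zero⟩
    S20T.tr p w g = g + (p : ℂ) • ModularForm.heckeU w p (anHat p w g) := by
  have hne : NeZero p := ⟨(Fact.out : p.Prime).ne_zero⟩
  exact an_t1_sum hg

end Fermat.Agent.S16L
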