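import Mathlib
import Fermat.Agent.S16L.ANDefs
import Fermat.Agent.S16L.ANHat
import Fermat.Agent.S16L.ANQExp
import Fermat.Agent.S16L.ANLevelOne
import Fermat.Agent.S16L.ANTrace1

/-!
# S16L / AN leaf TRACE part 2: the trace formula on q-expansions  (plan §2, AN3, AN4)
-/

set_option autoImplicit false

open UpperHalfPlane ModularFormClass CongruenceSubgroup PowerSeries
open scoped MatrixGroups ModularForm Manifold

namespace Fermat.Agent.S16L

variable {p : ℕ} {w w' k : ℤ} {g g' F : ℍ → ℂ}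

/-- `psU` commutes with scalar multiplication (local copy, complex coefficients). -/
theorem an_t2_psU_smul (p : ℕ) (c : ℂ) (a : ℂ⟦X⟧) : psU p (c • a) = c • psU p a := by
  ext n
  simp [psU, PowerSeries.coeff_mk]

/-- the trace formula on q-expansions. -/
theorem an_qexp_tr [Fact p.Prime] (hg : g ∈ S20T.R p w) :
    ∃ F ∈ S20T.A w, qExpansion 1 F =
      qExpansion 1 g + (p : ℂ) • psU p (qExpansion 1 (anHat p w g)) := by
  have : NeZero p := ⟨(Fact.out : p.Prime).ne_zero⟩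
  refine ⟨S20T.tr p w g, S20T.tr_mem_A hg, ?_⟩
  rw [an_tr_eq hg]
  exact an_qexp_add_heckeU hg (an_hat_mem_R hg)

/-- weight 2: `ĝ = -p⁻¹ U_p g` on q-expansions. -/
theorem an_qexp_hat_two [Fact p.Prime] (hg : g ∈ S20T.R p 2) :
    qExpansion 1 (anHat p 2 g) = (-(p : ℂ)⁻¹) • psU p (qExpansion 1 g) := by
  have : NeZero p := ⟨(Fact.out : p.Prime).ne_zero⟩
  have hp0 : (p : ℂ) ≠ 0 := Nat.cast_ne_zero.mpr (Fact.out : p.Prime).ne_zero
  -- `ĝ` is again a form on `Γ₀(p)`, and its trace is a level-one form of weight two, hence zero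
  have hhat : anHat p 2 g ∈ S20T.R p 2 := an_hat_mem_R hg
  have hsm : ((p : ℂ) ^ (-2 : ℤ)) • g ∈ S20T.R p 2 := (S20T.R p 2).smul_mem _ hg
  have htr0 : S20T.tr p 2 (anHat p 2 g) = 0 := by
    have hmem : S20T.tr p 2 (anHat p 2 g) ∈ S20T.A 2 := S20T.tr_mem_A hhat
    rw [an_A_two_eq_bot] at hmem
    exact (Submodule.mem_bot ℂ).mp hmem
  -- the trace formula for `ĝ`, using `anHat (anHat g) = p^(-2) • g`
  have h1 : anHat p 2 g + (p : ℂ) • ModularForm.heckeU 2 p (((p : ℂ) ^ (-2 : ℤ)) • g) = 0 := by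
    have h := an_tr_eq hhat
    rw [an_hat_hat hg] at h
    rw [← h]
    exact htr0
  -- pass to q-expansions
  have h2 : qExpansion 1 (anHat p 2 g) +
      (p : ℂ) • psU p (qExpansion 1 (((p : ℂ) ^ (-2 : ℤ)) • g)) = 0 := by
    rw [← an_qexp_add_heckeU hhat hsm, h1]
    exact an_qexp_zero
  rw [an_qexp_smul hg, an_t2_psU_smul, smul_smul] at h2
  have h3 : (p : ℂ) * (p : ℂ) ^ (-2 : ℤ) = (p : ℂ)⁻¹ := by
    rw [zpow_neg, zpow_ofNat]
    field_simp
  rw [h3] at h2
  rw [_root_.neg_smul]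
  exact eq_neg_of_add_eq_zero_left h2

end Fermat.Agent.S16L
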