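import Mathlib
import Fermat.Agent.S16L.ANDefs
import Fermat.Agent.S16L.ANHat
import Fermat.Agent.S16L.ANQExp
import Fermat.Agent.S16L.ANTrace1
import Fermat.Agent.S16L.ANTrace2

/-!
# S16L / AN leaf TRACE: the trace to level one in terms of `ĝ`  (plan §2, AN3, AN4)

Aggregator: the statements live in `ANTrace1`, `ANTrace2`.
-/
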