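import Mathlib
import Fermat.Agent.S16L.Defs

/-!
# S16L: integral models of the classical q-expansions

The integral models `psSigmaZ`, `psE4Z`, `psE6Z`, `psDeltaZ` of the classical q-expansions,
and the fact that division by `Δ` preserves integrality.
-/

set_option autoImplicit false

open PowerSeries

namespace Fermat.Agent.S16L

section integral

/-- `∑_{n ≥ 1} σ_k(n) q^n` over `ℤ`. -/
noncomputable def psSigmaZ (k : ℕ) : ℤ⟦X⟧ :=
  PowerSeries.mk fun n => ((ArithmeticFunction.sigma k n : ℕ) : ℤ)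

/-- `E₄` over `ℤ`. -/
noncomputable def psE4Z : ℤ⟦X⟧ := 1 + (240 : ℤ) • psSigmaZ 3

/-- `E₆` over `ℤ`. -/
noncomputable def psE6Z : ℤ⟦X⟧ := 1 - (504 : ℤ) • psSigmaZ 5

/-- `Δ` over `ℤ`: `(5σ₃ + 7σ₅)/12 + 100 S₃² + 8000 S₃³ - 147 S₅²`. -/
noncomputable def psDeltaZ : ℤ⟦X⟧ :=
  (PowerSeries.mk fun n =>
      (5 * (ArithmeticFunction.sigma 3 n : ℤ) + 7 * (ArithmeticFunction.sigma 5 n : ℤ)) / 12)
    + (100 : ℤ) • psSigmaZ 3 ^ 2 + (8000 : ℤ) • psSigmaZ 3 ^ 3 - (147 : ℤ) • psSigmaZ 5 ^ 2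

theorem psint_map_injective : Function.Injective (PowerSeries.map (Int.castRingHom ℚ)) := by
  intro a b h
  ext n
  have := congrArg (PowerSeries.coeff n) h
  simpa using this

theorem map_psSigmaZ (k : ℕ) : (psSigmaZ k).map (Int.castRingHom ℚ) = psSigma k := by
  ext n
  simp [psSigmaZ, psSigma]

theorem psint_map_zsmul (m : ℤ) (a : ℤ⟦X⟧) :
    (m • a).map (Int.castRingHom ℚ) = C (m : ℚ) * a.map (Int.castRingHom ℚ) := by
  rw [zsmul_eq_mul, map_mul, map_intCast, map_intCast]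

theorem map_psE4Z : psE4Z.map (Int.castRingHom ℚ) = psE4 := by
  rw [psE4Z, psE4, map_add, map_one, psint_map_zsmul, map_psSigmaZ, smul_eq_C_mul,
    Int.cast_ofNat]

theorem map_psE6Z : psE6Z.map (Int.castRingHom ℚ) = psE6 := by
  rw [psE6Z, psE6, map_sub, map_one, psint_map_zsmul, map_psSigmaZ, smul_eq_C_mul,
    Int.cast_ofNat]

theorem psint_twelve_dvd (d : ℤ) : (12 : ℤ) ∣ 5 * d ^ 3 + 7 * d ^ 5 := by
  have h : ∀ x : ZMod 12, 5 * x ^ 3 + 7 * x ^ 5 = 0 := by decide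
  have h2 := (ZMod.intCast_zmod_eq_zero_iff_dvd (5 * d ^ 3 + 7 * d ^ 5) 12).1
    (by push_cast; exact h (d : ZMod 12))
  exact_mod_cast h2

/-- `12 ∣ 5 σ₃(n) + 7 σ₅(n)`. -/
theorem twelve_dvd_sigma (n : ℕ) :
    (12 : ℤ) ∣ 5 * (ArithmeticFunction.sigma 3 n : ℤ) + 7 * (ArithmeticFunction.sigma 5 n : ℤ) := by
  rw [ArithmeticFunction.sigma_apply, ArithmeticFunction.sigma_apply]
  push_cast
  rw [Finset.mul_sum, Finset.mul_sum, ← Finset.sum_add_distrib]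
  exact Finset.dvd_sum fun d _ => psint_twelve_dvd d

theorem psint_map_mk :
    (PowerSeries.mk fun n =>
      (5 * (ArithmeticFunction.sigma 3 n : ℤ) + 7 * (ArithmeticFunction.sigma 5 n : ℤ)) / 12).map
        (Int.castRingHom ℚ) = C (5 / 12 : ℚ) * psSigma 3 + C (7 / 12 : ℚ) * psSigma 5 := by
  ext n
  simp only [coeff_map, coeff_mk, map_add, coeff_C_mul, psSigma, eq_intCast]
  rw [Int.cast_div (twelve_dvd_sigma n) (by norm_num)]
  push_cast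
  ring

theorem psint_psDelta_eq :
    psDelta = C (5 / 12 : ℚ) * psSigma 3 + C (7 / 12 : ℚ) * psSigma 5
      + C (100 : ℚ) * psSigma 3 ^ 2 + C (8000 : ℚ) * psSigma 3 ^ 3
      - C (147 : ℚ) * psSigma 5 ^ 2 := by
  rw [psDelta, psE4, psE6, smul_eq_C_mul, smul_eq_C_mul, smul_eq_C_mul]
  have k1 : (C (5 / 12 : ℚ) : ℚ⟦X⟧) = C (1 / 1728 : ℚ) * 720 := by
    rw [← map_ofNat C 720, ← map_mul]; norm_num
  have k2 : (C (7 / 12 : ℚ) : ℚ⟦X⟧) = C (1 / 1728 : ℚ) * 1008 := by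
    rw [← map_ofNat C 1008, ← map_mul]; norm_num
  have k3 : (C (100 : ℚ) : ℚ⟦X⟧) = C (1 / 1728 : ℚ) * 172800 := by
    rw [← map_ofNat C 172800, ← map_mul]; norm_num
  have k4 : (C (8000 : ℚ) : ℚ⟦X⟧) = C (1 / 1728 : ℚ) * 13824000 := by
    rw [← map_ofNat C 13824000, ← map_mul]; norm_num
  have k5 : (C (147 : ℚ) : ℚ⟦X⟧) = C (1 / 1728 : ℚ) * 254016 := by
    rw [← map_ofNat C 254016, ← map_mul]; norm_num
  rw [k1, k2, k3, k4, k5, map_ofNat C 240, map_ofNat C 504]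
  ring

theorem map_psDeltaZ : psDeltaZ.map (Int.castRingHom ℚ) = psDelta := by
  rw [psint_psDelta_eq, psDeltaZ]
  simp only [map_add, map_sub, map_pow, psint_map_mk, psint_map_zsmul, map_psSigmaZ,
    Int.cast_ofNat]

theorem psE4Z_cube_sub : psE4Z ^ 3 - psE6Z ^ 2 = (1728 : ℤ) • psDeltaZ := by
  apply psint_map_injective
  have h1 : (C (1728 : ℚ) : ℚ⟦X⟧) * C (1 / 1728 : ℚ) = 1 := by
    rw [← map_mul]; norm_num
  rw [psint_map_zsmul, map_psDeltaZ, map_sub, map_pow, map_pow, map_psE4Z, map_psE6Z,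
    psDelta, smul_eq_C_mul, ← mul_assoc, Int.cast_ofNat, h1, one_mul]

theorem coeff_zero_psSigmaZ (k : ℕ) : (psSigmaZ k).coeff 0 = 0 := by
  simp [psSigmaZ]

theorem psint_X_dvd_psSigmaZ (k : ℕ) : (X : ℤ⟦X⟧) ∣ psSigmaZ k := by
  rw [X_dvd_iff]
  simpa using coeff_zero_psSigmaZ k

theorem coeff_zero_psDeltaZ : psDeltaZ.coeff 0 = 0 := by
  obtain ⟨a, ha⟩ := psint_X_dvd_psSigmaZ 3
  obtain ⟨b, hb⟩ := psint_X_dvd_psSigmaZ 5
  rw [psDeltaZ, ha, hb]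
  simp [pow_succ, mul_assoc]

theorem coeff_one_psDeltaZ : psDeltaZ.coeff 1 = 1 := by
  obtain ⟨a, ha⟩ := psint_X_dvd_psSigmaZ 3
  obtain ⟨b, hb⟩ := psint_X_dvd_psSigmaZ 5
  have e1 : (X * a) ^ 2 = X ^ 2 * a ^ 2 := by ring
  have e2 : (X * a) ^ 3 = X ^ 2 * (X * a ^ 3) := by ring
  have e3 : (X * b) ^ 2 = X ^ 2 * b ^ 2 := by ring
  have h2 : ∀ c : ℤ⟦X⟧, (X ^ 2 * c).coeff 1 = 0 := by
    intro c
    rw [coeff_X_pow_mul']
    simp
  rw [psDeltaZ, ha, hb, e1, e2, e3]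
  simp only [map_add, map_sub, coeff_mk, zsmul_eq_mul]
  have h3 : ∀ (m : ℤ) (c : ℤ⟦X⟧), ((m : ℤ⟦X⟧) * (X ^ 2 * c)).coeff 1 = 0 := by
    intro m c
    rw [mul_left_comm, h2]
  rw [h3, h3, h3]
  norm_num

/-- `Δ = q · (unit)`. -/
theorem exists_psDeltaZ_eq : ∃ u : ℤ⟦X⟧, u.coeff 0 = 1 ∧ psDeltaZ = X * u := by
  have hd : (X : ℤ⟦X⟧) ∣ psDeltaZ := by
    rw [X_dvd_iff]
    simpa using coeff_zero_psDeltaZ
  obtain ⟨u, hu⟩ := hd
  refine ⟨u, ?_, hu⟩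
  have := coeff_one_psDeltaZ
  rw [hu, show (1 : ℕ) = 0 + 1 from rfl, coeff_succ_X_mul] at this
  exact this

/-- division by `Δ` preserves integrality. -/
theorem exists_int_of_psDelta_mul (φ : ℚ⟦X⟧) (ψ : ℤ⟦X⟧)
    (h : psDelta * φ = ψ.map (Int.castRingHom ℚ)) :
    ∃ φZ : ℤ⟦X⟧, φZ.map (Int.castRingHom ℚ) = φ := by
  obtain ⟨u, hu0, hu⟩ := exists_psDeltaZ_eq
  have hunit : IsUnit u := by
    rw [isUnit_iff_constantCoeff]
    have : constantCoeff u = 1 := by simpa using hu0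
    rw [this]
    exact isUnit_one
  obtain ⟨v, hv⟩ := hunit.exists_left_inv
  rw [← map_psDeltaZ, hu, map_mul, map_X, mul_assoc] at h
  have hψ : (X : ℤ⟦X⟧) ∣ ψ := by
    rw [X_dvd_iff]
    have := congrArg (PowerSeries.coeff 0) h
    simp only [coeff_zero_X_mul, coeff_map, eq_intCast] at this
    have h0 : ψ.coeff 0 = 0 := by exact_mod_cast this.symm
    simpa using h0
  obtain ⟨ψ', rfl⟩ := hψ
  rw [map_mul, map_X] at h
  have h' : u.map (Int.castRingHom ℚ) * φ = ψ'.map (Int.castRingHom ℚ) := by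
    ext n
    have := congrArg (PowerSeries.coeff (n + 1)) h
    simpa only [coeff_succ_X_mul] using this
  refine ⟨v * ψ', ?_⟩
  rw [map_mul, ← h', ← mul_assoc, ← map_mul, hv, map_one, one_mul]

theorem map_int_injective : Function.Injective (PowerSeries.map (Int.castRingHom ℚ)) :=
  psint_map_injective

end integral

end Fermat.Agent.S16L
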