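import Mathlib
import Fermat.Agent.S16L.Defs

/-!
# S16L: coefficient formulas and algebraic rules for `psU`, `psV`, `psTheta`
-/

set_option autoImplicit false

open PowerSeries

namespace Fermat.Agent.S16L

section ops

variable {R : Type*} [CommRing R]

@[simp] theorem coeff_psU (p n : ℕ) (a : R⟦X⟧) : (psU p a).coeff n = a.coeff (p * n) := by
  simp [psU, PowerSeries.coeff_mk]

@[simp] theorem coeff_psV (p n : ℕ) (a : R⟦X⟧) :
    (psV p a).coeff n = if p ∣ n then a.coeff (n / p) else 0 := by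
  simp [psV, PowerSeries.coeff_mk]

@[simp] theorem coeff_psTheta (n : ℕ) (a : R⟦X⟧) : (psTheta a).coeff n = (n : R) * a.coeff n := by
  simp [psTheta, PowerSeries.coeff_mk]

theorem coeff_psV_mul (p n : ℕ) (hp : 0 < p) (a : R⟦X⟧) : (psV p a).coeff (p * n) = a.coeff n := by
  rw [coeff_psV, if_pos (dvd_mul_right p n), Nat.mul_div_cancel_left n hp]

theorem coeff_zero_psU (p : ℕ) (a : R⟦X⟧) : (psU p a).coeff 0 = a.coeff 0 := by
  rw [coeff_psU, mul_zero]

theorem coeff_zero_psV (p : ℕ) (a : R⟦X⟧) : (psV p a).coeff 0 = a.coeff 0 := by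
  rw [coeff_psV, if_pos (dvd_zero p), Nat.zero_div]

theorem coeff_one_psV (p : ℕ) (hp : 1 < p) (a : R⟦X⟧) : (psV p a).coeff 1 = 0 := by
  rw [coeff_psV, if_neg (by rw [Nat.dvd_one]; exact hp.ne')]

theorem coeff_psV_self (p : ℕ) (hp : 0 < p) (a : R⟦X⟧) : (psV p a).coeff p = a.coeff 1 := by
  rw [coeff_psV, if_pos (dvd_refl p), Nat.div_self hp]

theorem psU_zero (p : ℕ) : psU p (0 : R⟦X⟧) = 0 := by
  ext n; simp

theorem psV_zero (p : ℕ) : psV p (0 : R⟦X⟧) = 0 := by
  ext n; simp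

theorem psU_neg (p : ℕ) (a : R⟦X⟧) : psU p (-a) = -psU p a := by
  ext n; simp

theorem psV_neg (p : ℕ) (a : R⟦X⟧) : psV p (-a) = -psV p a := by
  ext n; simp only [coeff_psV, map_neg]; split_ifs <;> simp

theorem psU_add (p : ℕ) (a b : R⟦X⟧) : psU p (a + b) = psU p a + psU p b := by
  ext n; simp

theorem psU_sub (p : ℕ) (a b : R⟦X⟧) : psU p (a - b) = psU p a - psU p b := by
  ext n; simp

theorem psU_smul (p : ℕ) (c : R) (a : R⟦X⟧) : psU p (c • a) = c • psU p a := by
  ext n; simp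

theorem psU_C (p : ℕ) (hp : 0 < p) (c : R) : psU p (C c : R⟦X⟧) = C c := by
  ext n
  rcases Nat.eq_zero_or_pos n with rfl | hn
  · simp
  · rw [coeff_psU, PowerSeries.coeff_C, PowerSeries.coeff_C, if_neg hn.ne',
      if_neg (Nat.mul_pos hp hn).ne']

theorem psU_one (p : ℕ) (hp : 0 < p) : psU p (1 : R⟦X⟧) = 1 := by
  have := psU_C (R := R) p hp 1
  simpa using this

theorem psV_add (p : ℕ) (a b : R⟦X⟧) : psV p (a + b) = psV p a + psV p b := by
  ext n; simp only [coeff_psV, map_add]; split_ifs <;> simp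

theorem psV_sub (p : ℕ) (a b : R⟦X⟧) : psV p (a - b) = psV p a - psV p b := by
  ext n; simp only [coeff_psV, map_sub]; split_ifs <;> simp

theorem psV_smul (p : ℕ) (c : R) (a : R⟦X⟧) : psV p (c • a) = c • psV p a := by
  ext n; simp only [coeff_psV, PowerSeries.coeff_smul]; split_ifs <;> simp

theorem psV_C (p : ℕ) (c : R) : psV p (C c : R⟦X⟧) = C c := by
  ext n
  rw [coeff_psV, PowerSeries.coeff_C, PowerSeries.coeff_C]
  rcases Nat.eq_zero_or_pos n with rfl | hn
  · simp
  · rw [if_neg hn.ne']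
    split_ifs with h1 h2
    · exfalso
      obtain ⟨k, rfl⟩ := h1
      rcases Nat.eq_zero_or_pos p with rfl | hp
      · simp at hn
      · rw [Nat.mul_div_cancel_left k hp] at h2
        subst h2; simp at hn
    · rfl
    · rfl

theorem psV_one (p : ℕ) : psV p (1 : R⟦X⟧) = 1 := by
  have := psV_C (R := R) p 1
  simpa using this

theorem psops_psV_eq_expand (p : ℕ) (hp : p ≠ 0) (a : R⟦X⟧) :
    psV p a = PowerSeries.expand p hp a := by
  ext n
  rw [coeff_psV, PowerSeries.coeff_expand]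

theorem psV_mul (p : ℕ) (hp : 0 < p) (a b : R⟦X⟧) : psV p (a * b) = psV p a * psV p b := by
  simp only [psops_psV_eq_expand p hp.ne', map_mul]

theorem psV_pow (p : ℕ) (hp : 0 < p) (a : R⟦X⟧) (n : ℕ) : psV p (a ^ n) = psV p a ^ n := by
  simp only [psops_psV_eq_expand p hp.ne', map_pow]

theorem psV_X (p : ℕ) (hp : 0 < p) : psV p (X : R⟦X⟧) = X ^ p := by
  rw [psops_psV_eq_expand p hp.ne', PowerSeries.expand_X]

theorem psU_psV (p : ℕ) (hp : 0 < p) (a : R⟦X⟧) : psU p (psV p a) = a := by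
  ext n
  rw [coeff_psU, coeff_psV_mul p n hp]

/-- `U(a · V b) = U(a) · b`. -/
theorem psU_mul_psV (p : ℕ) (hp : 0 < p) (a b : R⟦X⟧) : psU p (a * psV p b) = psU p a * b := by
  ext n
  rw [coeff_psU, PowerSeries.coeff_mul, PowerSeries.coeff_mul]
  symm
  apply Finset.sum_of_injOn (fun x : ℕ × ℕ => (p * x.1, p * x.2))
  · intro x _ y _ h
    simp only [Prod.mk.injEq] at h
    exact Prod.ext (Nat.eq_of_mul_eq_mul_left hp h.1) (Nat.eq_of_mul_eq_mul_left hp h.2)
  · intro x hx
    simp only [Finset.mem_coe, Finset.HasAntidiagonal.mem_antidiagonal] at hx ⊢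
    rw [← hx, mul_add]
  · intro x hx hx'
    rw [Finset.HasAntidiagonal.mem_antidiagonal] at hx
    rw [coeff_psV]
    split_ifs with h
    · exfalso
      apply hx'
      obtain ⟨j, hj⟩ := h
      have h1 : p ∣ x.1 := by
        have : p ∣ x.1 + x.2 := hx ▸ dvd_mul_right p n
        exact (Nat.dvd_add_left ⟨j, hj⟩).1 this
      obtain ⟨i, hi⟩ := h1
      refine ⟨(i, j), ?_, ?_⟩
      · simp only [Finset.mem_coe, Finset.HasAntidiagonal.mem_antidiagonal]
        apply Nat.eq_of_mul_eq_mul_left hp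
        rw [mul_add, ← hi, ← hj, hx]
      · exact Prod.ext hi.symm hj.symm
    · rw [mul_zero]
  · intro x _
    rw [coeff_psU, coeff_psV_mul p x.2 hp]

theorem psTheta_add (a b : R⟦X⟧) : psTheta (a + b) = psTheta a + psTheta b := by
  ext n; simp [mul_add]

theorem psTheta_smul (c : R) (a : R⟦X⟧) : psTheta (c • a) = c • psTheta a := by
  ext n; simp [mul_left_comm]

theorem psTheta_C (c : R) : psTheta (C c : R⟦X⟧) = 0 := by
  ext n
  rw [coeff_psTheta, PowerSeries.coeff_C]
  split_ifs with h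
  · subst h; simp
  · simp

theorem psTheta_mul (a b : R⟦X⟧) : psTheta (a * b) = psTheta a * b + a * psTheta b := by
  ext n
  rw [coeff_psTheta, map_add, PowerSeries.coeff_mul, PowerSeries.coeff_mul,
    PowerSeries.coeff_mul, Finset.mul_sum, ← Finset.sum_add_distrib]
  apply Finset.sum_congr rfl
  intro x hx
  rw [Finset.HasAntidiagonal.mem_antidiagonal] at hx
  rw [coeff_psTheta, coeff_psTheta, ← hx]
  push_cast
  ring

theorem psTheta_pow (a : R⟦X⟧) (n : ℕ) :
    psTheta (a ^ (n + 1)) = ((n + 1 : ℕ) : R) • (a ^ n * psTheta a) := by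
  induction n with
  | zero => simp
  | succ n ih =>
    rw [pow_succ, psTheta_mul, ih, smul_mul_assoc,
      show a ^ n * psTheta a * a = a ^ (n + 1) * psTheta a by ring]
    nth_rewrite 2 [← one_smul R (a ^ (n + 1) * psTheta a)]
    rw [← add_smul]
    push_cast
    rfl

variable {S : Type*} [CommRing S]

theorem map_psU (f : R →+* S) (p : ℕ) (a : R⟦X⟧) : (psU p a).map f = psU p (a.map f) := by
  ext n; simp

theorem map_psV (f : R →+* S) (p : ℕ) (a : R⟦X⟧) : (psV p a).map f = psV p (a.map f) := by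
  ext n
  simp only [PowerSeries.coeff_map, coeff_psV]
  split_ifs <;> simp

theorem map_psTheta (f : R →+* S) (a : R⟦X⟧) : (psTheta a).map f = psTheta (a.map f) := by
  ext n; simp

end ops

end Fermat.Agent.S16L
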