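import Mathlib
import Fermat.Agent.S16L.Defs
import Fermat.Agent.S16L.PSOps
import Fermat.Agent.S16L.PSInt

/-!
# S16L: power-series toolbox (shared by all arithmetic packages)

Umbrella module: `PSOps` (coefficient formulas and algebraic rules for `psU`, `psV`, `psTheta`)
and `PSInt` (the integral models `psSigmaZ`, `psE4Z`, `psE6Z`, `psDeltaZ` of the classical
q-expansions).
-/
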