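import Mathlib
import Fermat.Agent.S16L.Defs
import Fermat.Agent.S16L.PS
import Fermat.Agent.S16L.ANDefs
import Fermat.Agent.S16L.ANHat
import Fermat.Agent.S16L.ANQExp
import Fermat.Agent.S16L.ANTrace
import Fermat.Agent.S16L.ANLevelOne
import Fermat.Agent.S16L.ANTheta
import Fermat.Agent.S16L.ANEis

/-!
# S16L / AN: the subspaces `anMM p w`, `anLL p k` of rational q-expansions
-/

set_option autoImplicit false

open UpperHalfPlane ModularFormClass CongruenceSubgroup PowerSeries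
open scoped MatrixGroups ModularForm Manifold

namespace Fermat.Agent.S16L

theorem an_anC_injective : Function.Injective anC := by
  intro a b h
  ext n
  have := congrArg (fun s : ℂ⟦X⟧ => s.coeff n) h
  simpa using this

theorem an_anC_add (a b : ℚ⟦X⟧) : anC (a + b) = anC a + anC b := map_add _ a b

theorem an_anC_mul (a b : ℚ⟦X⟧) : anC (a * b) = anC a * anC b := map_mul _ a b

theorem an_anC_smul (c : ℚ) (a : ℚ⟦X⟧) : anC (c • a) = (c : ℂ) • anC a := by
  ext n
  simp [anC]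

theorem an_anC_one : anC 1 = 1 := map_one _

theorem an_anC_zero : anC 0 = 0 := map_zero _

/-- the rational pairs, as a `ℚ`-subspace. -/
noncomputable def anMM (p : ℕ) [Fact p.Prime] (w : ℤ) : Submodule ℚ (ℚ⟦X⟧ × ℚ⟦X⟧) where
  carrier := anMMset p w
  zero_mem' := by
    refine ⟨0, Submodule.zero_mem _, ?_, ?_⟩
    · simpa using an_qexp_zero
    · have : anHat p w (0 : ℍ → ℂ) = 0 := by
        have := an_hat_smul p w (0 : ℂ) (0 : ℍ → ℂ)
        simpa using this
      rw [this]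
      simpa using an_qexp_zero
  add_mem' := by
    rintro x y ⟨g, hg, hg1, hg2⟩ ⟨g', hg', hg'1, hg'2⟩
    refine ⟨g + g', Submodule.add_mem _ hg hg', ?_, ?_⟩
    · rw [an_qexp_add hg hg', hg1, hg'1]
      exact (an_anC_add _ _).symm
    · rw [an_hat_add, an_qexp_add (an_hat_mem_R hg) (an_hat_mem_R hg'), hg2, hg'2]
      exact (an_anC_add _ _).symm
  smul_mem' := by
    rintro c x ⟨g, hg, hg1, hg2⟩
    refine ⟨(c : ℂ) • g, Submodule.smul_mem _ _ hg, ?_, ?_⟩
    · rw [an_qexp_smul hg, hg1]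
      exact (an_anC_smul _ _).symm
    · rw [an_hat_smul, an_qexp_smul (an_hat_mem_R hg), hg2]
      exact (an_anC_smul _ _).symm

/-- the rational level-one q-expansions, as a `ℚ`-subspace. -/
noncomputable def anLL (p : ℕ) [Fact p.Prime] (k : ℤ) : Submodule ℚ ℚ⟦X⟧ where
  carrier := anLLset k
  zero_mem' := ⟨0, Submodule.zero_mem _, by simpa using an_qexp_zero⟩
  add_mem' := by
    rintro x y ⟨F, hF, hF1⟩ ⟨F', hF', hF'1⟩
    refine ⟨F + F', Submodule.add_mem _ hF hF', ?_⟩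
    rw [an_qexp_add (p := p) (S20T.A_le_R p k hF) (S20T.A_le_R p k hF'), hF1, hF'1]
    exact (an_anC_add _ _).symm
  smul_mem' := by
    rintro c x ⟨F, hF, hF1⟩
    refine ⟨(c : ℂ) • F, Submodule.smul_mem _ _ hF, ?_⟩
    rw [an_qexp_smul (p := p) (S20T.A_le_R p k hF), hF1]
    exact (an_anC_smul _ _).symm

theorem an_mem_anMM {p : ℕ} [Fact p.Prime] {w : ℤ} {x : ℚ⟦X⟧ × ℚ⟦X⟧} :
    x ∈ anMM p w ↔ ∃ g ∈ S20T.R p w, qExpansion 1 g = anC x.1 ∧
      qExpansion 1 (anHat p w g) = anC x.2 := Iff.rfl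

theorem an_mem_anLL {p : ℕ} [Fact p.Prime] {k : ℤ} {φ : ℚ⟦X⟧} :
    φ ∈ anLL p k ↔ ∃ F ∈ S20T.A k, qExpansion 1 F = anC φ := Iff.rfl

end Fermat.Agent.S16L
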