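import Mathlib
import Fermat.Agent.S16L.ANSub

/-!
# S16L / AN assembly, part 1: the fields of `TraceData p` about `MM`
-/

set_option autoImplicit false

open UpperHalfPlane ModularFormClass CongruenceSubgroup PowerSeries
open scoped MatrixGroups ModularForm Manifold

namespace Fermat.Agent.S16L

variable {p : ℕ} [Fact p.Prime]

omit [Fact p.Prime] in
theorem an_a1_anC_psU (a : ℚ⟦X⟧) : anC (psU p a) = psU p (anC a) := map_psU _ p a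

omit [Fact p.Prime] in
theorem an_a1_anC_psV (a : ℚ⟦X⟧) : anC (psV p a) = psV p (anC a) := map_psV _ p a

theorem an_asm_MM_one : ((1 : ℚ⟦X⟧), (1 : ℚ⟦X⟧)) ∈ anMM p 0 := by
  refine ⟨1, S20T.bs_one_mem_R p, ?_, ?_⟩
  · rw [an_qexp_one]; exact an_anC_one.symm
  · rw [an_hat_one, an_qexp_one]; exact an_anC_one.symm

theorem an_asm_MM_mul {w w' : ℤ} {x y : ℚ⟦X⟧ × ℚ⟦X⟧} (hx : x ∈ anMM p w) (hy : y ∈ anMM p w') :
    (x.1 * y.1, x.2 * y.2) ∈ anMM p (w + w') := by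
  obtain ⟨g, hg, hg1, hg2⟩ := hx
  obtain ⟨g', hg', hg'1, hg'2⟩ := hy
  refine ⟨g * g', S20T.R_mul hg hg', ?_, ?_⟩
  · rw [an_qexp_mul hg hg', hg1, hg'1]; exact (an_anC_mul _ _).symm
  · rw [an_hat_mul, an_qexp_mul (an_hat_mem_R hg) (an_hat_mem_R hg'), hg2, hg'2]
    exact (an_anC_mul _ _).symm

theorem an_asm_MM_of_LL {k : ℤ} {φ : ℚ⟦X⟧} (hφ : φ ∈ anLL p k) : (φ, psV p φ) ∈ anMM p k := by
  obtain ⟨F, hF, hF1⟩ := hφ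
  refine ⟨F, S20T.A_le_R p k hF, hF1, ?_⟩
  rw [an_hat_of_mem_A p hF, an_qexp_V hF, hF1]
  exact (an_a1_anC_psV φ).symm

theorem an_asm_MM_V_of_LL {k : ℤ} {φ : ℚ⟦X⟧} (hφ : φ ∈ anLL p k) :
    (psV p φ, ((p : ℚ) ^ (-k)) • φ) ∈ anMM p k := by
  obtain ⟨F, hF, hF1⟩ := hφ
  refine ⟨anV p k F, an_V_mem_R hF, ?_, ?_⟩
  · rw [an_qexp_V hF, hF1]; exact (an_a1_anC_psV φ).symm
  · rw [an_hat_V hF, an_qexp_smul (S20T.A_le_R p k hF), hF1]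
    show _ = anC (((p : ℚ) ^ (-k)) • φ)
    rw [an_anC_smul]
    congr 1
    push_cast
    rfl

theorem an_asm_trace_mem {w : ℤ} {x : ℚ⟦X⟧ × ℚ⟦X⟧} (hx : x ∈ anMM p w) :
    x.1 + (p : ℚ) • psU p x.2 ∈ anLL p w := by
  obtain ⟨g, hg, hg1, hg2⟩ := hx
  obtain ⟨F, hF, hF1⟩ := an_qexp_tr hg
  refine ⟨F, hF, ?_⟩
  rw [hF1, hg1, hg2, an_anC_add, an_anC_smul, an_a1_anC_psU]
  congr 2

theorem an_asm_MM_two {x : ℚ⟦X⟧ × ℚ⟦X⟧} (hx : x ∈ anMM p 2) :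
    x.2 = (-(p : ℚ)⁻¹) • psU p x.1 := by
  obtain ⟨g, hg, hg1, hg2⟩ := hx
  apply an_anC_injective
  rw [← hg2, an_qexp_hat_two hg, hg1, an_anC_smul, an_a1_anC_psU]
  congr 1
  push_cast
  rfl

theorem an_a1_of_mem_R_two {g : ℍ → ℂ} (hg : g ∈ S20T.R p 2) (a : ℚ⟦X⟧)
    (ha : qExpansion 1 g = anC a) : ∃ b, (a, b) ∈ anMM p 2 := by
  refine ⟨(-(p : ℚ)⁻¹) • psU p a, g, hg, ha, ?_⟩
  rw [an_qexp_hat_two hg, ha]
  show _ = anC ((-(p : ℚ)⁻¹) • psU p a)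
  rw [an_anC_smul, an_a1_anC_psU]
  congr 1
  push_cast
  rfl

theorem an_asm_cusp_mem (f : CuspForm (CongruenceSubgroup.Gamma0 p) 2) (a : ℚ⟦X⟧)
    (ha : ∀ n, ((a.coeff n : ℚ) : ℂ) = ModularFormClass.qCoeff (⇑f) n) :
    ∃ b, (a, b) ∈ anMM p 2 := by
  refine an_a1_of_mem_R_two (S20T.S_le_R p 2 ⟨f, rfl⟩) a ?_
  ext n
  rw [← ModularFormClass.qCoeff, ← ha n]
  simp [anC]

theorem an_asm_eis_mem : ∃ b, (psEis p, b) ∈ anMM p 2 := by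
  obtain ⟨g, hg, hg1⟩ := an_eis p
  exact an_a1_of_mem_R_two hg _ hg1

end Fermat.Agent.S16L
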