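import Mathlib
import Fermat.Agent.S16L.ANSub

/-!
# S16L / AN assembly, part 2: the fields of `TraceData p` about `LL`
-/

set_option autoImplicit false

open UpperHalfPlane ModularFormClass CongruenceSubgroup PowerSeries
open scoped MatrixGroups ModularForm Manifold

namespace Fermat.Agent.S16L

variable {p : ℕ} [Fact p.Prime]

/-- the q-expansion of a power of a level-one form -/
theorem an_a2_qexp_pow (p : ℕ) [Fact p.Prime] {w : ℤ} {G : ℍ → ℂ} (hG : G ∈ S20T.A w) (n : ℕ) :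
    qExpansion 1 (G ^ n) = qExpansion 1 G ^ n := by
  induction n with
  | zero => simpa using an_qexp_one
  | succ n ih =>
    rw [pow_succ, pow_succ,
      an_qexp_mul (p := p) (S20T.A_le_R p _ (S20T.A_pow hG n)) (S20T.A_le_R p w hG), ih]

/-- `anC` commutes with powers -/
theorem an_a2_anC_pow (a : ℚ⟦X⟧) (n : ℕ) : anC (a ^ n) = anC a ^ n := map_pow _ a n

/-- the q-expansion of a monomial `E₄^x E₆^y` -/
theorem an_a2_qexp_monomial (p : ℕ) [Fact p.Prime] (x y : ℕ) :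
    qExpansion 1 (S20T.E4 ^ x * S20T.E6 ^ y) = anC (psE4 ^ x * psE6 ^ y) := by
  rw [an_qexp_mul (p := p) (S20T.A_le_R p _ (S20T.lo_E4_pow_mem x))
      (S20T.A_le_R p _ (S20T.lo_E6_pow_mem y)),
    an_a2_qexp_pow p S20T.E4_mem_A, an_a2_qexp_pow p S20T.E6_mem_A, an_qexp_E4, an_qexp_E6,
    an_anC_mul, an_a2_anC_pow, an_a2_anC_pow]

theorem an_asm_LL_eq_bot {k : ℤ} (hk : k < 0 ∨ Odd k ∨ k = 2) : anLL p k = ⊥ := by
  rw [eq_bot_iff]
  intro φ hφ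
  obtain ⟨F, hF, hq⟩ := an_mem_anLL.mp hφ
  have hA : S20T.A k = ⊥ := by
    rcases hk with hk | hk | hk
    · exact S20T.A_eq_bot_of_neg hk
    · exact S20T.A_eq_bot_of_odd hk
    · rw [hk]
      exact an_A_two_eq_bot
  rw [hA] at hF
  have hF0 : F = 0 := (Submodule.mem_bot ℂ).mp hF
  rw [hF0, an_qexp_zero] at hq
  rw [Submodule.mem_bot]
  apply an_anC_injective
  rw [an_anC_zero]
  exact hq.symm

theorem an_asm_LL_zero {φ : ℚ⟦X⟧} (hφ : φ ∈ anLL p 0) : ∃ c : ℚ, φ = PowerSeries.C c := by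
  obtain ⟨F, hF, hq⟩ := an_mem_anLL.mp hφ
  obtain ⟨c, rfl⟩ := S20T.bs_mem_A_zero hF
  rw [an_qexp_const] at hq
  refine ⟨φ.coeff 0, ?_⟩
  ext n
  rcases Nat.eq_zero_or_pos n with rfl | hn
  · simp
  · have h := congrArg (fun s : ℂ⟦X⟧ => s.coeff n) hq
    simp only [PowerSeries.coeff_C, if_neg hn.ne', PowerSeries.coeff_map] at h
    have h0 : φ.coeff n = 0 := by
      have h' : ((φ.coeff n : ℚ) : ℂ) = 0 := by simpa using h.symm
      exact_mod_cast h'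
    rw [h0, PowerSeries.coeff_C, if_neg hn.ne']

theorem an_asm_one_mem_LL : (1 : ℚ⟦X⟧) ∈ anLL p 0 := by
  refine an_mem_anLL.mpr ⟨1, S20T.one_mem_A, ?_⟩
  rw [an_qexp_one, an_anC_one]

theorem an_asm_LL_mul {k k' : ℤ} {φ ψ : ℚ⟦X⟧} (hφ : φ ∈ anLL p k) (hψ : ψ ∈ anLL p k') :
    φ * ψ ∈ anLL p (k + k') := by
  obtain ⟨F, hF, hq⟩ := an_mem_anLL.mp hφ
  obtain ⟨G, hG, hq'⟩ := an_mem_anLL.mp hψ
  refine an_mem_anLL.mpr ⟨F * G, S20T.A_mul hF hG, ?_⟩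
  rw [an_qexp_mul (p := p) (S20T.A_le_R p k hF) (S20T.A_le_R p k' hG), hq, hq', an_anC_mul]

theorem an_asm_E4_mem : psE4 ∈ anLL p 4 := by
  exact an_mem_anLL.mpr ⟨S20T.E4, S20T.E4_mem_A, an_qexp_E4⟩

theorem an_asm_E6_mem : psE6 ∈ anLL p 6 := by
  exact an_mem_anLL.mpr ⟨S20T.E6, S20T.E6_mem_A, an_qexp_E6⟩

theorem an_asm_Ek_mem (k : ℕ) (hk : 4 ≤ k) (hk2 : Even k) : psEk k ∈ anLL p (k : ℤ) := by
  exact an_mem_anLL.mpr (an_qexp_Ek k hk hk2)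

theorem an_asm_LL_decomp {k : ℤ} {φ : ℚ⟦X⟧} (x y : ℕ) (hφ : φ ∈ anLL p k)
    (hxy : 4 * (x : ℤ) + 6 * (y : ℤ) = k) :
    ∃ φ' ∈ anLL p (k - 12),
      φ = PowerSeries.C (φ.coeff 0) * psE4 ^ x * psE6 ^ y + psDelta * φ' := by
  obtain ⟨F, hF, hq⟩ := an_mem_anLL.mp hφ
  obtain ⟨F', hF', hdec⟩ := an_A_decomp x y hF hxy
  -- the constant coefficient
  have ha0 : (qExpansion 1 F).coeff 0 = ((φ.coeff 0 : ℚ) : ℂ) := by
    rw [hq, PowerSeries.coeff_map]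
    rfl
  -- memberships
  have hM : S20T.E4 ^ x * S20T.E6 ^ y ∈ S20T.A k := S20T.A_cast hxy (S20T.lo_monomial_mem x y)
  have hDF : S20T.Dl * F' ∈ S20T.A k :=
    S20T.A_cast (by ring) (S20T.A_mul S20T.bs_Dl_mem_A hF')
  -- the q-expansion of the decomposition
  have hqF : anC φ = ((φ.coeff 0 : ℚ) : ℂ) • anC (psE4 ^ x * psE6 ^ y) +
      anC psDelta * qExpansion 1 F' := by
    rw [← hq]
    conv_lhs => rw [hdec]
    rw [an_qexp_add (p := p) (S20T.A_le_R p k (Submodule.smul_mem _ _ hM)) (S20T.A_le_R p k hDF),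
      an_qexp_smul (p := p) (S20T.A_le_R p k hM),
      an_qexp_mul (p := p) (S20T.A_le_R p 12 S20T.bs_Dl_mem_A) (S20T.A_le_R p (k - 12) hF'),
      an_a2_qexp_monomial p, an_qexp_Dl, ha0]
  -- rationality of the quotient
  have hrat : anC psDelta * qExpansion 1 F' =
      anC (φ - (φ.coeff 0) • (psE4 ^ x * psE6 ^ y)) := by
    have h1 : anC (φ - (φ.coeff 0) • (psE4 ^ x * psE6 ^ y)) =
        anC φ - ((φ.coeff 0 : ℚ) : ℂ) • anC (psE4 ^ x * psE6 ^ y) := by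
      rw [← an_anC_smul]
      exact map_sub _ _ _
    rw [h1, hqF]
    ring
  obtain ⟨ψ₀, hψ₀⟩ := an_rat_of_delta_mul _ _ hrat
  refine ⟨ψ₀, an_mem_anLL.mpr ⟨F', hF', hψ₀.symm⟩, ?_⟩
  apply an_anC_injective
  rw [an_anC_add, an_anC_mul psDelta, hψ₀, hqF]
  congr 1
  rw [← an_anC_smul]
  congr 1
  rw [PowerSeries.smul_eq_C_mul, mul_assoc]

end Fermat.Agent.S16L
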