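import Mathlib
import Fermat.Agent.S16L.Defs
import Fermat.Agent.S16L.PS
import Fermat.Agent.S16L.ANDefs
import Fermat.Agent.S16L.ANHat
import Fermat.Agent.S16L.ANQExp
import Fermat.Agent.S16L.ANTrace
import Fermat.Agent.S16L.ANLevelOne
import Fermat.Agent.S16L.ANTheta
import Fermat.Agent.S16L.ANEis
import Fermat.Agent.S16L.ANSub
import Fermat.Agent.S16L.ANAsm1
import Fermat.Agent.S16L.ANAsm2

/-!
# S16L: the analytic input (`TraceData p` exists)  — plan §2 (AN1–AN9), assembly of the AN leaves
-/

set_option autoImplicit false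

open UpperHalfPlane ModularFormClass CongruenceSubgroup PowerSeries
open scoped MatrixGroups ModularForm Manifold

namespace Fermat.Agent.S16L

/-- The analytic package: pairs `(qexp g, qexp ĝ)` and the trace to level one. -/
theorem exists_traceData (p : ℕ) [Fact p.Prime] : Nonempty (TraceData p) :=
  ⟨{ MM := anMM p
     LL := anLL p
     MM_one := an_asm_MM_one
     MM_mul := fun hx hy => an_asm_MM_mul hx hy
     MM_of_LL := fun hφ => an_asm_MM_of_LL hφ
     MM_V_of_LL := fun hφ => an_asm_MM_V_of_LL hφ
     trace_mem := fun hx => an_asm_trace_mem hx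
     MM_two := fun hx => an_asm_MM_two hx
     LL_eq_bot := fun hk => an_asm_LL_eq_bot hk
     LL_zero := fun hφ => an_asm_LL_zero hφ
     one_mem_LL := an_asm_one_mem_LL
     LL_mul := fun hφ hψ => an_asm_LL_mul hφ hψ
     E4_mem := an_asm_E4_mem
     E6_mem := an_asm_E6_mem
     Ek_mem := fun k hk hk2 => an_asm_Ek_mem k hk hk2
     LL_decomp := fun x y hφ hxy => an_asm_LL_decomp x y hφ hxy
     theta_delta := an_theta_delta
     cusp_mem := fun f a ha => an_asm_cusp_mem f a ha
     eis_mem := an_asm_eis_mem }⟩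

end Fermat.Agent.S16L
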