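/-
S16 formal package (helper2), abstract part: q-coefficient pairing between a lattice of "forms"
and a commutative ring of "Hecke operators".  Pure algebra (Mathlib only).
-/
import Mathlib

set_option autoImplicit false

namespace Fermat.Agent.S16L

/-- The recursion satisfied by `k ↦ σ'(k)` (sum of the divisors of `k` prime to `p`). -/
structure fm_IsSigmaRec (p : ℕ) (s : ℕ → ℤ) : Prop where
  one : s 1 = 1
  mul_p : ∀ k : ℕ, 1 ≤ k → s (k * p) = s k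
  mul_prime : ∀ ℓ : ℕ, ℓ.Prime → ℓ ≠ p → ∀ k : ℕ, 1 ≤ k →
    s (k * ℓ) = (1 + (ℓ : ℤ)) * s k - if ℓ ∣ k then (ℓ : ℤ) * s (k / ℓ) else 0

/-- Abstract "q-expansion" datum: a lattice `L`, a commutative ring `𝕋` acting faithfully on it,
coefficient functionals `a k`, and generators `gen ℓ` (`T_ℓ` for `ℓ ≠ p`, `U_p` for `ℓ = p`)
acting on coefficients by the usual formulas. -/
structure fm_IsCoeffDatum {L : Type*} [AddCommGroup L] {𝕋 : Type*} [CommRing 𝕋]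
    (act : 𝕋 →+* Module.End ℤ L) (a : ℕ → L →ₗ[ℤ] ℤ) (p : ℕ) (gen : Nat.Primes → 𝕋) : Prop where
  act_inj : Function.Injective act
  sep : ∀ f : L, (∀ k : ℕ, 1 ≤ k → a k f = 0) → f = 0
  sat : ∀ (D : ℕ) (f : L), D ≠ 0 → (∀ k : ℕ, 1 ≤ k → (D : ℤ) ∣ a k f) → ∃ g : L, D • g = f
  genT : ∀ ℓ : Nat.Primes, (ℓ : ℕ) ≠ p → ∀ (j : ℕ) (f : L),
    a j (act (gen ℓ) f) = a (j * ℓ) f + if (ℓ : ℕ) ∣ j then (ℓ : ℤ) * a (j / ℓ) f else 0
  genU : ∀ ℓ : Nat.Primes, (ℓ : ℕ) = p → ∀ (j : ℕ) (f : L), a j (act (gen ℓ) f) = a (j * p) f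

section

variable {L : Type*} [AddCommGroup L] {𝕋 : Type*} [CommRing 𝕋]
  {act : 𝕋 →+* Module.End ℤ L} {a : ℕ → L →ₗ[ℤ] ℤ} {p : ℕ} {gen : Nat.Primes → 𝕋}

theorem fm_exists_prime_mul_of_two_le (k : ℕ) (hk : 2 ≤ k) :
    ∃ ℓ : ℕ, ℓ.Prime ∧ ∃ k' : ℕ, 1 ≤ k' ∧ k' < k ∧ k = k' * ℓ := by
  have hℓ : k.minFac.Prime := Nat.minFac_prime (by omega)
  refine ⟨k.minFac, hℓ, k / k.minFac, ?_, ?_, (Nat.div_mul_cancel (Nat.minFac_dvd k)).symm⟩
  · exact Nat.div_pos (Nat.minFac_le (by omega)) hℓ.pos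
  · exact Nat.div_lt_self (by omega) hℓ.one_lt

/-- Vanishing engine: if the first coefficient vanishes (in `A`) on a Hecke-stable set, then all
coefficients do. -/
theorem fm_IsCoeffDatum.engine0 (h : fm_IsCoeffDatum act a p gen) {A : Type*} [AddCommGroup A]
    (π : ℤ →+ A) (F : Set L) (hF : ∀ ℓ : Nat.Primes, ∀ g ∈ F, act (gen ℓ) g ∈ F)
    (h1 : ∀ g ∈ F, π (a 1 g) = 0) :
    ∀ k : ℕ, 1 ≤ k → ∀ g ∈ F, π (a k g) = 0 := by
  intro k
  induction k using Nat.strong_induction_on with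
  | _ k ih =>
    intro hk g hg
    rcases Nat.lt_or_ge k 2 with hk2 | hk2
    · obtain rfl : k = 1 := by omega
      exact h1 g hg
    · obtain ⟨ℓ, hℓ, k', hk'1, hk'lt, rfl⟩ := fm_exists_prime_mul_of_two_le k hk2
      by_cases hp : ℓ = p
      · have e := h.genU ⟨ℓ, hℓ⟩ hp k' g
        rw [hp, ← e]
        exact ih k' hk'lt hk'1 _ (hF ⟨ℓ, hℓ⟩ g hg)
      · have e := h.genT ⟨ℓ, hℓ⟩ hp k' g
        have e' : a (k' * ℓ) g = a k' (act (gen ⟨ℓ, hℓ⟩) g)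
            - if ℓ ∣ k' then (ℓ : ℤ) * a (k' / ℓ) g else 0 := by
          rw [e]; simp
        rw [e', map_sub, ih k' hk'lt hk'1 _ (hF ⟨ℓ, hℓ⟩ g hg), zero_sub, neg_eq_zero]
        split_ifs with hd
        · have h1' : 1 ≤ k' / ℓ := Nat.div_pos (Nat.le_of_dvd hk'1 hd) hℓ.pos
          have h2' : k' / ℓ < k' * ℓ := lt_of_le_of_lt (Nat.div_le_self _ _) hk'lt
          have := ih (k' / ℓ) h2' h1' g hg
          rw [← smul_eq_mul, map_zsmul, this, smul_zero]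
        · exact map_zero π

/-- Eisenstein engine: if on a Hecke-stable set the first coefficient transforms (in `A`) by the
Eisenstein eigenvalues, then `a k = σ'(k) a 1` on it. -/
theorem fm_IsCoeffDatum.engine (h : fm_IsCoeffDatum act a p gen) {s : ℕ → ℤ} (hs : fm_IsSigmaRec p s)
    {A : Type*} [CommRing A] (F : Set L) (hF : ∀ ℓ : Nat.Primes, ∀ g ∈ F, act (gen ℓ) g ∈ F)
    (hT : ∀ ℓ : Nat.Primes, (ℓ : ℕ) ≠ p → ∀ g ∈ F,
      ((a 1 (act (gen ℓ) g) : ℤ) : A) = (1 + ((ℓ : ℕ) : A)) * ((a 1 g : ℤ) : A))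
    (hU : ∀ ℓ : Nat.Primes, (ℓ : ℕ) = p → ∀ g ∈ F,
      ((a 1 (act (gen ℓ) g) : ℤ) : A) = ((a 1 g : ℤ) : A)) :
    ∀ k : ℕ, 1 ≤ k → ∀ g ∈ F, ((a k g : ℤ) : A) = ((s k : ℤ) : A) * ((a 1 g : ℤ) : A) := by
  intro k
  induction k using Nat.strong_induction_on with
  | _ k ih =>
    intro hk g hg
    rcases Nat.lt_or_ge k 2 with hk2 | hk2
    · obtain rfl : k = 1 := by omega
      rw [hs.one]; simp
    · obtain ⟨ℓ, hℓ, k', hk'1, hk'lt, rfl⟩ := fm_exists_prime_mul_of_two_le k hk2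
      by_cases hp : ℓ = p
      · have e := h.genU ⟨ℓ, hℓ⟩ hp k' g
        have e2 := hs.mul_p k' hk'1
        rw [hp, ← e, e2, ih k' hk'lt hk'1 _ (hF ⟨ℓ, hℓ⟩ g hg), hU ⟨ℓ, hℓ⟩ hp g hg]
      · have e := h.genT ⟨ℓ, hℓ⟩ hp k' g
        have e' : a (k' * ℓ) g = a k' (act (gen ⟨ℓ, hℓ⟩) g)
            - if ℓ ∣ k' then (ℓ : ℤ) * a (k' / ℓ) g else 0 := by
          rw [e]; simp
        rw [e', hs.mul_prime ℓ hℓ hp k' hk'1, Int.cast_sub, Int.cast_sub,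
          ih k' hk'lt hk'1 _ (hF ⟨ℓ, hℓ⟩ g hg), hT ⟨ℓ, hℓ⟩ hp g hg]
        split_ifs with hd
        · have h1' : 1 ≤ k' / ℓ := Nat.div_pos (Nat.le_of_dvd hk'1 hd) hℓ.pos
          have h2' : k' / ℓ < k' * ℓ := lt_of_le_of_lt (Nat.div_le_self _ _) hk'lt
          have := ih (k' / ℓ) h2' h1' g hg
          push_cast
          rw [this]
          ring
        · push_cast
          ring

/-- Left non-degeneracy of the pairing `(t, f) ↦ a₁(t f)`. -/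
theorem fm_IsCoeffDatum.left_nondeg (h : fm_IsCoeffDatum act a p gen) (t : 𝕋)
    (ht : ∀ f : L, a 1 (act t f) = 0) : t = 0 := by
  apply h.act_inj
  rw [map_zero]
  refine LinearMap.ext fun f => ?_
  rw [LinearMap.zero_apply]
  apply h.sep
  intro k hk
  refine h.engine0 (AddMonoidHom.id ℤ) (Set.range fun f : L => act t f) ?_ ?_ k hk _ ⟨f, rfl⟩
  · rintro ℓ _ ⟨f, rfl⟩
    refine ⟨act (gen ℓ) f, ?_⟩
    show act t (act (gen ℓ) f) = act (gen ℓ) (act t f)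
    rw [← Module.End.mul_apply, ← Module.End.mul_apply, ← map_mul, ← map_mul, mul_comm]
  · rintro _ ⟨f, rfl⟩
    exact ht f

/-- Right non-degeneracy of the pairing `(t, f) ↦ a₁(t f)`. -/
theorem fm_IsCoeffDatum.right_nondeg (h : fm_IsCoeffDatum act a p gen) (f : L)
    (hf : ∀ t : 𝕋, a 1 (act t f) = 0) : f = 0 := by
  apply h.sep
  intro k hk
  have := h.engine0 (AddMonoidHom.id ℤ) (Set.range fun t : 𝕋 => act t f) ?_ ?_ k hk f
    ⟨1, by simp⟩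
  · exact this
  · rintro ℓ _ ⟨t, rfl⟩
    refine ⟨gen ℓ * t, ?_⟩
    show act (gen ℓ * t) f = act (gen ℓ) (act t f)
    rw [map_mul, Module.End.mul_apply]
  · rintro _ ⟨t, rfl⟩
    exact hf t


/-- the pairing as a linear map `L → Hom(𝕋, ℤ)` -/
noncomputable def fm_pairL (act : 𝕋 →+* Module.End ℤ L) (a : ℕ → L →ₗ[ℤ] ℤ) :
    L →ₗ[ℤ] (𝕋 →ₗ[ℤ] ℤ) :=
  LinearMap.mk₂ ℤ (fun f t => a 1 (act t f))
    (fun f f' t => by simp) (fun c f t => by simp) (fun f t t' => by simp)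
    (fun c f t => by simp)

/-- the pairing as a linear map `𝕋 → Hom(L, ℤ)` -/
noncomputable def fm_pairT (act : 𝕋 →+* Module.End ℤ L) (a : ℕ → L →ₗ[ℤ] ℤ) :
    𝕋 →ₗ[ℤ] (L →ₗ[ℤ] ℤ) :=
  LinearMap.mk₂ ℤ (fun t f => a 1 (act t f))
    (fun t t' f => by simp) (fun c t f => by simp) (fun t f f' => by simp)
    (fun c t f => by simp)

theorem fm_pairL_apply (f : L) (t : 𝕋) : fm_pairL act a f t = a 1 (act t f) := rfl

theorem fm_pairT_apply (t : 𝕋) (f : L) : fm_pairT act a t f = a 1 (act t f) := rfl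

/-- Perfectness of the pairing: every `ℤ`-linear functional on `𝕋` is `t ↦ a₁(t f)`. -/
theorem fm_IsCoeffDatum.perfect [Module.Free ℤ L] [Module.Finite ℤ L] [Module.Free ℤ 𝕋]
    [Module.Finite ℤ 𝕋] (h : fm_IsCoeffDatum act a p gen) (φ : 𝕋 →ₗ[ℤ] ℤ) :
    ∃ f : L, ∀ t : 𝕋, a 1 (act t f) = φ t := by
  have hΦ : Function.Injective (fm_pairL act a) := by
    rw [injective_iff_map_eq_zero]
    intro f hf
    exact h.right_nondeg f (fun t => by
      have := LinearMap.congr_fun hf t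
      simpa [fm_pairL_apply] using this)
  have hΨ : Function.Injective (fm_pairT act a) := by
    rw [injective_iff_map_eq_zero]
    intro t ht
    exact h.left_nondeg t (fun f => by
      have := LinearMap.congr_fun ht f
      simpa [fm_pairT_apply] using this)
  have r1 : Module.finrank ℤ L ≤ Module.finrank ℤ 𝕋 := by
    have := LinearMap.finrank_le_finrank_of_injective hΦ
    rwa [Module.finrank_linearMap_self] at this
  have r2 : Module.finrank ℤ 𝕋 ≤ Module.finrank ℤ L := by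
    have := LinearMap.finrank_le_finrank_of_injective hΨ
    rwa [Module.finrank_linearMap_self] at this
  have hrk : Module.finrank ℤ (LinearMap.range (fm_pairL act a))
      = Module.finrank ℤ (𝕋 →ₗ[ℤ] ℤ) := by
    rw [LinearMap.finrank_range_of_inj hΦ, Module.finrank_linearMap_self]
    omega
  have hfin : Finite ((𝕋 →ₗ[ℤ] ℤ) ⧸ LinearMap.range (fm_pairL act a)) :=
    Submodule.finiteQuotientOfFreeOfRankEq _ hrk
  have hfin' : Finite ((𝕋 →ₗ[ℤ] ℤ) ⧸ (LinearMap.range (fm_pairL act a)).toAddSubgroup) := hfin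
  set D := (LinearMap.range (fm_pairL act a)).toAddSubgroup.index with hD
  have hD0 : D ≠ 0 := AddSubgroup.index_ne_zero_of_finite
  have hmem : D • φ ∈ LinearMap.range (fm_pairL act a) :=
    AddSubgroup.nsmul_index_mem (LinearMap.range (fm_pairL act a)).toAddSubgroup φ
  obtain ⟨f', hf'⟩ := hmem
  have e1 : ∀ t : 𝕋, a 1 (act t f') = (D : ℤ) * φ t := by
    intro t
    have := LinearMap.congr_fun hf' t
    rw [fm_pairL_apply] at this
    rw [this]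
    simp
  have hdiv : ∀ k : ℕ, 1 ≤ k → (D : ℤ) ∣ a k f' := by
    intro k hk
    have := h.engine0 (Int.castAddHom (ZMod D)) (Set.range fun t : 𝕋 => act t f') ?_ ?_ k hk f'
      ⟨1, by simp⟩
    · exact (ZMod.intCast_zmod_eq_zero_iff_dvd _ D).mp this
    · rintro ℓ _ ⟨t, rfl⟩
      refine ⟨gen ℓ * t, ?_⟩
      show act (gen ℓ * t) f' = act (gen ℓ) (act t f')
      rw [map_mul, Module.End.mul_apply]
    · rintro _ ⟨t, rfl⟩
      show ((a 1 (act t f') : ℤ) : ZMod D) = 0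
      rw [e1 t]
      simp
  obtain ⟨g, hg⟩ := h.sat D f' hD0 hdiv
  refine ⟨g, fun t => ?_⟩
  have e2 := e1 t
  rw [← hg, map_nsmul, map_nsmul, nsmul_eq_mul] at e2
  exact mul_left_cancel₀ (by exact_mod_cast hD0) e2

/-- Existence of a "mod `m` Eisenstein form": if `lam : 𝕋 → ZMod m` is a ring homomorphism taking
the Eisenstein values on the generators, there is `f ∈ L` with `a k f ≡ σ'(k) mod m` for all
`k ≥ 1` (for `m = 0` this is an equality in `ℤ`). -/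
theorem fm_IsCoeffDatum.exists_eisenstein [Module.Free ℤ L] [Module.Finite ℤ L] [Module.Free ℤ 𝕋]
    [Module.Finite ℤ 𝕋] (h : fm_IsCoeffDatum act a p gen) {s : ℕ → ℤ} (hs : fm_IsSigmaRec p s)
    (m : ℕ) (lam : 𝕋 →+* ZMod m)
    (hT : ∀ ℓ : Nat.Primes, (ℓ : ℕ) ≠ p → lam (gen ℓ) = 1 + ((ℓ : ℕ) : ZMod m))
    (hU : ∀ ℓ : Nat.Primes, (ℓ : ℕ) = p → lam (gen ℓ) = 1) :
    ∃ f : L, ∀ k : ℕ, 1 ≤ k → ((a k f : ℤ) : ZMod m) = ((s k : ℤ) : ZMod m) := by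
  obtain ⟨φ, hφ⟩ := Module.projective_lifting_property
    (Int.castAddHom (ZMod m)).toIntLinearMap lam.toAddMonoidHom.toIntLinearMap
    (ZMod.intCast_surjective)
  have hφ' : ∀ t : 𝕋, ((φ t : ℤ) : ZMod m) = lam t := fun t => LinearMap.congr_fun hφ t
  obtain ⟨f, hf⟩ := h.perfect φ
  have key : ∀ t : 𝕋, ((a 1 (act t f) : ℤ) : ZMod m) = lam t := fun t => by rw [hf t, hφ' t]
  refine ⟨f, fun k hk => ?_⟩
  have := h.engine hs (A := ZMod m) (Set.range fun t : 𝕋 => act t f) ?_ ?_ ?_ k hk f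
    ⟨1, by simp⟩
  · rw [this]
    have h1 := key 1
    rw [map_one, Module.End.one_apply, map_one] at h1
    rw [h1, mul_one]
  · rintro ℓ _ ⟨t, rfl⟩
    refine ⟨gen ℓ * t, ?_⟩
    show act (gen ℓ * t) f = act (gen ℓ) (act t f)
    rw [map_mul, Module.End.mul_apply]
  · rintro ℓ hℓ _ ⟨t, rfl⟩
    show ((a 1 (act (gen ℓ) (act t f)) : ℤ) : ZMod m) = _ * ((a 1 (act t f) : ℤ) : ZMod m)
    rw [← Module.End.mul_apply, ← map_mul, key, key, map_mul, hT ℓ hℓ]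
  · rintro ℓ hℓ _ ⟨t, rfl⟩
    show ((a 1 (act (gen ℓ) (act t f)) : ℤ) : ZMod m) = ((a 1 (act t f) : ℤ) : ZMod m)
    rw [← Module.End.mul_apply, ← map_mul, key, key, map_mul, hU ℓ hℓ, one_mul]

end

/-- A quotient `R ⧸ J` generated by the image of `ℤ` is `ZMod m` for a unique `m`. -/
theorem fm_exists_ringHom_zmod {R : Type*} [CommRing R] (J : Ideal R)
    (hsurj : ∀ x : R, ∃ z : ℤ, x - (z : R) ∈ J) :
    ∃ (m : ℕ) (lam : R →+* ZMod m), (∀ x ∈ J, lam x = 0) ∧ Nat.card (R ⧸ J) = m ∧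
      (∀ z : ℤ, (z : R) ∈ J ↔ (m : ℤ) ∣ z) := by
  set ψ : ℤ →+* R ⧸ J := Int.castRingHom (R ⧸ J) with hψ
  have hψs : Function.Surjective ψ := by
    intro y
    obtain ⟨x, rfl⟩ := Ideal.Quotient.mk_surjective y
    obtain ⟨z, hz⟩ := hsurj x
    refine ⟨z, ?_⟩
    rw [hψ, eq_intCast, ← map_intCast (Ideal.Quotient.mk J), eq_comm, Ideal.Quotient.eq]
    exact hz
  obtain ⟨m, hm⟩ : ∃ m : ℕ, RingHom.ker ψ = Ideal.span {(m : ℤ)} := by
    refine ⟨(Submodule.IsPrincipal.generator (RingHom.ker ψ)).natAbs, ?_⟩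
    rw [Int.span_natAbs, Ideal.span_singleton_generator]
  have hmem : ∀ z : ℤ, (z : R) ∈ J ↔ (m : ℤ) ∣ z := by
    intro z
    rw [← Ideal.mem_span_singleton, ← hm, RingHom.mem_ker, hψ, eq_intCast,
      ← map_intCast (Ideal.Quotient.mk J), Ideal.Quotient.eq_zero_iff_mem]
  let e1 : (ℤ ⧸ RingHom.ker ψ) ≃+* (R ⧸ J) := RingHom.quotientKerEquivOfSurjective hψs
  let e2 : (ℤ ⧸ RingHom.ker ψ) ≃+* (ℤ ⧸ Ideal.span {(m : ℤ)}) := Ideal.quotEquivOfEq hm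
  let e3 : (ℤ ⧸ Ideal.span {(m : ℤ)}) ≃+* ZMod m := Int.quotientSpanNatEquivZMod m
  let e : (R ⧸ J) ≃+* ZMod m := (e1.symm.trans e2).trans e3
  refine ⟨m, (e : (R ⧸ J) →+* ZMod m).comp (Ideal.Quotient.mk J), ?_, ?_, hmem⟩
  · intro x hx
    rw [RingHom.comp_apply, Ideal.Quotient.eq_zero_iff_mem.mpr hx, map_zero]
  · rw [Nat.card_congr e.toEquiv, Nat.card_zmod]

end Fermat.Agent.S16L
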