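/-
S16 formal package (helper2), concrete part: the lattice `intLattice p 2`, the Hecke ring
`heckeLatticeAlgebra p ∅`, the evaluation `fm_rho`, the coefficient functionals, and the reduction of
S16 to a lower bound (LB) and an upper bound (UB) statement.
-/
import Fermat.Prelude.Def_CuspForm_HeckeLocal
import Fermat.Prelude.Def_CuspForm_HeckeEvalForms
import Fermat.Prelude.Def_HeckeGalois_EichlerShimura
import Fermat.Prelude.Def_ModularCurve_ModularUnit
import Fermat.Agent.S49Aux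
import Fermat.Agent.S16L.FormalAbs

set_option autoImplicit false

open CuspForm ModularCurve CongruenceSubgroup ModularFormClass
open P2MW.S_CuspForm_intLattice_fg.W3WsD (mem_intLattice_iff qCoeff_zsmul)
open Fermat.Agent.S49Aux (qc_add qc_smul qc_T qc_U eq_zero_of_qc qc_zero_coeff)

namespace Fermat.Agent.S16L

variable (p : ℕ) [Fact p.Prime]

/-- the evaluation `HeckeAlg → 𝕋` of the S16 statement -/
noncomputable def fm_rho : HeckeAlg →+* ↥(heckeLatticeAlgebra p ∅) :=
  (latticeRestrictHom p ∅).toRingHom.comp (heckeEvalForms p 2)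

theorem fm_heckeEvalForms_surjective : Function.Surjective (heckeEvalForms p 2) := by
  rintro ⟨t, ht⟩
  induction ht using Algebra.adjoin_induction with
  | mem x hx =>
    rcases hx with ⟨ℓ, hℓ, hℓN, -, rfl⟩ | ⟨q, hqN, hq, -, rfl⟩
    · exact ⟨heckeGen ⟨ℓ, hℓ⟩, by
        rw [heckeEvalForms_heckeGen_of_not_dvd (ℓ := ⟨ℓ, hℓ⟩) hℓN]; rfl⟩
    · exact ⟨heckeGen ⟨q, hq⟩, by
        rw [heckeEvalForms_heckeGen_of_dvd (q := ⟨q, hq⟩) hqN]; rfl⟩
  | algebraMap r => exact ⟨MvPolynomial.C r, by rw [heckeEvalForms_C]; rfl⟩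
  | add x y hx hy ihx ihy =>
    obtain ⟨P, hP⟩ := ihx
    obtain ⟨Q, hQ⟩ := ihy
    exact ⟨P + Q, by rw [map_add, hP, hQ]; rfl⟩
  | mul x y hx hy ihx ihy =>
    obtain ⟨P, hP⟩ := ihx
    obtain ⟨Q, hQ⟩ := ihy
    exact ⟨P * Q, by rw [map_mul, hP, hQ]; rfl⟩

theorem fm_rho_surjective : Function.Surjective (fm_rho p) :=
  (latticeRestrictHom_surjective p ∅).comp (fm_heckeEvalForms_surjective p)

theorem fm_exists_coef (k : ℕ) (f : ↥(intLattice p 2)) :
    ∃ m : ℤ, qCoeff ⇑(f : CuspForm (Gamma0 p) 2) k = (m : ℂ) :=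
  (mem_intLattice_iff f.1).mp f.2 k

/-- the `k`-th q-coefficient of an element of the integral lattice, as an integer -/
noncomputable def fm_coefFun (k : ℕ) (f : ↥(intLattice p 2)) : ℤ := Classical.choose (fm_exists_coef p k f)

theorem fm_coefFun_spec (k : ℕ) (f : ↥(intLattice p 2)) :
    qCoeff ⇑(f : CuspForm (Gamma0 p) 2) k = (fm_coefFun p k f : ℂ) :=
  Classical.choose_spec (fm_exists_coef p k f)

/-- the `k`-th q-coefficient as a linear functional on the integral lattice -/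
noncomputable def fm_coef (k : ℕ) : ↥(intLattice p 2) →ₗ[ℤ] ℤ where
  toFun := fm_coefFun p k
  map_add' f g := by
    apply Int.cast_injective (α := ℂ)
    rw [Int.cast_add, ← fm_coefFun_spec, ← fm_coefFun_spec, ← fm_coefFun_spec, Submodule.coe_add, qc_add]
  map_smul' c f := by
    apply Int.cast_injective (α := ℂ)
    rw [RingHom.id_apply, smul_eq_mul, Int.cast_mul, ← fm_coefFun_spec, ← fm_coefFun_spec,
      Submodule.coe_smul, qCoeff_zsmul]

theorem fm_coef_spec (k : ℕ) (f : ↥(intLattice p 2)) :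
    ((fm_coef p k f : ℤ) : ℂ) = qCoeff ⇑(f : CuspForm (Gamma0 p) 2) k :=
  (fm_coefFun_spec p k f).symm

/-- the action of the Hecke ring on the lattice -/
noncomputable def fm_actHom : ↥(heckeLatticeAlgebra p ∅) →+* Module.End ℤ ↥(intLattice p 2) :=
  (heckeLatticeAlgebra p ∅).val.toRingHom

theorem fm_actHom_rho_coe (t : ↥(heckeAlgebra p 2 ∅)) (f : ↥(intLattice p 2)) :
    ((fm_actHom p (latticeRestrictHom p ∅ t) f : ↥(intLattice p 2)) : CuspForm (Gamma0 p) 2)
      = (t : Module.End ℂ (CuspForm (Gamma0 p) 2)) (f : CuspForm (Gamma0 p) 2) := rfl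

theorem fm_isCoeffDatum :
    fm_IsCoeffDatum (fm_actHom p) (fm_coef p) p (fun ℓ => fm_rho p (heckeGen ℓ)) where
  act_inj := Subtype.val_injective
  sep f hf := by
    apply Subtype.ext
    rw [Submodule.coe_zero]
    apply eq_zero_of_qc
    intro n
    rcases Nat.eq_zero_or_pos n with rfl | hn
    · exact qc_zero_coeff _
    · rw [← fm_coef_spec, hf n hn, Int.cast_zero]
  sat D f hD hdiv := by
    have hD' : (D : ℂ) ≠ 0 := Nat.cast_ne_zero.mpr hD
    have hg : ((D : ℂ)⁻¹ • (f : CuspForm (Gamma0 p) 2)) ∈ intLattice p 2 := by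
      rw [mem_intLattice_iff]
      intro n
      rcases Nat.eq_zero_or_pos n with rfl | hn
      · exact ⟨0, by rw [qc_zero_coeff]; simp⟩
      · obtain ⟨c, hc⟩ := hdiv n hn
        refine ⟨c, ?_⟩
        rw [qc_smul, ← fm_coef_spec, hc]
        push_cast
        field_simp
    refine ⟨⟨_, hg⟩, Subtype.ext ?_⟩
    rw [Submodule.coe_smul_of_tower, ← Nat.cast_smul_eq_nsmul ℂ, smul_smul, mul_inv_cancel₀ hD',
      one_smul]
  genT ℓ hℓ j f := by
    have hℓp : ¬ (ℓ : ℕ) ∣ p := fun hd =>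
      hℓ ((Nat.prime_dvd_prime_iff_eq ℓ.2 (Fact.out : p.Prime)).mp hd)
    apply Int.cast_injective (α := ℂ)
    have e : ((fm_actHom p (fm_rho p (heckeGen ℓ)) f : ↥(intLattice p 2)) : CuspForm (Gamma0 p) 2)
        = heckeTLin 2 ℓ.2 hℓp (f : CuspForm (Gamma0 p) 2) := by
      show ((fm_actHom p (latticeRestrictHom p ∅ (heckeEvalForms p 2 (heckeGen ℓ))) f :
        ↥(intLattice p 2)) : CuspForm (Gamma0 p) 2) = _
      rw [fm_actHom_rho_coe, heckeEvalForms_heckeGen_of_not_dvd hℓp, heckeAlgebra.coe_T]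
    rw [fm_coef_spec, e, qc_T]
    split_ifs with hd
    · push_cast
      rw [fm_coef_spec, fm_coef_spec]
    · push_cast
      rw [fm_coef_spec]
  genU ℓ hℓ j f := by
    have hℓp : (ℓ : ℕ) ∣ p := hℓ ▸ dvd_rfl
    apply Int.cast_injective (α := ℂ)
    have e : ((fm_actHom p (fm_rho p (heckeGen ℓ)) f : ↥(intLattice p 2)) : CuspForm (Gamma0 p) 2)
        = heckeULin 2 hℓp (f : CuspForm (Gamma0 p) 2) := by
      show ((fm_actHom p (latticeRestrictHom p ∅ (heckeEvalForms p 2 (heckeGen ℓ))) f :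
        ↥(intLattice p 2)) : CuspForm (Gamma0 p) 2) = _
      rw [fm_actHom_rho_coe, heckeEvalForms_heckeGen_of_dvd hℓp, heckeAlgebra.coe_U]
    rw [fm_coef_spec, e, qc_U hℓp ℓ.2.ne_zero, fm_coef_spec, hℓ]

end Fermat.Agent.S16L
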