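import Mathlib
import Fermat.Agent.S16L.Defs
import Fermat.Agent.S16L.FormalAbs

/-!
# S16L formal package: the recursion satisfied by `σ'(k) = sigmaP p k`
-/

set_option autoImplicit false

namespace Fermat.Agent.S16L

theorem fm_sig_union (p : ℕ) (hp : p.Prime) (ℓ : ℕ) (hℓ : ℓ.Prime) (hne : ℓ ≠ p) (k : ℕ)
    (hk : 1 ≤ k) :
    (k * ℓ).divisors.filter (fun d => ¬ p ∣ d) =
      k.divisors.filter (fun d => ¬ p ∣ d) ∪
        (k.divisors.filter (fun d => ¬ p ∣ d)).image (fun d => ℓ * d) := by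
  have hk0 : k ≠ 0 := by omega
  have hℓ0 : ℓ ≠ 0 := hℓ.ne_zero
  ext d
  simp only [Finset.mem_filter, Nat.mem_divisors, Finset.mem_union, Finset.mem_image]
  constructor
  · rintro ⟨⟨hd, -⟩, hpd⟩
    by_cases hld : ℓ ∣ d
    · obtain ⟨e, rfl⟩ := hld
      right
      refine ⟨e, ⟨⟨?_, hk0⟩, fun h => hpd (Dvd.dvd.mul_left h ℓ)⟩, rfl⟩
      rw [mul_comm k ℓ] at hd
      exact Nat.dvd_of_mul_dvd_mul_left hℓ.pos hd
    · left
      have hc : Nat.Coprime d ℓ := ((Nat.Prime.coprime_iff_not_dvd hℓ).2 hld).symm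
      exact ⟨⟨hc.dvd_of_dvd_mul_right hd, hk0⟩, hpd⟩
  · rintro (⟨⟨hd, -⟩, hpd⟩ | ⟨e, ⟨⟨he, -⟩, hpe⟩, rfl⟩)
    · exact ⟨⟨Dvd.dvd.mul_right hd ℓ, mul_ne_zero hk0 hℓ0⟩, hpd⟩
    · refine ⟨⟨?_, mul_ne_zero hk0 hℓ0⟩, ?_⟩
      · rw [mul_comm k ℓ]; exact Nat.mul_dvd_mul_left ℓ he
      · intro h
        rcases (Nat.Prime.dvd_mul hp).1 h with h | h
        · exact hne ((Nat.prime_dvd_prime_iff_eq hp hℓ).1 h).symm
        · exact hpe h

theorem fm_sig_inter (p : ℕ) (hp : p.Prime) (ℓ : ℕ) (hℓ : ℓ.Prime) (hne : ℓ ≠ p) (k : ℕ)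
    (hk : 1 ≤ k) :
    k.divisors.filter (fun d => ¬ p ∣ d) ∩
        (k.divisors.filter (fun d => ¬ p ∣ d)).image (fun d => ℓ * d) =
      if ℓ ∣ k then ((k / ℓ).divisors.filter (fun d => ¬ p ∣ d)).image (fun d => ℓ * d) else ∅ := by
  have hk0 : k ≠ 0 := by omega
  split_ifs with hlk
  · obtain ⟨m, rfl⟩ := hlk
    have hm0 : m ≠ 0 := fun h => hk0 (by rw [h, mul_zero])
    rw [Nat.mul_div_cancel_left m hℓ.pos]
    ext d
    simp only [Finset.mem_filter, Nat.mem_divisors, Finset.mem_inter, Finset.mem_image]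
    constructor
    · rintro ⟨⟨⟨hd, -⟩, hpd⟩, e, ⟨⟨he, -⟩, hpe⟩, rfl⟩
      exact ⟨e, ⟨⟨Nat.dvd_of_mul_dvd_mul_left hℓ.pos hd, hm0⟩, hpe⟩, rfl⟩
    · rintro ⟨e, ⟨⟨he, -⟩, hpe⟩, rfl⟩
      refine ⟨⟨⟨Nat.mul_dvd_mul_left ℓ he, hk0⟩, ?_⟩,
        e, ⟨⟨Dvd.dvd.mul_left he ℓ, hk0⟩, hpe⟩, rfl⟩
      intro h
      rcases (Nat.Prime.dvd_mul hp).1 h with h | h
      · exact hne ((Nat.prime_dvd_prime_iff_eq hp hℓ).1 h).symm
      · exact hpe h
  · ext d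
    simp only [Finset.mem_filter, Nat.mem_divisors, Finset.mem_inter, Finset.mem_image,
      Finset.notMem_empty, iff_false]
    rintro ⟨⟨⟨hd, -⟩, -⟩, e, -, rfl⟩
    exact hlk (dvd_trans (Dvd.intro e rfl) hd)

theorem fm_sig_nat (p : ℕ) (hp : p.Prime) (ℓ : ℕ) (hℓ : ℓ.Prime) (hne : ℓ ≠ p) (k : ℕ)
    (hk : 1 ≤ k) :
    sigmaP p (k * ℓ) + (if ℓ ∣ k then ℓ * sigmaP p (k / ℓ) else 0) =
      sigmaP p k + ℓ * sigmaP p k := by
  have hinj : Function.Injective (fun d : ℕ => ℓ * d) := fun a b h =>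
    Nat.eq_of_mul_eq_mul_left hℓ.pos h
  have himg : ∀ s : Finset ℕ, ∑ d ∈ s.image (fun d => ℓ * d), d = ℓ * ∑ d ∈ s, d := by
    intro s
    rw [Finset.sum_image (fun a _ b _ h => hinj h), Finset.mul_sum]
  unfold sigmaP
  have h := Finset.sum_union_inter (s₁ := k.divisors.filter (fun d => ¬ p ∣ d))
    (s₂ := (k.divisors.filter (fun d => ¬ p ∣ d)).image (fun d => ℓ * d)) (f := fun d => d)
  rw [← fm_sig_union p hp ℓ hℓ hne k hk, fm_sig_inter p hp ℓ hℓ hne k hk, himg] at h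
  rw [← h]
  congr 1
  split_ifs with hlk
  · rw [himg]
  · rfl

theorem fm_isSigmaRec_sigmaP (p : ℕ) (hp : p.Prime) :
    fm_IsSigmaRec p (fun k => (sigmaP p k : ℤ)) := by
  refine ⟨?_, ?_, ?_⟩
  · have : sigmaP p 1 = 1 := by
      unfold sigmaP
      rw [Nat.divisors_one, Finset.filter_singleton, if_pos (by simpa using hp.ne_one)]
      simp
    simp [this]
  · intro k hk
    have hk0 : k ≠ 0 := by omega
    have : sigmaP p (k * p) = sigmaP p k := by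
      unfold sigmaP
      congr 1
      ext d
      simp only [Finset.mem_filter, Nat.mem_divisors]
      constructor
      · rintro ⟨⟨hd, -⟩, hpd⟩
        have hc : Nat.Coprime d p := ((Nat.Prime.coprime_iff_not_dvd hp).2 hpd).symm
        exact ⟨⟨hc.dvd_of_dvd_mul_right hd, hk0⟩, hpd⟩
      · rintro ⟨⟨hd, -⟩, hpd⟩
        exact ⟨⟨Dvd.dvd.mul_right hd p, mul_ne_zero hk0 hp.ne_zero⟩, hpd⟩
    simp only [this]
  · intro ℓ hℓ hne k hk
    have h := fm_sig_nat p hp ℓ hℓ hne k hk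
    have h' : ((sigmaP p (k * ℓ) + (if ℓ ∣ k then ℓ * sigmaP p (k / ℓ) else 0) : ℕ) : ℤ) =
        ((sigmaP p k + ℓ * sigmaP p k : ℕ) : ℤ) := by rw [h]
    push_cast at h'
    linarith

end Fermat.Agent.S16L
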