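import Mathlib
import Fermat.Agent.S16L.Defs
import Fermat.Agent.S16L.FormalAbs
import Fermat.Agent.S16L.FormalHecke
import Fermat.Agent.S16L.FormalSigma
import Fermat.Agent.S23

/-!
# S16L: the formal reduction — plan §1 (F1–F5)
`#(𝕋/I) = n` follows from (LB) and (UB) by the duality `𝕋 × S₂(ℤ) → ℤ`, `(t, f) ↦ a₁(t f)`.
-/

set_option autoImplicit false

open ModularCurve CuspForm

namespace Fermat.Agent.S16L

theorem fm_eisensteinNumerator_pos (p : ℕ) (hp : p.Prime) : 0 < eisensteinNumerator p := by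
  unfold eisensteinNumerator
  have h1 : 0 < p - 1 := by have := hp.two_le; omega
  exact Nat.div_pos (Nat.le_of_dvd h1 (Nat.gcd_dvd_left _ _)) (Nat.gcd_pos_of_pos_left _ h1)

theorem fm_rho_C (p : ℕ) [Fact p.Prime] (z : ℤ) :
    fm_rho p (MvPolynomial.C z) = (z : ↥(heckeLatticeAlgebra p ∅)) := by
  rw [eq_intCast (MvPolynomial.C : ℤ →+* HeckeAlg) z, map_intCast]

theorem card_eq_of_lb_ub (p : ℕ) [Fact p.Prime]
    (hLB : ∀ P : ModularCurve.HeckeAlg, heckeEvalForms p 2 P = 0 →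
      (eisensteinNumerator p : ℤ) ∣ MvPolynomial.aeval (eisensteinSystem p) P)
    (hUB : ∀ M : ℕ, 0 < M → ∀ (f : CuspForm (CongruenceSubgroup.Gamma0 p) 2) (c : ℕ → ℤ),
      (∀ k, ModularFormClass.qCoeff (⇑f) k = (c k : ℂ)) →
      (∀ k, 1 ≤ k → (M : ℤ) ∣ c k - (sigmaP p k : ℤ)) → M ∣ eisensteinNumerator p) :
    Nat.card (↥(heckeLatticeAlgebra p ∅) ⧸
        Ideal.map ((latticeRestrictHom p ∅).toRingHom.comp (heckeEvalForms p 2))
          (eisensteinIdeal p)) =
      eisensteinNumerator p := by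
  have hpr : p.Prime := Fact.out
  have hn : 0 < eisensteinNumerator p := fm_eisensteinNumerator_pos p hpr
  have hint : HasIntegralStructure p 2 := Fermat.Agent.S23.result p
  change Nat.card (↥(heckeLatticeAlgebra p ∅) ⧸ Ideal.map (fm_rho p) (eisensteinIdeal p)) = _
  set J := Ideal.map (fm_rho p) (eisensteinIdeal p) with hJ
  -- elements of the form `ρ(P - C(ε P))` lie in `J`
  have hsub : ∀ P : HeckeAlg,
      fm_rho p P - ((MvPolynomial.aeval (eisensteinSystem p) P : ℤ) : ↥(heckeLatticeAlgebra p ∅))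
        ∈ J := by
    intro P
    rw [← fm_rho_C, ← map_sub]
    apply Ideal.mem_map_of_mem
    rw [eisensteinIdeal, mem_eigenIdeal_iff, map_sub, MvPolynomial.aeval_C]
    simp
  have hsurj : ∀ x : ↥(heckeLatticeAlgebra p ∅), ∃ z : ℤ, x - (z : ↥(heckeLatticeAlgebra p ∅)) ∈ J := by
    intro x
    obtain ⟨P, rfl⟩ := fm_rho_surjective p x
    exact ⟨_, hsub P⟩
  obtain ⟨m, lam, hlamJ, hcard, hmem⟩ := fm_exists_ringHom_zmod J hsurj
  rw [hcard]
  -- the lower bound
  have hLB' : eisensteinNumerator p ∣ m := by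
    have hmJ : ((m : ℤ) : ↥(heckeLatticeAlgebra p ∅)) ∈ J := (hmem m).mpr dvd_rfl
    rw [hJ, Ideal.mem_map_iff_of_surjective _ (fm_rho_surjective p)] at hmJ
    obtain ⟨Q, hQ, hQm⟩ := hmJ
    have h0 : fm_rho p (MvPolynomial.C (m : ℤ) - Q) = 0 := by
      rw [map_sub, fm_rho_C, hQm, sub_self]
    have h1 : heckeEvalForms p 2 (MvPolynomial.C (m : ℤ) - Q) = 0 :=
      (latticeRestrictHom_bijective p ∅ hint).1 (h0.trans (map_zero _).symm)
    have h2 := hLB _ h1
    rw [map_sub, MvPolynomial.aeval_C, (mem_eigenIdeal_iff _ _).mp hQ, sub_zero] at h2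
    exact Int.natCast_dvd_natCast.mp h2
  -- the upper bound
  have hlam : ∀ P : HeckeAlg,
      lam (fm_rho p P) = ((MvPolynomial.aeval (eisensteinSystem p) P : ℤ) : ZMod m) := by
    intro P
    have := hlamJ _ (hsub P)
    rw [map_sub, map_intCast, sub_eq_zero] at this
    exact this
  have := intLattice.moduleFinite p
  have := intLattice.moduleFree p
  obtain ⟨f, hf⟩ := (fm_isCoeffDatum p).exists_eisenstein (fm_isSigmaRec_sigmaP p hpr) m lam
    (fun ℓ hℓ => by
      have hℓp : ¬ (ℓ : ℕ) ∣ p := fun hd => hℓ ((Nat.prime_dvd_prime_iff_eq ℓ.2 hpr).mp hd)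
      rw [hlam, heckeGen, MvPolynomial.aeval_X, eisensteinSystem_of_not_dvd hℓp]
      push_cast
      rfl)
    (fun ℓ hℓ => by
      have hℓp : (ℓ : ℕ) ∣ p := hℓ ▸ dvd_rfl
      rw [hlam, heckeGen, MvPolynomial.aeval_X, eisensteinSystem_of_dvd hℓp]
      simp)
  have hf' : ∀ k : ℕ, 1 ≤ k → (m : ℤ) ∣ fm_coef p k f - (sigmaP p k : ℤ) := by
    intro k hk
    have := hf k hk
    rw [eq_comm, ZMod.intCast_eq_intCast_iff_dvd_sub] at this
    exact this
  have hc : ∀ k, ModularFormClass.qCoeff (⇑(f : CuspForm (CongruenceSubgroup.Gamma0 p) 2)) k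
      = ((fm_coef p k f : ℤ) : ℂ) := fun k => (fm_coef_spec p k f).symm
  have hUB' : m ∣ eisensteinNumerator p := by
    rcases Nat.eq_zero_or_pos m with hm0 | hmpos
    · exfalso
      have h2 := hUB (2 * eisensteinNumerator p) (by omega) f.1 (fun k => fm_coef p k f) hc
        (fun k hk => by
          have := hf' k hk
          rw [hm0] at this
          have h0 : fm_coef p k f - (sigmaP p k : ℤ) = 0 := by simpa using this
          rw [h0]
          exact dvd_zero _)
      have := Nat.le_of_dvd hn h2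
      omega
    · exact hUB m hmpos f.1 (fun k => fm_coef p k f) hc hf'
  exact Nat.dvd_antisymm hUB' hLB'

end Fermat.Agent.S16L
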