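/-
S16 (Mazur), package LB (lower bound), part 1: the character `λ : (ℤ/p)ˣ → ℤ/n`,
`n = (p-1)/gcd(p-1,12)`, and the Shimura character `χ(γ) = λ(d mod p)` on `Γ₀(p)`.
-/
import Mathlib
import Fermat.Prelude.Def_ModularCurve_ModularUnit

set_option autoImplicit false

noncomputable section

open ModularCurve CongruenceSubgroup
open scoped MatrixGroups

namespace Fermat.Agent.S16L

/-- Arithmetic core: if `p - 1 ∣ k * 12` then `n = (p-1)/gcd(p-1,12)` divides `k`. -/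
theorem lbLam_aux_dvd (p : ℕ) [Fact p.Prime] (k : ℤ) (h : ((p - 1 : ℕ) : ℤ) ∣ k * 12) :
    ((eisensteinNumerator p : ℕ) : ℤ) ∣ k := by
  have hp : 0 < p - 1 := Nat.sub_pos_of_lt (Fact.out : p.Prime).one_lt
  set d := Nat.gcd (p - 1) 12 with hd
  have hdpos : 0 < d := Nat.gcd_pos_of_pos_left _ hp
  have hcop : Nat.Coprime (eisensteinNumerator p) (12 / d) :=
    Nat.coprime_div_gcd_div_gcd hdpos
  have h1 : p - 1 = eisensteinNumerator p * d :=
    (Nat.div_mul_cancel (Nat.gcd_dvd_left _ _)).symm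
  have h2 : 12 = 12 / d * d := (Nat.div_mul_cancel (Nat.gcd_dvd_right _ _)).symm
  have hd0 : (d : ℤ) ≠ 0 := by exact_mod_cast hdpos.ne'
  have h3 : ((eisensteinNumerator p : ℕ) : ℤ) * (d : ℤ) ∣ (k * ((12 / d : ℕ) : ℤ)) * (d : ℤ) := by
    have e1 : ((p - 1 : ℕ) : ℤ) = ((eisensteinNumerator p : ℕ) : ℤ) * (d : ℤ) := by
      exact_mod_cast h1
    have e2 : (12 : ℤ) = ((12 / d : ℕ) : ℤ) * (d : ℤ) := by exact_mod_cast h2
    rw [e1] at h
    rw [mul_assoc, ← e2]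
    exact h
  have h4 : ((eisensteinNumerator p : ℕ) : ℤ) ∣ k * ((12 / d : ℕ) : ℤ) :=
    (mul_dvd_mul_iff_right hd0).1 h3
  exact (Nat.isCoprime_iff_coprime.mpr hcop).dvd_of_dvd_mul_right h4

/-- There is a surjective homomorphism `(ℤ/p)ˣ → ℤ/n` killing all elements of order dividing 12. -/
theorem lbLam_exists (p : ℕ) [Fact p.Prime] :
    ∃ lam : (ZMod p)ˣ → ZMod (eisensteinNumerator p),
      (∀ x y, lam (x * y) = lam x + lam y) ∧ Function.Surjective lam ∧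
      (∀ x : (ZMod p)ˣ, x ^ 12 = 1 → lam x = 0) := by
  obtain ⟨g, hg⟩ := IsCyclic.exists_generator (α := (ZMod p)ˣ)
  have hord : orderOf g = p - 1 := by
    rw [orderOf_eq_card_of_forall_mem_zpowers hg, Nat.card_eq_fintype_card, ZMod.card_units]
  have hex : ∀ x : (ZMod p)ˣ, ∃ k : ℤ, g ^ k = x := fun x => Subgroup.mem_zpowers_iff.1 (hg x)
  have hn : eisensteinNumerator p ∣ p - 1 := eisensteinNumerator_dvd p
  -- the value does not depend on the chosen exponent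
  have key : ∀ (x : (ZMod p)ˣ) (k : ℤ), g ^ k = x →
      (((hex x).choose : ℤ) : ZMod (eisensteinNumerator p)) = (k : ZMod (eisensteinNumerator p)) := by
    intro x k hk
    have h1 : g ^ (k - (hex x).choose) = 1 := by
      rw [zpow_sub, hk, (hex x).choose_spec, mul_inv_cancel]
    have h2 : ((p - 1 : ℕ) : ℤ) ∣ k - (hex x).choose := by
      rw [← hord]
      exact orderOf_dvd_iff_zpow_eq_one.2 h1
    rw [ZMod.intCast_eq_intCast_iff_dvd_sub]
    exact dvd_trans (Int.natCast_dvd_natCast.2 hn) h2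
  refine ⟨fun x => (((hex x).choose : ℤ) : ZMod (eisensteinNumerator p)), ?_, ?_, ?_⟩
  · intro x y
    have h := key (x * y) ((hex x).choose + (hex y).choose)
      (by rw [zpow_add, (hex x).choose_spec, (hex y).choose_spec])
    simp only [h, Int.cast_add]
  · intro z
    obtain ⟨k, rfl⟩ := ZMod.intCast_surjective z
    exact ⟨g ^ k, key (g ^ k) k rfl⟩
  · intro x hx
    obtain ⟨k, rfl⟩ := hex x
    have h := key (g ^ k) k rfl
    simp only [h]
    rw [ZMod.intCast_zmod_eq_zero_iff_dvd]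
    apply lbLam_aux_dvd
    rw [← hord]
    apply orderOf_dvd_iff_zpow_eq_one.2
    rw [zpow_mul]
    exact_mod_cast hx

/-- The character `λ : (ℤ/p)ˣ → ℤ/n`. -/
def lbLam (p : ℕ) [Fact p.Prime] : (ZMod p)ˣ → ZMod (eisensteinNumerator p) :=
  (lbLam_exists p).choose

theorem lbLam_mul (p : ℕ) [Fact p.Prime] (x y : (ZMod p)ˣ) :
    lbLam p (x * y) = lbLam p x + lbLam p y :=
  (lbLam_exists p).choose_spec.1 x y

theorem lbLam_surjective (p : ℕ) [Fact p.Prime] : Function.Surjective (lbLam p) :=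
  (lbLam_exists p).choose_spec.2.1

theorem lbLam_eq_zero_of_pow (p : ℕ) [Fact p.Prime] (x : (ZMod p)ˣ) (hx : x ^ 12 = 1) :
    lbLam p x = 0 :=
  (lbLam_exists p).choose_spec.2.2 x hx

open Classical in
/-- `λ` on integers: `λ(a mod p)` if `p ∤ a`, and `0` otherwise. -/
def lbLamZ (p : ℕ) [Fact p.Prime] (a : ℤ) : ZMod (eisensteinNumerator p) :=
  if h : IsUnit (a : ZMod p) then lbLam p h.unit else 0

theorem lbLam_one (p : ℕ) [Fact p.Prime] : lbLam p 1 = 0 := by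
  have h := lbLam_mul p 1 1
  rw [mul_one] at h
  exact left_eq_add.mp h

theorem lbLam_neg_one (p : ℕ) [Fact p.Prime] : lbLam p (-1) = 0 :=
  lbLam_eq_zero_of_pow p (-1) (by simp [Even.neg_pow (by decide : Even 12)])

theorem lbLam_inv (p : ℕ) [Fact p.Prime] (x : (ZMod p)ˣ) : lbLam p x⁻¹ = - lbLam p x := by
  have h := lbLam_mul p x⁻¹ x
  rw [inv_mul_cancel, lbLam_one] at h
  exact eq_neg_of_add_eq_zero_left h.symm

/-- If `a mod p` is the unit `u`, then `λ(a) = λ(u)`. -/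
theorem lbLamZ_eq_of_unit (p : ℕ) [Fact p.Prime] (a : ℤ) (u : (ZMod p)ˣ)
    (h : (a : ZMod p) = (u : ZMod p)) : lbLamZ p a = lbLam p u := by
  have hu : IsUnit (a : ZMod p) := h ▸ u.isUnit
  unfold lbLamZ
  rw [dif_pos hu]
  congr 1
  exact Units.ext (by rw [IsUnit.unit_spec, h])

theorem lbLamZ_eq_zero_of_not_isUnit (p : ℕ) [Fact p.Prime] (a : ℤ)
    (h : ¬ IsUnit (a : ZMod p)) : lbLamZ p a = 0 := by
  unfold lbLamZ
  rw [dif_neg h]

theorem lbLamZ_isUnit_of_not_dvd (p : ℕ) [Fact p.Prime] {a : ℤ} (ha : ¬ (p : ℤ) ∣ a) :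
    IsUnit (a : ZMod p) := by
  rw [isUnit_iff_ne_zero]
  intro h
  exact ha ((ZMod.intCast_zmod_eq_zero_iff_dvd a p).1 h)

theorem lbLamZ_one (p : ℕ) [Fact p.Prime] : lbLamZ p 1 = 0 := by
  rw [lbLamZ_eq_of_unit p 1 1 (by simp), lbLam_one]

theorem lbLamZ_neg (p : ℕ) [Fact p.Prime] (a : ℤ) : lbLamZ p (-a) = lbLamZ p a := by
  by_cases h : IsUnit (a : ZMod p)
  · rw [lbLamZ_eq_of_unit p a h.unit h.unit_spec.symm,
      lbLamZ_eq_of_unit p (-a) (-1 * h.unit) (by simp), lbLam_mul, lbLam_neg_one, zero_add]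
  · have h' : ¬ IsUnit (((-a : ℤ)) : ZMod p) := by
      rw [Int.cast_neg, IsUnit.neg_iff]
      exact h
    rw [lbLamZ_eq_zero_of_not_isUnit p a h, lbLamZ_eq_zero_of_not_isUnit p (-a) h']

/-- `λ` only depends on the residue class mod `p`. -/
theorem lbLamZ_congr (p : ℕ) [Fact p.Prime] {a b : ℤ} (h : (a : ZMod p) = (b : ZMod p)) :
    lbLamZ p a = lbLamZ p b := by
  by_cases hb : IsUnit (b : ZMod p)
  · rw [lbLamZ_eq_of_unit p b hb.unit hb.unit_spec.symm,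
      lbLamZ_eq_of_unit p a hb.unit (h.trans hb.unit_spec.symm)]
  · have ha : ¬ IsUnit (a : ZMod p) := by rw [h]; exact hb
    rw [lbLamZ_eq_zero_of_not_isUnit p a ha, lbLamZ_eq_zero_of_not_isUnit p b hb]

theorem lbLamZ_mul (p : ℕ) [Fact p.Prime] {a b : ℤ} (ha : ¬ (p : ℤ) ∣ a) (hb : ¬ (p : ℤ) ∣ b) :
    lbLamZ p (a * b) = lbLamZ p a + lbLamZ p b := by
  have hua := lbLamZ_isUnit_of_not_dvd p ha
  have hub := lbLamZ_isUnit_of_not_dvd p hb
  rw [lbLamZ_eq_of_unit p a hua.unit hua.unit_spec.symm,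
    lbLamZ_eq_of_unit p b hub.unit hub.unit_spec.symm,
    lbLamZ_eq_of_unit p (a * b) (hua.unit * hub.unit) (by simp), lbLam_mul]

/-- If `a b ≡ 1 mod p` then `λ(a) = -λ(b)`. -/
theorem lbLamZ_of_mul_eq_one (p : ℕ) [Fact p.Prime] {a b : ℤ}
    (h : ((a * b : ℤ) : ZMod p) = 1) : lbLamZ p a = - lbLamZ p b := by
  rw [Int.cast_mul] at h
  set u : (ZMod p)ˣ := Units.mkOfMulEqOne (a : ZMod p) (b : ZMod p) h with hu
  have h1 : (a : ZMod p) = (u : ZMod p) := rfl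
  have h2 : (b : ZMod p) = ((u⁻¹ : (ZMod p)ˣ) : ZMod p) := rfl
  rw [lbLamZ_eq_of_unit p a u h1, lbLamZ_eq_of_unit p b u⁻¹ h2, lbLam_inv, neg_neg]

/-- `λ(a) = 0` if `a^12 ≡ 1 mod p`. -/
theorem lbLamZ_eq_zero_of_pow (p : ℕ) [Fact p.Prime] {a : ℤ}
    (h : ((a ^ 12 : ℤ) : ZMod p) = 1) : lbLamZ p a = 0 := by
  rw [Int.cast_pow] at h
  have hu : IsUnit (a : ZMod p) := IsUnit.of_pow_eq_one h (by norm_num)
  rw [lbLamZ_eq_of_unit p a hu.unit hu.unit_spec.symm]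
  apply lbLam_eq_zero_of_pow
  exact Units.ext (by rw [Units.val_pow_eq_pow_val, IsUnit.unit_spec, h, Units.val_one])

/-- The Shimura character `χ(γ) = λ(d)` for `γ = !![a, b; c, d]`. -/
def lbChi (p : ℕ) [Fact p.Prime] (γ : SL(2, ℤ)) : ZMod (eisensteinNumerator p) :=
  lbLamZ p (γ.1 1 1)

/-- `χ` takes the value `1` on `Γ₀(p)`. -/
theorem lbChi_surj (p : ℕ) [Fact p.Prime] : ∃ γ : Gamma0 p, lbChi p (γ : SL(2, ℤ)) = 1 := by
  obtain ⟨u, hu⟩ := lbLam_surjective p 1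
  obtain ⟨d, hd⟩ := ZMod.intCast_surjective (u : ZMod p)
  obtain ⟨a, ha⟩ := ZMod.intCast_surjective ((u⁻¹ : (ZMod p)ˣ) : ZMod p)
  have h1 : ((a * d - 1 : ℤ) : ZMod p) = 0 := by
    rw [Int.cast_sub, Int.cast_mul, ha, hd, Units.inv_mul, Int.cast_one, sub_self]
  obtain ⟨b, hb⟩ := (ZMod.intCast_zmod_eq_zero_iff_dvd _ _).1 h1
  have hdet : Matrix.det !![a, b; (p : ℤ), d] = 1 := by
    rw [Matrix.det_fin_two_of]
    linarith
  refine ⟨⟨⟨!![a, b; (p : ℤ), d], hdet⟩, ?_⟩, ?_⟩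
  · rw [Gamma0_mem]
    simp
  · change lbLamZ p d = 1
    rw [lbLamZ_eq_of_unit p d u hd, hu]

end Fermat.Agent.S16L
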