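/-
S16 (Mazur), package LB: the predicate `LBGood p x k` — the period homomorphism of the pair of cusp
forms `x` is integer valued and congruent to `k · χ` modulo `n`.  No sorries here.
-/
import Mathlib
import Fermat.Prelude.Def_ModularCurve_PeriodHomPair
import Fermat.Agent.S16L.LBLam

set_option autoImplicit false

noncomputable section

open ModularCurve ModularCurve.Period CongruenceSubgroup
open scoped MatrixGroups

namespace Fermat.Agent.S16L

/-- The period homomorphism of `x = (f, g)` is `ℤ`-valued and `≡ k · χ mod n`. -/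
def LBGood (p : ℕ) [Fact p.Prime]
    (x : CuspForm (Gamma0 p) 2 × CuspForm (Gamma0 p) 2) (k : ZMod (eisensteinNumerator p)) : Prop :=
  ∀ γ : Gamma0 p, ∃ m : ℤ, periodHomPair p x (Additive.ofMul γ) = (m : ℂ) ∧
    ((m : ℤ) : ZMod (eisensteinNumerator p)) = k * lbChi p (γ : SL(2, ℤ))

end Fermat.Agent.S16L
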