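/-
S16 (Mazur), package LB, part 2 (pure combinatorics): lifting a mod-`n` Manin-type symbol on a finite
transitive `⟨s, u⟩`-set (`s² = 1`, `u³ = 1`) to an integral one.
-/
import Mathlib

set_option autoImplicit false

namespace Fermat.Agent.S16L

/-- Step 1: an antisymmetric integral lift. -/
theorem lbFlow_alpha {Q : Type*} [Finite Q] (s : Equiv.Perm Q) (hs : s * s = 1)
    (n : ℕ) [NeZero n] (abar : Q → ZMod n)
    (h1 : ∀ q, abar q + abar (s q) = 0) (h3 : ∀ q, s q = q → abar q = 0) :
    ∃ α : Q → ℤ, (∀ q, ((α q : ℤ) : ZMod n) = abar q) ∧ (∀ q, α q + α (s q) = 0) := by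
  classical
  have hss : ∀ q, s (s q) = q := by
    intro q
    have := congrArg (fun σ : Equiv.Perm Q => σ q) hs
    simpa using this
  obtain ⟨e, he⟩ : ∃ e : Q → ℕ, Function.Injective e :=
    ⟨fun q => (Finite.equivFin Q q : ℕ), fun a b h => (Finite.equivFin Q).injective (Fin.ext h)⟩
  obtain ⟨L, hL⟩ : ∃ L : Q → ℤ, ∀ q, ((L q : ℤ) : ZMod n) = abar q :=
    ⟨fun q => ((abar q).val : ℤ), fun q => by simp⟩
  refine ⟨fun q => if s q = q then 0 else if e q < e (s q) then L q else - L (s q), ?_, ?_⟩
  · intro q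
    by_cases hq : s q = q
    · simp only [hq, if_true]
      rw [h3 q hq]; simp
    · simp only [hq, if_false]
      by_cases hlt : e q < e (s q)
      · simp only [hlt, if_true]
        exact hL q
      · simp only [hlt, if_false]
        rw [Int.cast_neg, hL]
        exact (eq_neg_of_add_eq_zero_left (h1 q)).symm
  · intro q
    by_cases hq : s q = q
    · simp [hq]
    · have hq' : ¬ q = s q := fun h => hq h.symm
      have hne : e q ≠ e (s q) := fun h => hq' (he h)
      simp only [hss, hq, hq', if_false]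
      by_cases hlt : e q < e (s q)
      · have hlt' : ¬ e (s q) < e q := by omega
        simp [hlt, hlt']
      · have hlt' : e (s q) < e q := by omega
        simp [hlt, hlt']

/-- Step 2: an integral lift killed by the norm of `u`. -/
theorem lbFlow_beta {Q : Type*} [Finite Q] (u : Equiv.Perm Q) (hu : u ^ 3 = 1)
    (n : ℕ) [NeZero n] (abar : Q → ZMod n)
    (h2 : ∀ q, abar q + abar (u q) + abar (u (u q)) = 0) (h4 : ∀ q, u q = q → abar q = 0) :
    ∃ β : Q → ℤ, (∀ q, ((β q : ℤ) : ZMod n) = abar q) ∧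
      (∀ q, β q + β (u q) + β (u (u q)) = 0) := by
  classical
  have huuu : ∀ q, u (u (u q)) = q := by
    intro q
    have := congrArg (fun σ : Equiv.Perm Q => σ q) hu
    simpa [pow_succ, Equiv.Perm.mul_apply] using this
  obtain ⟨e, he⟩ : ∃ e : Q → ℕ, Function.Injective e :=
    ⟨fun q => (Finite.equivFin Q q : ℕ), fun a b h => (Finite.equivFin Q).injective (Fin.ext h)⟩
  obtain ⟨L, hL⟩ : ∃ L : Q → ℤ, ∀ q, ((L q : ℤ) : ZMod n) = abar q :=
    ⟨fun q => ((abar q).val : ℤ), fun q => by simp⟩
  refine ⟨fun q => if u q = q then 0 else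
    if e q < e (u q) ∧ e q < e (u (u q)) then L q else
    if e (u (u q)) < e q ∧ e (u (u q)) < e (u q) then L q else
      - L (u q) - L (u (u q)), ?_, ?_⟩
  · intro q
    by_cases hq : u q = q
    · simp only [hq, if_true]
      rw [h4 q hq]; simp
    · simp only [hq, if_false]
      split_ifs
      · exact hL q
      · exact hL q
      · rw [Int.cast_sub, Int.cast_neg, hL, hL]
        linear_combination - h2 q
  · intro q
    by_cases hq : u q = q
    · simp [hq]
    · have hq1 : ¬ u (u q) = u q := fun h => hq (u.injective h)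
      have hq2 : ¬ q = u (u q) := by
        intro h
        apply hq
        have := congrArg u h
        rw [huuu] at this
        exact this
      have hab : e q ≠ e (u q) := fun h => hq (he h).symm
      have hbc : e (u q) ≠ e (u (u q)) := fun h => hq1 (he h).symm
      have hac : e q ≠ e (u (u q)) := fun h => hq2 (he h)
      simp only [huuu, hq, hq1, hq2, if_false]
      split_ifs <;> omega

/-- The subgroup of functions of the form `x + y` with `x` antisymmetric under `s` and `y` killed
by the norm of `u`. -/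
def lbFlowSub {Q : Type*} (s u : Equiv.Perm Q) : AddSubgroup (Q → ℤ) where
  carrier := {d | ∃ x y : Q → ℤ, d = x + y ∧ (∀ q, x q + x (s q) = 0) ∧
    (∀ q, y q + y (u q) + y (u (u q)) = 0)}
  zero_mem' := ⟨0, 0, by simp, by simp, by simp⟩
  add_mem' := by
    rintro _ _ ⟨x, y, rfl, hx, hy⟩ ⟨x', y', rfl, hx', hy'⟩
    refine ⟨x + x', y + y', by abel, fun q => ?_, fun q => ?_⟩
    · simp only [Pi.add_apply]; linear_combination hx q + hx' q
    · simp only [Pi.add_apply]; linear_combination hy q + hy' q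
  neg_mem' := by
    rintro _ ⟨x, y, rfl, hx, hy⟩
    refine ⟨-x, -y, by abel, fun q => ?_, fun q => ?_⟩
    · simp only [Pi.neg_apply]; linear_combination - hx q
    · simp only [Pi.neg_apply]; linear_combination - hy q

/-- Step 4: a function of total sum zero is a sum of an `s`-antisymmetric function and a function
killed by the norm of `u`. -/
theorem lbFlow_decomp {Q : Type*} [Fintype Q] (s u : Equiv.Perm Q) (hs : s * s = 1)
    (hu : u ^ 3 = 1)
    (htrans : ∀ f : Q → Prop, (∀ q, f q → f (s q)) → (∀ q, f q → f (u q)) → ∀ q q', f q → f q')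
    (d : Q → ℤ) (hd : ∑ q, d q = 0) : d ∈ lbFlowSub s u := by
  classical
  have hss : ∀ q, s (s q) = q := by
    intro q
    have := congrArg (fun σ : Equiv.Perm Q => σ q) hs
    simpa using this
  have huuu : ∀ q, u (u (u q)) = q := by
    intro q
    have := congrArg (fun σ : Equiv.Perm Q => σ q) hu
    simpa [pow_succ, Equiv.Perm.mul_apply] using this
  have hS : ∀ q' : Q, (Pi.single q' 1 - Pi.single (s q') 1 : Q → ℤ) ∈ lbFlowSub s u := by
    intro q'
    refine ⟨_, 0, (add_zero _).symm, fun r => ?_, by simp⟩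
    have e1 : (s r = s q') ↔ r = q' := s.injective.eq_iff
    have e2 : (s r = q') ↔ r = s q' :=
      ⟨fun h => by rw [← h, hss], fun h => by rw [h, hss]⟩
    simp only [Pi.sub_apply, Pi.single_apply, e1, e2]
    ring
  have hU : ∀ q' : Q, (Pi.single q' 1 - Pi.single (u q') 1 : Q → ℤ) ∈ lbFlowSub s u := by
    intro q'
    refine ⟨0, _, (zero_add _).symm, by simp, fun r => ?_⟩
    have e1 : (u r = u q') ↔ r = q' := u.injective.eq_iff
    have e2 : (u (u r) = u q') ↔ u r = q' := u.injective.eq_iff
    have e3 : (u (u r) = q') ↔ r = u q' :=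
      ⟨fun h => by rw [← h, huuu], fun h => by rw [h, huuu]⟩
    simp only [Pi.sub_apply, Pi.single_apply, e1, e2, e3]
    ring
  have hpair : ∀ q q' : Q, (Pi.single q 1 - Pi.single q' 1 : Q → ℤ) ∈ lbFlowSub s u := by
    intro q q'
    refine htrans (fun q' => (Pi.single q 1 - Pi.single q' 1 : Q → ℤ) ∈ lbFlowSub s u)
      ?_ ?_ q q' ?_
    · intro r hr
      have := (lbFlowSub s u).add_mem hr (hS r)
      rwa [sub_add_sub_cancel] at this
    · intro r hr
      have := (lbFlowSub s u).add_mem hr (hU r)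
      rwa [sub_add_sub_cancel] at this
    · change (Pi.single q 1 - Pi.single q 1 : Q → ℤ) ∈ lbFlowSub s u
      rw [sub_self]
      exact (lbFlowSub s u).zero_mem
  rcases isEmpty_or_nonempty Q with hQ | ⟨⟨q0⟩⟩
  · have : d = 0 := Subsingleton.elim _ _
    rw [this]
    exact (lbFlowSub s u).zero_mem
  · have hd' : d = ∑ q, d q • (Pi.single q 1 - Pi.single q0 1 : Q → ℤ) := by
      funext r
      simp only [Finset.sum_apply, Pi.smul_apply, Pi.sub_apply, Pi.single_apply, smul_eq_mul,
        mul_sub, Finset.sum_sub_distrib, mul_ite, mul_one, mul_zero, Finset.sum_ite_eq,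
        Finset.mem_univ, if_true]
      by_cases hr : r = q0
      · simp only [hr, if_true, hd, sub_zero]
      · simp only [hr, if_false, Finset.sum_const_zero, sub_zero]
    rw [hd']
    exact (lbFlowSub s u).sum_mem fun q _ => (lbFlowSub s u).zsmul_mem (hpair q q0) _

/-- **Integral lifting lemma.**  Let `s`, `u` be permutations of a finite set `Q` with `s² = 1`,
`u³ = 1`, generating a transitive group.  A function `abar : Q → ℤ/n` with `abar + abar ∘ s = 0`,
`abar + abar ∘ u + abar ∘ u² = 0`, vanishing at the fixed points of `s` and of `u`, lifts to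
`a : Q → ℤ` satisfying the same two relations. -/
theorem lb_flow_lift {Q : Type*} [Finite Q] (s u : Equiv.Perm Q) (hs : s * s = 1) (hu : u ^ 3 = 1)
    (htrans : ∀ f : Q → Prop, (∀ q, f q → f (s q)) → (∀ q, f q → f (u q)) → ∀ q q', f q → f q')
    (n : ℕ) [NeZero n] (abar : Q → ZMod n)
    (h1 : ∀ q, abar q + abar (s q) = 0)
    (h2 : ∀ q, abar q + abar (u q) + abar (u (u q)) = 0)
    (h3 : ∀ q, s q = q → abar q = 0) (h4 : ∀ q, u q = q → abar q = 0) :
    ∃ a : Q → ℤ, (∀ q, ((a q : ℤ) : ZMod n) = abar q) ∧ (∀ q, a q + a (s q) = 0) ∧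
      (∀ q, a q + a (u q) + a (u (u q)) = 0) := by
  classical
  have : Fintype Q := Fintype.ofFinite Q
  have hn : (n : ℤ) ≠ 0 := by exact_mod_cast NeZero.ne n
  obtain ⟨α, hα, hαs⟩ := lbFlow_alpha s hs n abar h1 h3
  obtain ⟨β, hβ, hβu⟩ := lbFlow_beta u hu n abar h2 h4
  have hdvd : ∀ q, ∃ c : ℤ, α q - β q = (n : ℤ) * c := by
    intro q
    have h : ((α q - β q : ℤ) : ZMod n) = 0 := by
      rw [Int.cast_sub, hα, hβ, sub_self]
    exact (ZMod.intCast_zmod_eq_zero_iff_dvd _ n).1 h
  choose δ hδ using hdvd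
  have hsumα : ∑ q, α q = 0 := by
    have e1 : ∑ q, α (s q) = ∑ q, α q := Equiv.sum_comp s α
    have e2 : ∑ q, (α q + α (s q)) = 0 := Finset.sum_eq_zero fun q _ => hαs q
    rw [Finset.sum_add_distrib, e1] at e2
    omega
  have hsumβ : ∑ q, β q = 0 := by
    have e1 : ∑ q, β (u q) = ∑ q, β q := Equiv.sum_comp u β
    have e1' : ∑ q, β (u (u q)) = ∑ q, β q :=
      (Equiv.sum_comp u (fun q => β (u q))).trans e1
    have e2 : ∑ q, (β q + β (u q) + β (u (u q))) = 0 := Finset.sum_eq_zero fun q _ => hβu q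
    rw [Finset.sum_add_distrib, Finset.sum_add_distrib, e1, e1'] at e2
    omega
  have hsumδ : ∑ q, δ q = 0 := by
    have e : ∑ q, (α q - β q) = (n : ℤ) * ∑ q, δ q := by
      rw [Finset.mul_sum]
      exact Finset.sum_congr rfl fun q _ => hδ q
    rw [Finset.sum_sub_distrib, hsumα, hsumβ, sub_zero] at e
    rcases mul_eq_zero.1 e.symm with h | h
    · exact absurd h hn
    · exact h
  obtain ⟨x, y, hxy, hx, hy⟩ := lbFlow_decomp s u hs hu htrans δ hsumδ
  have hδ' : ∀ q, α q = β q + (n : ℤ) * (x q + y q) := by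
    intro q
    have := hδ q
    rw [hxy] at this
    simp only [Pi.add_apply] at this
    linarith
  refine ⟨fun q => α q - (n : ℤ) * x q, fun q => ?_, fun q => ?_, fun q => ?_⟩
  · simp [hα]
  · linear_combination hαs q - (n : ℤ) * hx q
  · linear_combination hδ' q + hδ' (u q) + hδ' (u (u q)) + hβu q + (n : ℤ) * hy q

end Fermat.Agent.S16L
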