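/-
S16 (Mazur), package LB, part 3: the explicit mod-`n` cocycle `K : SL(2,ℤ) → (Q → ℤ/n)` attached to
the Shimura character, `Q = SL(2,ℤ) ⧸ Γ₀(p)`.
-/
import Mathlib
import Fermat.Agent.S21L.QAction
import Fermat.Agent.S16L.LBLam

set_option autoImplicit false

noncomputable section

open ModularCurve CongruenceSubgroup Fermat.Agent.S21L
open scoped MatrixGroups

namespace Fermat.Agent.S16L

/-! ### Matrix entry bookkeeping -/

theorem lbKCo_mul_00 (x y : SL(2, ℤ)) :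
    (x * y).1 0 0 = x.1 0 0 * y.1 0 0 + x.1 0 1 * y.1 1 0 := by
  rw [Matrix.SpecialLinearGroup.coe_mul, Matrix.mul_apply, Fin.sum_univ_two]

theorem lbKCo_mul_10 (x y : SL(2, ℤ)) :
    (x * y).1 1 0 = x.1 1 0 * y.1 0 0 + x.1 1 1 * y.1 1 0 := by
  rw [Matrix.SpecialLinearGroup.coe_mul, Matrix.mul_apply, Fin.sum_univ_two]

theorem lbKCo_inv_00 (x : SL(2, ℤ)) : (x⁻¹).1 0 0 = x.1 1 1 := by
  rw [Matrix.SpecialLinearGroup.coe_inv, Matrix.adjugate_fin_two]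
  simp

theorem lbKCo_inv_01 (x : SL(2, ℤ)) : (x⁻¹).1 0 1 = - x.1 0 1 := by
  rw [Matrix.SpecialLinearGroup.coe_inv, Matrix.adjugate_fin_two]
  simp

theorem lbKCo_inv_10 (x : SL(2, ℤ)) : (x⁻¹).1 1 0 = - x.1 1 0 := by
  rw [Matrix.SpecialLinearGroup.coe_inv, Matrix.adjugate_fin_two]
  simp

theorem lbKCo_inv_11 (x : SL(2, ℤ)) : (x⁻¹).1 1 1 = x.1 0 0 := by
  rw [Matrix.SpecialLinearGroup.coe_inv, Matrix.adjugate_fin_two]
  simp

theorem lbKCo_det (x : SL(2, ℤ)) : x.1 0 0 * x.1 1 1 - x.1 0 1 * x.1 1 0 = 1 := by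
  have h := x.det_coe
  rwa [Matrix.det_fin_two] at h

theorem lbKCo_det_cast (p : ℕ) (x : SL(2, ℤ)) :
    ((x.1 0 0 : ℤ) : ZMod p) * ((x.1 1 1 : ℤ) : ZMod p)
      - ((x.1 0 1 : ℤ) : ZMod p) * ((x.1 1 0 : ℤ) : ZMod p) = 1 := by
  have h := congrArg (Int.cast : ℤ → ZMod p) (lbKCo_det x)
  push_cast at h
  exact h

theorem lbKCo_dvd_iff (p : ℕ) (a : ℤ) : (p : ℤ) ∣ a ↔ ((a : ℤ) : ZMod p) = 0 :=
  (ZMod.intCast_zmod_eq_zero_iff_dvd a p).symm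

/-- Not both entries of the first column vanish mod `p`. -/
theorem lbKCo_col_ne (p : ℕ) [Fact p.Prime] (x : SL(2, ℤ))
    (h : ((x.1 1 0 : ℤ) : ZMod p) = 0) : ((x.1 0 0 : ℤ) : ZMod p) ≠ 0 := by
  intro h0
  have hd := lbKCo_det_cast p x
  rw [h, h0] at hd
  simp at hd

theorem lbKCo_col_ne' (p : ℕ) [Fact p.Prime] (x : SL(2, ℤ))
    (h : ((x.1 0 0 : ℤ) : ZMod p) = 0) : ((x.1 1 0 : ℤ) : ZMod p) ≠ 0 := by
  intro h0
  have hd := lbKCo_det_cast p x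
  rw [h, h0] at hd
  simp at hd

/-! ### The function `κ` on first columns -/

open Classical in
/-- `κ` as a function of the first column `(a, c)`. -/
def lbKap (p : ℕ) [Fact p.Prime] (a c : ℤ) : ZMod (eisensteinNumerator p) :=
  if ((c : ℤ) : ZMod p) = 0 then - lbLamZ p a else - lbLamZ p c

theorem lbKap_congr (p : ℕ) [Fact p.Prime] {a a' c c' : ℤ}
    (ha : ((a : ℤ) : ZMod p) = (a' : ZMod p)) (hc : ((c : ℤ) : ZMod p) = (c' : ZMod p)) :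
    lbKap p a c = lbKap p a' c' := by
  unfold lbKap
  rw [hc, lbLamZ_congr p ha, lbLamZ_congr p hc]

theorem lbKap_mul (p : ℕ) [Fact p.Prime] {a c u : ℤ} (hu : ((u : ℤ) : ZMod p) ≠ 0)
    (hac : ((c : ℤ) : ZMod p) = 0 → ((a : ℤ) : ZMod p) ≠ 0) :
    lbKap p (a * u) (c * u) = lbKap p a c - lbLamZ p u := by
  unfold lbKap
  have hu' : ¬ (p : ℤ) ∣ u := by rwa [lbKCo_dvd_iff]
  by_cases hc : ((c : ℤ) : ZMod p) = 0
  · have hcu : (((c * u : ℤ)) : ZMod p) = 0 := by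
      push_cast
      rw [hc, zero_mul]
    have ha' : ¬ (p : ℤ) ∣ a := by
      rw [lbKCo_dvd_iff]
      exact hac hc
    rw [if_pos hcu, if_pos hc, lbLamZ_mul p ha' hu']
    ring
  · have hcu : ¬ (((c * u : ℤ)) : ZMod p) = 0 := by
      push_cast
      exact mul_ne_zero hc hu
    have hc' : ¬ (p : ℤ) ∣ c := by rwa [lbKCo_dvd_iff]
    rw [if_neg hcu, if_neg hc, lbLamZ_mul p hc' hu']
    ring

theorem lbKap_neg (p : ℕ) [Fact p.Prime] (a c : ℤ) : lbKap p (-a) (-c) = lbKap p a c := by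
  unfold lbKap
  have h : (((-c : ℤ)) : ZMod p) = 0 ↔ ((c : ℤ) : ZMod p) = 0 := by
    push_cast
    exact neg_eq_zero
  simp only [h, lbLamZ_neg]

/-- `λ(a) = λ(c)` as soon as `a ^ 12 ≡ c ^ 12 ≢ 0`. -/
theorem lbKCo_lam_eq_of_pow (p : ℕ) [Fact p.Prime] {a c : ℤ} (hc : ((c : ℤ) : ZMod p) ≠ 0)
    (h : ((a : ℤ) : ZMod p) ^ 12 = ((c : ℤ) : ZMod p) ^ 12) : lbLamZ p a = lbLamZ p c := by
  obtain ⟨c', hc'⟩ := ZMod.intCast_surjective (((c : ℤ) : ZMod p)⁻¹)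
  have ha : ((a : ℤ) : ZMod p) ≠ 0 := by
    intro h0
    rw [h0, zero_pow (by norm_num)] at h
    exact hc (pow_eq_zero_iff (by norm_num) |>.mp h.symm)
  have hc'0 : ((c' : ℤ) : ZMod p) ≠ 0 := by
    rw [hc']
    exact inv_ne_zero hc
  have h1 : (((c * c' : ℤ)) : ZMod p) = 1 := by
    push_cast
    rw [hc', mul_inv_cancel₀ hc]
  have h2 : ((((a * c') ^ 12 : ℤ)) : ZMod p) = 1 := by
    push_cast
    rw [hc', mul_pow, h, ← mul_pow, mul_inv_cancel₀ hc, one_pow]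
  have h3 := lbLamZ_eq_zero_of_pow p h2
  rw [lbLamZ_mul p (by rwa [lbKCo_dvd_iff]) (by rwa [lbKCo_dvd_iff])] at h3
  rw [lbLamZ_of_mul_eq_one p h1]
  exact eq_neg_of_add_eq_zero_left h3

/-! ### The function `κ` on `SL(2,ℤ)` -/

/-- `κ(x) = -λ(c)` if `p ∤ c` and `-λ(a)` otherwise, for the first column `(a, c)` of `x`. -/
def lbKappa (p : ℕ) [Fact p.Prime] (x : SL(2, ℤ)) : ZMod (eisensteinNumerator p) :=
  lbKap p (x.1 0 0) (x.1 1 0)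

theorem lbKappa_mul_of_mem (p : ℕ) [Fact p.Prime] (x γ : SL(2, ℤ)) (hγ : γ ∈ Gamma0 p) :
    lbKappa p (x * γ) = lbKappa p x + lbChi p γ := by
  have hc' : ((γ.1 1 0 : ℤ) : ZMod p) = 0 := Gamma0_mem.mp hγ
  have hdet := lbKCo_det_cast p γ
  rw [hc', mul_zero, sub_zero] at hdet
  have had : (((γ.1 0 0 * γ.1 1 1 : ℤ)) : ZMod p) = 1 := by
    push_cast
    exact hdet
  have ha' : ((γ.1 0 0 : ℤ) : ZMod p) ≠ 0 := by
    intro h0
    rw [h0, zero_mul] at hdet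
    exact zero_ne_one hdet
  unfold lbKappa lbChi
  rw [lbKCo_mul_00, lbKCo_mul_10,
    lbKap_congr p (a' := x.1 0 0 * γ.1 0 0) (c' := x.1 1 0 * γ.1 0 0)
      (by push_cast; rw [hc']; ring) (by push_cast; rw [hc']; ring),
    lbKap_mul p ha' (lbKCo_col_ne p x), lbLamZ_of_mul_eq_one p had]
  ring

theorem lbKappa_one (p : ℕ) [Fact p.Prime] : lbKappa p 1 = 0 := by
  unfold lbKappa lbKap
  simp [lbLamZ_one]

/-- `κ(-x) = κ(x)`. -/
theorem lbKappa_neg_one_mul (p : ℕ) [Fact p.Prime] (x : SL(2, ℤ)) :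
    lbKappa p ((-1 : SL(2, ℤ))⁻¹ * x) = lbKappa p x := by
  unfold lbKappa
  have h00 : (((-1 : SL(2, ℤ))⁻¹ * x)).1 0 0 = - x.1 0 0 := by
    rw [lbKCo_mul_00, lbKCo_inv_00, lbKCo_inv_01]
    simp
  have h10 : (((-1 : SL(2, ℤ))⁻¹ * x)).1 1 0 = - x.1 1 0 := by
    rw [lbKCo_mul_10, lbKCo_inv_10, lbKCo_inv_11]
    simp
  rw [h00, h10, lbKap_neg]

theorem lbKappa_T_inv_mul (p : ℕ) [Fact p.Prime] (x : SL(2, ℤ)) :
    lbKappa p ((ModularGroup.T : SL(2, ℤ))⁻¹ * x) = lbKappa p x := by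
  unfold lbKappa
  have h00 : ((ModularGroup.T : SL(2, ℤ))⁻¹ * x).1 0 0 = x.1 0 0 - x.1 1 0 := by
    rw [lbKCo_mul_00, ModularGroup.coe_T_inv]
    simp
    ring
  have h10 : ((ModularGroup.T : SL(2, ℤ))⁻¹ * x).1 1 0 = x.1 1 0 := by
    rw [lbKCo_mul_10, ModularGroup.coe_T_inv]
    simp
  rw [h00, h10]
  unfold lbKap
  by_cases hc : ((x.1 1 0 : ℤ) : ZMod p) = 0
  · rw [if_pos hc, if_pos hc]
    congr 1
    apply lbLamZ_congr
    push_cast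
    rw [hc, sub_zero]
  · rw [if_neg hc, if_neg hc]

theorem lbKappa_S_inv_mul (p : ℕ) [Fact p.Prime] (x : SL(2, ℤ)) :
    lbKappa p ((ModularGroup.S : SL(2, ℤ))⁻¹ * x) = lbKap p (x.1 1 0) (- x.1 0 0) := by
  unfold lbKappa
  have h00 : ((ModularGroup.S : SL(2, ℤ))⁻¹ * x).1 0 0 = x.1 1 0 := by
    rw [lbKCo_mul_00, lbKCo_inv_00, lbKCo_inv_01, ModularGroup.coe_S]
    simp
  have h10 : ((ModularGroup.S : SL(2, ℤ))⁻¹ * x).1 1 0 = - x.1 0 0 := by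
    rw [lbKCo_mul_10, lbKCo_inv_10, lbKCo_inv_11, ModularGroup.coe_S]
    simp
  rw [h00, h10]

/-- If `a ^ 12 ≡ c ^ 12 mod p` for the first column `(a, c)` of `x`, then `κ(x) = κ(S⁻¹ x)`. -/
theorem lbKappa_S_of_pow (p : ℕ) [Fact p.Prime] (x : SL(2, ℤ))
    (h : ((x.1 0 0 : ℤ) : ZMod p) ^ 12 = ((x.1 1 0 : ℤ) : ZMod p) ^ 12) :
    lbKappa p x - lbKappa p ((ModularGroup.S : SL(2, ℤ))⁻¹ * x) = 0 := by
  have hc : ((x.1 1 0 : ℤ) : ZMod p) ≠ 0 := by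
    intro h0
    have ha := lbKCo_col_ne p x h0
    rw [h0, zero_pow (by norm_num)] at h
    exact ha (pow_eq_zero_iff (by norm_num) |>.mp h)
  have ha : ((x.1 0 0 : ℤ) : ZMod p) ≠ 0 := by
    intro h0
    rw [h0, zero_pow (by norm_num)] at h
    exact hc (pow_eq_zero_iff (by norm_num) |>.mp h.symm)
  have hna : ¬ (((- x.1 0 0 : ℤ)) : ZMod p) = 0 := by
    push_cast
    rwa [neg_eq_zero]
  rw [lbKappa_S_inv_mul]
  unfold lbKappa lbKap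
  rw [if_neg hc, if_neg hna, lbLamZ_neg, lbKCo_lam_eq_of_pow p hc h]
  ring

/-! ### The cocycle -/

theorem lbKCo_wd (p : ℕ) [Fact p.Prime] (g x γ : SL(2, ℤ)) (hγ : γ ∈ Gamma0 p) :
    lbKappa p x - lbKappa p (g⁻¹ * x) = lbKappa p (x * γ) - lbKappa p (g⁻¹ * (x * γ)) := by
  rw [← mul_assoc, lbKappa_mul_of_mem p _ _ hγ, lbKappa_mul_of_mem p _ _ hγ]
  ring

/-- `K g (x Γ₀(p)) = κ(x) - κ(g⁻¹ x)`. -/
def lbKfun (p : ℕ) [Fact p.Prime] (g : SL(2, ℤ)) (q : QN p) : ZMod (eisensteinNumerator p) :=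
  Quotient.liftOn' q (fun x => lbKappa p x - lbKappa p (g⁻¹ * x)) (by
    intro x y h
    rw [QuotientGroup.leftRel_apply] at h
    have hy : x * (x⁻¹ * y) = y := by group
    have h2 := lbKCo_wd p g x _ h
    rw [hy] at h2
    exact h2)

theorem lbKfun_mk (p : ℕ) [Fact p.Prime] (g x : SL(2, ℤ)) :
    lbKfun p g (QuotientGroup.mk x : QN p) = lbKappa p x - lbKappa p (g⁻¹ * x) := rfl

theorem lbKCo_smul_mk (p : ℕ) (g x : SL(2, ℤ)) :
    g • (QuotientGroup.mk x : QN p) = QuotientGroup.mk (g * x) := rfl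

theorem lbKfun_S_fixed (p : ℕ) [Fact p.Prime] (x : SL(2, ℤ))
    (hfix : (ModularGroup.S : SL(2, ℤ)) • (QuotientGroup.mk x : QN p) = QuotientGroup.mk x) :
    lbKfun p ModularGroup.S (QuotientGroup.mk x : QN p) = 0 := by
  rw [lbKfun_mk]
  apply lbKappa_S_of_pow
  rw [lbKCo_smul_mk, eq_comm, QuotientGroup.eq] at hfix
  have hmem : (((x⁻¹ * (ModularGroup.S * x) : SL(2, ℤ)).1 1 0 : ℤ) : ZMod p) = 0 :=
    Gamma0_mem.mp hfix
  have hent : (x⁻¹ * (ModularGroup.S * x) : SL(2, ℤ)).1 1 0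
      = x.1 0 0 ^ 2 + x.1 1 0 ^ 2 := by
    rw [lbKCo_mul_10, lbKCo_mul_00, lbKCo_mul_10, lbKCo_inv_10, lbKCo_inv_11, ModularGroup.coe_S]
    simp
    ring
  rw [hent] at hmem
  push_cast at hmem
  have h2 : ((x.1 0 0 : ℤ) : ZMod p) ^ 2 = - ((x.1 1 0 : ℤ) : ZMod p) ^ 2 :=
    eq_neg_of_add_eq_zero_left hmem
  calc ((x.1 0 0 : ℤ) : ZMod p) ^ 12 = (((x.1 0 0 : ℤ) : ZMod p) ^ 2) ^ 6 := by ring
    _ = ((x.1 1 0 : ℤ) : ZMod p) ^ 12 := by rw [h2]; ring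

theorem lbKfun_U_fixed (p : ℕ) [Fact p.Prime] (x : SL(2, ℤ))
    (hfix : (ModularGroup.S * ModularGroup.T : SL(2, ℤ)) • (QuotientGroup.mk x : QN p)
      = QuotientGroup.mk x) :
    lbKfun p ModularGroup.S (QuotientGroup.mk x : QN p) = 0 := by
  rw [lbKfun_mk]
  apply lbKappa_S_of_pow
  rw [lbKCo_smul_mk, eq_comm, QuotientGroup.eq] at hfix
  have hmem : (((x⁻¹ * (ModularGroup.S * ModularGroup.T * x) : SL(2, ℤ)).1 1 0 : ℤ) : ZMod p)
      = 0 := Gamma0_mem.mp hfix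
  have hent : (x⁻¹ * (ModularGroup.S * ModularGroup.T * x) : SL(2, ℤ)).1 1 0
      = x.1 0 0 ^ 2 + x.1 0 0 * x.1 1 0 + x.1 1 0 ^ 2 := by
    rw [lbKCo_mul_10, lbKCo_mul_00, lbKCo_mul_10, lbKCo_inv_10, lbKCo_inv_11,
      Matrix.SpecialLinearGroup.coe_mul, ModularGroup.coe_S, ModularGroup.coe_T]
    simp
    ring
  rw [hent] at hmem
  push_cast at hmem
  have h3 : ((x.1 0 0 : ℤ) : ZMod p) ^ 3 = ((x.1 1 0 : ℤ) : ZMod p) ^ 3 := by
    have : ((x.1 0 0 : ℤ) : ZMod p) ^ 3 - ((x.1 1 0 : ℤ) : ZMod p) ^ 3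
        = (((x.1 0 0 : ℤ) : ZMod p) - ((x.1 1 0 : ℤ) : ZMod p))
          * (((x.1 0 0 : ℤ) : ZMod p) ^ 2 + ((x.1 0 0 : ℤ) : ZMod p) * ((x.1 1 0 : ℤ) : ZMod p)
            + ((x.1 1 0 : ℤ) : ZMod p) ^ 2) := by ring
    rw [hmem, mul_zero] at this
    exact sub_eq_zero.mp this
  calc ((x.1 0 0 : ℤ) : ZMod p) ^ 12 = (((x.1 0 0 : ℤ) : ZMod p) ^ 3) ^ 4 := by ring
    _ = ((x.1 1 0 : ℤ) : ZMod p) ^ 12 := by rw [h3]; ring

/-- The explicit cocycle of the Shimura character.  With `κ(x) = -λ(c)` if `p ∤ c` and `-λ(a)`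
otherwise (for the first column `(a, c)` of `x`), put `K g (x Γ₀(p)) = κ(x) - κ(g⁻¹ x)`. -/
theorem lbK_exists (p : ℕ) [Fact p.Prime] :
    ∃ K : SL(2, ℤ) → QN p → ZMod (eisensteinNumerator p),
      (∀ g g' q, K (g * g') q = K g q + K g' (g⁻¹ • q)) ∧
      (∀ q, K (-1) q = 0) ∧
      (∀ q, K ModularGroup.T q = 0) ∧
      (∀ q, sPerm p q = q → K ModularGroup.S q = 0) ∧
      (∀ q, (tPerm p * sPerm p) q = q → K ModularGroup.S q = 0) ∧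
      (∀ γ : Gamma0 p, K (γ : SL(2, ℤ)) (QuotientGroup.mk 1) = lbChi p (γ : SL(2, ℤ))) := by
  refine ⟨lbKfun p, ?_, ?_, ?_, ?_, ?_, ?_⟩
  · intro g g' q
    induction q using QuotientGroup.induction_on with
    | H x =>
      rw [lbKCo_smul_mk, lbKfun_mk, lbKfun_mk, lbKfun_mk, mul_inv_rev, mul_assoc]
      ring
  · intro q
    induction q using QuotientGroup.induction_on with
    | H x => rw [lbKfun_mk, lbKappa_neg_one_mul, sub_self]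
  · intro q
    induction q using QuotientGroup.induction_on with
    | H x => rw [lbKfun_mk, lbKappa_T_inv_mul, sub_self]
  · intro q hq
    rw [fixed_sPerm_iff] at hq
    induction q using QuotientGroup.induction_on with
    | H x => exact lbKfun_S_fixed p x hq
  · intro q hq
    rw [fixed_uPerm_iff] at hq
    induction q using QuotientGroup.induction_on with
    | H x => exact lbKfun_U_fixed p x hq
  · intro γ
    have hmem : ((γ : SL(2, ℤ)))⁻¹ ∈ Gamma0 p := inv_mem γ.2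
    have h1 := lbKappa_mul_of_mem p 1 _ hmem
    rw [one_mul, lbKappa_one, zero_add] at h1
    rw [lbKfun_mk, mul_one, h1, lbKappa_one, zero_sub]
    unfold lbChi
    rw [lbKCo_inv_11]
    have hc' : (((γ : SL(2, ℤ)).1 1 0 : ℤ) : ZMod p) = 0 := Gamma0_mem.mp γ.2
    have hdet := lbKCo_det_cast p (γ : SL(2, ℤ))
    rw [hc', mul_zero, sub_zero] at hdet
    have had : ((((γ : SL(2, ℤ)).1 0 0 * (γ : SL(2, ℤ)).1 1 1 : ℤ)) : ZMod p) = 1 := by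
      push_cast
      exact hdet
    rw [lbLamZ_of_mul_eq_one p had, neg_neg]

end Fermat.Agent.S16L
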