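/-
S16 (Mazur), package LB, part 4: realisation of integral cocycle data by integral parabolic
homomorphisms (the dimension count from S21 + S20 replaces the presentation of `SL(2,ℤ)`).
-/
import Mathlib
import Fermat.Agent.S21

set_option autoImplicit false

noncomputable section

open ModularCurve ModularCurve.Period CongruenceSubgroup Fermat.Agent.S21L
open scoped MatrixGroups

namespace Fermat.Agent.S16L

/-! ### The cocycle map plus coboundaries is onto the space of cocycle data -/

/-- `(φ, v) ↦ cocycle(φ) + coboundary(v)` -/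
def lbRealize_Psi (N : ℕ) :
    (parabolicHoms ℂ (Gamma0 N) ℂ × (QN N → ℂ)) →ₗ[ℂ] ((QN N → ℂ) × (QN N → ℂ)) :=
  (cocycleMap N).coprod (cobdryLin (sPerm N) (tPerm N))

theorem lbRealize_Psi_apply (N : ℕ) (φ : parabolicHoms ℂ (Gamma0 N) ℂ) (v : QN N → ℂ) :
    lbRealize_Psi N (φ, v) = cocycleMap N φ + cobdry (sPerm N) (tPerm N) v := rfl

theorem lbRealize_range_le (N : ℕ) [NeZero N] :
    LinearMap.range (lbRealize_Psi N) ≤ Zspace (sPerm N) (tPerm N) N := by
  rintro _ ⟨⟨φ, v⟩, rfl⟩
  rw [lbRealize_Psi_apply]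
  exact (Zspace (sPerm N) (tPerm N) N).add_mem (cocycleMap_mem N φ)
    (cobdry_mem_Zspace (sPerm N) (tPerm N) N (sPerm_mul_self N) (tPerm_mul_sPerm_pow N)
      (tPerm_pow N) v)

theorem lbRealize_finrank_ker_le (N : ℕ) [NeZero N] :
    Module.finrank ℂ (LinearMap.ker (lbRealize_Psi N)) ≤ 1 := by
  have hfd := finiteDimensional_parabolicHoms N
  have hker : LinearMap.ker (lbRealize_Psi N) ≤
      Submodule.span ℂ {((0 : parabolicHoms ℂ (Gamma0 N) ℂ), (fun _ => (1 : ℂ) : QN N → ℂ))} := by
    rintro ⟨φ, v⟩ hx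
    have hx' : cocycleMap N φ + cobdry (sPerm N) (tPerm N) v = 0 := hx
    have h1 : cocycleMap N φ = cobdry (sPerm N) (tPerm N) (-v) := by
      have h0 : cocycleMap N φ = -cobdry (sPerm N) (tPerm N) v := eq_neg_of_add_eq_zero_left hx'
      rw [h0]
      ext q <;> simp [cobdry] <;> ring
    have hφ : φ = 0 := cocycleMap_injective N φ (-v) h1
    subst hφ
    have h2 : cobdry (sPerm N) (tPerm N) v = 0 := by
      rw [map_zero, zero_add] at hx'
      exact hx'
    have hs : ∀ q, v (sPerm N q) = v q := fun q => by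
      have := congrFun (congrArg Prod.fst h2) q
      simpa [cobdry, sub_eq_zero] using this
    have ht : ∀ q, v (tPerm N q) = v q := fun q => by
      have := congrFun (congrArg Prod.snd h2) q
      simpa [cobdry, sub_eq_zero] using this
    have hc := const_of_sPerm_tPerm N v hs ht
    rw [Submodule.mem_span_singleton]
    refine ⟨v (QuotientGroup.mk 1), ?_⟩
    ext q
    · simp
    · simp [hc q (QuotientGroup.mk 1)]
  refine (Submodule.finrank_mono hker).trans ?_
  exact (finrank_span_le_card _).trans (by simp)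

/-- the dimension of the space of parabolic homomorphisms is `2 g` (S21 + S20) -/
theorem lbRealize_finrank_parabolicHoms (N : ℕ) [NeZero N] :
    (Module.finrank ℂ (parabolicHoms ℂ (Gamma0 N) ℂ) : ℚ) = 2 * genusFormula N := by
  obtain ⟨hinj, hrange⟩ := Fermat.Agent.S21.result N
  have hfd := finiteDimensional_parabolicHoms N
  let L : (CuspForm (Gamma0 N) 2 × CuspForm (Gamma0 N) 2) →ₗ[ℂ] parabolicHoms ℂ (Gamma0 N) ℂ :=
    LinearMap.codRestrict _ (periodHomPair N) (fun x => by rw [← hrange]; exact ⟨x, rfl⟩)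
  have hLinj : Function.Injective L := fun x y hxy => hinj (congrArg Subtype.val hxy)
  have hfd2 : FiniteDimensional ℂ (CuspForm (Gamma0 N) 2 × CuspForm (Gamma0 N) 2) :=
    FiniteDimensional.of_injective L hLinj
  have hfd1 : FiniteDimensional ℂ (CuspForm (Gamma0 N) 2) :=
    FiniteDimensional.of_injective (LinearMap.inl ℂ _ (CuspForm (Gamma0 N) 2))
      LinearMap.inl_injective
  have hdim1 : Module.finrank ℂ (LinearMap.range (periodHomPair N))
      = 2 * Module.finrank ℂ (CuspForm (Gamma0 N) 2) := by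
    rw [LinearMap.finrank_range_of_inj hinj, Module.finrank_prod, two_mul]
  rw [hrange] at hdim1
  rw [hdim1]
  push_cast
  rw [Fermat.Agent.S20.result N]

/-- every cocycle datum is the cocycle of a parabolic homomorphism plus a coboundary -/
theorem lbRealize_surj (N : ℕ) [NeZero N] :
    Zspace (sPerm N) (tPerm N) N ≤ LinearMap.range (lbRealize_Psi N) := by
  have hfd := finiteDimensional_parabolicHoms N
  have hle := lbRealize_range_le N
  have hfin : Finite (QN N) := inferInstance
  have hne : Nonempty (QN N) := ⟨QuotientGroup.mk 1⟩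
  have h2 := finrank_Zspace_le (sPerm N) (tPerm N) N (NeZero.pos N) (sPerm_mul_self N)
    (tPerm_mul_sPerm_pow N) (tPerm_pow N) (const_of_sPerm_tPerm N)
  have h3 := two_mul_finrank_fixedSpace (sPerm N) (sPerm_mul_self N)
  have h4 := three_mul_finrank_fixedSpace (tPerm N * sPerm N) (tPerm_mul_sPerm_pow N)
  have h5 := finrank_fixedSpace_eq_card_quotient (tPerm N)
    (MulAction.orbitRel (Subgroup.zpowers (ModularGroup.T : SL(2, ℤ))) (QN N))
    (orbitRel_T_iff N)
  have e1 : Nat.card {q : QN N // sPerm N q = q} = nuTwo N := by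
    rw [← Fermat.Agent.X0Count.card_fixed_S N]
    exact Nat.card_congr (Equiv.subtypeEquivRight (fixed_sPerm_iff N))
  have e2 : Nat.card {q : QN N // (tPerm N * sPerm N) q = q} = nuThree N := by
    rw [← Fermat.Agent.X0Count.card_fixed_ST N]
    exact Nat.card_congr (Equiv.subtypeEquivRight (fixed_uPerm_iff N))
  have e3 : Nat.card (Quotient (MulAction.orbitRel (Subgroup.zpowers (ModularGroup.T : SL(2, ℤ)))
      (QN N))) = cuspCount N := Fermat.Agent.X0Count.card_orbits_T N
  have e4 : Nat.card (QN N) = dedekindPsi N := Fermat.Agent.X0Count.card_quotient_Gamma0 N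
  rw [e1, e4] at h3
  rw [e2, e4] at h4
  rw [e3] at h5
  rw [e4, h5] at h2
  have h2' : (Module.finrank ℂ (Zspace (sPerm N) (tPerm N) N) : ℚ)
      + Module.finrank ℂ (fixedSpace (sPerm N)) + cuspCount N
      + Module.finrank ℂ (fixedSpace (tPerm N * sPerm N)) ≤ 2 * dedekindPsi N + 1 := by
    exact_mod_cast h2
  have h3' : 2 * (Module.finrank ℂ (fixedSpace (sPerm N)) : ℚ) = dedekindPsi N + nuTwo N := by
    exact_mod_cast h3
  have h4' : 3 * (Module.finrank ℂ (fixedSpace (tPerm N * sPerm N)) : ℚ)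
      = dedekindPsi N + 2 * nuThree N := by exact_mod_cast h4
  have hPH := lbRealize_finrank_parabolicHoms N
  -- rank–nullity for `Ψ`
  have h6 := LinearMap.finrank_range_add_finrank_ker (lbRealize_Psi N)
  have h7 := lbRealize_finrank_ker_le N
  have h8 : Module.finrank ℂ (parabolicHoms ℂ (Gamma0 N) ℂ × (QN N → ℂ))
      = Module.finrank ℂ (parabolicHoms ℂ (Gamma0 N) ℂ) + Nat.card (QN N) := by
    have : Fintype (QN N) := Fintype.ofFinite _
    rw [Module.finrank_prod, Module.finrank_pi_fintype]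
    simp [Nat.card_eq_fintype_card]
  rw [e4] at h8
  have h9 : (Module.finrank ℂ (LinearMap.range (lbRealize_Psi N)) : ℚ)
      + Module.finrank ℂ (LinearMap.ker (lbRealize_Psi N))
      = Module.finrank ℂ (parabolicHoms ℂ (Gamma0 N) ℂ) + dedekindPsi N := by
    have h6' := h6
    rw [h8] at h6'
    exact_mod_cast h6'
  have h7' : (Module.finrank ℂ (LinearMap.ker (lbRealize_Psi N)) : ℚ) ≤ 1 := by exact_mod_cast h7
  have hfinle : Module.finrank ℂ (Zspace (sPerm N) (tPerm N) N)
      ≤ Module.finrank ℂ (LinearMap.range (lbRealize_Psi N)) := by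
    have : (Module.finrank ℂ (Zspace (sPerm N) (tPerm N) N) : ℚ)
        ≤ Module.finrank ℂ (LinearMap.range (lbRealize_Psi N)) := by
      unfold genusFormula at hPH
      linarith
    exact_mod_cast this
  have hfdZ : FiniteDimensional ℂ ((QN N → ℂ) × (QN N → ℂ)) := by
    have : Fintype (QN N) := Fintype.ofFinite _
    infer_instance
  exact (Submodule.eq_of_le_of_finrank_le hle hfinle).ge

/-! ### The realisation -/

/-- **Realisation.**  Every integral Manin-type symbol `a` on `Q` (`a + a∘s = 0`,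
`a + a∘u + a∘u² = 0`) is the value at `S` of an integer valued cocycle `c` on `SL(2,ℤ)` with
`c(T) = 0`, and `γ ↦ c(γ)(q₀)` is (the restriction to `Γ₀(N)` of) a parabolic homomorphism. -/
theorem lb_realize (N : ℕ) [NeZero N] (a : QN N → ℤ)
    (h1 : ∀ q, a q + a (sPerm N q) = 0)
    (h2 : ∀ q, a q + a ((tPerm N * sPerm N) q)
      + a ((tPerm N * sPerm N) ((tPerm N * sPerm N) q)) = 0) :
    ∃ (φ : parabolicHoms ℂ (Gamma0 N) ℂ) (c : SL(2, ℤ) → QN N → ℤ),
      (∀ g g' q, c (g * g') q = c g q + c g' (g⁻¹ • q)) ∧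
      (∀ q, c ModularGroup.S q = a q) ∧ (∀ q, c ModularGroup.T q = 0) ∧
      (∀ γ : Gamma0 N, (φ : Additive (Gamma0 N) →+ ℂ) (Additive.ofMul γ)
        = ((c (γ : SL(2, ℤ)) (QuotientGroup.mk 1) : ℤ) : ℂ)) := by
  -- the datum `(a, 0)` satisfies the cocycle relations
  have hmem : (((fun q => ((a q : ℤ) : ℂ)), (fun _ => (0 : ℂ))) : (QN N → ℂ) × (QN N → ℂ))
      ∈ Zspace (sPerm N) (tPerm N) N := by
    rw [mem_Zspace]
    refine ⟨fun q => ?_, fun q => ?_, fun q => ?_⟩
    · show ((a q : ℤ) : ℂ) + ((a (sPerm N q) : ℤ) : ℂ) = 0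
      exact_mod_cast h1 q
    · simp
    · show (((a q : ℤ) : ℂ) + 0) + (((a (tPerm N (sPerm N q)) : ℤ) : ℂ) + 0)
        + (((a (tPerm N (sPerm N (tPerm N (sPerm N q)))) : ℤ) : ℂ) + 0) = 0
      have := h2 q
      simp only [Equiv.Perm.mul_apply] at this
      rw [add_zero, add_zero, add_zero]
      exact_mod_cast this
  obtain ⟨⟨φ, v⟩, hφv⟩ := lbRealize_surj N hmem
  rw [lbRealize_Psi_apply] at hφv
  have hS : ∀ q, cocycleC N φ.1 ModularGroup.S q
      + (v ((ModularGroup.S : SL(2, ℤ))⁻¹ • q) - v q) = ((a q : ℤ) : ℂ) :=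
    fun q => congrFun (congrArg Prod.fst hφv) q
  have hT : ∀ q, cocycleC N φ.1 ModularGroup.T q
      + (v ((ModularGroup.T : SL(2, ℤ))⁻¹ • q) - v q) = 0 :=
    fun q => congrFun (congrArg Prod.snd hφv) q
  -- the complex cocycle
  set c' : SL(2, ℤ) → QN N → ℂ := fun g q => cocycleC N φ.1 g q + (v (g⁻¹ • q) - v q) with hc'
  have hc'mul : ∀ g g' q, c' (g * g') q = c' g q + c' g' (g⁻¹ • q) := by
    intro g g' q
    simp only [hc']
    rw [cocycleC_mul, mul_inv_rev, mul_smul]
    ring
  have hc'one : ∀ q, c' 1 q = 0 := by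
    intro q
    simp only [hc']
    rw [cocycleC_one, inv_one, one_smul]
    ring
  have hc'inv : ∀ g q, c' g⁻¹ q = - c' g (g • q) := by
    intro g q
    have h := hc'mul g g⁻¹ (g • q)
    rw [mul_inv_cancel, hc'one, inv_smul_smul] at h
    linear_combination -h
  -- integrality
  have hint : ∀ g : SL(2, ℤ), ∀ q, ∃ m : ℤ, (m : ℂ) = c' g q := by
    intro g
    have hg : g ∈ Subgroup.closure ({ModularGroup.S, ModularGroup.T} : Set SL(2, ℤ)) := by
      rw [SpecialLinearGroup.SL2Z_generators]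
      exact Subgroup.mem_top g
    induction hg using Subgroup.closure_induction with
    | mem x hx =>
      rcases hx with rfl | rfl
      · exact fun q => ⟨a q, (hS q).symm⟩
      · exact fun q => ⟨0, by rw [Int.cast_zero]; exact (hT q).symm⟩
    | one =>
      exact fun q => ⟨0, by rw [Int.cast_zero, hc'one]⟩
    | mul x y _ _ hx hy =>
      intro q
      obtain ⟨m, hm⟩ := hx q
      obtain ⟨m', hm'⟩ := hy (x⁻¹ • q)
      exact ⟨m + m', by rw [hc'mul, ← hm, ← hm']; push_cast; ring⟩
    | inv x _ hx =>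
      intro q
      obtain ⟨m, hm⟩ := hx (x • q)
      exact ⟨-m, by rw [hc'inv, ← hm]; push_cast; ring⟩
  choose c hc using hint
  refine ⟨φ, c, fun g g' q => ?_, fun q => ?_, fun q => ?_, fun γ => ?_⟩
  · have : ((c (g * g') q : ℤ) : ℂ) = ((c g q + c g' (g⁻¹ • q) : ℤ) : ℂ) := by
      push_cast
      rw [hc, hc, hc, hc'mul]
    exact_mod_cast this
  · have : ((c ModularGroup.S q : ℤ) : ℂ) = ((a q : ℤ) : ℂ) := by
      rw [hc]; exact hS q
    exact_mod_cast this
  · have : ((c ModularGroup.T q : ℤ) : ℂ) = ((0 : ℤ) : ℂ) := by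
      rw [hc, Int.cast_zero]; exact hT q
    exact_mod_cast this
  · rw [hc]
    have hfix : (γ : SL(2, ℤ))⁻¹ • (QuotientGroup.mk 1 : QN N) = QuotientGroup.mk 1 := by
      rw [MulAction.Quotient.smul_mk, smul_eq_mul, mul_one, QuotientGroup.eq, inv_inv, mul_one]
      exact γ.2
    have heta : cocycleEta N (γ : SL(2, ℤ)) (QuotientGroup.mk 1 : QN N) = γ := by
      unfold cocycleEta
      rw [hfix, cocycleSec_one]
      simp
    have hcoc : cocycleC N φ.1 (γ : SL(2, ℤ)) (QuotientGroup.mk 1 : QN N)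
        = φ.1 (Additive.ofMul γ) := by
      unfold cocycleC
      congr 2
      exact Subtype.ext heta
    simp only [hc']
    rw [hfix, sub_self, add_zero, hcoc]

end Fermat.Agent.S16L
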