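/-
S16 (Mazur), package LB, part 5: the integral parabolic lift of the Shimura character.
-/
import Mathlib
import Fermat.Agent.S21
import Fermat.Agent.S16L.LBLam
import Fermat.Agent.S16L.LBFlow
import Fermat.Agent.S16L.LBKCocycle
import Fermat.Agent.S16L.LBGood
import Fermat.Agent.S16L.LBRealize

set_option autoImplicit false

noncomputable section

open ModularCurve ModularCurve.Period CongruenceSubgroup Fermat.Agent.S21L
open scoped MatrixGroups

namespace Fermat.Agent.S16L

theorem lbLift_sPerm_sPerm (N : ℕ) (q : QN N) : sPerm N (sPerm N q) = q := by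
  have := congrArg (fun σ : Equiv.Perm (QN N) => σ q) (sPerm_mul_self N)
  simpa using this

theorem lbLift_uPerm_cube (N : ℕ) (q : QN N) :
    (tPerm N * sPerm N) ((tPerm N * sPerm N) ((tPerm N * sPerm N) q)) = q := by
  have := congrArg (fun σ : Equiv.Perm (QN N) => σ q) (tPerm_mul_sPerm_pow N)
  simpa [pow_succ] using this

/-- Transitivity of `⟨S, U⟩` on `Q`, in the form needed by `lb_flow_lift`. -/
theorem lbRealize_trans (N : ℕ) (f : QN N → Prop) (hs : ∀ q, f q → f (sPerm N q))
    (hu : ∀ q, f q → f ((tPerm N * sPerm N) q)) : ∀ q q', f q → f q' := by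
  have ht : ∀ q, f q → f (tPerm N q) := by
    intro q hq
    have h1 := hu _ (hs q hq)
    rwa [Equiv.Perm.mul_apply, lbLift_sPerm_sPerm] at h1
  have hS' : ∀ q : QN N, (ModularGroup.S : SL(2, ℤ)) • q = sPerm N q := by
    intro q
    have h := lbLift_sPerm_sPerm N ((ModularGroup.S : SL(2, ℤ)) • q)
    rw [sPerm_apply N ((ModularGroup.S : SL(2, ℤ)) • q), inv_smul_smul] at h
    exact h.symm
  have hT' : ∀ q : QN N, (ModularGroup.T : SL(2, ℤ)) • q
      = sPerm N ((tPerm N * sPerm N) ((tPerm N * sPerm N) q)) := by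
    intro q
    have h := lbLift_uPerm_cube N q
    rw [Equiv.Perm.mul_apply (tPerm N) (sPerm N)
      ((tPerm N * sPerm N) ((tPerm N * sPerm N) q)), tPerm_apply] at h
    rw [← h, smul_inv_smul]
    rw [h]
  let G : Subgroup SL(2, ℤ) :=
    { carrier := {g | ∀ q, (f q → f (g • q)) ∧ (f q → f (g⁻¹ • q))}
      one_mem' := fun q => by simp
      mul_mem' := fun {a b} ha hb q => by
        refine ⟨fun hq => ?_, fun hq => ?_⟩
        · rw [mul_smul]; exact (ha _).1 ((hb q).1 hq)
        · rw [mul_inv_rev, mul_smul]; exact (hb _).2 ((ha q).2 hq)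
      inv_mem' := fun {a} ha q => by
        refine ⟨fun hq => (ha q).2 hq, fun hq => ?_⟩
        rw [inv_inv]; exact (ha q).1 hq }
  have hG : G = ⊤ := by
    rw [eq_top_iff, ← SpecialLinearGroup.SL2Z_generators, Subgroup.closure_le]
    rintro g (rfl | rfl)
    · intro q
      refine ⟨fun hq => ?_, fun hq => ?_⟩
      · rw [hS']; exact hs q hq
      · rw [← sPerm_apply]; exact hs q hq
    · intro q
      refine ⟨fun hq => ?_, fun hq => ?_⟩
      · rw [hT']; exact hs _ (hu _ (hu q hq))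
      · rw [← tPerm_apply]; exact ht q hq
  intro q q' hq
  obtain ⟨g, rfl⟩ := MulAction.exists_smul_eq SL(2, ℤ) q q'
  have : g ∈ G := hG ▸ Subgroup.mem_top g
  exact (this q).1 hq

/-- Two cocycles on `SL(2,ℤ)` which agree on `S` and `T` are equal. -/
theorem lb_cocycle_ext {Q A : Type*} [MulAction SL(2, ℤ) Q] [AddCommGroup A]
    (c c' : SL(2, ℤ) → Q → A)
    (hc : ∀ g g' q, c (g * g') q = c g q + c g' (g⁻¹ • q))
    (hc' : ∀ g g' q, c' (g * g') q = c' g q + c' g' (g⁻¹ • q))
    (hS : ∀ q, c ModularGroup.S q = c' ModularGroup.S q)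
    (hT : ∀ q, c ModularGroup.T q = c' ModularGroup.T q) : ∀ g q, c g q = c' g q := by
  have h1 : ∀ (d : SL(2, ℤ) → Q → A), (∀ g g' q, d (g * g') q = d g q + d g' (g⁻¹ • q)) →
      ∀ q, d 1 q = 0 := by
    intro d hd q
    have h := hd 1 1 q
    rw [mul_one, inv_one, one_smul] at h
    exact left_eq_add.mp h
  have hinv : ∀ (d : SL(2, ℤ) → Q → A), (∀ g g' q, d (g * g') q = d g q + d g' (g⁻¹ • q)) →
      ∀ g q, d g⁻¹ q = - d g (g • q) := by
    intro d hd g q
    have h := hd g⁻¹ g q
    rw [inv_mul_cancel, h1 d hd, inv_inv] at h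
    exact eq_neg_of_add_eq_zero_left h.symm
  intro g
  have hg : g ∈ Subgroup.closure ({ModularGroup.S, ModularGroup.T} : Set SL(2, ℤ)) := by
    rw [SpecialLinearGroup.SL2Z_generators]
    exact Subgroup.mem_top g
  induction hg using Subgroup.closure_induction with
  | mem x hx =>
    rcases hx with rfl | rfl
    · exact hS
    · exact hT
  | one =>
    intro q
    rw [h1 c hc, h1 c' hc']
  | mul x y _ _ hx hy =>
    intro q
    rw [hc, hc', hx, hy]
  | inv x _ hx =>
    intro q
    rw [hinv c hc, hinv c' hc', hx]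

theorem lbLift_neZero (p : ℕ) [Fact p.Prime] : NeZero (eisensteinNumerator p) := by
  constructor
  have hp : 2 ≤ p := (Fact.out : p.Prime).two_le
  unfold eisensteinNumerator
  have hg : Nat.gcd (p - 1) 12 ∣ p - 1 := Nat.gcd_dvd_left _ _
  have hpos : 0 < p - 1 := by omega
  have := Nat.div_pos (Nat.le_of_dvd hpos hg) (Nat.gcd_pos_of_pos_left 12 hpos)
  omega

/-- **The integral parabolic lift of the Shimura character**, as a pair of cusp forms. -/
theorem lb_exists_good (p : ℕ) [Fact p.Prime] :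
    ∃ x : CuspForm (Gamma0 p) 2 × CuspForm (Gamma0 p) 2, LBGood p x 1 := by
  have hn : NeZero (eisensteinNumerator p) := lbLift_neZero p
  obtain ⟨K, hKc, hKneg, hKT, hKS, hKU, hKχ⟩ := lbK_exists p
  have hKST : ∀ q, K (ModularGroup.S * ModularGroup.T) q = K ModularGroup.S q := by
    intro q
    rw [hKc, hKT, add_zero]
  have h1 : ∀ q, K ModularGroup.S q + K ModularGroup.S (sPerm p q) = 0 := by
    intro q
    rw [sPerm_apply, ← hKc, qAction_S_mul_S, hKneg]
  have h2 : ∀ q, K ModularGroup.S q + K ModularGroup.S ((tPerm p * sPerm p) q)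
      + K ModularGroup.S ((tPerm p * sPerm p) ((tPerm p * sPerm p) q)) = 0 := by
    intro q
    rw [qAction_uPerm_apply, qAction_uPerm_apply, ← hKST q,
      ← hKST ((ModularGroup.S * ModularGroup.T : SL(2, ℤ))⁻¹ • q),
      ← hKST ((ModularGroup.S * ModularGroup.T : SL(2, ℤ))⁻¹ •
        ((ModularGroup.S * ModularGroup.T : SL(2, ℤ))⁻¹ • q)), add_assoc, ← hKc, ← hKc]
    have h3 : (ModularGroup.S * ModularGroup.T : SL(2, ℤ))
        * ((ModularGroup.S * ModularGroup.T) * (ModularGroup.S * ModularGroup.T)) = -1 := by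
      rw [← qAction_ST_cube, pow_succ, pow_succ, pow_one]
      simp only [mul_assoc]
    rw [h3, hKneg]
  obtain ⟨a, ha, ha1, ha2⟩ := lb_flow_lift (sPerm p) (tPerm p * sPerm p) (sPerm_mul_self p)
    (tPerm_mul_sPerm_pow p) (lbRealize_trans p) (eisensteinNumerator p) (K ModularGroup.S)
    h1 h2 hKS hKU
  obtain ⟨φ, c, hc, hcS, hcT, hφ⟩ := lb_realize p a ha1 ha2
  have hcK : ∀ g q, ((c g q : ℤ) : ZMod (eisensteinNumerator p)) = K g q := by
    refine lb_cocycle_ext (fun g q => ((c g q : ℤ) : ZMod (eisensteinNumerator p))) K ?_ hKc ?_ ?_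
    · intro g g' q
      show ((c (g * g') q : ℤ) : ZMod (eisensteinNumerator p)) = _
      rw [hc, Int.cast_add]
    · intro q
      show ((c ModularGroup.S q : ℤ) : ZMod (eisensteinNumerator p)) = _
      rw [hcS, ha]
    · intro q
      show ((c ModularGroup.T q : ℤ) : ZMod (eisensteinNumerator p)) = _
      rw [hcT, hKT, Int.cast_zero]
  have hmem : (φ : Additive (Gamma0 p) →+ ℂ) ∈ LinearMap.range (periodHomPair p) := by
    rw [(Fermat.Agent.S21.result p).2]
    exact φ.2
  obtain ⟨x, hx⟩ := hmem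
  refine ⟨x, fun γ => ⟨c (γ : SL(2, ℤ)) (QuotientGroup.mk 1), ?_, ?_⟩⟩
  · rw [hx, hφ]
  · rw [hcK, hKχ, one_mul]

end Fermat.Agent.S16L
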