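/-
S16 (Mazur), package LB, part 5 (integer matrices): the Hecke coset representatives
`!![ℓ, 0; 0, 1]`, `!![1, j; 0, ℓ]` (`0 ≤ j < ℓ`) are permuted by right multiplication with
`γ ∈ SL(2,ℤ)`, up to left multiplication by `SL(2,ℤ)`.
-/
import Mathlib

set_option autoImplicit false

open scoped MatrixGroups

namespace Fermat.Agent.S16L

/-- The Hecke representatives of determinant `ℓ`, indexed by `Option (Fin ℓ)`. -/
def lbB (ℓ : ℕ) : Option (Fin ℓ) → Matrix (Fin 2) (Fin 2) ℤ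
  | none => !![(ℓ : ℤ), 0; 0, 1]
  | some j => !![1, ((j : ℕ) : ℤ); 0, (ℓ : ℤ)]

theorem lbB_none (ℓ : ℕ) : lbB ℓ none = !![(ℓ : ℤ), 0; 0, 1] := rfl

theorem lbB_some (ℓ : ℕ) (j : Fin ℓ) : lbB ℓ (some j) = !![1, ((j : ℕ) : ℤ); 0, (ℓ : ℤ)] := rfl

theorem lbCoset_det_lbB (ℓ : ℕ) (i : Option (Fin ℓ)) : (lbB ℓ i).det = ℓ := by
  cases i with
  | none => rw [lbB_none, Matrix.det_fin_two_of]; ring
  | some j => rw [lbB_some, Matrix.det_fin_two_of]; ring

/-- Integer Hermite factorisation: an integral `2 × 2` matrix of positive determinant is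
`g * !![a, b; 0, d]` with `g ∈ SL(2, ℤ)`, `0 < a`, `0 < d`. -/
theorem lbCoset_hermite (M : Matrix (Fin 2) (Fin 2) ℤ) (hM : 0 < M.det) :
    ∃ (g : SL(2, ℤ)) (a b d : ℤ), 0 < a ∧ 0 < d ∧ a * d = M.det ∧
      M = (g : Matrix (Fin 2) (Fin 2) ℤ) * !![a, b; 0, d] := by
  set p := M 0 0 with hp
  set r := M 1 0 with hr
  set q := M 0 1 with hq
  set s := M 1 1 with hs
  have hdet : M.det = p * s - q * r := by
    rw [Matrix.det_fin_two]
  have hne : ¬ (p = 0 ∧ r = 0) := by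
    rintro ⟨h1, h2⟩
    rw [hdet, h1, h2] at hM
    simp at hM
  set e : ℤ := (Int.gcd p r : ℤ) with he
  have he_pos : 0 < e := by
    have : Int.gcd p r ≠ 0 := by
      intro h
      rw [Int.gcd_eq_zero_iff] at h
      exact hne h
    have h0 : 0 < Int.gcd p r := Nat.pos_of_ne_zero this
    rw [he]
    exact_mod_cast h0
  obtain ⟨p', hp'⟩ : e ∣ p := Int.gcd_dvd_left p r
  obtain ⟨r', hr'⟩ : e ∣ r := Int.gcd_dvd_right p r
  have hbez : p * Int.gcdA p r + r * Int.gcdB p r = e := (Int.gcd_eq_gcd_ab p r).symm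
  set u := Int.gcdA p r with hu
  set v := Int.gcdB p r with hv
  have hbez' : p' * u + r' * v = 1 := by
    have h1 : e * (p' * u + r' * v) = e * 1 := by
      rw [mul_one]
      calc e * (p' * u + r' * v) = (e * p') * u + (e * r') * v := by ring
        _ = p * u + r * v := by rw [← hp', ← hr']
        _ = e := hbez
    exact mul_left_cancel₀ he_pos.ne' h1
  let g : SL(2, ℤ) := ⟨!![p', -v; r', u], by
    rw [Matrix.det_fin_two_of]; linarith⟩
  refine ⟨g, e, u * q + v * s, p' * s - r' * q, he_pos, ?_, ?_, ?_⟩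
  · have h1 : e * (p' * s - r' * q) = M.det := by
      rw [hdet, hp', hr']; ring
    have h2 : 0 < e * (p' * s - r' * q) := h1 ▸ hM
    exact (mul_pos_iff_of_pos_left he_pos).mp h2
  · rw [hdet, hp', hr']; ring
  · have hM' : M = !![p, q; r, s] := Matrix.eta_fin_two M
    have hg : (g : Matrix (Fin 2) (Fin 2) ℤ) = !![p', -v; r', u] := rfl
    rw [hg, Matrix.mul_fin_two, hM']
    have e1 : p = p' * e + -v * 0 := by rw [hp']; ring
    have e2 : q = p' * (u * q + v * s) + -v * (p' * s - r' * q) := by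
      linear_combination (-q) * hbez'
    have e3 : r = r' * e + u * 0 := by rw [hr']; ring
    have e4 : s = r' * (u * q + v * s) + u * (p' * s - r' * q) := by
      linear_combination (-s) * hbez'
    ext i j
    fin_cases i <;> fin_cases j
    · exact e1
    · exact e2
    · exact e3
    · exact e4

/-- the upper unipotent element `!![1, q; 0, 1]` of `SL(2, ℤ)` -/
def lbCoset_T (q : ℤ) : SL(2, ℤ) := ⟨!![1, q; 0, 1], by rw [Matrix.det_fin_two_of]; ring⟩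

theorem lbCoset_T_coe (q : ℤ) : (lbCoset_T q : Matrix (Fin 2) (Fin 2) ℤ) = !![1, q; 0, 1] := rfl

/-- every integral matrix of prime determinant `ℓ` is `τ * B k` -/
theorem lbCoset_exists {ℓ : ℕ} (hℓ : ℓ.Prime) (M : Matrix (Fin 2) (Fin 2) ℤ)
    (hM : M.det = (ℓ : ℤ)) :
    ∃ (τ : SL(2, ℤ)) (k : Option (Fin ℓ)), M = (τ : Matrix (Fin 2) (Fin 2) ℤ) * lbB ℓ k := by
  have hℓpos : (0 : ℤ) < (ℓ : ℤ) := by exact_mod_cast hℓ.pos
  obtain ⟨g, a, b, d, ha, hd, had, hMg⟩ := lbCoset_hermite M (by rw [hM]; exact hℓpos)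
  rw [hM] at had
  -- `a = 1` or `a = ℓ`
  have ha' : a.natAbs = 1 ∨ a.natAbs = ℓ := by
    have hdvd : a.natAbs ∣ ℓ := by
      have : (a.natAbs : ℤ) ∣ (ℓ : ℤ) := by
        rw [Int.natCast_natAbs, abs_of_pos ha]; exact ⟨d, had.symm⟩
      exact_mod_cast this
    exact (Nat.dvd_prime hℓ).1 hdvd
  have haabs : (a.natAbs : ℤ) = a := by rw [Int.natCast_natAbs, abs_of_pos ha]
  rcases ha' with h1 | h1
  · -- `a = 1`, `d = ℓ`
    have ha1 : a = 1 := by rw [← haabs, h1]; rfl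
    have hdℓ : d = ℓ := by rw [ha1, one_mul] at had; exact had
    have hr0 : 0 ≤ b % (ℓ : ℤ) := Int.emod_nonneg _ hℓpos.ne'
    have hr1 : b % (ℓ : ℤ) < ℓ := Int.emod_lt_of_pos _ hℓpos
    have hrn : (b % (ℓ : ℤ)).toNat < ℓ := by
      have : ((b % (ℓ : ℤ)).toNat : ℤ) < (ℓ : ℤ) := by rw [Int.toNat_of_nonneg hr0]; exact hr1
      exact_mod_cast this
    refine ⟨g * lbCoset_T (b / (ℓ : ℤ)), some ⟨(b % (ℓ : ℤ)).toNat, hrn⟩, ?_⟩
    rw [hMg, Matrix.SpecialLinearGroup.coe_mul, Matrix.mul_assoc, lbCoset_T_coe, lbB_some, ha1, hdℓ]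
    congr 1
    rw [Matrix.mul_fin_two]
    have hb : b = (b % (ℓ : ℤ)) + (b / (ℓ : ℤ)) * ℓ := by
      have := Int.emod_add_mul_ediv b (ℓ : ℤ)
      linarith [this, mul_comm (b / (ℓ : ℤ)) (ℓ : ℤ)]
    ext i j
    fin_cases i <;> fin_cases j
    · simp
    · simp only [Fin.zero_eta, Fin.isValue, Fin.mk_one, Matrix.of_apply, Matrix.cons_val',
        Matrix.cons_val_one, Matrix.cons_val_fin_one, Matrix.cons_val_zero]
      rw [Int.toNat_of_nonneg hr0]
      linarith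
    · simp
    · simp
  · -- `a = ℓ`, `d = 1`
    have haℓ : a = ℓ := by rw [← haabs, h1]
    have hd1 : d = 1 := by
      rw [haℓ] at had
      have : (ℓ : ℤ) * d = (ℓ : ℤ) * 1 := by rw [had, mul_one]
      exact mul_left_cancel₀ hℓpos.ne' this
    refine ⟨g * lbCoset_T b, none, ?_⟩
    rw [hMg, Matrix.SpecialLinearGroup.coe_mul, Matrix.mul_assoc, lbCoset_T_coe, lbB_none, haℓ, hd1]
    congr 1
    rw [Matrix.mul_fin_two]
    ext i j
    fin_cases i <;> fin_cases j <;> simp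

/-- the index of the representative is determined by the left `SL(2, ℤ)`-class -/
theorem lbCoset_unique {ℓ : ℕ} (hℓ : ℓ.Prime) (τ τ' : SL(2, ℤ)) (i k : Option (Fin ℓ))
    (h : (τ : Matrix (Fin 2) (Fin 2) ℤ) * lbB ℓ i = (τ' : Matrix (Fin 2) (Fin 2) ℤ) * lbB ℓ k) :
    i = k := by
  have hℓ2 : (2 : ℤ) ≤ (ℓ : ℤ) := by exact_mod_cast hℓ.two_le
  -- `ρ * B i = B k` with `ρ = τ'⁻¹ * τ`
  have hρ : ((τ'⁻¹ * τ : SL(2, ℤ)) : Matrix (Fin 2) (Fin 2) ℤ) * lbB ℓ i = lbB ℓ k := by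
    rw [Matrix.SpecialLinearGroup.coe_mul, Matrix.mul_assoc, h, ← Matrix.mul_assoc,
      ← Matrix.SpecialLinearGroup.coe_mul, inv_mul_cancel, Matrix.SpecialLinearGroup.coe_one,
      Matrix.one_mul]
  set ρ : SL(2, ℤ) := τ'⁻¹ * τ with hρdef
  have hdet : (ρ : Matrix (Fin 2) (Fin 2) ℤ) 0 0 * (ρ : Matrix (Fin 2) (Fin 2) ℤ) 1 1
      - (ρ : Matrix (Fin 2) (Fin 2) ℤ) 0 1 * (ρ : Matrix (Fin 2) (Fin 2) ℤ) 1 0 = 1 := by
    have := ρ.det_coe
    rw [Matrix.det_fin_two] at this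
    exact this
  have hρeta : (ρ : Matrix (Fin 2) (Fin 2) ℤ) =
      !![(ρ : Matrix (Fin 2) (Fin 2) ℤ) 0 0, (ρ : Matrix (Fin 2) (Fin 2) ℤ) 0 1;
         (ρ : Matrix (Fin 2) (Fin 2) ℤ) 1 0, (ρ : Matrix (Fin 2) (Fin 2) ℤ) 1 1] :=
    Matrix.eta_fin_two _
  generalize (ρ : Matrix (Fin 2) (Fin 2) ℤ) 0 0 = r11 at hdet hρeta
  generalize (ρ : Matrix (Fin 2) (Fin 2) ℤ) 0 1 = r12 at hdet hρeta
  generalize (ρ : Matrix (Fin 2) (Fin 2) ℤ) 1 0 = r21 at hdet hρeta
  generalize (ρ : Matrix (Fin 2) (Fin 2) ℤ) 1 1 = r22 at hdet hρeta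
  rw [hρeta] at hρ
  cases i with
  | none =>
    cases k with
    | none => rfl
    | some j' =>
      exfalso
      rw [lbB_none, lbB_some, Matrix.mul_fin_two] at hρ
      have h00 := congrFun (congrFun hρ 0) 0
      simp at h00
      -- `r11 * ℓ = 1`
      have : (ℓ : ℤ) ∣ 1 := ⟨r11, by linarith⟩
      have := Int.le_of_dvd one_pos this
      omega
  | some j =>
    cases k with
    | none =>
      exfalso
      rw [lbB_none, lbB_some, Matrix.mul_fin_two] at hρ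
      have h00 := congrFun (congrFun hρ 0) 0
      have h10 := congrFun (congrFun hρ 1) 0
      simp at h00 h10
      -- `r11 = ℓ`, `r21 = 0`, so `ℓ * r22 = 1`
      rw [h00, h10] at hdet
      have : (ℓ : ℤ) ∣ 1 := ⟨r22, by linarith⟩
      have := Int.le_of_dvd one_pos this
      omega
    | some j' =>
      rw [lbB_some, lbB_some, Matrix.mul_fin_two] at hρ
      have h00 := congrFun (congrFun hρ 0) 0
      have h01 := congrFun (congrFun hρ 0) 1
      simp at h00 h01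
      -- `r11 = 1`, `j + r12 * ℓ = j'`
      rw [h00] at h01
      have hj : (j : ℕ) < ℓ := j.2
      have hj' : (j' : ℕ) < ℓ := j'.2
      have hjj : ((j : ℕ) : ℤ) = ((j' : ℕ) : ℤ) := by
        have h1 : ((j : ℕ) : ℤ) < ℓ := by exact_mod_cast hj
        have h2 : ((j' : ℕ) : ℤ) < ℓ := by exact_mod_cast hj'
        have h3 : (0 : ℤ) ≤ ((j : ℕ) : ℤ) := by positivity
        have h4 : (0 : ℤ) ≤ ((j' : ℕ) : ℤ) := by positivity
        have h5 : r12 = 0 := by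
          by_contra hne
          rcases lt_or_gt_of_ne hne with hlt | hgt
          · have : r12 ≤ -1 := by omega
            nlinarith
          · have : 1 ≤ r12 := by omega
            nlinarith
        rw [h5] at h01
        linarith
      have : (j : ℕ) = (j' : ℕ) := by exact_mod_cast hjj
      exact congrArg some (Fin.ext this)

/-- right cancellation of an element of `SL(2, ℤ)` -/
theorem lbCoset_mul_right_cancel (γ : SL(2, ℤ)) {A B : Matrix (Fin 2) (Fin 2) ℤ}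
    (h : A * (γ : Matrix (Fin 2) (Fin 2) ℤ) = B * (γ : Matrix (Fin 2) (Fin 2) ℤ)) : A = B := by
  have h1 : (γ : Matrix (Fin 2) (Fin 2) ℤ) * ((γ⁻¹ : SL(2, ℤ)) : Matrix (Fin 2) (Fin 2) ℤ) = 1 := by
    rw [← Matrix.SpecialLinearGroup.coe_mul, mul_inv_cancel, Matrix.SpecialLinearGroup.coe_one]
  have h2 := congrArg (fun X => X * ((γ⁻¹ : SL(2, ℤ)) : Matrix (Fin 2) (Fin 2) ℤ)) h
  simp only [Matrix.mul_assoc, h1, Matrix.mul_one] at h2
  exact h2

/-- the index map is injective -/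
theorem lbCoset_index_injective {ℓ : ℕ} (hℓ : ℓ.Prime) (γ : SL(2, ℤ)) {i i' k : Option (Fin ℓ)}
    {τ τ' : SL(2, ℤ)}
    (h : lbB ℓ i * (γ : Matrix (Fin 2) (Fin 2) ℤ) = (τ : Matrix (Fin 2) (Fin 2) ℤ) * lbB ℓ k)
    (h' : lbB ℓ i' * (γ : Matrix (Fin 2) (Fin 2) ℤ) = (τ' : Matrix (Fin 2) (Fin 2) ℤ) * lbB ℓ k) :
    i = i' := by
  refine lbCoset_unique hℓ τ⁻¹ τ'⁻¹ i i' (lbCoset_mul_right_cancel γ ?_)
  rw [Matrix.mul_assoc, Matrix.mul_assoc, h, h', ← Matrix.mul_assoc, ← Matrix.mul_assoc,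
    ← Matrix.SpecialLinearGroup.coe_mul, ← Matrix.SpecialLinearGroup.coe_mul, inv_mul_cancel,
    inv_mul_cancel]

/-- For `ℓ` prime and `γ ∈ SL(2,ℤ)` there are a permutation `σ` of the index set and elements
`τ i ∈ SL(2,ℤ)` with `B i * γ = τ i * B (σ i)`. -/
theorem lb_coset_perm {ℓ : ℕ} (hℓ : ℓ.Prime) (γ : SL(2, ℤ)) :
    ∃ (σ : Equiv.Perm (Option (Fin ℓ))) (τ : Option (Fin ℓ) → SL(2, ℤ)),
      ∀ i, lbB ℓ i * (γ : Matrix (Fin 2) (Fin 2) ℤ)
        = (τ i : Matrix (Fin 2) (Fin 2) ℤ) * lbB ℓ (σ i) := by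
  have hex : ∀ i : Option (Fin ℓ), ∃ (τ : SL(2, ℤ)) (k : Option (Fin ℓ)),
      lbB ℓ i * (γ : Matrix (Fin 2) (Fin 2) ℤ) = (τ : Matrix (Fin 2) (Fin 2) ℤ) * lbB ℓ k := by
    intro i
    refine lbCoset_exists hℓ _ ?_
    rw [Matrix.det_mul, lbCoset_det_lbB, γ.det_coe, mul_one]
  choose τ σ hσ using hex
  have hinj : Function.Injective σ := by
    intro i i' hii
    have h1 := hσ i
    have h2 := hσ i'
    rw [hii] at h1
    exact lbCoset_index_injective hℓ γ h1 h2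
  exact ⟨Equiv.ofBijective σ (Finite.injective_iff_bijective.mp hinj), τ, hσ⟩

/-- The `U_p`-version: if `p ∣ γ 1 0`, the representatives `!![1, j; 0, p]` alone are permuted. -/
theorem lb_coset_perm_U {p : ℕ} (hp : p.Prime) (γ : SL(2, ℤ))
    (hγ : (p : ℤ) ∣ (γ : Matrix (Fin 2) (Fin 2) ℤ) 1 0) :
    ∃ (σ : Equiv.Perm (Fin p)) (τ : Fin p → SL(2, ℤ)),
      ∀ j, lbB p (some j) * (γ : Matrix (Fin 2) (Fin 2) ℤ)
        = (τ j : Matrix (Fin 2) (Fin 2) ℤ) * lbB p (some (σ j)) := by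
  have hp2 : (2 : ℤ) ≤ (p : ℤ) := by exact_mod_cast hp.two_le
  have hdet : (γ : Matrix (Fin 2) (Fin 2) ℤ) 0 0 * (γ : Matrix (Fin 2) (Fin 2) ℤ) 1 1
      - (γ : Matrix (Fin 2) (Fin 2) ℤ) 0 1 * (γ : Matrix (Fin 2) (Fin 2) ℤ) 1 0 = 1 := by
    have := γ.det_coe
    rw [Matrix.det_fin_two] at this
    exact this
  have hex : ∀ j : Fin p, ∃ (τ : SL(2, ℤ)) (k : Fin p),
      lbB p (some j) * (γ : Matrix (Fin 2) (Fin 2) ℤ)
        = (τ : Matrix (Fin 2) (Fin 2) ℤ) * lbB p (some k) := by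
    intro j
    obtain ⟨τ, k, hk⟩ := lbCoset_exists hp (lbB p (some j) * (γ : Matrix (Fin 2) (Fin 2) ℤ))
      (by rw [Matrix.det_mul, lbCoset_det_lbB, γ.det_coe, mul_one])
    cases k with
    | some k => exact ⟨τ, k, hk⟩
    | none =>
      exfalso
      have h00 := congrFun (congrFun hk 0) 0
      rw [lbB_some, lbB_none] at h00
      simp only [Matrix.mul_apply, Fin.sum_univ_two, Matrix.of_apply, Matrix.cons_val',
        Matrix.cons_val_zero, Matrix.cons_val_one, Matrix.cons_val_fin_one] at h00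
      simp at h00
      -- `γ 0 0 + j * γ 1 0 = τ 0 0 * p`
      obtain ⟨c', hc'⟩ := hγ
      have hdvd : (p : ℤ) ∣ (γ : Matrix (Fin 2) (Fin 2) ℤ) 0 0 :=
        ⟨(τ : Matrix (Fin 2) (Fin 2) ℤ) 0 0 - ((j : ℕ) : ℤ) * c', by rw [hc'] at h00; linarith⟩
      obtain ⟨a', ha'⟩ := hdvd
      rw [ha', hc'] at hdet
      have : (p : ℤ) ∣ 1 :=
        ⟨a' * (γ : Matrix (Fin 2) (Fin 2) ℤ) 1 1 - (γ : Matrix (Fin 2) (Fin 2) ℤ) 0 1 * c', by
          linarith⟩
      have := Int.le_of_dvd one_pos this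
      omega
  choose τ σ hσ using hex
  have hinj : Function.Injective σ := by
    intro j j' hjj
    have h1 := hσ j
    have h2 := hσ j'
    rw [hjj] at h1
    exact Option.some_injective _ (lbCoset_index_injective hp γ h1 h2)
  exact ⟨Equiv.ofBijective σ (Finite.injective_iff_bijective.mp hinj), τ, hσ⟩

end Fermat.Agent.S16L
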