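/-
S16 (Mazur), package LB, part 6 (analysis): the function `Ψ_x` on `ℍ` whose periods are
`periodHomPair p x`, and its behaviour under the Hecke operators.
-/
import Mathlib
import Fermat.Prelude.Def_CuspForm_HeckeAlgebra
import Fermat.Agent.S21
import Fermat.Agent.S22.Interface
import Fermat.Agent.S22.HeckeStable

set_option autoImplicit false

noncomputable section

open UpperHalfPlane ModularCurve ModularCurve.Period CongruenceSubgroup Fermat.Agent.S21L
open scoped MatrixGroups ModularForm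

namespace Fermat.Agent.S16L

/-- `Ψ_x = F_f + F_f ∘ c + F_g - F_g ∘ c` for `x = (f, g)`, where `F_f` is the canonical primitive
of `f` and `c(z) = -conj z`. -/
def lbPsi (p : ℕ) (x : CuspForm (Gamma0 p) 2 × CuspForm (Gamma0 p) 2) (z : ℍ) : ℂ :=
  prim p x.1 z + prim p x.1 (injectiveCc z) + prim p x.2 z - prim p x.2 (injectiveCc z)

/-! ### Periods -/

/-- The period of the canonical primitive, at an arbitrary base point. -/
theorem lbPsi_periodMap_apply (N : ℕ) [NeZero N] (f : CuspForm (Gamma0 N) 2) (γ : Gamma0 N)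
    (z : ℍ) :
    periodMap N f (Additive.ofMul γ) = prim N f ((γ : SL(2, ℤ)) • z) - prim N f z := by
  have hF := hasEquivariantPrimitive_prim N f
  rw [periodMap_eq_periodHom N f hF, IsEquivariantPrimitive.periodHom_apply]
  exact (hF.2.2.1.sub_eq_period γ z).symm

/-- The period of the canonical primitive along the conjugate element, at the reflected point. -/
theorem lbPsi_periodMap_conj (N : ℕ) [NeZero N] (f : CuspForm (Gamma0 N) 2) (γ : Gamma0 N)
    (z : ℍ) :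
    periodMap N f (Additive.ofMul (jConjGamma0 N γ))
      = prim N f (injectiveCc ((γ : SL(2, ℤ)) • z)) - prim N f (injectiveCc z) := by
  rw [lbPsi_periodMap_apply N f (jConjGamma0 N γ) (injectiveCc z), jConjGamma0_coe,
    injectiveCc_smul]

/-- Explicit formula for `periodHomPair`. -/
theorem lbPsi_periodHomPair_apply (N : ℕ) [NeZero N] (f g : CuspForm (Gamma0 N) 2)
    (γ : Gamma0 N) :
    periodHomPair N (f, g) (Additive.ofMul γ)
      = periodMap N f (Additive.ofMul γ) + periodMap N f (Additive.ofMul (jConjGamma0 N γ))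
        + (periodMap N g (Additive.ofMul γ)
          - periodMap N g (Additive.ofMul (jConjGamma0 N γ))) := by
  obtain ⟨pml, hpml, hdef⟩ := periodHomPair_def N (existsPeriodMapLinear N)
  rw [hdef]
  simp only [LinearMap.coprod_apply, LinearMap.comp_apply, LinearMap.add_apply,
    LinearMap.sub_apply, LinearMap.id_apply, AddMonoidHom.add_apply, AddMonoidHom.sub_apply,
    charInvolution_apply, toMul_ofMul, hpml]

/-- The periods of `Ψ_x` are given by `periodHomPair p x`. -/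
theorem lbPsi_smul (p : ℕ) [Fact p.Prime] (x : CuspForm (Gamma0 p) 2 × CuspForm (Gamma0 p) 2)
    (γ : Gamma0 p) (z : ℍ) :
    lbPsi p x ((γ : SL(2, ℤ)) • z) - lbPsi p x z = periodHomPair p x (Additive.ofMul γ) := by
  have : NeZero p := ⟨(Fact.out : p.Prime).ne_zero⟩
  obtain ⟨f, g⟩ := x
  rw [lbPsi_periodHomPair_apply p f g γ, lbPsi_periodMap_apply p f γ z,
    lbPsi_periodMap_apply p g γ z, lbPsi_periodMap_conj p f γ z, lbPsi_periodMap_conj p g γ z]
  unfold lbPsi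
  ring

/-! ### Periodicity of the canonical primitive -/

theorem lbPsi_T_mem (N : ℕ) : ModularGroup.T ∈ Gamma0 N := by
  rw [Gamma0_mem]
  simp [ModularGroup.T]

/-- The canonical primitive is invariant under `z ↦ z + 1`. -/
theorem lbPsi_prim_T (N : ℕ) [NeZero N] (f : CuspForm (Gamma0 N) 2) (z : ℍ) :
    prim N f (ModularGroup.T • z) = prim N f z := by
  have hF := hasEquivariantPrimitive_prim N f
  obtain ⟨L, hL⟩ := hF.2.2.2 1
  have h0 := period_eq_zero_of_conj_T hF.2.2.1 1 hL 1 ⟨ModularGroup.T, lbPsi_T_mem N⟩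
    (by simp)
  have h1 := hF.2.2.1.sub_eq_period ⟨ModularGroup.T, lbPsi_T_mem N⟩ z
  rw [h0] at h1
  exact sub_eq_zero.mp h1

theorem lbPsi_prim_add_one (N : ℕ) [NeZero N] (f : CuspForm (Gamma0 N) 2) (w w' : ℍ)
    (h : (w' : ℂ) = (w : ℂ) + 1) : prim N f w' = prim N f w := by
  have e : w' = ModularGroup.T • w := by
    apply UpperHalfPlane.ext
    rw [modular_T_smul, coe_vadd, h]
    push_cast
    ring
  rw [e, lbPsi_prim_T]

/-! ### The canonical primitive and the Hecke operators -/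

theorem lbPsi_P_slash_UT {h : ℍ → ℂ} (hh : Fermat.Agent.S22.Nice 0 h) (a b d : ℤ) (ha : 0 < a)
    (hd : 0 < d) (z : ℍ) :
    Fermat.Agent.S22.P 0 (h ∣[(2 : ℤ)] Fermat.Agent.S22.UT a b d ha hd) z
      = Fermat.Agent.S22.P 0 h (Fermat.Agent.S22.UT a b d ha hd • z) := by
  have h1 := Fermat.Agent.S22.E_UT hh a b d ha hd 0 z
  simp only [primitive_E_zero] at h1
  exact h1

theorem lbPsi_isAdm_slash_UT {h : ℍ → ℂ} (hh : Fermat.Agent.S22.Nice 0 h) (a b d : ℤ)
    (ha : 0 < a) (hd : 0 < d) :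
    Fermat.Agent.S22.IsAdm (h ∣[(2 : ℤ)] Fermat.Agent.S22.UT a b d ha hd) :=
  (hh.slash_UT a b d ha hd).isAdm

theorem lbPsi_P_heckeU {h : ℍ → ℂ} (hh : Fermat.Agent.S22.Nice 0 h) {q : ℕ} (hq : 0 < q)
    (z : ℍ) :
    Fermat.Agent.S22.P 0 (ModularForm.heckeU 2 q h) z
      = ∑ j ∈ Finset.range q, Fermat.Agent.S22.P 0 h (ModularForm.heckeMatrix q j • z) := by
  rw [ModularForm.heckeU_def, Fermat.Agent.S22.P_sum]
  · refine Finset.sum_congr rfl fun j _ => ?_
    rw [Fermat.Agent.S22.heckeMatrix_eq_UT hq]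
    exact lbPsi_P_slash_UT hh _ _ _ _ _ z
  · intro j _
    rw [Fermat.Agent.S22.heckeMatrix_eq_UT hq]
    exact lbPsi_isAdm_slash_UT hh _ _ _ _ _

theorem lbPsi_isAdm_heckeU {h : ℍ → ℂ} (hh : Fermat.Agent.S22.Nice 0 h) {q : ℕ} (hq : 0 < q) :
    Fermat.Agent.S22.IsAdm (ModularForm.heckeU 2 q h) := by
  rw [ModularForm.heckeU_def]
  refine Fermat.Agent.S22.isAdm_sum _ _ fun j _ => ?_
  rw [Fermat.Agent.S22.heckeMatrix_eq_UT hq]
  exact lbPsi_isAdm_slash_UT hh _ _ _ _ _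

theorem lbPsi_P_heckeT {h : ℍ → ℂ} (hh : Fermat.Agent.S22.Nice 0 h) {ℓ : ℕ} (hℓ : 0 < ℓ)
    (z : ℍ) :
    Fermat.Agent.S22.P 0 (ModularForm.heckeT 2 ℓ h) z
      = ∑ j ∈ Finset.range ℓ, Fermat.Agent.S22.P 0 h (ModularForm.heckeMatrix ℓ j • z)
        + Fermat.Agent.S22.P 0 h (ModularForm.heckeDiagMatrix ℓ • z) := by
  have hD : Fermat.Agent.S22.IsAdm (h ∣[(2 : ℤ)] ModularForm.heckeDiagMatrix ℓ) := by
    rw [Fermat.Agent.S22.heckeDiagMatrix_eq_UT hℓ]
    exact lbPsi_isAdm_slash_UT hh _ _ _ _ _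
  rw [ModularForm.heckeT_eq_heckeU_add, Fermat.Agent.S22.P_add 0 (lbPsi_isAdm_heckeU hh hℓ) hD,
    lbPsi_P_heckeU hh hℓ]
  congr 1
  rw [Fermat.Agent.S22.heckeDiagMatrix_eq_UT hℓ]
  exact lbPsi_P_slash_UT hh _ _ _ _ _ z

theorem lbPsi_prim_heckeT (N : ℕ) [NeZero N] {ℓ : ℕ} (hℓ : ℓ.Prime) (hℓN : ¬ ℓ ∣ N)
    (f : CuspForm (Gamma0 N) 2) (z : ℍ) :
    prim N (CuspForm.heckeTLin 2 hℓ hℓN f) z
      = ∑ j ∈ Finset.range ℓ, prim N f (ModularForm.heckeMatrix ℓ j • z)
        + prim N f (ModularForm.heckeDiagMatrix ℓ • z) := by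
  unfold prim
  rw [CuspForm.coe_heckeTLin_apply]
  exact lbPsi_P_heckeT (primitive_nice N f) hℓ.pos z

theorem lbPsi_prim_heckeU (N : ℕ) [NeZero N] {q : ℕ} (hq : q.Prime) (hqN : q ∣ N)
    (f : CuspForm (Gamma0 N) 2) (z : ℍ) :
    prim N (CuspForm.heckeULin 2 hqN f) z
      = ∑ j ∈ Finset.range q, prim N f (ModularForm.heckeMatrix q j • z) := by
  unfold prim
  rw [CuspForm.coe_heckeULin_apply]
  exact lbPsi_P_heckeU (primitive_nice N f) hq.pos z

/-! ### The reflection and the Hecke representatives -/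

theorem lbPsi_diag_cc {ℓ : ℕ} (hℓ : ℓ ≠ 0) (z : ℍ) :
    ModularForm.heckeDiagMatrix ℓ • injectiveCc z
      = injectiveCc (ModularForm.heckeDiagMatrix ℓ • z) := by
  apply UpperHalfPlane.ext
  rw [ModularForm.coe_heckeDiagMatrix_smul hℓ, injectiveCc_coe, injectiveCc_coe,
    ModularForm.coe_heckeDiagMatrix_smul hℓ]
  simp

/-- Reindexing: the sum over the Hecke representatives at the reflected point. -/
theorem lbPsi_sum_cc (N : ℕ) [NeZero N] (f : CuspForm (Gamma0 N) 2) {ℓ : ℕ} (hℓ : ℓ ≠ 0)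
    (z : ℍ) :
    ∑ j ∈ Finset.range ℓ, prim N f (ModularForm.heckeMatrix ℓ j • injectiveCc z)
      = ∑ j ∈ Finset.range ℓ, prim N f (injectiveCc (ModularForm.heckeMatrix ℓ j • z)) := by
  have hℓ' : (ℓ : ℂ) ≠ 0 := by exact_mod_cast hℓ
  have step : ∀ j ∈ Finset.range ℓ,
      prim N f (ModularForm.heckeMatrix ℓ (ℓ - 1 - j) • injectiveCc z)
        = prim N f (injectiveCc (ModularForm.heckeMatrix ℓ (j + 1) • z)) := by
    intro j hj
    have hj' : j + 1 ≤ ℓ := Finset.mem_range.mp hj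
    apply lbPsi_prim_add_one
    rw [ModularForm.coe_heckeMatrix_smul hℓ, injectiveCc_coe, injectiveCc_coe,
      ModularForm.coe_heckeMatrix_smul hℓ]
    have hc : ((ℓ - 1 - j : ℕ) : ℂ) = (ℓ : ℂ) - 1 - j := by
      rw [Nat.sub_sub, Nat.cast_sub (by omega)]
      push_cast
      ring
    rw [hc]
    simp only [map_div₀, map_add, map_natCast, Nat.cast_add, Nat.cast_one, map_one]
    field_simp
    ring
  have hend : prim N f (injectiveCc (ModularForm.heckeMatrix ℓ ℓ • z))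
      = prim N f (injectiveCc (ModularForm.heckeMatrix ℓ 0 • z)) := by
    symm
    apply lbPsi_prim_add_one
    rw [injectiveCc_coe, injectiveCc_coe, ModularForm.coe_heckeMatrix_smul hℓ,
      ModularForm.coe_heckeMatrix_smul hℓ]
    simp only [map_div₀, map_add, map_natCast, Nat.cast_zero, add_zero]
    field_simp
    ring
  rw [← Finset.sum_range_reflect, Finset.sum_congr rfl step]
  have h1 := Finset.sum_range_succ'
    (fun j => prim N f (injectiveCc (ModularForm.heckeMatrix ℓ j • z))) ℓ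
  have h2 := Finset.sum_range_succ
    (fun j => prim N f (injectiveCc (ModularForm.heckeMatrix ℓ j • z))) ℓ
  rw [h2, hend] at h1
  exact (add_right_cancel h1).symm

/-- `Ψ` of `T_ℓ x` is the sum of the translates of `Ψ_x` by the Hecke representatives. -/
theorem lbPsi_heckeT (p : ℕ) [Fact p.Prime] {ℓ : ℕ} (hℓ : ℓ.Prime) (hℓp : ¬ ℓ ∣ p)
    (x : CuspForm (Gamma0 p) 2 × CuspForm (Gamma0 p) 2) (z : ℍ) :
    lbPsi p (CuspForm.heckeTLin 2 hℓ hℓp x.1, CuspForm.heckeTLin 2 hℓ hℓp x.2) z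
      = ∑ j ∈ Finset.range ℓ, lbPsi p x (ModularForm.heckeMatrix ℓ j • z)
        + lbPsi p x (ModularForm.heckeDiagMatrix ℓ • z) := by
  have : NeZero p := ⟨(Fact.out : p.Prime).ne_zero⟩
  obtain ⟨f, g⟩ := x
  unfold lbPsi
  simp only [lbPsi_prim_heckeT, lbPsi_sum_cc p _ hℓ.ne_zero, lbPsi_diag_cc hℓ.ne_zero,
    Finset.sum_add_distrib, Finset.sum_sub_distrib]
  ring

/-- `Ψ` of `U_q x` (`q ∣ p`) is the sum of the translates of `Ψ_x` by the representatives. -/
theorem lbPsi_heckeU (p : ℕ) [Fact p.Prime] {q : ℕ} (hq : q.Prime) (hqp : q ∣ p)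
    (x : CuspForm (Gamma0 p) 2 × CuspForm (Gamma0 p) 2) (z : ℍ) :
    lbPsi p (CuspForm.heckeULin 2 hqp x.1, CuspForm.heckeULin 2 hqp x.2) z
      = ∑ j ∈ Finset.range q, lbPsi p x (ModularForm.heckeMatrix q j • z) := by
  obtain ⟨f, g⟩ := x
  unfold lbPsi
  simp only [lbPsi_prim_heckeU _ hq hqp, lbPsi_sum_cc p _ hq.ne_zero,
    Finset.sum_add_distrib, Finset.sum_sub_distrib]

end Fermat.Agent.S16L
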