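/-
S16 (Mazur), package LB, part 7: the transfer formula for the periods of `T_ℓ x`, `U_p x`, and the
Eisenstein congruence for the Shimura character.
-/
import Mathlib
import Fermat.Agent.S16L.LBLam
import Fermat.Agent.S16L.LBGood
import Fermat.Agent.S16L.LBCoset
import Fermat.Agent.S16L.LBPsi

set_option autoImplicit false

noncomputable section

open UpperHalfPlane ModularCurve ModularCurve.Period CongruenceSubgroup Fermat.Agent.S21L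
open scoped MatrixGroups ModularForm

namespace Fermat.Agent.S16L

/-! ### The Hecke representatives in `GL₂(ℝ)` -/

/-- the Hecke representatives as elements of `GL (Fin 2) ℝ` -/
def lbTransfer_GL (ℓ : ℕ) : Option (Fin ℓ) → GL (Fin 2) ℝ
  | none => ModularForm.heckeDiagMatrix ℓ
  | some j => ModularForm.heckeMatrix ℓ (j : ℕ)

theorem lbTransfer_GL_val {ℓ : ℕ} (hℓ : ℓ ≠ 0) (i : Option (Fin ℓ)) :
    ((lbTransfer_GL ℓ i : GL (Fin 2) ℝ) : Matrix (Fin 2) (Fin 2) ℝ)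
      = (lbB ℓ i).map (Int.castRingHom ℝ) := by
  cases i with
  | none =>
    show ((ModularForm.heckeDiagMatrix ℓ : GL (Fin 2) ℝ) : Matrix (Fin 2) (Fin 2) ℝ) = _
    rw [ModularForm.val_heckeDiagMatrix hℓ, lbB_none]
    ext a b; fin_cases a <;> fin_cases b <;> simp
  | some j =>
    show ((ModularForm.heckeMatrix ℓ j : GL (Fin 2) ℝ) : Matrix (Fin 2) (Fin 2) ℝ) = _
    rw [ModularForm.val_heckeMatrix hℓ, lbB_some]
    ext a b; fin_cases a <;> fin_cases b <;> simp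

/-- an identity of integer matrices `B i * γ = τ * B k` gives the same identity in `GL₂(ℝ)` -/
theorem lbTransfer_GL_mul {ℓ : ℕ} (hℓ : ℓ ≠ 0) {i k : Option (Fin ℓ)} {γ τ : SL(2, ℤ)}
    (h : lbB ℓ i * (γ : Matrix (Fin 2) (Fin 2) ℤ) = (τ : Matrix (Fin 2) (Fin 2) ℤ) * lbB ℓ k) :
    lbTransfer_GL ℓ i * Matrix.SpecialLinearGroup.mapGL ℝ γ
      = Matrix.SpecialLinearGroup.mapGL ℝ τ * lbTransfer_GL ℓ k := by
  apply Matrix.GeneralLinearGroup.ext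
  intro a b
  have hcast := congrArg (fun A : Matrix (Fin 2) (Fin 2) ℤ => A.map (Int.castRingHom ℝ)) h
  simp only [Matrix.map_mul] at hcast
  rw [Matrix.GeneralLinearGroup.coe_mul, Matrix.GeneralLinearGroup.coe_mul,
    lbTransfer_GL_val hℓ, lbTransfer_GL_val hℓ, Matrix.SpecialLinearGroup.mapGL_coe_matrix,
    Matrix.SpecialLinearGroup.mapGL_coe_matrix]
  exact congrFun (congrFun hcast a) b

/-! ### Entry comparison -/

theorem lbTransfer_lbB_one_zero (ℓ : ℕ) (i : Option (Fin ℓ)) : lbB ℓ i 1 0 = 0 := by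
  cases i <;> simp [lbB]

theorem lbTransfer_lbB_zero_zero (ℓ : ℕ) (i : Option (Fin ℓ)) :
    lbB ℓ i 0 0 = 1 ∨ lbB ℓ i 0 0 = (ℓ : ℤ) := by
  cases i <;> simp [lbB]

theorem lbTransfer_lbB_one_one (ℓ : ℕ) (i : Option (Fin ℓ)) :
    lbB ℓ i 1 1 = 1 ∨ lbB ℓ i 1 1 = (ℓ : ℤ) := by
  cases i <;> simp [lbB]

theorem lbTransfer_entries {ℓ : ℕ} (i k : Option (Fin ℓ)) (γ τ : SL(2, ℤ))
    (h : lbB ℓ i * (γ : Matrix (Fin 2) (Fin 2) ℤ) = (τ : Matrix (Fin 2) (Fin 2) ℤ) * lbB ℓ k) :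
    lbB ℓ i 1 1 * (γ : Matrix (Fin 2) (Fin 2) ℤ) 1 0
        = (τ : Matrix (Fin 2) (Fin 2) ℤ) 1 0 * lbB ℓ k 0 0 ∧
      lbB ℓ i 1 1 * (γ : Matrix (Fin 2) (Fin 2) ℤ) 1 1
        = (τ : Matrix (Fin 2) (Fin 2) ℤ) 1 0 * lbB ℓ k 0 1
          + (τ : Matrix (Fin 2) (Fin 2) ℤ) 1 1 * lbB ℓ k 1 1 := by
  have h10 := congrFun (congrFun h 1) 0
  have h11 := congrFun (congrFun h 1) 1
  simp only [Matrix.mul_apply, Fin.sum_univ_two, lbTransfer_lbB_one_zero, zero_mul, mul_zero,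
    zero_add, add_zero] at h10 h11
  exact ⟨h10, h11⟩

/-- the lower right entry of an element of `Γ₀(p)` is prime to `p` -/
theorem lbTransfer_not_dvd_of_mem (p : ℕ) [Fact p.Prime] {γ : SL(2, ℤ)} (hγ : γ ∈ Gamma0 p) :
    ¬ (p : ℤ) ∣ (γ : Matrix (Fin 2) (Fin 2) ℤ) 1 1 := by
  intro hd
  have hc : (p : ℤ) ∣ (γ : Matrix (Fin 2) (Fin 2) ℤ) 1 0 := by
    have := Gamma0_mem.mp hγ
    exact (ZMod.intCast_zmod_eq_zero_iff_dvd _ _).1 this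
  have hdet : (γ : Matrix (Fin 2) (Fin 2) ℤ) 0 0 * (γ : Matrix (Fin 2) (Fin 2) ℤ) 1 1
      - (γ : Matrix (Fin 2) (Fin 2) ℤ) 0 1 * (γ : Matrix (Fin 2) (Fin 2) ℤ) 1 0 = 1 := by
    have := γ.det_coe
    rw [Matrix.det_fin_two] at this
    exact this
  have h1 : (p : ℤ) ∣ 1 := by
    rw [← hdet]
    exact dvd_sub (Dvd.dvd.mul_left hd _) (Dvd.dvd.mul_left hc _)
  have hp2 : (2 : ℤ) ≤ (p : ℤ) := by exact_mod_cast (Fact.out : p.Prime).two_le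
  have := Int.le_of_dvd one_pos h1
  omega

theorem lbTransfer_mem_Gamma0_iff (p : ℕ) {γ : SL(2, ℤ)} :
    γ ∈ Gamma0 p ↔ (p : ℤ) ∣ (γ : Matrix (Fin 2) (Fin 2) ℤ) 1 0 := by
  rw [Gamma0_mem, ZMod.intCast_zmod_eq_zero_iff_dvd]

/-- the key step for `T_ℓ`: `τ ∈ Γ₀(p)` and `χ(τ) = χ(γ) + λ(d_i) - λ(d_k)` -/
theorem lbTransfer_chi (p : ℕ) [Fact p.Prime] {ℓ : ℕ} (hℓ : ℓ.Prime) (hℓp : ¬ ℓ ∣ p)
    (i k : Option (Fin ℓ)) (γ τ : SL(2, ℤ)) (hγ : γ ∈ Gamma0 p)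
    (h : lbB ℓ i * (γ : Matrix (Fin 2) (Fin 2) ℤ) = (τ : Matrix (Fin 2) (Fin 2) ℤ) * lbB ℓ k) :
    τ ∈ Gamma0 p ∧
      lbChi p τ = lbChi p γ + lbLamZ p (lbB ℓ i 1 1) - lbLamZ p (lbB ℓ k 1 1) := by
  have hp : (p : ℕ).Prime := Fact.out
  have hpZ : Prime (p : ℤ) := Nat.prime_iff_prime_int.mp hp
  have hpℓ : ¬ (p : ℤ) ∣ (ℓ : ℤ) := by
    intro hd
    have hd' : p ∣ ℓ := by exact_mod_cast hd
    have : p = ℓ := (Nat.prime_dvd_prime_iff_eq hp hℓ).1 hd'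
    exact hℓp (this ▸ dvd_rfl)
  have hp1 : ¬ (p : ℤ) ∣ 1 := by
    intro hd
    have hp2 : (2 : ℤ) ≤ (p : ℤ) := by exact_mod_cast hp.two_le
    have := Int.le_of_dvd one_pos hd
    omega
  have hnd00 : ∀ j : Option (Fin ℓ), ¬ (p : ℤ) ∣ lbB ℓ j 0 0 := by
    intro j
    rcases lbTransfer_lbB_zero_zero ℓ j with h1 | h1 <;> rw [h1]
    · exact hp1
    · exact hpℓ
  have hnd11 : ∀ j : Option (Fin ℓ), ¬ (p : ℤ) ∣ lbB ℓ j 1 1 := by
    intro j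
    rcases lbTransfer_lbB_one_one ℓ j with h1 | h1 <;> rw [h1]
    · exact hp1
    · exact hpℓ
  obtain ⟨h10, h11⟩ := lbTransfer_entries i k γ τ h
  have hγc : (p : ℤ) ∣ (γ : Matrix (Fin 2) (Fin 2) ℤ) 1 0 := (lbTransfer_mem_Gamma0_iff p).1 hγ
  have hτc : (p : ℤ) ∣ (τ : Matrix (Fin 2) (Fin 2) ℤ) 1 0 := by
    have : (p : ℤ) ∣ (τ : Matrix (Fin 2) (Fin 2) ℤ) 1 0 * lbB ℓ k 0 0 := by
      rw [← h10]; exact Dvd.dvd.mul_left hγc _
    rcases hpZ.dvd_or_dvd this with h1 | h1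
    · exact h1
    · exact absurd h1 (hnd00 k)
  have hτ : τ ∈ Gamma0 p := (lbTransfer_mem_Gamma0_iff p).2 hτc
  refine ⟨hτ, ?_⟩
  have hcongr : (((lbB ℓ i 1 1 * (γ : Matrix (Fin 2) (Fin 2) ℤ) 1 1 : ℤ)) : ZMod p)
      = (((τ : Matrix (Fin 2) (Fin 2) ℤ) 1 1 * lbB ℓ k 1 1 : ℤ) : ZMod p) := by
    rw [h11]
    have h0 : (((τ : Matrix (Fin 2) (Fin 2) ℤ) 1 0 : ℤ) : ZMod p) = 0 :=
      (ZMod.intCast_zmod_eq_zero_iff_dvd _ _).2 hτc
    push_cast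
    rw [h0, zero_mul, zero_add]
  have hlam := lbLamZ_congr p hcongr
  rw [lbLamZ_mul p (hnd11 i) (lbTransfer_not_dvd_of_mem p hγ),
    lbLamZ_mul p (lbTransfer_not_dvd_of_mem p hτ) (hnd11 k)] at hlam
  show lbLamZ p ((τ : Matrix (Fin 2) (Fin 2) ℤ) 1 1)
    = lbLamZ p ((γ : Matrix (Fin 2) (Fin 2) ℤ) 1 1) + lbLamZ p (lbB ℓ i 1 1) - lbLamZ p (lbB ℓ k 1 1)
  linear_combination -hlam

/-- the key step for `U_p`: `τ ∈ Γ₀(p)` and `χ(τ) = χ(γ)` -/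
theorem lbTransfer_chi_U (p : ℕ) [Fact p.Prime] (j k : Fin p) (γ τ : SL(2, ℤ))
    (hγ : γ ∈ Gamma0 p)
    (h : lbB p (some j) * (γ : Matrix (Fin 2) (Fin 2) ℤ)
      = (τ : Matrix (Fin 2) (Fin 2) ℤ) * lbB p (some k)) :
    τ ∈ Gamma0 p ∧ lbChi p τ = lbChi p γ := by
  have hp : (p : ℕ).Prime := Fact.out
  have hp0 : (p : ℤ) ≠ 0 := by exact_mod_cast hp.ne_zero
  obtain ⟨h10, h11⟩ := lbTransfer_entries (some j) (some k) γ τ h
  have hγc : (p : ℤ) ∣ (γ : Matrix (Fin 2) (Fin 2) ℤ) 1 0 := (lbTransfer_mem_Gamma0_iff p).1 hγ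
  have e1 : lbB p (some j) 1 1 = (p : ℤ) := by simp [lbB]
  have e2 : lbB p (some k) 0 0 = 1 := by simp [lbB]
  have e3 : lbB p (some k) 0 1 = ((k : ℕ) : ℤ) := by simp [lbB]
  have e4 : lbB p (some k) 1 1 = (p : ℤ) := by simp [lbB]
  rw [e1, e2, mul_one] at h10
  rw [e1, e3, e4, ← h10] at h11
  -- `τ 1 0 = p * γ 1 0`, `p * γ 1 1 = p * γ 1 0 * k + τ 1 1 * p`
  have hτc : (p : ℤ) ∣ (τ : Matrix (Fin 2) (Fin 2) ℤ) 1 0 := ⟨_, h10.symm⟩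
  have hτ : τ ∈ Gamma0 p := (lbTransfer_mem_Gamma0_iff p).2 hτc
  refine ⟨hτ, ?_⟩
  have h11' : (γ : Matrix (Fin 2) (Fin 2) ℤ) 1 1
      = (γ : Matrix (Fin 2) (Fin 2) ℤ) 1 0 * ((k : ℕ) : ℤ) + (τ : Matrix (Fin 2) (Fin 2) ℤ) 1 1 := by
    apply mul_left_cancel₀ hp0
    linear_combination h11
  show lbLamZ p ((τ : Matrix (Fin 2) (Fin 2) ℤ) 1 1) = lbLamZ p ((γ : Matrix (Fin 2) (Fin 2) ℤ) 1 1)
  refine lbLamZ_congr p ?_
  rw [h11']
  have h0 : (((γ : Matrix (Fin 2) (Fin 2) ℤ) 1 0 : ℤ) : ZMod p) = 0 :=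
    (ZMod.intCast_zmod_eq_zero_iff_dvd _ _).2 hγc
  push_cast
  rw [h0, zero_mul, zero_add]

/-! ### The transfer formula -/

/-- `T_ℓ` (`ℓ ≠ p`) multiplies the congruence class by `1 + ℓ`. -/
theorem lbGood_heckeT (p : ℕ) [Fact p.Prime] {ℓ : ℕ} (hℓ : ℓ.Prime) (hℓp : ¬ ℓ ∣ p)
    {x : CuspForm (Gamma0 p) 2 × CuspForm (Gamma0 p) 2} {k : ZMod (eisensteinNumerator p)}
    (h : LBGood p x k) :
    LBGood p (CuspForm.heckeTLin 2 hℓ hℓp x.1, CuspForm.heckeTLin 2 hℓ hℓp x.2)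
      ((1 + (ℓ : ZMod (eisensteinNumerator p))) * k) := by
  intro γ
  have hℓ0 : ℓ ≠ 0 := hℓ.ne_zero
  obtain ⟨σ, τ, hστ⟩ := lb_coset_perm hℓ (γ : SL(2, ℤ))
  have hτ : ∀ i, τ i ∈ Gamma0 p ∧ lbChi p (τ i)
      = lbChi p (γ : SL(2, ℤ)) + lbLamZ p (lbB ℓ i 1 1) - lbLamZ p (lbB ℓ (σ i) 1 1) :=
    fun i => lbTransfer_chi p hℓ hℓp i (σ i) γ (τ i) γ.2 (hστ i)
  have hm : ∀ i, ∃ m : ℤ,
      periodHomPair p x (Additive.ofMul (⟨τ i, (hτ i).1⟩ : Gamma0 p)) = (m : ℂ) ∧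
      ((m : ℤ) : ZMod (eisensteinNumerator p)) = k * lbChi p (τ i) :=
    fun i => h ⟨τ i, (hτ i).1⟩
  choose m hm1 hm2 using hm
  refine ⟨∑ i, m i, ?_, ?_⟩
  · rw [← lbPsi_smul p _ γ UpperHalfPlane.I]
    have hsum : ∀ w : ℍ,
        lbPsi p (CuspForm.heckeTLin 2 hℓ hℓp x.1, CuspForm.heckeTLin 2 hℓ hℓp x.2) w
          = ∑ i, lbPsi p x (lbTransfer_GL ℓ i • w) := by
      intro w
      rw [lbPsi_heckeT p hℓ hℓp x w, Fintype.sum_option,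
        ← Fin.sum_univ_eq_sum_range (fun j => lbPsi p x (ModularForm.heckeMatrix ℓ j • w)) ℓ,
        add_comm]
      rfl
    rw [hsum, hsum]
    have hterm : ∀ i, lbPsi p x (lbTransfer_GL ℓ i • ((γ : SL(2, ℤ)) • UpperHalfPlane.I))
        = (m i : ℂ) + lbPsi p x (lbTransfer_GL ℓ (σ i) • UpperHalfPlane.I) := by
      intro i
      have hGL := lbTransfer_GL_mul hℓ0 (hστ i)
      rw [Fermat.Agent.S22.smul_smul_of_mul_eq hGL]
      have h3 := lbPsi_smul p x ⟨τ i, (hτ i).1⟩ (lbTransfer_GL ℓ (σ i) • UpperHalfPlane.I)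
      rw [hm1 i] at h3
      linear_combination h3
    rw [Finset.sum_congr rfl (fun i _ => hterm i), Finset.sum_add_distrib,
      Equiv.sum_comp σ (fun i => lbPsi p x (lbTransfer_GL ℓ i • UpperHalfPlane.I))]
    push_cast
    ring
  · push_cast
    rw [Finset.sum_congr rfl (fun i _ => hm2 i), ← Finset.mul_sum,
      Finset.sum_congr rfl (fun i _ => (hτ i).2), Finset.sum_sub_distrib, Finset.sum_add_distrib,
      Equiv.sum_comp σ (fun i => lbLamZ p (lbB ℓ i 1 1)), Finset.sum_const, Finset.card_univ,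
      Fintype.card_option, Fintype.card_fin, nsmul_eq_mul]
    push_cast
    ring

/-- `U_p` preserves the congruence class (`p ≡ 1 mod n`). -/
theorem lbGood_heckeU (p : ℕ) [Fact p.Prime] {q : ℕ} (hq : q.Prime) (hqp : q ∣ p)
    {x : CuspForm (Gamma0 p) 2 × CuspForm (Gamma0 p) 2} {k : ZMod (eisensteinNumerator p)}
    (h : LBGood p x k) :
    LBGood p (CuspForm.heckeULin 2 hqp x.1, CuspForm.heckeULin 2 hqp x.2) k := by
  have hp : (p : ℕ).Prime := Fact.out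
  obtain rfl : q = p := (Nat.prime_dvd_prime_iff_eq hq hp).1 hqp
  intro γ
  have hq0 : q ≠ 0 := hq.ne_zero
  obtain ⟨σ, τ, hστ⟩ := lb_coset_perm_U hq (γ : SL(2, ℤ)) ((lbTransfer_mem_Gamma0_iff q).1 γ.2)
  have hτ : ∀ j, τ j ∈ Gamma0 q ∧ lbChi q (τ j) = lbChi q (γ : SL(2, ℤ)) :=
    fun j => lbTransfer_chi_U q j (σ j) γ (τ j) γ.2 (hστ j)
  have hm : ∀ j, ∃ m : ℤ,
      periodHomPair q x (Additive.ofMul (⟨τ j, (hτ j).1⟩ : Gamma0 q)) = (m : ℂ) ∧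
      ((m : ℤ) : ZMod (eisensteinNumerator q)) = k * lbChi q (τ j) :=
    fun j => h ⟨τ j, (hτ j).1⟩
  choose m hm1 hm2 using hm
  refine ⟨∑ j, m j, ?_, ?_⟩
  · rw [← lbPsi_smul q _ γ UpperHalfPlane.I]
    have hsum : ∀ w : ℍ,
        lbPsi q (CuspForm.heckeULin 2 hqp x.1, CuspForm.heckeULin 2 hqp x.2) w
          = ∑ j : Fin q, lbPsi q x (lbTransfer_GL q (some j) • w) := by
      intro w
      rw [lbPsi_heckeU q hq hqp x w,
        ← Fin.sum_univ_eq_sum_range (fun j => lbPsi q x (ModularForm.heckeMatrix q j • w)) q]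
      rfl
    rw [hsum, hsum]
    have hterm : ∀ j : Fin q,
        lbPsi q x (lbTransfer_GL q (some j) • ((γ : SL(2, ℤ)) • UpperHalfPlane.I))
        = (m j : ℂ) + lbPsi q x (lbTransfer_GL q (some (σ j)) • UpperHalfPlane.I) := by
      intro j
      have hGL := lbTransfer_GL_mul hq0 (hστ j)
      rw [Fermat.Agent.S22.smul_smul_of_mul_eq hGL]
      have h3 := lbPsi_smul q x ⟨τ j, (hτ j).1⟩ (lbTransfer_GL q (some (σ j)) • UpperHalfPlane.I)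
      rw [hm1 j] at h3
      linear_combination h3
    rw [Finset.sum_congr rfl (fun j _ => hterm j), Finset.sum_add_distrib,
      Equiv.sum_comp σ (fun j => lbPsi q x (lbTransfer_GL q (some j) • UpperHalfPlane.I))]
    push_cast
    ring
  · have hq1 : ((q : ℕ) : ZMod (eisensteinNumerator q)) = 1 := by
      have hdvd := eisensteinNumerator_dvd q
      have h0 : (((q - 1 : ℕ) : ℕ) : ZMod (eisensteinNumerator q)) = 0 :=
        (ZMod.natCast_eq_zero_iff _ _).2 hdvd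
      have hq1' : q = (q - 1) + 1 := (Nat.sub_add_cancel hq.one_lt.le).symm
      calc ((q : ℕ) : ZMod (eisensteinNumerator q))
          = (((q - 1) + 1 : ℕ) : ZMod (eisensteinNumerator q)) := by rw [← hq1']
        _ = 1 := by push_cast; rw [h0, zero_add]
    push_cast
    rw [Finset.sum_congr rfl (fun j _ => hm2 j), ← Finset.mul_sum,
      Finset.sum_congr rfl (fun j _ => (hτ j).2), Finset.sum_const, Finset.card_univ,
      Fintype.card_fin, nsmul_eq_mul, hq1, one_mul]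

end Fermat.Agent.S16L
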