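import Mathlib
import Fermat.Agent.S16L.Defs
import Fermat.Prelude.Def_CuspForm_HeckeEvalForms
import Fermat.Agent.S16L.LBLam
import Fermat.Agent.S16L.LBGood
import Fermat.Agent.S16L.LBLift
import Fermat.Agent.S16L.LBTransfer

/-!
# S16L: the lower bound (LB) — plan §5
A Hecke polynomial that kills `S₂(Γ₀(p))` has Eisenstein value divisible by `n`
(Shimura character, integral parabolic lift, Hecke-equivariance of the S21 period map).
-/

set_option autoImplicit false

open ModularCurve CuspForm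

namespace Fermat.Agent.S16L

open CongruenceSubgroup in
/-- The action of a Hecke operator on a pair of cusp forms. -/
noncomputable def lbAct (p : ℕ) [Fact p.Prime] (t : heckeAlgebra p 2 ∅)
    (x : CuspForm (Gamma0 p) 2 × CuspForm (Gamma0 p) 2) :
    CuspForm (Gamma0 p) 2 × CuspForm (Gamma0 p) 2 :=
  ((t : Module.End ℂ (CuspForm (Gamma0 p) 2)) x.1, (t : Module.End ℂ (CuspForm (Gamma0 p) 2)) x.2)

open CongruenceSubgroup in
theorem lbGood_add (p : ℕ) [Fact p.Prime]
    {x y : CuspForm (Gamma0 p) 2 × CuspForm (Gamma0 p) 2} {k k' : ZMod (eisensteinNumerator p)}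
    (hx : LBGood p x k) (hy : LBGood p y k') : LBGood p (x + y) (k + k') := by
  intro γ
  obtain ⟨m, hm, hm'⟩ := hx γ
  obtain ⟨m', h1, h1'⟩ := hy γ
  refine ⟨m + m', ?_, ?_⟩
  · rw [map_add, AddMonoidHom.add_apply, hm, h1]; push_cast; ring
  · push_cast; rw [hm', h1']; ring

open CongruenceSubgroup in
theorem lbGood_zsmul (p : ℕ) [Fact p.Prime]
    {x : CuspForm (Gamma0 p) 2 × CuspForm (Gamma0 p) 2} {k : ZMod (eisensteinNumerator p)}
    (hx : LBGood p x k) (a : ℤ) : LBGood p (a • x) ((a : ZMod (eisensteinNumerator p)) * k) := by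
  intro γ
  obtain ⟨m, hm, hm'⟩ := hx γ
  refine ⟨a * m, ?_, ?_⟩
  · rw [map_zsmul, AddMonoidHom.smul_apply, hm]; push_cast; simp
  · push_cast; rw [hm']; ring

open CongruenceSubgroup in
/-- Key induction: the Hecke polynomial `Q` multiplies the congruence class by its Eisenstein
value. -/
theorem lbGood_eval (p : ℕ) [Fact p.Prime] (Q : ModularCurve.HeckeAlg) :
    ∀ (x : CuspForm (Gamma0 p) 2 × CuspForm (Gamma0 p) 2) (k : ZMod (eisensteinNumerator p)),
      LBGood p x k → LBGood p (lbAct p (heckeEvalForms p 2 Q) x)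
        (((MvPolynomial.aeval (eisensteinSystem p) Q : ℤ) : ZMod (eisensteinNumerator p)) * k) := by
  induction Q using MvPolynomial.induction_on with
  | C a =>
    intro x k hx
    have h1 : lbAct p (heckeEvalForms p 2 (MvPolynomial.C a)) x = a • x := by
      rw [heckeEvalForms_C]
      ext <;> simp [lbAct]
    rw [h1, MvPolynomial.aeval_C]
    exact lbGood_zsmul p hx a
  | add Q₁ Q₂ h₁ h₂ =>
    intro x k hx
    have h1 : lbAct p (heckeEvalForms p 2 (Q₁ + Q₂)) x
        = lbAct p (heckeEvalForms p 2 Q₁) x + lbAct p (heckeEvalForms p 2 Q₂) x := by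
      rw [map_add]
      ext <;> simp [lbAct]
    rw [h1, map_add]
    push_cast
    rw [add_mul]
    exact lbGood_add p (h₁ x k hx) (h₂ x k hx)
  | mul_X Q ℓ hQ =>
    intro x k hx
    have h1 : lbAct p (heckeEvalForms p 2 (Q * MvPolynomial.X ℓ)) x
        = lbAct p (heckeEvalForms p 2 Q) (lbAct p (heckeFormsGen p 2 ℓ) x) := by
      have h2 : heckeEvalForms p 2 (MvPolynomial.X ℓ) = heckeFormsGen p 2 ℓ :=
        heckeEvalForms_heckeGen p 2 ℓ
      rw [map_mul, h2]
      rfl
    have h3 : LBGood p (lbAct p (heckeFormsGen p 2 ℓ) x)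
        (((eisensteinSystem p ℓ : ℤ) : ZMod (eisensteinNumerator p)) * k) := by
      by_cases hℓ : (ℓ : ℕ) ∣ p
      · rw [heckeFormsGen_of_dvd hℓ, eisensteinSystem_of_dvd hℓ]
        have := lbGood_heckeU p ℓ.2 hℓ hx
        simpa [lbAct] using this
      · rw [heckeFormsGen_of_not_dvd hℓ, eisensteinSystem_of_not_dvd hℓ]
        have := lbGood_heckeT p ℓ.2 hℓ hx
        simpa [lbAct] using this
    have h4 := hQ _ _ h3
    rw [h1, map_mul, MvPolynomial.aeval_X]
    push_cast
    rw [mul_assoc]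
    exact h4

theorem lb_core (p : ℕ) [Fact p.Prime] (P : ModularCurve.HeckeAlg)
    (hP : heckeEvalForms p 2 P = 0) :
    (eisensteinNumerator p : ℤ) ∣ MvPolynomial.aeval (eisensteinSystem p) P := by
  obtain ⟨x₀, hx₀⟩ := lb_exists_good p
  have h := lbGood_eval p P x₀ 1 hx₀
  obtain ⟨γ, hγ⟩ := lbChi_surj p
  obtain ⟨m, hm, hm'⟩ := h γ
  have h0 : lbAct p (heckeEvalForms p 2 P) x₀ = 0 := by
    rw [hP]
    ext <;> simp [lbAct]
  rw [h0, map_zero] at hm
  have hm0 : m = 0 := by
    have : ((m : ℤ) : ℂ) = 0 := by rw [← hm]; rfl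
    exact_mod_cast this
  rw [hm0, hγ, mul_one, mul_one] at hm'
  have h5 : ((MvPolynomial.aeval (eisensteinSystem p) P : ℤ) : ZMod (eisensteinNumerator p)) = 0 := by
    rw [← hm']; simp
  exact (ZMod.intCast_zmod_eq_zero_iff_dvd _ _).mp h5

end Fermat.Agent.S16L
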