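import Mathlib
import Fermat.Agent.S16L.Defs
import Fermat.Agent.S16L.PS

/-!
# S16L: the key reduction (CLA) — plan §4
`G ≡ unit mod ℓ^a`, `ℓ ≠ p`  ⟹  `p ≡ -1 mod ℓ^a`   (from `Tr(G · V_p Δ) ∈ S₁₄(1) = 0`).
-/

set_option autoImplicit false

open PowerSeries

namespace Fermat.Agent.S16L

/-- `Δ` is a level-one form of weight 12. -/
theorem cla_delta_mem {p : ℕ} (D : TraceData p) : psDelta ∈ D.LL 12 := by
  have h4 : psE4 ^ 3 ∈ D.LL 12 := by
    have := D.LL_mul (D.LL_mul D.E4_mem D.E4_mem) D.E4_mem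
    have e : psE4 * psE4 * psE4 = psE4 ^ 3 := by ring
    rw [e] at this
    exact this
  have h6 : psE6 ^ 2 ∈ D.LL 12 := by
    have := D.LL_mul D.E6_mem D.E6_mem
    have e : psE6 * psE6 = psE6 ^ 2 := by ring
    rw [e] at this
    exact this
  exact Submodule.smul_mem _ _ (Submodule.sub_mem _ h4 h6)

/-- the trace formula (TR): for `x = (g, ĝ)` of weight `w` on `Γ₀(p)` and `φ` of level one and
weight `k`, `g · V φ + p^{1-k} U(ĝ · φ)` is of level one and weight `w + k`. -/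
theorem cla_trV {p : ℕ} [Fact p.Prime] (D : TraceData p) {w k : ℤ} {x : ℚ⟦X⟧ × ℚ⟦X⟧}
    (hx : x ∈ D.MM w) {φ : ℚ⟦X⟧} (hφ : φ ∈ D.LL k) :
    x.1 * psV p φ + (p : ℚ) ^ (1 - k) • psU p (x.2 * φ) ∈ D.LL (w + k) := by
  have hp : (p : ℚ) ≠ 0 := Nat.cast_ne_zero.mpr (Fact.out : p.Prime).ne_zero
  have h := D.trace_mem (D.MM_mul hx (D.MM_V_of_LL hφ))
  have e : (p : ℚ) • psU p (x.2 * ((p : ℚ) ^ (-k) • φ)) = (p : ℚ) ^ (1 - k) • psU p (x.2 * φ) := by
    rw [mul_smul_comm, psU_smul, smul_smul]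
    congr 1
    rw [sub_eq_add_neg, zpow_add₀ hp, zpow_one]
  simp only at h
  rw [e] at h
  exact h

/-- the trace formula (TR0): `V φ + p^{1-k} U φ` is of level one and weight `k`. -/
theorem cla_tr0 {p : ℕ} [Fact p.Prime] (D : TraceData p) {k : ℤ} {φ : ℚ⟦X⟧} (hφ : φ ∈ D.LL k) :
    psV p φ + (p : ℚ) ^ (1 - k) • psU p φ ∈ D.LL k := by
  have h := cla_trV D D.MM_one hφ
  simpa using h

theorem cla_coeff_zero_delta : psDelta.coeff 0 = 0 := by
  rw [← map_psDeltaZ, PowerSeries.coeff_map, coeff_zero_psDeltaZ, map_zero]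

theorem cla_coeff_one_delta : psDelta.coeff 1 = 1 := by
  rw [← map_psDeltaZ, PowerSeries.coeff_map, coeff_one_psDeltaZ, map_one]

theorem cla_cc_delta : PowerSeries.constantCoeff psDelta = 0 := by
  rw [← PowerSeries.coeff_zero_eq_constantCoeff_apply]; exact cla_coeff_zero_delta

theorem cla_cc_psU {R : Type*} [CommRing R] (p : ℕ) (a : R⟦X⟧) :
    PowerSeries.constantCoeff (psU p a) = PowerSeries.constantCoeff a := by
  rw [← PowerSeries.coeff_zero_eq_constantCoeff_apply, coeff_psU, mul_zero,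
    PowerSeries.coeff_zero_eq_constantCoeff_apply]

theorem cla_cc_psV {R : Type*} [CommRing R] (p : ℕ) (a : R⟦X⟧) :
    PowerSeries.constantCoeff (psV p a) = PowerSeries.constantCoeff a := by
  rw [← PowerSeries.coeff_zero_eq_constantCoeff_apply, coeff_psV, if_pos (dvd_zero p),
    Nat.zero_div, PowerSeries.coeff_zero_eq_constantCoeff_apply]

theorem cla_psU_C_mul {R : Type*} [CommRing R] (p : ℕ) (c : R) (a : R⟦X⟧) :
    psU p (PowerSeries.C c * a) = PowerSeries.C c * psU p a := by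
  rw [← PowerSeries.smul_eq_C_mul, psU_smul, PowerSeries.smul_eq_C_mul]

/-- `p^{12} · a · VΔ = U(U(a) · Δ)` for `a ∈ M₂(Γ₀(p))` (from `S₁₄(1) = 0`). -/
theorem cla_eq1 {p : ℕ} [Fact p.Prime] (D : TraceData p) {a b : ℚ⟦X⟧} (h : (a, b) ∈ D.MM 2) :
    (p : ℚ) ^ 12 • (a * psV p psDelta) = psU p (psU p a * psDelta) := by
  have hp : (p : ℚ) ≠ 0 := Nat.cast_ne_zero.mpr (Fact.out : p.Prime).ne_zero
  have hb : b = (-(p : ℚ)⁻¹) • psU p a := D.MM_two h
  have h1 := cla_trV D h (cla_delta_mem D)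
  simp only at h1
  obtain ⟨φ', hφ', he⟩ := D.LL_decomp 2 1 h1 (by norm_num)
  have h2 : D.LL (2 + 12 - 12) = ⊥ := D.LL_eq_bot (Or.inr (Or.inr (by norm_num)))
  rw [h2, Submodule.mem_bot] at hφ'
  have hc : (a * psV p psDelta + (p : ℚ) ^ (1 - (12 : ℤ)) • psU p (b * psDelta)).coeff 0 = 0 := by
    simp [cla_cc_psU, cla_cc_psV, cla_cc_delta]
  rw [hc, hφ'] at he
  simp only [map_zero, zero_mul, mul_zero, add_zero] at he
  rw [hb, smul_mul_assoc, psU_smul, smul_smul] at he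
  have he' : a * psV p psDelta = ((p : ℚ) ^ 12)⁻¹ • psU p (psU p a * psDelta) := by
    have e : (p : ℚ) ^ (1 - (12 : ℤ)) * (-(p : ℚ)⁻¹) = -((p : ℚ) ^ 12)⁻¹ := by
      rw [show (1 - (12 : ℤ)) = -11 by norm_num, zpow_neg]
      field_simp
    rw [e, neg_smul] at he
    exact eq_of_sub_eq_zero (by rw [sub_eq_add_neg]; exact he)
  rw [he', smul_smul, mul_inv_cancel₀ (pow_ne_zero _ hp), one_smul]

/-- `U Δ = τ(p) Δ - p^{11} V Δ` (no Hecke theory needed). -/
theorem cla_eq2 {p : ℕ} [Fact p.Prime] (D : TraceData p) :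
    (p : ℚ) ^ 11 • psV p psDelta + psU p psDelta = (psDelta.coeff p) • psDelta := by
  have hpp : p.Prime := Fact.out
  have hp : (p : ℚ) ≠ 0 := Nat.cast_ne_zero.mpr hpp.ne_zero
  have h1 := cla_tr0 D (cla_delta_mem D)
  obtain ⟨φ', hφ', he⟩ := D.LL_decomp 3 0 h1 (by norm_num)
  rw [show ((12 : ℤ) - 12) = 0 by norm_num] at hφ'
  obtain ⟨c, rfl⟩ := D.LL_zero hφ'
  have hc : (psV p psDelta + (p : ℚ) ^ (1 - (12 : ℤ)) • psU p psDelta).coeff 0 = 0 := by
    simp [cla_cc_psU, cla_cc_psV, cla_cc_delta]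
  rw [hc] at he
  simp only [map_zero, zero_mul, zero_add] at he
  have h1' : ¬ p ∣ 1 := fun h => hpp.one_lt.ne' (Nat.dvd_one.mp h)
  have hcc := congrArg (fun f => PowerSeries.coeff 1 f) he
  simp only [map_add, coeff_psV, h1', if_false, zero_add, PowerSeries.coeff_smul, coeff_psU,
    mul_one, smul_eq_mul, PowerSeries.coeff_mul_C, cla_coeff_one_delta, one_mul] at hcc
  rw [← hcc] at he
  have e11 : (p : ℚ) ^ (1 - (12 : ℤ)) = ((p : ℚ) ^ 11)⁻¹ := by
    rw [show (1 - (12 : ℤ)) = -11 by norm_num, zpow_neg]; norm_cast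
  rw [e11] at he
  have hq : (p : ℚ) ^ 11 ≠ 0 := pow_ne_zero _ hp
  calc (p : ℚ) ^ 11 • psV p psDelta + psU p psDelta
      = (p : ℚ) ^ 11 • (psV p psDelta + ((p : ℚ) ^ 11)⁻¹ • psU p psDelta) := by
        rw [smul_add, smul_smul, mul_inv_cancel₀ hq, one_smul]
    _ = _ := by
        rw [he, mul_comm psDelta, ← PowerSeries.smul_eq_C_mul, smul_smul, ← mul_assoc,
          mul_inv_cancel₀ hq, one_mul]

theorem cla_eq1Z {p : ℕ} [Fact p.Prime] (D : TraceData p) {A : ℤ⟦X⟧} (hA : InM2 D A) :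
    PowerSeries.C ((p : ℤ) ^ 12) * (A * psV p psDeltaZ) = psU p (psU p A * psDeltaZ) := by
  obtain ⟨b, hb⟩ := hA
  apply map_int_injective
  have h := cla_eq1 D hb
  rw [PowerSeries.smul_eq_C_mul] at h
  simpa [map_psU, map_psV, map_psDeltaZ] using h

theorem cla_eq2Z {p : ℕ} [Fact p.Prime] (D : TraceData p) :
    PowerSeries.C ((p : ℤ) ^ 11) * psV p psDeltaZ + psU p psDeltaZ
      = PowerSeries.C (psDeltaZ.coeff p) * psDeltaZ := by
  apply map_int_injective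
  have h := cla_eq2 D
  rw [PowerSeries.smul_eq_C_mul, PowerSeries.smul_eq_C_mul] at h
  have e : psDelta.coeff p = ((psDeltaZ.coeff p : ℤ) : ℚ) := by
    rw [← map_psDeltaZ, PowerSeries.coeff_map]; rfl
  rw [e] at h
  simpa [map_psU, map_psV, map_psDeltaZ] using h

theorem cla (p : ℕ) [Fact p.Prime] (D : TraceData p) (ℓ a : ℕ) (hℓ : ℓ.Prime) (hℓp : ℓ ≠ p)
    (ha : 1 ≤ a) (A : ℤ⟦X⟧) (hA : InM2 D A) (hU : IsUnitConstMod ℓ a A) :
    ((ℓ : ℤ) ^ a) ∣ (p : ℤ) + 1 := by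
  have hpp : p.Prime := Fact.out
  have _ := ha
  obtain ⟨hU0, hUk⟩ := hU
  set g : ℤ →+* ZMod (ℓ ^ a) := Int.castRingHom (ZMod (ℓ ^ a)) with hg
  have hgz : ∀ z : ℤ, g z = 0 ↔ (ℓ : ℤ) ^ a ∣ z := by
    intro z
    rw [hg, eq_intCast, ZMod.intCast_zmod_eq_zero_iff_dvd]
    push_cast
    rfl
  -- the reductions
  set c₀ : ZMod (ℓ ^ a) := g (A.coeff 0) with hc₀
  set δ : (ZMod (ℓ ^ a))⟦X⟧ := psDeltaZ.map g with hδ
  set τ : ZMod (ℓ ^ a) := g (psDeltaZ.coeff p) with hτ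
  have hAbar : A.map g = PowerSeries.C c₀ := by
    ext n
    rw [PowerSeries.coeff_map, PowerSeries.coeff_C]
    split_ifs with hn
    · rw [hn]
    · exact (hgz _).mpr (hUk n (Nat.one_le_iff_ne_zero.mpr hn))
  have hunit : ∀ z : ℤ, ¬ ((ℓ : ℤ) ∣ z) → IsUnit (g z) := by
    intro z hz
    have hcop : IsCoprime z ((ℓ : ℤ) ^ a) :=
      (IsCoprime.pow_right ((Nat.prime_iff_prime_int.mp hℓ).coprime_iff_not_dvd.mpr hz).symm)
    obtain ⟨u, v, huv⟩ := hcop
    have := congrArg g huv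
    rw [map_add, map_mul, map_mul, (hgz _).mpr dvd_rfl, mul_zero, add_zero, map_one] at this
    exact IsUnit.of_mul_eq_one _ (by rw [mul_comm]; exact this)
  have hc₀u : IsUnit c₀ := hunit _ hU0
  have hpu : IsUnit (g (p : ℤ)) := by
    apply hunit
    intro h
    exact hℓp ((Nat.prime_dvd_prime_iff_eq hℓ hpp).mp (Int.natCast_dvd_natCast.mp h))
  have hδ1 : δ.coeff 1 = 1 := by
    rw [hδ, PowerSeries.coeff_map, coeff_one_psDeltaZ, map_one]
  have hδp : δ.coeff p = τ := by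
    rw [hδ, PowerSeries.coeff_map]
  -- the two identities mod `ℓ^a`
  have E1 : PowerSeries.C (g ((p : ℤ) ^ 12)) * (PowerSeries.C c₀ * psV p δ)
      = PowerSeries.C c₀ * psU p δ := by
    have h := congrArg (PowerSeries.map g) (cla_eq1Z D hA)
    rw [map_mul, map_mul, PowerSeries.map_C, map_psV, map_psU, map_mul, map_psU, hAbar,
      psU_C p hpp.pos, cla_psU_C_mul] at h
    exact h
  have E2 : PowerSeries.C (g ((p : ℤ) ^ 11)) * psV p δ + psU p δ = PowerSeries.C τ * δ := by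
    have h := congrArg (PowerSeries.map g) (cla_eq2Z D)
    rw [map_add, map_mul, map_mul, PowerSeries.map_C, PowerSeries.map_C, map_psV, map_psU] at h
    exact h
  have h1' : ¬ p ∣ 1 := fun h => hpp.one_lt.ne' (Nat.dvd_one.mp h)
  -- coefficient of `X^1`
  have hτ0 : τ = 0 := by
    have h := congrArg (fun f => PowerSeries.coeff 1 f) E1
    simp only [PowerSeries.coeff_C_mul, coeff_psV, h1', if_false, mul_zero, coeff_psU, mul_one,
      hδp] at h
    exact (hc₀u.mul_right_eq_zero).mp h.symm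
  -- coefficient of `X^p`
  have hVp : (psV p δ).coeff p = 1 := by
    rw [coeff_psV, if_pos dvd_rfl, Nat.div_self hpp.pos, hδ1]
  have h1 := congrArg (fun f => PowerSeries.coeff p f) E1
  have h2 := congrArg (fun f => PowerSeries.coeff p f) E2
  simp only [PowerSeries.coeff_C_mul, map_add, hVp, mul_one, coeff_psU, hδp, hτ0, mul_zero] at h1 h2
  simp only [map_pow] at h1 h2
  have h3 : δ.coeff (p * p) = - g (p : ℤ) ^ 11 := eq_neg_of_add_eq_zero_right h2
  rw [h3] at h1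
  have h4 : c₀ * (g ((p : ℤ) ^ 11) * g ((p : ℤ) + 1)) = 0 := by
    rw [map_add, map_one, map_pow]
    linear_combination h1
  have h5 : g ((p : ℤ) ^ 11) * g ((p : ℤ) + 1) = 0 := (hc₀u.mul_right_eq_zero).mp h4
  have h6 : g ((p : ℤ) + 1) = 0 := by
    rw [map_pow] at h5
    exact ((hpu.pow 11).mul_right_eq_zero).mp h5
  exact (hgz _).mp h6

end Fermat.Agent.S16L
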