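import Mathlib
import Fermat.Agent.S16L.Defs
import Fermat.Agent.S16L.PS

/-!
# S16L / NU5 (helper6 team): an integral model of `E_{ℓ-1}`, congruent to a unit constant mod `ℓ`

von Staudt-Clausen: `ℓ B_{ℓ-1} ≡ -1 mod ℓ`, hence `2(ℓ-1)/B_{ℓ-1} = ℓ a / b` with `ℓ ∤ b`, and
`b E_{ℓ-1} = b - ℓ a ∑ σ_{ℓ-2}(n) q^n` has integer coefficients.  Statement FROZEN.
-/

set_option autoImplicit false

open PowerSeries

namespace Fermat.Agent.S16L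

/-- A sum of `1/q` over primes `q ≠ ℓ` has a denominator prime to `ℓ`. -/
theorem nu5b_sum_inv (ℓ : ℕ) (hℓ : ℓ.Prime) (T : Finset ℕ)
    (hT : ∀ q ∈ T, q.Prime ∧ q ≠ ℓ) :
    ∃ s t : ℤ, ¬ ((ℓ : ℤ) ∣ t) ∧ (t : ℚ) * ∑ q ∈ T, (1 : ℚ) / q = s := by
  classical
  induction T using Finset.induction_on with
  | empty =>
    refine ⟨0, 1, ?_, by simp⟩
    intro h
    have h1 : ((ℓ : ℕ) : ℤ) ∣ ((1 : ℕ) : ℤ) := by simpa using h
    exact hℓ.one_lt.ne' (Nat.dvd_one.mp (Int.natCast_dvd_natCast.mp h1))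
  | insert q T' hq ih =>
    obtain ⟨s', t', ht', hst'⟩ := ih (fun x hx => hT x (Finset.mem_insert_of_mem hx))
    obtain ⟨hqp, hqℓ⟩ := hT q (Finset.mem_insert_self q T')
    refine ⟨t' + q * s', q * t', ?_, ?_⟩
    · intro h
      rcases (Nat.prime_iff_prime_int.mp hℓ).dvd_or_dvd h with h1 | h1
      · have h2 : ℓ ∣ q := Int.natCast_dvd_natCast.mp h1
        exact hqℓ ((Nat.prime_dvd_prime_iff_eq hℓ hqp).mp h2).symm
      · exact ht' h1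
    · rw [Finset.sum_insert hq]
      have hq0 : (q : ℚ) ≠ 0 := Nat.cast_ne_zero.mpr hqp.ne_zero
      push_cast
      rw [← hst']
      field_simp

/-- von Staudt-Clausen at `ℓ - 1`: `ℓ t B_{ℓ-1} = b` with integers `t`, `b`, `ℓ ∤ b`. -/
theorem nu5b_bern (ℓ : ℕ) (hℓ : ℓ.Prime) (h5 : 5 ≤ ℓ) :
    ∃ t b : ℤ, ¬ ((ℓ : ℤ) ∣ b) ∧ (b : ℚ) = (ℓ : ℚ) * t * bernoulli (ℓ - 1) := by
  obtain ⟨k, hk⟩ : ∃ k, ℓ - 1 = 2 * k := by
    obtain ⟨m, hm⟩ := hℓ.odd_of_ne_two (by omega)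
    exact ⟨m, by omega⟩
  obtain ⟨N, hN⟩ := Bernoulli.vonStaudt_clausen k
  have hmem : ℓ ∈ (Finset.range (2 * k + 2)).filter (fun q => q.Prime ∧ (q - 1) ∣ 2 * k) := by
    rw [Finset.mem_filter, Finset.mem_range]
    exact ⟨by omega, hℓ, by rw [hk]⟩
  obtain ⟨s, t, ht, hst⟩ := nu5b_sum_inv ℓ hℓ
    (((Finset.range (2 * k + 2)).filter (fun q => q.Prime ∧ (q - 1) ∣ 2 * k)).erase ℓ) (by
      intro q hq
      rw [Finset.mem_erase, Finset.mem_filter] at hq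
      exact ⟨hq.2.2.1, hq.1⟩)
  rw [← Finset.add_sum_erase _ _ hmem] at hN
  refine ⟨t, ℓ * (t * N - s) - t, ?_, ?_⟩
  · intro h
    apply ht
    have h1 : (ℓ : ℤ) ∣ ℓ * (t * N - s) := dvd_mul_right _ _
    have h2 := Int.dvd_sub h1 h
    simpa using h2
  · have hℓ0 : (ℓ : ℚ) ≠ 0 := Nat.cast_ne_zero.mpr hℓ.ne_zero
    have hB : bernoulli (ℓ - 1)
        = (N : ℚ) - (1 / (ℓ : ℚ) + ∑ q ∈ ((Finset.range (2 * k + 2)).filter
            (fun q => q.Prime ∧ (q - 1) ∣ 2 * k)).erase ℓ, (1 : ℚ) / q) := by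
      rw [hk, hN]; ring
    rw [hB]
    push_cast
    rw [← hst]
    field_simp
    ring

theorem nu5_Ek_model (ℓ : ℕ) (hℓ : ℓ.Prime) (h5 : 5 ≤ ℓ) :
    ∃ (EZ : ℤ⟦X⟧) (b : ℤ), ¬ ((ℓ : ℤ) ∣ b) ∧
      EZ.map (Int.castRingHom ℚ) = (b : ℚ) • psEk (ℓ - 1) ∧
      EZ.coeff 0 = b ∧ ∀ k, 1 ≤ k → ((ℓ : ℤ) ∣ EZ.coeff k) := by
  obtain ⟨t, b, hb, hbB⟩ := nu5b_bern ℓ hℓ h5
  have hb0 : (b : ℚ) ≠ 0 := by
    intro h
    apply hb
    have h0 : b = 0 := by exact_mod_cast h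
    rw [h0]
    exact dvd_zero _
  have hB : bernoulli (ℓ - 1) ≠ 0 := by
    intro h
    rw [h, mul_zero] at hbB
    exact hb0 hbB
  have h2 : ℓ - 1 - 1 = ℓ - 2 := by omega
  have hc : (b : ℚ) * (2 * ((ℓ - 1 : ℕ) : ℚ) / bernoulli (ℓ - 1))
      = (((ℓ : ℤ) * (2 * ((ℓ : ℤ) - 1) * t) : ℤ) : ℚ) := by
    rw [hbB, Nat.cast_sub hℓ.one_le]
    push_cast
    field_simp
  have hL : ∀ n : ℕ, (C b - C ((ℓ : ℤ) * (2 * ((ℓ : ℤ) - 1) * t)) * psSigmaZ (ℓ - 2)).coeff n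
      = (if n = 0 then b else 0)
        - (ℓ : ℤ) * (2 * ((ℓ : ℤ) - 1) * t) * ((ArithmeticFunction.sigma (ℓ - 2) n : ℕ) : ℤ) := by
    intro n
    simp only [psSigmaZ, map_sub, PowerSeries.coeff_C, PowerSeries.coeff_C_mul,
      PowerSeries.coeff_mk]
  refine ⟨C b - C ((ℓ : ℤ) * (2 * ((ℓ : ℤ) - 1) * t)) * psSigmaZ (ℓ - 2), b, hb, ?_, ?_, ?_⟩
  · ext n
    have hR : ((b : ℚ) • psEk (ℓ - 1)).coeff n = (if n = 0 then (b : ℚ) else 0)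
        - (((ℓ : ℤ) * (2 * ((ℓ : ℤ) - 1) * t) : ℤ) : ℚ)
          * ((ArithmeticFunction.sigma (ℓ - 2) n : ℕ) : ℚ) := by
      simp only [psEk, psSigma, h2, PowerSeries.coeff_smul, map_sub, PowerSeries.coeff_one,
        PowerSeries.coeff_mk, smul_eq_mul, mul_sub, ← mul_assoc, hc, mul_ite, mul_one, mul_zero]
    rw [PowerSeries.coeff_map, hL, hR, eq_intCast]
    split_ifs <;> push_cast <;> ring
  · rw [hL, if_pos rfl, ArithmeticFunction.map_zero, Nat.cast_zero, mul_zero, sub_zero]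
  · intro k hk
    have hk0 : k ≠ 0 := by omega
    rw [hL, if_neg hk0, zero_sub, dvd_neg, mul_assoc]
    exact dvd_mul_right _ _

end Fermat.Agent.S16L
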