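/-
S16, package NU5 (helper6): the multiplicity argument behind the "power lemma" (pure algebra).

In a field `𝕂 ⊇ 𝔽` with elements `E4, E6, D` (`E4³ - E6² = 1728 D`, `J = E4³ / D` transcendental
over `𝔽`), if `E4^x E6^y D^m P(J)` is a nonzero constant and `E4^x' E6^y' D^m' PA(J) = 1`, with
weights `2 w'` and `2 h`, `gcd(w', h) = 1`, `h > 0`, then `x' = y' = 0` and `PA` is constant.
-/
import Mathlib

set_option autoImplicit false

namespace Fermat.Agent.S16L

open Polynomial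

section

variable {𝔽 𝕂 : Type*} [Field 𝔽] [Field 𝕂] [Algebra 𝔽 𝕂]

/-- twelfth power of a "standard form" -/
theorem nu5_twelfth_power (E4 E6 D : 𝕂) (hD : D ≠ 0) (hrel : E4 ^ 3 - E6 ^ 2 = 1728 * D)
    (x y m : ℕ) (P : Polynomial 𝔽) :
    (E4 ^ x * E6 ^ y * D ^ m * Polynomial.aeval (E4 ^ 3 / D) P) ^ 12 =
      D ^ (4 * x + 6 * y + 12 * m) *
        Polynomial.aeval (E4 ^ 3 / D) (X ^ (4 * x) * (X - C (1728 : 𝔽)) ^ (6 * y) * P ^ 12) := by
  have h4 : E4 ^ 3 = E4 ^ 3 / D * D := by field_simp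
  have h6 : E6 ^ 2 = (E4 ^ 3 / D - 1728) * D := by
    rw [sub_mul, ← h4]
    linear_combination -hrel
  have e4 : E4 ^ (12 * x) = (E4 ^ 3 / D) ^ (4 * x) * D ^ (4 * x) := by
    rw [← mul_pow, ← h4, ← pow_mul]
    congr 1
    ring
  have e6 : E6 ^ (12 * y) = (E4 ^ 3 / D - 1728) ^ (6 * y) * D ^ (6 * y) := by
    rw [← mul_pow, ← h6, ← pow_mul]
    congr 1
    ring
  have hc : (algebraMap 𝔽 𝕂) 1728 = 1728 := by
    rw [map_ofNat]
  simp only [map_mul, map_pow, map_sub, aeval_X, aeval_C, hc]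
  rw [mul_pow, mul_pow, mul_pow, ← pow_mul, ← pow_mul, ← pow_mul, mul_comm x 12, mul_comm y 12,
    mul_comm m 12, e4, e6, pow_add, pow_add]
  ring

theorem nu5_roots_form [DecidableEq 𝔽] (x y : ℕ) (P : Polynomial 𝔽)
    (hP : P ≠ 0) (t : 𝔽) :
    (X ^ (4 * x) * (X - C (1728 : 𝔽)) ^ (6 * y) * P ^ 12).roots.count t =
      (if t = 0 then 4 * x else 0) + (if t = 1728 then 6 * y else 0) + 12 * P.roots.count t := by
  have h1 : (X - C (1728 : 𝔽)) ^ (6 * y) ≠ 0 := pow_ne_zero _ (X_sub_C_ne_zero _)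
  have h2 : (X : Polynomial 𝔽) ^ (4 * x) ≠ 0 := pow_ne_zero _ X_ne_zero
  have h3 : P ^ 12 ≠ 0 := pow_ne_zero _ hP
  rw [roots_mul (mul_ne_zero (mul_ne_zero h2 h1) h3), roots_mul (mul_ne_zero h2 h1),
    roots_pow, roots_pow, roots_pow, roots_X, roots_X_sub_C, Multiset.count_add,
    Multiset.count_add, Multiset.count_nsmul, Multiset.count_nsmul, Multiset.count_nsmul,
    Multiset.count_singleton, Multiset.count_singleton]
  have e1 : (if t = 0 then 1 else 0) = (if 0 = t then 1 else 0 : ℕ) := by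
    simp only [eq_comm]
  have e2 : (if t = 1728 then 1 else 0) = (if 1728 = t then 1 else 0 : ℕ) := by
    simp only [eq_comm]
  split_ifs <;> simp_all

end

/-- The multiplicity argument. -/
theorem nu5_mult_core {𝔽 𝕂 : Type*} [Field 𝔽] [Field 𝕂] [Algebra 𝔽 𝕂] (h1728 : (1728 : 𝔽) ≠ 0)
    (E4 E6 D : 𝕂) (hD : D ≠ 0) (hrel : E4 ^ 3 - E6 ^ 2 = 1728 * D)
    (hJ : Transcendental 𝔽 (E4 ^ 3 / D))
    (x y m x' y' m' : ℕ) (P PA : Polynomial 𝔽) (hPA : PA.natDegree ≤ m')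
    (c : 𝔽) (hc : c ≠ 0)
    (hφ : E4 ^ x * E6 ^ y * D ^ m * Polynomial.aeval (E4 ^ 3 / D) P = algebraMap 𝔽 𝕂 c)
    (hA : E4 ^ x' * E6 ^ y' * D ^ m' * Polynomial.aeval (E4 ^ 3 / D) PA = 1)
    (w' h : ℕ) (hw : 4 * x + 6 * y + 12 * m = 2 * w') (hh : 4 * x' + 6 * y' + 12 * m' = 2 * h)
    (hcop : Nat.Coprime w' h) (hh0 : 0 < h) :
    x' = 0 ∧ y' = 0 ∧ 12 * m' = 2 * h ∧
      ∃ κ : 𝔽, κ ≠ 0 ∧ algebraMap 𝔽 𝕂 κ * D ^ m' = 1 := by
  classical
  have hP0 : P ≠ 0 := by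
    rintro rfl
    rw [map_zero, mul_zero] at hφ
    exact hc ((map_eq_zero (algebraMap 𝔽 𝕂)).mp hφ.symm)
  have hPA0 : PA ≠ 0 := by
    rintro rfl
    rw [map_zero, mul_zero] at hA
    exact zero_ne_one hA
  -- the polynomial identity
  have h1 := nu5_twelfth_power E4 E6 D hD hrel x y m P
  have h2 := nu5_twelfth_power E4 E6 D hD hrel x' y' m' PA
  rw [hφ, hw] at h1
  rw [hA, hh, one_pow] at h2
  set Yφ := X ^ (4 * x) * (X - C (1728 : 𝔽)) ^ (6 * y) * P ^ 12 with hYφ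
  set YA := X ^ (4 * x') * (X - C (1728 : 𝔽)) ^ (6 * y') * PA ^ 12 with hYA
  have h3 : Polynomial.aeval (E4 ^ 3 / D) (Yφ ^ h - C (c ^ (12 * h)) * YA ^ w') = 0 := by
    have e1 : D ^ (2 * w' * h) * Polynomial.aeval (E4 ^ 3 / D) (Yφ ^ h) =
        algebraMap 𝔽 𝕂 (c ^ (12 * h)) := by
      rw [map_pow, pow_mul (D), ← mul_pow, ← h1, ← pow_mul, map_pow]
    have e2 : D ^ (2 * w' * h) * Polynomial.aeval (E4 ^ 3 / D) (YA ^ w') = 1 := by
      rw [map_pow, mul_right_comm 2 w' h, pow_mul (D), ← mul_pow, ← h2, one_pow]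
    have hDne : D ^ (2 * w' * h) ≠ 0 := pow_ne_zero _ hD
    apply mul_left_cancel₀ hDne
    rw [mul_zero, map_sub, mul_sub, e1, map_mul, aeval_C, mul_left_comm, e2, mul_one, sub_self]
  have h4 : Yφ ^ h = C (c ^ (12 * h)) * YA ^ w' := by
    by_contra hne
    exact hJ ⟨_, sub_ne_zero.mpr hne, h3⟩
  -- pass to the algebraic closure and count roots
  have hinj : Function.Injective (algebraMap 𝔽 (AlgebraicClosure 𝔽)) :=
    (algebraMap 𝔽 (AlgebraicClosure 𝔽)).injective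
  have h1728' : (1728 : AlgebraicClosure 𝔽) ≠ 0 := by
    intro h0
    apply h1728
    apply hinj
    rw [map_ofNat, h0, map_zero]
  have hP0' : P.map (algebraMap 𝔽 (AlgebraicClosure 𝔽)) ≠ 0 :=
    (Polynomial.map_ne_zero_iff hinj).mpr hP0
  have hPA0' : PA.map (algebraMap 𝔽 (AlgebraicClosure 𝔽)) ≠ 0 :=
    (Polynomial.map_ne_zero_iff hinj).mpr hPA0
  have h5 := congrArg (Polynomial.map (algebraMap 𝔽 (AlgebraicClosure 𝔽))) h4
  have hck : (algebraMap 𝔽 (AlgebraicClosure 𝔽)) (c ^ (12 * h)) ≠ 0 := by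
    rw [Ne, map_eq_zero]
    exact pow_ne_zero _ hc
  have h1728c : (algebraMap 𝔽 (AlgebraicClosure 𝔽)) 1728 = 1728 := map_ofNat _ _
  simp only [hYφ, hYA, Polynomial.map_mul, Polynomial.map_pow, Polynomial.map_sub,
    Polynomial.map_X, Polynomial.map_C] at h5
  rw [h1728c] at h5
  have hcount : ∀ t : AlgebraicClosure 𝔽,
      h * ((if t = 0 then 4 * x else 0) + (if t = 1728 then 6 * y else 0) +
        12 * (P.map (algebraMap 𝔽 (AlgebraicClosure 𝔽))).roots.count t) =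
      w' * ((if t = 0 then 4 * x' else 0) + (if t = 1728 then 6 * y' else 0) +
        12 * (PA.map (algebraMap 𝔽 (AlgebraicClosure 𝔽))).roots.count t) := by
    intro t
    have h6 := congrArg (fun p : Polynomial (AlgebraicClosure 𝔽) => p.roots.count t) h5
    beta_reduce at h6
    rw [roots_pow, Multiset.count_nsmul, roots_C_mul _ hck, roots_pow, Multiset.count_nsmul,
      nu5_roots_form x y _ hP0' t, nu5_roots_form x' y' _ hPA0' t] at h6
    exact h6
  have hcard : ∀ t : AlgebraicClosure 𝔽,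
      (PA.map (algebraMap 𝔽 (AlgebraicClosure 𝔽))).roots.count t ≤ m' := fun t =>
    (Multiset.count_le_card _ _).trans
      ((Polynomial.card_roots' _).trans (natDegree_map_le.trans hPA))
  -- root `0`
  have c0 := hcount 0
  rw [if_pos rfl, if_pos rfl, if_neg h1728'.symm, if_neg h1728'.symm] at c0
  have d0 : h ∣ x' + 3 * (PA.map (algebraMap 𝔽 (AlgebraicClosure 𝔽))).roots.count 0 := by
    apply hcop.symm.dvd_of_dvd_mul_left
    refine ⟨x + 3 * (P.map (algebraMap 𝔽 (AlgebraicClosure 𝔽))).roots.count 0, ?_⟩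
    linarith
  have n0 := hcard 0
  obtain ⟨k0, hk0⟩ := d0
  have hk0' : k0 = 0 := by
    rcases Nat.eq_zero_or_pos k0 with h0 | h0
    · exact h0
    · exfalso
      have : h ≤ h * k0 := Nat.le_mul_of_pos_right h h0
      omega
  rw [hk0', mul_zero] at hk0
  have hx' : x' = 0 := by omega
  -- root `1728`
  have c1 := hcount 1728
  rw [if_neg h1728', if_neg h1728', if_pos rfl, if_pos rfl] at c1
  have d1 : h ∣ y' + 2 * (PA.map (algebraMap 𝔽 (AlgebraicClosure 𝔽))).roots.count 1728 := by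
    apply hcop.symm.dvd_of_dvd_mul_left
    refine ⟨y + 2 * (P.map (algebraMap 𝔽 (AlgebraicClosure 𝔽))).roots.count 1728, ?_⟩
    linarith
  have n1 := hcard 1728
  obtain ⟨k1, hk1⟩ := d1
  have hk1' : k1 = 0 := by
    rcases Nat.eq_zero_or_pos k1 with h0 | h0
    · exact h0
    · exfalso
      have : h ≤ h * k1 := Nat.le_mul_of_pos_right h h0
      omega
  rw [hk1', mul_zero] at hk1
  have hy' : y' = 0 := by omega
  -- no roots at all
  have hnoroots : (PA.map (algebraMap 𝔽 (AlgebraicClosure 𝔽))).roots = 0 := by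
    rw [Multiset.eq_zero_iff_forall_notMem]
    intro t ht
    have hpos : 0 < (PA.map (algebraMap 𝔽 (AlgebraicClosure 𝔽))).roots.count t :=
      Multiset.count_pos.mpr ht
    by_cases ht0 : t = 0
    · subst ht0
      omega
    by_cases ht1 : t = 1728
    · subst ht1
      omega
    have ct := hcount t
    rw [if_neg ht0, if_neg ht0, if_neg ht1, if_neg ht1] at ct
    have dt : h ∣ (PA.map (algebraMap 𝔽 (AlgebraicClosure 𝔽))).roots.count t := by
      apply hcop.symm.dvd_of_dvd_mul_left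
      refine ⟨(P.map (algebraMap 𝔽 (AlgebraicClosure 𝔽))).roots.count t, ?_⟩
      linarith
    have nt := hcard t
    obtain ⟨kt, hkt⟩ := dt
    have : h ≤ h * kt := by
      rcases Nat.eq_zero_or_pos kt with h0 | h0
      · rw [h0, mul_zero] at hkt
        omega
      · exact Nat.le_mul_of_pos_right h h0
    omega
  have hdeg : (PA.map (algebraMap 𝔽 (AlgebraicClosure 𝔽))).natDegree = 0 := by
    have hs := (IsAlgClosed.splits (PA.map (algebraMap 𝔽 (AlgebraicClosure 𝔽))))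
    rw [hs.natDegree_eq_card_roots, hnoroots, Multiset.card_zero]
  rw [natDegree_map] at hdeg
  obtain ⟨κ, hκ⟩ := natDegree_eq_zero.mp hdeg
  refine ⟨hx', hy', by omega, κ, ?_, ?_⟩
  · rintro rfl
    apply hPA0
    rw [← hκ, map_zero]
  · rw [← hκ, hx', hy', pow_zero, pow_zero, one_mul, one_mul, aeval_C] at hA
    rw [mul_comm]
    exact hA

end Fermat.Agent.S16L
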