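import Mathlib
import Fermat.Agent.S16L.Defs
import Fermat.Agent.S16L.PS

/-!
# S16L / NU5 (helper6 team): the standard form of a level-one form with integral q-expansion

`φ = E₄^x E₆^y ∑_{i ≤ m} c_i (E₄³)^i Δ^(m-i)` with integers `c_i`, for `φ` of weight
`4x + 6y + 12m`, `(x, y)` one of the six standard pairs.  Statement FROZEN.
-/

set_option autoImplicit false

open PowerSeries

namespace Fermat.Agent.S16L

/-- one step: split off the constant term -/
theorem nu5_sf_step (p : ℕ) (D : TraceData p) (a y : ℕ) (k : ℤ) (hk : 4 * (a : ℤ) + 6 * (y : ℤ) = k)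
    (φZ : ℤ⟦X⟧) (hφ : φZ.map (Int.castRingHom ℚ) ∈ D.LL k) :
    ∃ φ'Z : ℤ⟦X⟧, φ'Z.map (Int.castRingHom ℚ) ∈ D.LL (k - 12) ∧
      φZ = C (φZ.coeff 0) * psE4Z ^ a * psE6Z ^ y + psDeltaZ * φ'Z := by
  obtain ⟨φ', hφ', hdec⟩ := D.LL_decomp a y hφ hk
  have h1 : psDelta * φ' =
      (φZ - C (φZ.coeff 0) * psE4Z ^ a * psE6Z ^ y).map (Int.castRingHom ℚ) := by
    rw [map_sub, map_mul, map_mul, map_pow, map_pow, map_psE4Z, map_psE6Z, PowerSeries.map_C]
    rw [PowerSeries.coeff_map] at hdec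
    rw [eq_sub_iff_add_eq, add_comm]
    exact hdec.symm
  obtain ⟨φ'Z, hφ'Z⟩ := exists_int_of_psDelta_mul φ' _ h1
  refine ⟨φ'Z, by rw [hφ'Z]; exact hφ', ?_⟩
  apply map_int_injective
  rw [map_add, map_mul, map_mul, map_mul, map_pow, map_pow, map_psE4Z, map_psE6Z, map_psDeltaZ,
    PowerSeries.map_C, hφ'Z]
  rw [PowerSeries.coeff_map] at hdec
  exact hdec

theorem nu5_standard_form (p : ℕ) (D : TraceData p) (x y : ℕ)
    (hxy : 4 * x + 6 * y < 12 ∨ 4 * x + 6 * y = 14) (m : ℕ) (φZ : ℤ⟦X⟧)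
    (hφ : φZ.map (Int.castRingHom ℚ) ∈ D.LL ((4 * x + 6 * y + 12 * m : ℕ) : ℤ)) :
    ∃ P : Polynomial ℤ, P.natDegree ≤ m ∧
      φZ = psE4Z ^ x * psE6Z ^ y *
        ∑ i ∈ Finset.range (m + 1), C (P.coeff i) * (psE4Z ^ 3) ^ i * psDeltaZ ^ (m - i) := by
  induction m generalizing φZ with
  | zero =>
    obtain ⟨φ'Z, hφ', hdec⟩ := nu5_sf_step p D x y _ (by push_cast; ring) φZ hφ
    have hbot : D.LL (((4 * x + 6 * y + 12 * 0 : ℕ) : ℤ) - 12) = ⊥ := by
      apply D.LL_eq_bot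
      rcases hxy with h | h
      · left
        omega
      · right; right
        omega
    rw [hbot, Submodule.mem_bot] at hφ'
    have hz : φ'Z = 0 := by
      apply map_int_injective
      rw [hφ', map_zero]
    refine ⟨Polynomial.C (φZ.coeff 0), by simp, ?_⟩
    rw [hz, mul_zero, add_zero] at hdec
    rw [zero_add, Finset.sum_range_one, Polynomial.coeff_C_zero,
      pow_zero, Nat.sub_self, pow_zero, mul_one, mul_one]
    conv_lhs => rw [hdec]
    ring
  | succ m ih =>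
    obtain ⟨φ'Z, hφ', hdec⟩ :=
      nu5_sf_step p D (x + 3 * (m + 1)) y _ (by push_cast; ring) φZ hφ
    have hw : (((4 * x + 6 * y + 12 * (m + 1) : ℕ) : ℤ) - 12) = ((4 * x + 6 * y + 12 * m : ℕ) : ℤ) := by
      push_cast
      ring
    rw [hw] at hφ'
    obtain ⟨P', hP', hP'eq⟩ := ih φ'Z hφ'
    refine ⟨P' + Polynomial.C (φZ.coeff 0) * Polynomial.X ^ (m + 1), ?_, ?_⟩
    · refine (Polynomial.natDegree_add_le _ _).trans (max_le (hP'.trans (Nat.le_succ m)) ?_)
      exact (Polynomial.natDegree_C_mul_le _ _).trans (Polynomial.natDegree_X_pow_le _)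
    · have hc1 : ∀ i ∈ Finset.range (m + 1),
          C ((P' + Polynomial.C (φZ.coeff 0) * Polynomial.X ^ (m + 1)).coeff i) *
            (psE4Z ^ 3) ^ i * psDeltaZ ^ (m + 1 - i) =
          psDeltaZ * (C (P'.coeff i) * (psE4Z ^ 3) ^ i * psDeltaZ ^ (m - i)) := by
        intro i hi
        have hi' : i < m + 1 := Finset.mem_range.mp hi
        have e1 : m + 1 - i = (m - i) + 1 := by omega
        rw [Polynomial.coeff_add, Polynomial.coeff_C_mul, Polynomial.coeff_X_pow,
          if_neg (by omega), mul_zero, add_zero, e1, pow_succ]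
        ring
      have hc2 : (P' + Polynomial.C (φZ.coeff 0) * Polynomial.X ^ (m + 1)).coeff (m + 1) =
          φZ.coeff 0 := by
        rw [Polynomial.coeff_add, Polynomial.coeff_C_mul, Polynomial.coeff_X_pow, if_pos rfl,
          mul_one, Polynomial.coeff_eq_zero_of_natDegree_lt (by omega), zero_add]
      rw [Finset.sum_range_succ, Finset.sum_congr rfl hc1, ← Finset.mul_sum, hc2, Nat.sub_self,
        pow_zero, mul_one]
      conv_lhs => rw [hdec, hP'eq]
      ring

end Fermat.Agent.S16L
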