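import Mathlib
import Fermat.Agent.S16L.Defs
import Fermat.Agent.S16L.PS
import Fermat.Agent.S16L.NU5Mult
import Fermat.Agent.S16L.NU5SF
import Fermat.Agent.S16L.NU5Bern

/-!
# S16L / NU5 (helper6 team): the power lemma (plan §3, L1e)

For a prime `ℓ ≥ 5` there is no level-one form of weight `2 w'` with integral q-expansion congruent
to a unit constant mod `ℓ`, if `gcd(w', (ℓ-1)/2) = 1`.  Statement FROZEN.

Proof: reduce mod `ℓ` into the field `𝔽_ℓ((q))`; write the form and `E_{ℓ-1}` in standard form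
`E₄^x E₆^y Δ^m P(j)`; then `NU5Mult.nu5_mult_core` (multiplicities of the roots of `P(j)` at
`j = 0, 1728`) forces `E_{ℓ-1} ≡ κ Δ^{m'}` with `m' ≥ 1`, contradicting the constant term.
-/

set_option autoImplicit false

open PowerSeries

namespace Fermat.Agent.S16L

/-- standard exponents for an even weight `≠ 2` -/
theorem nu5_wt_std (w : ℕ) (hw : w ≠ 1) :
    ∃ x y m : ℕ, (4 * x + 6 * y < 12 ∨ 4 * x + 6 * y = 14) ∧ 4 * x + 6 * y + 12 * m = 2 * w := by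
  have hdiv := Nat.div_add_mod w 6
  have h6 : w % 6 = 0 ∨ w % 6 = 1 ∨ w % 6 = 2 ∨ w % 6 = 3 ∨ w % 6 = 4 ∨ w % 6 = 5 := by omega
  rcases h6 with h | h | h | h | h | h
  · exact ⟨0, 0, w / 6, by omega, by omega⟩
  · exact ⟨2, 1, w / 6 - 1, by omega, by omega⟩
  · exact ⟨1, 0, w / 6, by omega, by omega⟩
  · exact ⟨0, 1, w / 6, by omega, by omega⟩
  · exact ⟨2, 0, w / 6, by omega, by omega⟩
  · exact ⟨1, 1, w / 6, by omega, by omega⟩

/-- clearing denominators in `aeval (A / B) P` -/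
theorem nu5_clear_denoms {𝔽 𝕂 : Type*} [Field 𝔽] [Field 𝕂] [Algebra 𝔽 𝕂] (A B : 𝕂) (hB : B ≠ 0)
    (m : ℕ) (P : Polynomial 𝔽) (hP : P.natDegree ≤ m) :
    B ^ m * Polynomial.aeval (A / B) P =
      ∑ i ∈ Finset.range (m + 1), algebraMap 𝔽 𝕂 (P.coeff i) * A ^ i * B ^ (m - i) := by
  rw [Polynomial.aeval_eq_sum_range' (Nat.lt_succ_of_le hP), Finset.mul_sum]
  refine Finset.sum_congr rfl fun i hi => ?_
  have hi' : i ≤ m := Nat.lt_succ_iff.mp (Finset.mem_range.mp hi)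
  have hBm : B ^ m = B ^ (m - i) * B ^ i := by rw [← pow_add, Nat.sub_add_cancel hi']
  rw [Algebra.smul_def, div_pow, hBm]
  field_simp

/-- reduction mod `ℓ`, viewed in the Laurent series field -/
noncomputable def nu5_red (ℓ : ℕ) : ℤ⟦X⟧ →+* LaurentSeries (ZMod ℓ) :=
  (HahnSeries.ofPowerSeries ℤ (ZMod ℓ)).comp (PowerSeries.map (Int.castRingHom (ZMod ℓ)))

theorem nu5_red_apply (ℓ : ℕ) (A : ℤ⟦X⟧) :
    nu5_red ℓ A = HahnSeries.ofPowerSeries ℤ (ZMod ℓ) (A.map (Int.castRingHom (ZMod ℓ))) := rfl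

theorem nu5_algebraMap_eq (ℓ : ℕ) (c : ZMod ℓ) :
    algebraMap (ZMod ℓ) (LaurentSeries (ZMod ℓ)) c =
      HahnSeries.ofPowerSeries ℤ (ZMod ℓ) (C c) := by
  rw [HahnSeries.algebraMap_apply']
  rfl

theorem nu5_red_C (ℓ : ℕ) (a : ℤ) :
    nu5_red ℓ (C a) = algebraMap (ZMod ℓ) (LaurentSeries (ZMod ℓ)) (a : ZMod ℓ) := by
  rw [nu5_red_apply, PowerSeries.map_C, nu5_algebraMap_eq]
  rfl

theorem nu5_red_const (ℓ : ℕ) (A : ℤ⟦X⟧) (h : ∀ k, 1 ≤ k → (ℓ : ℤ) ∣ A.coeff k) :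
    nu5_red ℓ A = algebraMap (ZMod ℓ) (LaurentSeries (ZMod ℓ)) ((A.coeff 0 : ℤ) : ZMod ℓ) := by
  rw [← nu5_red_C, nu5_red_apply, nu5_red_apply]
  congr 1
  ext k
  rw [PowerSeries.coeff_map, PowerSeries.coeff_map, PowerSeries.coeff_C]
  rcases Nat.eq_zero_or_pos k with rfl | hk
  · simp
  · rw [if_neg hk.ne', map_zero]
    exact (ZMod.intCast_zmod_eq_zero_iff_dvd _ _).mpr (h k hk)

theorem nu5_coeff_zero_psE4Z : psE4Z.coeff 0 = 1 := by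
  rw [psE4Z, map_add, PowerSeries.coeff_zero_one, map_smul, coeff_zero_psSigmaZ, smul_zero,
    add_zero]

theorem nu5_red_delta_ne (ℓ : ℕ) [Fact ℓ.Prime] : nu5_red ℓ psDeltaZ ≠ 0 := by
  rw [nu5_red_apply]
  intro h
  have h0 : psDeltaZ.map (Int.castRingHom (ZMod ℓ)) = 0 :=
    HahnSeries.ofPowerSeries_injective (by rw [h, map_zero])
  have h1 := congrArg (PowerSeries.coeff 1) h0
  rw [PowerSeries.coeff_map, coeff_one_psDeltaZ, map_zero, map_one] at h1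
  exact one_ne_zero h1

theorem nu5_red_delta_pow_ne (ℓ : ℕ) [Fact ℓ.Prime] (m : ℕ) (hm : 1 ≤ m) (κ : ZMod ℓ)
    (h : algebraMap (ZMod ℓ) (LaurentSeries (ZMod ℓ)) κ * nu5_red ℓ psDeltaZ ^ m = 1) : False := by
  have h1 : HahnSeries.ofPowerSeries ℤ (ZMod ℓ)
      (C κ * (psDeltaZ.map (Int.castRingHom (ZMod ℓ))) ^ m) =
      HahnSeries.ofPowerSeries ℤ (ZMod ℓ) 1 := by
    rw [map_mul, map_pow, ← nu5_algebraMap_eq, map_one]
    exact h
  have h2 := HahnSeries.ofPowerSeries_injective h1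
  have h3 := congrArg (PowerSeries.coeff 0) h2
  rw [PowerSeries.coeff_zero_eq_constantCoeff_apply, map_mul, map_pow,
    ← PowerSeries.coeff_zero_eq_constantCoeff_apply (psDeltaZ.map _), PowerSeries.coeff_map,
    coeff_zero_psDeltaZ, map_zero, zero_pow (by omega), mul_zero,
    PowerSeries.coeff_zero_one] at h3
  exact zero_ne_one h3

theorem nu5_ps_sum_coeff_zero {R : Type*} [CommRing R] (E Dl : R⟦X⟧)
    (hE : PowerSeries.constantCoeff E = 1) (hD : PowerSeries.constantCoeff Dl = 0) (m : ℕ)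
    (c : ℕ → R) :
    PowerSeries.constantCoeff
      (∑ i ∈ Finset.range (m + 1), C (c i) * (E ^ 3) ^ i * Dl ^ (m - i)) = c m := by
  rw [map_sum, Finset.sum_eq_single m]
  · simp [hE]
  · intro i hi him
    have : i < m := lt_of_le_of_ne (Nat.lt_succ_iff.mp (Finset.mem_range.mp hi)) him
    rw [map_mul, map_pow _ Dl, hD, zero_pow (by omega), mul_zero]
  · intro h
    exact absurd (Finset.mem_range.mpr (Nat.lt_succ_self m)) h

theorem nu5_red_sum (ℓ : ℕ) (m : ℕ) (c : ℕ → ZMod ℓ) :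
    ∑ i ∈ Finset.range (m + 1), algebraMap (ZMod ℓ) (LaurentSeries (ZMod ℓ)) (c i) *
        (nu5_red ℓ psE4Z ^ 3) ^ i * nu5_red ℓ psDeltaZ ^ (m - i) =
      HahnSeries.ofPowerSeries ℤ (ZMod ℓ)
        (∑ i ∈ Finset.range (m + 1), C (c i) *
          ((psE4Z.map (Int.castRingHom (ZMod ℓ))) ^ 3) ^ i *
          (psDeltaZ.map (Int.castRingHom (ZMod ℓ))) ^ (m - i)) := by
  rw [map_sum]
  refine Finset.sum_congr rfl fun i _ => ?_
  rw [map_mul, map_mul, map_pow, map_pow, map_pow, ← nu5_algebraMap_eq]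
  rfl

theorem nu5_J_transcendental (ℓ : ℕ) [Fact ℓ.Prime] :
    Transcendental (ZMod ℓ) (nu5_red ℓ psE4Z ^ 3 / nu5_red ℓ psDeltaZ) := by
  rintro ⟨P, hP0, hP⟩
  have h1 := nu5_clear_denoms (nu5_red ℓ psE4Z ^ 3) (nu5_red ℓ psDeltaZ) (nu5_red_delta_ne ℓ)
    P.natDegree P le_rfl
  rw [hP, mul_zero, nu5_red_sum] at h1
  have h2 := HahnSeries.ofPowerSeries_injective (h1.symm.trans (map_zero _).symm)
  have h3 := congrArg PowerSeries.constantCoeff h2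
  rw [nu5_ps_sum_coeff_zero _ _ (by
      rw [← PowerSeries.coeff_zero_eq_constantCoeff_apply, PowerSeries.coeff_map,
        nu5_coeff_zero_psE4Z, map_one]) (by
      rw [← PowerSeries.coeff_zero_eq_constantCoeff_apply, PowerSeries.coeff_map,
        coeff_zero_psDeltaZ, map_zero]), map_zero] at h3
  exact hP0 (Polynomial.leadingCoeff_eq_zero.mp h3)

theorem nu5_red_sf (ℓ : ℕ) [Fact ℓ.Prime] (x y m : ℕ) (P : Polynomial ℤ) (hP : P.natDegree ≤ m)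
    (φZ : ℤ⟦X⟧)
    (h : φZ = psE4Z ^ x * psE6Z ^ y *
      ∑ i ∈ Finset.range (m + 1), C (P.coeff i) * (psE4Z ^ 3) ^ i * psDeltaZ ^ (m - i)) :
    nu5_red ℓ φZ = nu5_red ℓ psE4Z ^ x * nu5_red ℓ psE6Z ^ y * nu5_red ℓ psDeltaZ ^ m *
      Polynomial.aeval (nu5_red ℓ psE4Z ^ 3 / nu5_red ℓ psDeltaZ)
        (P.map (Int.castRingHom (ZMod ℓ))) := by
  rw [mul_assoc, nu5_clear_denoms _ _ (nu5_red_delta_ne ℓ) m _
    ((Polynomial.natDegree_map_le).trans hP), h, map_mul, map_mul, map_pow, map_pow, map_sum]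
  congr 1
  refine Finset.sum_congr rfl fun i _ => ?_
  rw [map_mul, map_mul, map_pow, map_pow, map_pow, nu5_red_C, Polynomial.coeff_map]
  rfl

theorem nu5_h1728 (ℓ : ℕ) (hℓ : ℓ.Prime) (h5 : 5 ≤ ℓ) : (1728 : ZMod ℓ) ≠ 0 := by
  have h : ((1728 : ℕ) : ZMod ℓ) ≠ 0 := by
    rw [Ne, ZMod.natCast_eq_zero_iff]
    intro hd
    have h2 : (1728 : ℕ) = 2 ^ 6 * 3 ^ 3 := by norm_num
    rw [h2] at hd
    rcases (Nat.Prime.dvd_mul hℓ).mp hd with h | h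
    · have := Nat.le_of_dvd (by norm_num) (hℓ.dvd_of_dvd_pow h)
      omega
    · have := Nat.le_of_dvd (by norm_num) (hℓ.dvd_of_dvd_pow h)
      omega
  exact_mod_cast h

theorem nu5_red_rel (ℓ : ℕ) :
    nu5_red ℓ psE4Z ^ 3 - nu5_red ℓ psE6Z ^ 2 = 1728 * nu5_red ℓ psDeltaZ := by
  have h := congrArg (nu5_red ℓ) psE4Z_cube_sub
  rw [map_sub, map_pow, map_pow, zsmul_eq_mul, map_mul, map_intCast] at h
  rw [h]
  norm_num

theorem nu5_power_lemma (p : ℕ) (D : TraceData p) (ℓ : ℕ) (hℓ : ℓ.Prime) (h5 : 5 ≤ ℓ) (w' : ℕ)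
    (hcop : Nat.Coprime w' ((ℓ - 1) / 2)) (φZ : ℤ⟦X⟧)
    (hφ : φZ.map (Int.castRingHom ℚ) ∈ D.LL ((2 * w' : ℕ) : ℤ))
    (hU : IsUnitConstMod ℓ 1 φZ) : False := by
  have : Fact ℓ.Prime := ⟨hℓ⟩
  -- weight 2 is excluded
  by_cases hw1 : w' = 1
  · subst hw1
    have hbot : D.LL ((2 * 1 : ℕ) : ℤ) = ⊥ := D.LL_eq_bot (Or.inr (Or.inr (by norm_num)))
    rw [hbot, Submodule.mem_bot] at hφ
    have hz : φZ = 0 := map_int_injective (by rw [hφ, map_zero])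
    exact hU.1 (by rw [hz]; simp)
  obtain ⟨x, y, m, hxy, hwt⟩ := nu5_wt_std w' hw1
  have hodd : Odd ℓ := hℓ.odd_of_ne_two (by omega)
  obtain ⟨t, ht⟩ := hodd
  have hh : (ℓ - 1) / 2 = t := by omega
  rw [hh] at hcop
  have hℓt : ℓ - 1 = 2 * t := by omega
  have ht1 : t ≠ 1 := by omega
  obtain ⟨x', y', m', hxy', hwt'⟩ := nu5_wt_std t ht1
  obtain ⟨EZ, b, hb, hEZ, hEZ0, hEZk⟩ := nu5_Ek_model ℓ hℓ h5
  have hEZmem : EZ.map (Int.castRingHom ℚ) ∈ D.LL ((4 * x' + 6 * y' + 12 * m' : ℕ) : ℤ) := by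
    rw [hEZ, hwt', ← hℓt]
    exact Submodule.smul_mem _ _
      (D.Ek_mem (ℓ - 1) (by omega) (by rw [hℓt]; exact even_two_mul t))
  rw [← hwt] at hφ
  obtain ⟨P, hP, hPeq⟩ := nu5_standard_form p D x y hxy m φZ hφ
  obtain ⟨PA, hPA, hPAeq⟩ := nu5_standard_form p D x' y' hxy' m' EZ hEZmem
  have h1 := nu5_red_sf ℓ x y m P hP φZ hPeq
  have h2 := nu5_red_sf ℓ x' y' m' PA hPA EZ hPAeq
  rw [nu5_red_const ℓ φZ (fun k hk => by simpa using hU.2 k hk)] at h1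
  rw [nu5_red_const ℓ EZ hEZk, hEZ0] at h2
  have hc : ((φZ.coeff 0 : ℤ) : ZMod ℓ) ≠ 0 := by
    rw [Ne, ZMod.intCast_zmod_eq_zero_iff_dvd]
    exact hU.1
  have hb' : ((b : ℤ) : ZMod ℓ) ≠ 0 := by
    rw [Ne, ZMod.intCast_zmod_eq_zero_iff_dvd]
    exact hb
  have hA : nu5_red ℓ psE4Z ^ x' * nu5_red ℓ psE6Z ^ y' * nu5_red ℓ psDeltaZ ^ m' *
      Polynomial.aeval (nu5_red ℓ psE4Z ^ 3 / nu5_red ℓ psDeltaZ)
        (Polynomial.C ((b : ZMod ℓ))⁻¹ * PA.map (Int.castRingHom (ZMod ℓ))) = 1 := by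
    rw [map_mul, Polynomial.aeval_C, mul_left_comm, ← h2, ← map_mul, inv_mul_cancel₀ hb', map_one]
  obtain ⟨-, -, hm', κ, -, hκeq⟩ := nu5_mult_core (nu5_h1728 ℓ hℓ h5) (nu5_red ℓ psE4Z)
    (nu5_red ℓ psE6Z) (nu5_red ℓ psDeltaZ) (nu5_red_delta_ne ℓ) (nu5_red_rel ℓ)
    (nu5_J_transcendental ℓ) x y m x' y' m' (P.map (Int.castRingHom (ZMod ℓ)))
    (Polynomial.C ((b : ZMod ℓ))⁻¹ * PA.map (Int.castRingHom (ZMod ℓ)))
    ((Polynomial.natDegree_C_mul_le _ _).trans ((Polynomial.natDegree_map_le).trans hPA))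
    _ hc h1.symm hA w' t hwt hwt' hcop (by omega)
  exact nu5_red_delta_pow_ne ℓ m' (by omega) κ hκeq

end Fermat.Agent.S16L
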