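import Mathlib
import Fermat.Agent.S16L.Defs
import Fermat.Agent.S16L.PS

/-!
# S16L / NU5 (helper6 team): two level-one forms produced by the trace (pure algebra on `TraceData`)

* `nu5_trace_pow`: `p^(n-1) A^n - U((U A)^n)` has weight `2n` (odd `n`)          ("`Tr(G^n)`")
* `nu5_trace_mul`: `U(U(A) φ) - p^k A V(φ)` has weight `2 + k` for `φ` of weight `k`   ("`Tr(G V_p φ)`")
Statements FROZEN.
-/

set_option autoImplicit false

open PowerSeries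

namespace Fermat.Agent.S16L

/-- an integer scalar maps to the corresponding rational scalar -/
theorem nu5t_map_zsmul (c : ℤ) (B : ℤ⟦X⟧) :
    (c • B).map (Int.castRingHom ℚ) = (c : ℚ) • B.map (Int.castRingHom ℚ) := by
  rw [zsmul_eq_mul, map_mul, map_intCast, PowerSeries.smul_eq_C_mul, map_intCast]

/-- powers of a weight-2 pair -/
theorem nu5t_pow_mem (p : ℕ) (D : TraceData p) {a b : ℚ⟦X⟧} (h : (a, b) ∈ D.MM 2) (n : ℕ) :
    (a ^ n, b ^ n) ∈ D.MM ((2 * n : ℕ) : ℤ) := by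
  induction n with
  | zero =>
    have h0 : ((2 * 0 : ℕ) : ℤ) = 0 := by norm_num
    rw [h0, pow_zero, pow_zero]
    exact D.MM_one
  | succ n ih =>
    have h1 := D.MM_mul ih h
    have h2 : (((2 * n : ℕ) : ℤ) + 2) = ((2 * (n + 1) : ℕ) : ℤ) := by push_cast; ring
    rw [h2] at h1
    rw [pow_succ, pow_succ]
    exact h1

theorem nu5_trace_pow (p : ℕ) [Fact p.Prime] (D : TraceData p) (A : ℤ⟦X⟧) (hA : InM2 D A)
    (n : ℕ) (hn : Odd n) :
    (((p : ℤ) ^ (n - 1)) • A ^ n - psU p ((psU p A) ^ n)).map (Int.castRingHom ℚ) ∈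
      D.LL ((2 * n : ℕ) : ℤ) := by
  obtain ⟨b, hb⟩ := hA
  have hb2 : b = (-(p : ℚ)⁻¹) • psU p (A.map (Int.castRingHom ℚ)) := D.MM_two hb
  have hp0 : (p : ℚ) ≠ 0 := Nat.cast_ne_zero.mpr (Fact.out : p.Prime).ne_zero
  have htr := D.trace_mem (nu5t_pow_mem p D hb n)
  have hsm := Submodule.smul_mem _ ((p : ℚ) ^ (n - 1)) htr
  have hn1 : n - 1 + 1 = n := by
    obtain ⟨m, rfl⟩ := hn
    omega
  have hc : (p : ℚ) ^ (n - 1) * (p : ℚ) * (-(p : ℚ)⁻¹) ^ n = -1 := by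
    rw [Odd.neg_pow hn, mul_neg, ← pow_succ, hn1, inv_pow,
      mul_inv_cancel₀ (pow_ne_zero n hp0)]
  have hcast : (((p : ℤ) ^ (n - 1) : ℤ) : ℚ) = (p : ℚ) ^ (n - 1) := by
    rw [Int.cast_pow, Int.cast_natCast]
  have key : (((p : ℤ) ^ (n - 1)) • A ^ n - psU p ((psU p A) ^ n)).map (Int.castRingHom ℚ) =
      (p : ℚ) ^ (n - 1) • ((A.map (Int.castRingHom ℚ)) ^ n + (p : ℚ) • psU p (b ^ n)) := by
    rw [map_sub, nu5t_map_zsmul, map_psU, map_pow, map_pow, map_psU, hb2, smul_pow, psU_smul,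
      smul_add, smul_smul, smul_smul, hc, neg_one_smul, sub_eq_add_neg, hcast]
  rw [key]
  exact hsm

theorem nu5_trace_mul (p : ℕ) [Fact p.Prime] (D : TraceData p) (A : ℤ⟦X⟧) (hA : InM2 D A)
    (k : ℕ) (EZ : ℤ⟦X⟧) (hE : EZ.map (Int.castRingHom ℚ) ∈ D.LL (k : ℤ)) :
    (psU p (psU p A * EZ) - ((p : ℤ) ^ k) • (A * psV p EZ)).map (Int.castRingHom ℚ) ∈
      D.LL ((2 + k : ℕ) : ℤ) := by
  obtain ⟨b, hb⟩ := hA
  have hb2 : b = (-(p : ℚ)⁻¹) • psU p (A.map (Int.castRingHom ℚ)) := D.MM_two hb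
  have hp0 : (p : ℚ) ≠ 0 := Nat.cast_ne_zero.mpr (Fact.out : p.Prime).ne_zero
  have hmul := D.MM_mul hb (D.MM_V_of_LL hE)
  have hw : (2 : ℤ) + (k : ℤ) = ((2 + k : ℕ) : ℤ) := by push_cast; ring
  rw [hw] at hmul
  have htr := D.trace_mem hmul
  have hsm := Submodule.smul_mem _ (-(p : ℚ) ^ k) htr
  have hc : -(p : ℚ) ^ k * (p : ℚ) * (-(p : ℚ)⁻¹ * (p : ℚ) ^ (-(k : ℤ))) = 1 := by
    rw [zpow_neg, zpow_natCast]
    field_simp
  have hcast : (((p : ℤ) ^ k : ℤ) : ℚ) = (p : ℚ) ^ k := by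
    rw [Int.cast_pow, Int.cast_natCast]
  have key : (psU p (psU p A * EZ) - ((p : ℤ) ^ k) • (A * psV p EZ)).map (Int.castRingHom ℚ) =
      (-(p : ℚ) ^ k) • (A.map (Int.castRingHom ℚ) * psV p (EZ.map (Int.castRingHom ℚ)) +
        (p : ℚ) • psU p (b * ((p : ℚ) ^ (-(k : ℤ)) • EZ.map (Int.castRingHom ℚ)))) := by
    rw [map_sub, nu5t_map_zsmul, map_psU, map_mul, map_mul, map_psU, map_psV, hb2,
      smul_mul_smul_comm, psU_smul, smul_add, smul_smul, smul_smul, hc, one_smul, hcast,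
      neg_smul, sub_eq_add_neg, add_comm]
  rw [key]
  exact hsm

end Fermat.Agent.S16L
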