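import Mathlib
import Fermat.Agent.S16L.Defs
import Fermat.Agent.S16L.PS
import Fermat.Agent.S16L.CLA
import Fermat.Agent.S16L.NU5Tr
import Fermat.Agent.S16L.NU5Pow

/-!
# S16L / NU5 (helper6 team): the case `ℓ ≥ 5`, `ℓ ≠ p` (plan §4, (NU5)).  Statement FROZEN.
-/

set_option autoImplicit false

open PowerSeries

namespace Fermat.Agent.S16L

/-- the exact `ℓ`-adic valuation of `p ^ (ℓ ^ e - 1) - 1` when `ℓ ^ e` exactly divides `p + 1` -/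
theorem nu5e_val (p ℓ e : ℕ) (hℓ : ℓ.Prime) (hodd : Odd ℓ) (he : 1 ≤ e)
    (h1 : (ℓ : ℤ) ^ e ∣ (p : ℤ) + 1) (h2 : ¬ (ℓ : ℤ) ^ (e + 1) ∣ (p : ℤ) + 1) :
    ∃ u : ℤ, ¬ (ℓ : ℤ) ∣ u ∧ (p : ℤ) ^ (ℓ ^ e - 1) - 1 = (ℓ : ℤ) ^ e * u := by
  have hprime : Prime (ℓ : ℤ) := Nat.prime_iff_prime_int.mp hℓ
  have hℓe : (ℓ : ℤ) ∣ (ℓ : ℤ) ^ e := dvd_pow_self _ (by omega)
  have hxy : (ℓ : ℤ) ∣ (p : ℤ) - (-1) := by
    rw [sub_neg_eq_add]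
    exact hℓe.trans h1
  have hx : ¬ (ℓ : ℤ) ∣ (p : ℤ) := by
    intro h
    have h3 : (ℓ : ℤ) ∣ ((p : ℤ) + 1) - (p : ℤ) := dvd_sub (hℓe.trans h1) h
    rw [add_sub_cancel_left] at h3
    exact hprime.not_dvd_one h3
  have hpos : 1 ≤ ℓ ^ e := Nat.one_le_pow _ _ hℓ.pos
  have hn : ¬ (ℓ : ℤ) ∣ ((ℓ ^ e - 1 : ℕ) : ℤ) := by
    intro h
    rw [Nat.cast_sub hpos, Nat.cast_pow, Nat.cast_one] at h
    have h3 : (ℓ : ℤ) ∣ (ℓ : ℤ) ^ e - ((ℓ : ℤ) ^ e - 1) := dvd_sub hℓe h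
    rw [sub_sub_cancel] at h3
    exact hprime.not_dvd_one h3
  have key := emultiplicity_pow_sub_pow_of_prime hprime hxy hx hn
  have heven : Even (ℓ ^ e - 1) := Nat.Odd.sub_odd hodd.pow odd_one
  rw [heven.neg_one_pow, sub_neg_eq_add, emultiplicity_eq_coe.mpr ⟨h1, h2⟩] at key
  obtain ⟨⟨u, hu⟩, hnd⟩ := emultiplicity_eq_coe.mp key
  refine ⟨u, ?_, hu⟩
  rintro ⟨v, rfl⟩
  apply hnd
  refine ⟨v, ?_⟩
  rw [hu, pow_succ, mul_assoc]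

theorem nu5e_C_dvd (m : ℤ) (G : ℤ⟦X⟧) (h : (C m : ℤ⟦X⟧) ∣ G) (k : ℕ) : m ∣ G.coeff k := by
  obtain ⟨H, rfl⟩ := h
  rw [PowerSeries.coeff_C_mul]
  exact dvd_mul_right _ _

theorem nu5e_natCast_dvd (ℓ : ℕ) (A : ℤ⟦X⟧)
    (h : ∀ k, 1 ≤ k → (ℓ : ℤ) ∣ A.coeff k) :
    ((ℓ : ℕ) : ℤ⟦X⟧) ∣ A - C (A.coeff 0) := by
  refine ⟨PowerSeries.mk fun k => (A - C (A.coeff 0)).coeff k / (ℓ : ℤ), ?_⟩
  have hC : ((ℓ : ℕ) : ℤ⟦X⟧) = C ((ℓ : ℤ)) := by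
    rw [← map_natCast (C : ℤ →+* ℤ⟦X⟧)]
  ext k
  rw [hC, PowerSeries.coeff_C_mul, PowerSeries.coeff_mk, Int.mul_ediv_cancel']
  rcases Nat.eq_zero_or_pos k with rfl | hk
  · rw [map_sub, PowerSeries.coeff_C, if_pos rfl, sub_self]
    exact dvd_zero _
  · rw [map_sub, PowerSeries.coeff_C, if_neg (by omega), sub_zero]
    exact h k hk

theorem nu5e_pow_congr (ℓ e : ℕ) (A : ℤ⟦X⟧)
    (h : ∀ k, 1 ≤ k → (ℓ : ℤ) ∣ A.coeff k) (k : ℕ) :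
    (ℓ : ℤ) ^ (e + 1) ∣
      (A ^ (ℓ ^ e)).coeff k - (if k = 0 then (A.coeff 0) ^ (ℓ ^ e) else 0) := by
  have h1 := dvd_sub_pow_of_dvd_sub (nu5e_natCast_dvd ℓ A h) e
  have h2 : ((ℓ : ℕ) : ℤ⟦X⟧) ^ (e + 1) = C ((ℓ : ℤ) ^ (e + 1)) := by
    rw [map_pow, ← map_natCast (C : ℤ →+* ℤ⟦X⟧)]
  rw [h2, ← map_pow] at h1
  have h3 := nu5e_C_dvd _ _ h1 k
  rwa [map_sub, PowerSeries.coeff_C] at h3

theorem nu5_ell (p : ℕ) [Fact p.Prime] (D : TraceData p) (ℓ : ℕ) (hℓ : ℓ.Prime) (h5 : 5 ≤ ℓ)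
    (hℓp : ℓ ≠ p) (A : ℤ⟦X⟧) (hA : InM2 D A) (hU : IsUnitConstMod ℓ 1 A) : False := by
  have hp : p.Prime := Fact.out
  have hcla := cla p D ℓ 1 hℓ hℓp le_rfl A hA hU
  rw [pow_one] at hcla
  obtain ⟨hc, hhigh⟩ := hU
  simp only [pow_one] at hhigh
  have : Fact ℓ.Prime := ⟨hℓ⟩
  have hprime : Prime (ℓ : ℤ) := Nat.prime_iff_prime_int.mp hℓ
  have hℓ0 : (ℓ : ℤ) ≠ 0 := hprime.ne_zero
  -- the exponent `e`
  have hp1 : p + 1 ≠ 0 := Nat.succ_ne_zero p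
  obtain ⟨e, he_def⟩ : ∃ e, e = padicValNat ℓ (p + 1) := ⟨_, rfl⟩
  have he1 : 1 ≤ e := by
    have h : ℓ ∣ p + 1 := by exact_mod_cast hcla
    rw [he_def]
    exact one_le_padicValNat_of_dvd hp1 h
  have hdvd : (ℓ : ℤ) ^ e ∣ (p : ℤ) + 1 := by
    have h : ℓ ^ e ∣ p + 1 := by
      rw [he_def]
      exact pow_padicValNat_dvd
    exact_mod_cast h
  have hndvd : ¬ (ℓ : ℤ) ^ (e + 1) ∣ (p : ℤ) + 1 := by
    have h : ¬ ℓ ^ (e + 1) ∣ p + 1 := by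
      rw [he_def]
      exact pow_succ_padicValNat_not_dvd hp1
    exact_mod_cast h
  have hodd : Odd ℓ := hℓ.odd_of_ne_two (by omega)
  obtain ⟨u, hu, hpu⟩ := nu5e_val p ℓ e hℓ hodd he1 hdvd hndvd
  obtain ⟨n, hn_def⟩ : ∃ n, n = ℓ ^ e := ⟨_, rfl⟩
  rw [← hn_def] at hpu
  have hn : Odd n := by
    rw [hn_def]
    exact hodd.pow
  have hF := nu5_trace_pow p D A hA n hn
  obtain ⟨F, hF_def⟩ :
      ∃ F : ℤ⟦X⟧, F = ((p : ℤ) ^ (n - 1)) • A ^ n - psU p ((psU p A) ^ n) := ⟨_, rfl⟩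
  rw [← hF_def] at hF
  obtain ⟨c, hc_def⟩ : ∃ c : ℤ, c = A.coeff 0 := ⟨_, rfl⟩
  rw [← hc_def] at hc
  -- congruences for the two powers
  have hA1 : ∀ k, (ℓ : ℤ) ^ (e + 1) ∣ (A ^ n).coeff k - (if k = 0 then c ^ n else 0) := by
    intro k
    rw [hn_def, hc_def]
    exact nu5e_pow_congr ℓ e A hhigh k
  have hUA1 : ∀ k, (ℓ : ℤ) ^ (e + 1) ∣
      ((psU p A) ^ n).coeff k - (if k = 0 then c ^ n else 0) := by
    intro k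
    have h0 : (psU p A).coeff 0 = c := by
      rw [coeff_psU, mul_zero, hc_def]
    have hk : ∀ j, 1 ≤ j → (ℓ : ℤ) ∣ (psU p A).coeff j := by
      intro j hj
      rw [coeff_psU]
      exact hhigh _ (Nat.mul_pos hp.pos hj)
    rw [hn_def, ← h0]
    exact nu5e_pow_congr ℓ e (psU p A) hk k
  have hFc : ∀ k, F.coeff k =
      (p : ℤ) ^ (n - 1) * (A ^ n).coeff k - ((psU p A) ^ n).coeff (p * k) := by
    intro k
    rw [hF_def, map_sub, coeff_psU, map_zsmul, smul_eq_mul]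
  have hF0 : ∃ t, F.coeff 0 = (ℓ : ℤ) ^ e * (c ^ n * u + ℓ * t) := by
    obtain ⟨t1, ht1⟩ := hA1 0
    obtain ⟨t2, ht2⟩ := hUA1 0
    rw [if_pos rfl] at ht1 ht2
    refine ⟨(p : ℤ) ^ (n - 1) * t1 - t2, ?_⟩
    rw [hFc 0, mul_zero]
    rw [pow_succ] at ht1 ht2
    linear_combination (p : ℤ) ^ (n - 1) * ht1 - ht2 + (c ^ n) * hpu
  have hFk : ∀ k, 1 ≤ k → ∃ t, F.coeff k = (ℓ : ℤ) ^ e * (ℓ * t) := by
    intro k hk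
    obtain ⟨t1, ht1⟩ := hA1 k
    obtain ⟨t2, ht2⟩ := hUA1 (p * k)
    have hpk : p * k ≠ 0 := Nat.mul_ne_zero hp.ne_zero (by omega)
    rw [if_neg (by omega), sub_zero] at ht1
    rw [if_neg hpk, sub_zero] at ht2
    refine ⟨(p : ℤ) ^ (n - 1) * t1 - t2, ?_⟩
    rw [hFc k, ht1, ht2, pow_succ]
    ring
  -- the quotient series
  have hFdvd : ∀ k, (ℓ : ℤ) ^ e ∣ F.coeff k := by
    intro k
    rcases Nat.eq_zero_or_pos k with rfl | hk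
    · obtain ⟨t, ht⟩ := hF0
      exact ⟨_, ht⟩
    · obtain ⟨t, ht⟩ := hFk k hk
      exact ⟨_, ht⟩
  obtain ⟨F', hF'_def⟩ :
      ∃ F' : ℤ⟦X⟧, F' = PowerSeries.mk fun k => F.coeff k / (ℓ : ℤ) ^ e := ⟨_, rfl⟩
  have hF'c : ∀ k, F.coeff k = (ℓ : ℤ) ^ e * F'.coeff k := by
    intro k
    rw [hF'_def, PowerSeries.coeff_mk, Int.mul_ediv_cancel' (hFdvd k)]
  have hℓe0 : (ℓ : ℤ) ^ e ≠ 0 := pow_ne_zero _ hℓ0
  have hU' : IsUnitConstMod ℓ 1 F' := by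
    refine ⟨?_, ?_⟩
    · obtain ⟨t, ht⟩ := hF0
      rw [hF'c 0] at ht
      rw [mul_left_cancel₀ hℓe0 ht]
      intro hd
      have h1 : (ℓ : ℤ) ∣ c ^ n * u := (dvd_add_left (dvd_mul_right _ _)).mp hd
      rcases hprime.dvd_or_dvd h1 with h2 | h2
      · exact hc (hprime.dvd_of_dvd_pow h2)
      · exact hu h2
    · intro k hk
      obtain ⟨t, ht⟩ := hFk k hk
      rw [hF'c k] at ht
      rw [mul_left_cancel₀ hℓe0 ht, pow_one]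
      exact dvd_mul_right _ _
  have hF' : F'.map (Int.castRingHom ℚ) ∈ D.LL ((2 * n : ℕ) : ℤ) := by
    have h : F'.map (Int.castRingHom ℚ) = (((ℓ : ℚ) ^ e)⁻¹) • F.map (Int.castRingHom ℚ) := by
      ext k
      have hq : ((ℓ : ℚ) ^ e) ≠ 0 := pow_ne_zero _ (Nat.cast_ne_zero.mpr hℓ.ne_zero)
      rw [PowerSeries.coeff_smul, PowerSeries.coeff_map, PowerSeries.coeff_map, hF'c k,
        smul_eq_mul, eq_intCast, eq_intCast, Int.cast_mul, Int.cast_pow, Int.cast_natCast,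
        inv_mul_cancel_left₀ hq]
    rw [h]
    exact Submodule.smul_mem _ _ hF
  have hcop : Nat.Coprime n ((ℓ - 1) / 2) := by
    rw [hn_def]
    apply Nat.Coprime.pow_left
    exact Nat.coprime_of_lt_prime (by omega) (by omega) hℓ
  exact nu5_power_lemma p D ℓ hℓ h5 n hcop F' hF' hU'

end Fermat.Agent.S16L
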