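import Mathlib
import Fermat.Agent.S16L.Defs
import Fermat.Agent.S16L.PS
import Fermat.Agent.S16L.NU5Tr
import Fermat.Agent.S16L.NU5Pow
import Fermat.Agent.S16L.NU5Bern

/-!
# S16L / NU5 (helper6 team): the case `ℓ = p ≥ 5` (plan §4, (NUp)).  Statement FROZEN.
-/

set_option autoImplicit false

open PowerSeries

namespace Fermat.Agent.S16L

/-- If `E ≡ b mod p` (coefficientwise, `b = E(0)`), then `B * E ≡ b * B mod p`. -/
theorem nu5p_coeff_mul (p : ℕ) (B EZ : ℤ⟦X⟧) (b : ℤ) (hE0 : EZ.coeff 0 = b)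
    (hEk : ∀ k, 1 ≤ k → ((p : ℤ) ∣ EZ.coeff k)) (m : ℕ) :
    (p : ℤ) ∣ (B * EZ).coeff m - B.coeff m * b := by
  rw [PowerSeries.coeff_mul, Finset.Nat.sum_antidiagonal_eq_sum_range_succ_mk,
    Finset.sum_range_succ, Nat.sub_self, hE0, add_sub_cancel_right]
  apply Finset.dvd_sum
  intro i hi
  rw [Finset.mem_range] at hi
  exact Dvd.dvd.mul_left (hEk _ (by omega)) _

/-- The coefficients of `Φ = U(U(A) E) - p^n A V(E)`. -/
theorem nu5p_coeff_Phi (p n : ℕ) (A EZ : ℤ⟦X⟧) (k : ℕ) :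
    (psU p (psU p A * EZ) - ((p : ℤ) ^ n) • (A * psV p EZ)).coeff k =
      (psU p A * EZ).coeff (p * k) - (p : ℤ) ^ n * (A * psV p EZ).coeff k := by
  rw [map_sub, coeff_psU, map_smul, smul_eq_mul]

/-- `Φ = U(U(A) E) - p^n A V(E)` is congruent to a unit constant mod `p`. -/
theorem nu5p_unit (p : ℕ) (hp : p.Prime) (n : ℕ) (hn : 1 ≤ n) (A EZ : ℤ⟦X⟧) (b : ℤ)
    (hb : ¬ ((p : ℤ) ∣ b)) (hE0 : EZ.coeff 0 = b)
    (hEk : ∀ k, 1 ≤ k → ((p : ℤ) ∣ EZ.coeff k)) (hU : IsUnitConstMod p 1 A) :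
    IsUnitConstMod p 1 (psU p (psU p A * EZ) - ((p : ℤ) ^ n) • (A * psV p EZ)) := by
  obtain ⟨hU0, hUk⟩ := hU
  have hpn : (p : ℤ) ∣ (p : ℤ) ^ n := dvd_pow_self _ (by omega)
  have hpZ : Prime (p : ℤ) := Nat.prime_iff_prime_int.mp hp
  refine ⟨?_, ?_⟩
  · intro hdvd
    rw [nu5p_coeff_Phi, mul_zero] at hdvd
    have h1 := nu5p_coeff_mul p (psU p A) EZ b hE0 hEk 0
    rw [coeff_psU, mul_zero] at h1
    have h2 : (p : ℤ) ∣ (p : ℤ) ^ n * (A * psV p EZ).coeff 0 := Dvd.dvd.mul_right hpn _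
    have h3 : (p : ℤ) ∣ A.coeff 0 * b := by
      have h4 := dvd_sub (dvd_add hdvd h2) h1
      have e : (psU p A * EZ).coeff 0 - (p : ℤ) ^ n * (A * psV p EZ).coeff 0 +
          (p : ℤ) ^ n * (A * psV p EZ).coeff 0 - ((psU p A * EZ).coeff 0 - A.coeff 0 * b) =
          A.coeff 0 * b := by ring
      rw [e] at h4
      exact h4
    rcases hpZ.dvd_or_dvd h3 with h | h
    · exact hU0 h
    · exact hb h
  · intro k hk
    rw [pow_one, nu5p_coeff_Phi]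
    have h1 := nu5p_coeff_mul p (psU p A) EZ b hE0 hEk (p * k)
    rw [coeff_psU] at h1
    have hpos : 1 ≤ p * (p * k) := by
      have hp1 : 1 ≤ p := hp.one_lt.le
      exact Nat.mul_pos hp1 (Nat.mul_pos hp1 hk)
    have h5 : (p : ℤ) ∣ A.coeff (p * (p * k)) * b := by
      have := hUk _ hpos
      rw [pow_one] at this
      exact Dvd.dvd.mul_right this _
    have h2 : (p : ℤ) ∣ (p : ℤ) ^ n * (A * psV p EZ).coeff k := Dvd.dvd.mul_right hpn _
    have h6 : (p : ℤ) ∣ (psU p A * EZ).coeff (p * k) := by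
      have h7 := dvd_add h1 h5
      rw [sub_add_cancel] at h7
      exact h7
    exact dvd_sub h6 h2

theorem nu5_p (p : ℕ) [Fact p.Prime] (D : TraceData p) (h5 : 5 ≤ p)
    (A : ℤ⟦X⟧) (hA : InM2 D A) (hU : IsUnitConstMod p 1 A) : False := by
  have hp : p.Prime := Fact.out
  obtain ⟨EZ, b, hb, hEmap, hE0, hEk⟩ := nu5_Ek_model p hp h5
  have hodd : p % 2 = 1 := by
    rcases hp.eq_two_or_odd with h | h
    · omega
    · exact h
  have hEven : Even (p - 1) := by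
    rw [Nat.even_iff]
    omega
  have hEkmem : psEk (p - 1) ∈ D.LL ((p - 1 : ℕ) : ℤ) := D.Ek_mem (p - 1) (by omega) hEven
  have hE : EZ.map (Int.castRingHom ℚ) ∈ D.LL ((p - 1 : ℕ) : ℤ) := by
    rw [hEmap]
    exact Submodule.smul_mem _ _ hEkmem
  have hΦ := nu5_trace_mul p D A hA (p - 1) EZ hE
  have hUΦ := nu5p_unit p hp (p - 1) (by omega) A EZ b hb hE0 hEk hU
  have hw : 2 + (p - 1) = 2 * ((p + 1) / 2) := by omega
  rw [hw] at hΦ
  have hcop : Nat.Coprime ((p + 1) / 2) ((p - 1) / 2) := by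
    have e : (p + 1) / 2 = (p - 1) / 2 + 1 := by omega
    rw [e]
    exact (Nat.coprime_self_add_left).mpr (Nat.coprime_one_left _)
  exact nu5_power_lemma p D p hp h5 ((p + 1) / 2) hcop _ hΦ hUΦ

end Fermat.Agent.S16L
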