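import Mathlib
import Fermat.Agent.S16L.Defs
import Fermat.Agent.S16L.CLA
import Fermat.Agent.S16L.NU5Ell
import Fermat.Agent.S16L.NU5P

/-!
# S16L: no weight-2 form on `Γ₀(p)` is congruent to a unit constant mod `ℓ ≥ 5` — plan §3, §4 (NU5), (NUp)
-/

set_option autoImplicit false

open PowerSeries

namespace Fermat.Agent.S16L

theorem nu5 (p : ℕ) [Fact p.Prime] (D : TraceData p) (ℓ : ℕ) (hℓ : ℓ.Prime) (h5 : 5 ≤ ℓ)
    (hℓp : ℓ ≠ p) (A : ℤ⟦X⟧) (hA : InM2 D A) (hU : IsUnitConstMod ℓ 1 A) : False := by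
  exact nu5_ell p D ℓ hℓ h5 hℓp A hA hU

theorem nup (p : ℕ) [Fact p.Prime] (D : TraceData p) (h5 : 5 ≤ p)
    (A : ℤ⟦X⟧) (hA : InM2 D A) (hU : IsUnitConstMod p 1 A) : False := by
  exact nu5_p p D h5 A hA hU

end Fermat.Agent.S16L
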