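import Mathlib
import Fermat.Agent.S16L.Defs
import Fermat.Agent.S16L.PS

/-!
# S16L: the isobaric construction of (NU8) — plan §4
For `A = c + 8h`, `E₄ = 1 + 240 S₃`, `E₆ = 1 - 504 S₅`, `4T = 45 S₃ + 63 S₅`:
`K = (A² - c² E₄)/16`, `M = (A³ - 3c² A E₄ + 2c³ E₆)/64`, `W = A M + K²`, and the same on the
"hat" side with `p = 8m - 1`, `A' = c + 8h'`, `E₄ ↦ p² V E₄`, `E₆ ↦ -p³ V E₆`.
Pure commutative algebra in `ℤ⟦X⟧`.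
-/

set_option autoImplicit false

open PowerSeries

namespace Fermat.Agent.S16L

noncomputable def nu8_K (c : ℤ) (h S3 : ℤ⟦X⟧) : ℤ⟦X⟧ :=
  C c * h + 4 * h ^ 2 - 15 * C (c ^ 2) * S3

noncomputable def nu8_M (c : ℤ) (h S3 T : ℤ⟦X⟧) : ℤ⟦X⟧ :=
  3 * C c * h ^ 2 + 8 * h ^ 3 - 90 * C (c ^ 2) * h * S3 - C (c ^ 3) * T

noncomputable def nu8_W (c : ℤ) (h S3 T : ℤ⟦X⟧) : ℤ⟦X⟧ :=
  (C c + 8 * h) * nu8_M c h S3 T + nu8_K c h S3 ^ 2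

noncomputable def nu8_Kh (c m : ℤ) (h' V3 : ℤ⟦X⟧) : ℤ⟦X⟧ :=
  C (c ^ 2 * (m - 4 * m ^ 2)) + C c * h' + 4 * h' ^ 2 - 15 * C (c ^ 2 * (8 * m - 1) ^ 2) * V3

noncomputable def nu8_Mh (c m : ℤ) (h' V3 VT : ℤ⟦X⟧) : ℤ⟦X⟧ :=
  - C (c ^ 3 * m ^ 2 * (16 * m - 3)) - 6 * C (c ^ 2 * (4 * m ^ 2 - m)) * h' + 3 * C c * h' ^ 2
    + 8 * h' ^ 3 - 90 * C (c ^ 2 * (8 * m - 1) ^ 2) * h' * V3
    + C (c ^ 3) * (C ((8 * m - 1) ^ 3) * VT - 90 * C ((8 * m - 1) ^ 2 * m) * V3)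

noncomputable def nu8_Wh (c m : ℤ) (h' V3 VT : ℤ⟦X⟧) : ℤ⟦X⟧ :=
  (C c + 8 * h') * nu8_Mh c m h' V3 VT + nu8_Kh c m h' V3 ^ 2

theorem nu8_K_eq (c : ℤ) (h S3 : ℤ⟦X⟧) :
    16 * nu8_K c h S3 = (C c + 8 * h) ^ 2 - C (c ^ 2) * (1 + 240 * S3) := by
  unfold nu8_K
  simp only [map_pow]
  ring

theorem nu8_M_eq (c : ℤ) (h S3 S5 T : ℤ⟦X⟧) (hT : 4 * T = 45 * S3 + 63 * S5) :
    64 * nu8_M c h S3 T = (C c + 8 * h) ^ 3 - 3 * C (c ^ 2) * (C c + 8 * h) * (1 + 240 * S3)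
      + 2 * C (c ^ 3) * (1 - 504 * S5) := by
  unfold nu8_M
  simp only [map_pow]
  linear_combination (-(16 : ℤ⟦X⟧) * C c ^ 3) * hT

theorem nu8_Kh_eq (c m : ℤ) (h' V3 : ℤ⟦X⟧) :
    16 * nu8_Kh c m h' V3
      = (C c + 8 * h') ^ 2 - C (c ^ 2 * (8 * m - 1) ^ 2) * (1 + 240 * V3) := by
  unfold nu8_Kh
  simp only [map_pow, map_mul, map_sub, map_one, map_ofNat]
  ring

theorem nu8_Mh_eq (c m : ℤ) (h' V3 V5 VT : ℤ⟦X⟧) (hT : 4 * VT = 45 * V3 + 63 * V5) :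
    64 * nu8_Mh c m h' V3 VT
      = (C c + 8 * h') ^ 3 - 3 * C (c ^ 2 * (8 * m - 1) ^ 2) * (C c + 8 * h') * (1 + 240 * V3)
        - 2 * C (c ^ 3 * (8 * m - 1) ^ 3) * (1 - 504 * V5) := by
  unfold nu8_Mh
  simp only [map_pow, map_mul, map_sub, map_one, map_ofNat]
  linear_combination (16 * C c ^ 3 * (8 * C m - 1) ^ 3) * hT

end Fermat.Agent.S16L
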