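import Mathlib
import Fermat.Agent.S16L.Defs
import Fermat.Agent.S16L.PS
import Fermat.Agent.S16L.NU8Alg

/-!
# S16L: the isobaric construction of (NU8) mod 2
-/

set_option autoImplicit false

open PowerSeries

namespace Fermat.Agent.S16L

/-- `2 = 0` in `(ZMod 2)⟦X⟧`. -/
theorem nu8am_two : (2 : (ZMod 2)⟦X⟧) = 0 := by
  have h := map_ofNat (PowerSeries.C : ZMod 2 →+* (ZMod 2)⟦X⟧) 2
  rw [← h, show (OfNat.ofNat 2 : ZMod 2) = 0 from rfl, map_zero]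

/-- The constant series of an odd integer is `1` mod 2. -/
theorem nu8am_C_odd (c : ℤ) (hc : ¬ (2 : ℤ) ∣ c) :
    (PowerSeries.C ((Int.castRingHom (ZMod 2)) c) : (ZMod 2)⟦X⟧) = 1 := by
  have h1 : (Int.castRingHom (ZMod 2)) c = 1 := by
    rw [eq_intCast, ZMod.intCast_eq_one_iff_odd, ← Int.not_even_iff_odd, even_iff_two_dvd]
    exact hc
  rw [h1, map_one]

/-- Constants are idempotent mod 2. -/
theorem nu8am_C_sq (m : ℤ) :
    (PowerSeries.C ((Int.castRingHom (ZMod 2)) m) : (ZMod 2)⟦X⟧) ^ 2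
      = PowerSeries.C ((Int.castRingHom (ZMod 2)) m) := by
  have h1 : ∀ a : ZMod 2, a ^ 2 = a := by decide
  rw [← map_pow, h1]

/-- The polynomial identity behind `nu8_W_mod_two`, in any commutative ring with `2 = 0`. -/
theorem nu8am_W {R : Type*} [CommRing R] (h2 : (2 : R) = 0) (cb x s t : R)
    (hcb : cb = 1) (ht : t = s) :
    (cb + 8 * x) * (3 * cb * x ^ 2 + 8 * x ^ 3 - 90 * cb ^ 2 * x * s - cb ^ 3 * t)
      + (cb * x + 4 * x ^ 2 - 15 * cb ^ 2 * s) ^ 2 = s + s ^ 2 := by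
  subst hcb ht
  linear_combination (40 * x ^ 4 + 20 * x ^ 3 - 420 * x ^ 2 * t + 2 * x ^ 2 - 64 * x * t
    + 112 * t ^ 2 - t) * h2

/-- The polynomial identity behind `nu8_Wh_mod_two`, in any commutative ring with `2 = 0`. -/
theorem nu8am_Wh {R : Type*} [CommRing R] (h2 : (2 : R) = 0) (cb m x v vt : R)
    (hcb : cb = 1) (hm : m ^ 2 = m) (ht : vt = v) :
    (cb + 8 * x) * (-(cb ^ 3 * m ^ 2 * (16 * m - 3)) - 6 * (cb ^ 2 * (4 * m ^ 2 - m)) * x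
        + 3 * cb * x ^ 2 + 8 * x ^ 3 - 90 * (cb ^ 2 * (8 * m - 1) ^ 2) * x * v
        + cb ^ 3 * ((8 * m - 1) ^ 3 * vt - 90 * ((8 * m - 1) ^ 2 * m) * v))
      + (cb ^ 2 * (m - 4 * m ^ 2) + cb * x + 4 * x ^ 2
          - 15 * (cb ^ 2 * (8 * m - 1) ^ 2) * v) ^ 2 = v + v ^ 2 := by
  subst hcb ht
  linear_combination (40 * x ^ 4 + 20 * x ^ 3 - 20160 * x ^ 2 * vt * m - 420 * x ^ 2 * vt
      - 84 * x ^ 2 * m + 2 * x ^ 2 - 19144 * x * vt * m - 64 * x * vt - 64 * x * m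
      + 270000 * vt ^ 2 * m + 112 * vt ^ 2 + 172 * vt * m - vt - 2 * m) * h2
    + (-53760 * x ^ 2 * vt - 224 * x ^ 2 - 41984 * x * vt * m - 39680 * x * vt - 128 * x * m
      - 136 * x + 921600 * vt ^ 2 * m ^ 2 + 460800 * vt ^ 2 * m + 547200 * vt ^ 2
      + 7680 * vt * m ^ 2 - 1408 * vt * m + 440 * vt + 16 * m ^ 2 - 8 * m - 4) * hm

/-- `W ≡ S₃ + S₃² mod 2`. -/
theorem nu8_W_mod_two (c : ℤ) (hc : ¬ (2 : ℤ) ∣ c) (h S3 T : ℤ⟦X⟧)
    (hT2 : T.map (Int.castRingHom (ZMod 2)) = S3.map (Int.castRingHom (ZMod 2))) :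
    (nu8_W c h S3 T).map (Int.castRingHom (ZMod 2))
      = (S3 + S3 ^ 2).map (Int.castRingHom (ZMod 2)) := by
  simp only [nu8_W, nu8_M, nu8_K, map_add, map_sub, map_mul, map_pow, map_ofNat,
    PowerSeries.map_C]
  exact nu8am_W nu8am_two _ _ _ _ (nu8am_C_odd c hc) hT2

/-- `Ŵ ≡ V S₃ + (V S₃)² mod 2`. -/
theorem nu8_Wh_mod_two (c m : ℤ) (hc : ¬ (2 : ℤ) ∣ c) (h' V3 VT : ℤ⟦X⟧)
    (hT2 : VT.map (Int.castRingHom (ZMod 2)) = V3.map (Int.castRingHom (ZMod 2))) :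
    (nu8_Wh c m h' V3 VT).map (Int.castRingHom (ZMod 2))
      = (V3 + V3 ^ 2).map (Int.castRingHom (ZMod 2)) := by
  simp only [nu8_Wh, nu8_Mh, nu8_Kh, map_add, map_sub, map_mul, map_pow, map_neg, map_ofNat,
    map_one, PowerSeries.map_C]
  exact nu8am_Wh nu8am_two _ _ _ _ _ (nu8am_C_odd c hc) (nu8am_C_sq m) hT2

end Fermat.Agent.S16L
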