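import Mathlib
import Fermat.Agent.S16L.Defs
import Fermat.Agent.S16L.CLA

/-!
# S16L: L1b in order form, any modulus (NU8 toolbox) — plan §3
-/

set_option autoImplicit false

open PowerSeries

namespace Fermat.Agent.S16L

/-- if `u(0) = 1` and the coefficients of `u · f` vanish up to index `n`, so do those of `f`. -/
theorem nu8_coeff_of_unit_mul {R : Type*} [CommRing R] (u f : R⟦X⟧) (hu : u.coeff 0 = 1) (n : ℕ)
    (h : ∀ j, j ≤ n → (u * f).coeff j = 0) : ∀ j, j ≤ n → f.coeff j = 0 := by
  intro j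
  induction j using Nat.strong_induction_on with
  | _ j ih =>
    intro hj
    have h1 := h j hj
    rw [PowerSeries.coeff_mul, Finset.sum_eq_single (0, j)] at h1
    · rwa [hu, one_mul] at h1
    · rintro ⟨a, b⟩ hab hne
      rw [Finset.HasAntidiagonal.mem_antidiagonal] at hab
      have hb : b < j := by
        rcases Nat.eq_zero_or_pos a with ha | ha
        · exfalso
          apply hne
          simp only at hab
          rw [ha, zero_add] at hab
          rw [ha, hab]
        · simp only at hab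
          omega
      rw [ih b hb (by omega), mul_zero]
    · intro hnot
      exact absurd (Finset.HasAntidiagonal.mem_antidiagonal.mpr (zero_add j)) hnot

/-- level-one forms of negative or odd weight, or of weight two, vanish -/
theorem nu8l1_eq_zero_of_bot {p : ℕ} (D : TraceData p) (k : ℤ) (hk : k < 0 ∨ Odd k ∨ k = 2)
    (φ : ℤ⟦X⟧) (hφ : φ.map (Int.castRingHom ℚ) ∈ D.LL k) : φ = 0 := by
  rw [D.LL_eq_bot hk, Submodule.mem_bot] at hφ
  exact map_int_injective (hφ.trans (map_zero _).symm)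

/-- a nonnegative even weight different from `2` is of the form `4 x + 6 y` -/
theorem nu8l1_exists_xy (k : ℤ) (hk0 : 0 ≤ k) (hodd : ¬ Odd k) (hk2 : k ≠ 2) :
    ∃ x y : ℕ, 4 * (x : ℤ) + 6 * (y : ℤ) = k := by
  rw [Int.not_odd_iff_even] at hodd
  obtain ⟨m, hm⟩ := hodd
  rcases Int.emod_two_eq_zero_or_one m with h | h
  · refine ⟨(m / 2).toNat, 0, ?_⟩
    have h1 : ((m / 2).toNat : ℤ) = m / 2 := Int.toNat_of_nonneg (by omega)
    rw [h1]
    omega
  · refine ⟨((m - 3) / 2).toNat, 1, ?_⟩
    have h1 : (((m - 3) / 2).toNat : ℤ) = (m - 3) / 2 := Int.toNat_of_nonneg (by omega)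
    rw [h1]
    omega

/-- the integral form of `LL_decomp` -/
theorem nu8l1_decomp {p : ℕ} (D : TraceData p) (k : ℤ) (x y : ℕ)
    (hxy : 4 * (x : ℤ) + 6 * (y : ℤ) = k) (φ : ℤ⟦X⟧)
    (hφ : φ.map (Int.castRingHom ℚ) ∈ D.LL k) :
    ∃ φ' : ℤ⟦X⟧, φ'.map (Int.castRingHom ℚ) ∈ D.LL (k - 12) ∧
      φ = C (φ.coeff 0) * psE4Z ^ x * psE6Z ^ y + psDeltaZ * φ' := by
  obtain ⟨φq, hφq, heq⟩ := D.LL_decomp x y hφ hxy
  rw [PowerSeries.coeff_map] at heq
  have hψ : psDelta * φq =
      (φ - C (φ.coeff 0) * psE4Z ^ x * psE6Z ^ y).map (Int.castRingHom ℚ) := by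
    rw [map_sub, map_mul, map_mul, map_pow, map_pow, PowerSeries.map_C, map_psE4Z, map_psE6Z]
    linear_combination -heq
  obtain ⟨φ', hφ'⟩ := exists_int_of_psDelta_mul φq _ hψ
  refine ⟨φ', by rw [hφ']; exact hφq, ?_⟩
  apply map_int_injective
  rw [map_add, map_mul, map_mul, map_mul, map_pow, map_pow, PowerSeries.map_C, map_psE4Z,
    map_psE6Z, map_psDeltaZ, hφ']
  exact heq

/-- `nu8_l1b_order`, by strong induction on `k.toNat` -/
theorem nu8l1_aux {p : ℕ} (D : TraceData p) (N : ℕ) :
    ∀ n : ℕ, ∀ k : ℤ, k.toNat = n → ∀ φ : ℤ⟦X⟧, φ.map (Int.castRingHom ℚ) ∈ D.LL k →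
      (∀ j : ℕ, 12 * (j : ℤ) ≤ k → (Int.castRingHom (ZMod N)) (φ.coeff j) = 0) →
      φ.map (Int.castRingHom (ZMod N)) = 0 := by
  intro n
  induction n using Nat.strong_induction_on with
  | _ n ih =>
    intro k hkn φ hφ h0
    by_cases hA : k < 0 ∨ Odd k ∨ k = 2
    · rw [nu8l1_eq_zero_of_bot D k hA φ hφ, map_zero]
    · have hk0 : 0 ≤ k := by
        by_contra hneg
        exact hA (Or.inl (by omega))
      have hodd : ¬ Odd k := fun ho => hA (Or.inr (Or.inl ho))
      have hk2 : k ≠ 2 := fun h2 => hA (Or.inr (Or.inr h2))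
      obtain ⟨x, y, hxy⟩ := nu8l1_exists_xy k hk0 hodd hk2
      obtain ⟨φ', hφ', heq⟩ := nu8l1_decomp D k x y hxy φ hφ
      have hc : (Int.castRingHom (ZMod N)) (φ.coeff 0) = 0 := h0 0 (by simpa using hk0)
      have hφ'0 : φ'.map (Int.castRingHom (ZMod N)) = 0 := by
        by_cases hk12 : k < 12
        · rw [nu8l1_eq_zero_of_bot D (k - 12) (Or.inl (by omega)) φ' hφ', map_zero]
        · refine ih (k - 12).toNat (by omega) (k - 12) rfl φ' hφ' ?_
          intro j hj
          obtain ⟨u, hu0, hu⟩ := exists_psDeltaZ_eq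
          have hi : ∀ i, i ≤ j →
              ((u.map (Int.castRingHom (ZMod N))) * (φ'.map (Int.castRingHom (ZMod N)))).coeff i
                = 0 := by
            intro i hij
            have h1 := h0 (i + 1) (by push_cast; omega)
            have h2 : φ.coeff (i + 1) =
                φ.coeff 0 * (psE4Z ^ x * psE6Z ^ y).coeff (i + 1) + (u * φ').coeff i := by
              conv_lhs => rw [heq, hu]
              rw [map_add, mul_assoc (C _), PowerSeries.coeff_C_mul, mul_assoc X,
                PowerSeries.coeff_succ_X_mul]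
            rw [h2, map_add, map_mul, hc, zero_mul, zero_add] at h1
            rw [← map_mul, PowerSeries.coeff_map]
            exact h1
          have h3 := nu8_coeff_of_unit_mul (u.map (Int.castRingHom (ZMod N)))
            (φ'.map (Int.castRingHom (ZMod N)))
            (by rw [PowerSeries.coeff_map, hu0, map_one]) j hi j le_rfl
          rwa [PowerSeries.coeff_map] at h3
      rw [heq, map_add, map_mul, map_mul, PowerSeries.map_C, hc, map_zero, zero_mul, zero_mul,
        zero_add, map_mul, hφ'0, mul_zero]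

/-- L1b (order form, any modulus `N`): a level-one form of weight `k` with integral q-expansion
whose coefficients of index `≤ k/12` vanish mod `N` vanishes mod `N`. -/
theorem nu8_l1b_order {p : ℕ} (D : TraceData p) (N : ℕ) (k : ℤ) (φ : ℤ⟦X⟧)
    (hφ : φ.map (Int.castRingHom ℚ) ∈ D.LL k)
    (h0 : ∀ j : ℕ, 12 * (j : ℤ) ≤ k → (Int.castRingHom (ZMod N)) (φ.coeff j) = 0) :
    φ.map (Int.castRingHom (ZMod N)) = 0 :=
  nu8l1_aux D N k.toNat k rfl φ hφ h0

end Fermat.Agent.S16L
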