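import Mathlib
import Fermat.Agent.S16L.Defs
import Fermat.Agent.S16L.PS

/-!
# S16L: small power-series lemmas (NU8 toolbox)
-/

set_option autoImplicit false

open PowerSeries

namespace Fermat.Agent.S16L

/-- a power series of order one: the coefficients of its `n`-th power. -/
theorem nu8_coeff_pow_self {R : Type*} [CommRing R] (f : R⟦X⟧) (h0 : f.coeff 0 = 0)
    (h1 : f.coeff 1 = 1) (n : ℕ) : (f ^ n).coeff n = 1 ∧ ∀ j, j < n → (f ^ n).coeff j = 0 := by
  have hX : (X : R⟦X⟧) ∣ f := by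
    rw [PowerSeries.X_dvd_iff, ← PowerSeries.coeff_zero_eq_constantCoeff_apply]
    exact h0
  obtain ⟨g, rfl⟩ := hX
  have hg : PowerSeries.constantCoeff g = 1 := by
    rw [← PowerSeries.coeff_zero_eq_constantCoeff_apply, ← PowerSeries.coeff_succ_X_mul]
    exact h1
  rw [mul_pow]
  refine ⟨?_, fun j hj => ?_⟩
  · rw [PowerSeries.coeff_X_pow_mul', if_pos le_rfl, Nat.sub_self,
      PowerSeries.coeff_zero_eq_constantCoeff_apply, map_pow, hg, one_pow]
  · rw [PowerSeries.coeff_X_pow_mul', if_neg (not_le.mpr hj)]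

/-- `A = A(0) + N · h` if all higher coefficients of `A` are divisible by `N`. -/
theorem nu8_exists_decomp (N : ℤ) (A : ℤ⟦X⟧) (hA : ∀ k, 1 ≤ k → N ∣ A.coeff k) :
    ∃ h : ℤ⟦X⟧, h.coeff 0 = 0 ∧ A = PowerSeries.C (A.coeff 0) + PowerSeries.C N * h := by
  refine ⟨PowerSeries.mk fun n => if n = 0 then 0 else A.coeff n / N, ?_, ?_⟩
  · rw [PowerSeries.coeff_mk, if_pos rfl]
  · ext n
    rcases Nat.eq_zero_or_pos n with rfl | hn
    · rw [map_add, PowerSeries.coeff_C, if_pos rfl, PowerSeries.coeff_C_mul,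
        PowerSeries.coeff_mk, if_pos rfl, mul_zero, add_zero]
    · rw [map_add, PowerSeries.coeff_C, if_neg hn.ne', zero_add, PowerSeries.coeff_C_mul,
        PowerSeries.coeff_mk, if_neg hn.ne', Int.mul_ediv_cancel' (hA n hn)]

/-- the `U`-side of `A = c + N h`. -/
theorem nu8_psU_decomp (p : ℕ) (hp : 0 < p) (c N : ℤ) (h : ℤ⟦X⟧) :
    psU p (PowerSeries.C c + PowerSeries.C N * h) = PowerSeries.C c + PowerSeries.C N * psU p h := by
  rw [psU_add, psU_C p hp]
  congr 1
  ext n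
  rw [coeff_psU, PowerSeries.coeff_C_mul, PowerSeries.coeff_C_mul, coeff_psU]

end Fermat.Agent.S16L
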