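import Mathlib
import Fermat.Agent.S16L.Defs
import Fermat.Agent.S16L.CLA

/-!
# S16L: powers of pairs and of level-one forms (NU8 toolbox)
-/

set_option autoImplicit false

open PowerSeries

namespace Fermat.Agent.S16L

/-- powers of pairs `(qexp g, qexp ĝ)`. -/
theorem nu8_MM_pow {p : ℕ} (D : TraceData p) {w : ℤ} {x : ℚ⟦X⟧ × ℚ⟦X⟧} (hx : x ∈ D.MM w) (n : ℕ) :
    (x.1 ^ n, x.2 ^ n) ∈ D.MM ((n : ℤ) * w) := by
  induction n with
  | zero =>
    rw [pow_zero, pow_zero, Nat.cast_zero, zero_mul]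
    exact D.MM_one
  | succ n ih =>
    have h := D.MM_mul ih hx
    have e : ((n + 1 : ℕ) : ℤ) * w = (n : ℤ) * w + w := by push_cast; ring
    rw [e, pow_succ, pow_succ]
    exact h

/-- powers of level-one q-expansions. -/
theorem nu8_LL_pow {p : ℕ} (D : TraceData p) {k : ℤ} {φ : ℚ⟦X⟧} (hφ : φ ∈ D.LL k) (n : ℕ) :
    φ ^ n ∈ D.LL ((n : ℤ) * k) := by
  induction n with
  | zero =>
    rw [pow_zero, Nat.cast_zero, zero_mul]
    exact D.one_mem_LL
  | succ n ih =>
    have h := D.LL_mul ih hφ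
    have e : ((n + 1 : ℕ) : ℤ) * k = (n : ℤ) * k + k := by push_cast; ring
    rw [e, pow_succ]
    exact h

/-- `Δ^n` is a level-one form of weight `12 n` with integral q-expansion. -/
theorem nu8_deltaZ_pow_mem {p : ℕ} (D : TraceData p) (n : ℕ) :
    (psDeltaZ ^ n).map (Int.castRingHom ℚ) ∈ D.LL (((12 * n : ℕ) : ℤ)) := by
  have h := nu8_LL_pow D (cla_delta_mem D) n
  have e : (((12 * n : ℕ) : ℤ)) = (n : ℤ) * 12 := by push_cast; ring
  rw [e, map_pow, map_psDeltaZ]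
  exact h

end Fermat.Agent.S16L
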