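import Mathlib
import Fermat.Agent.S16L.Defs
import Fermat.Agent.S16L.CLA

/-!
# S16L: integral forms of the trace formulas (TR), (TR0) (NU8 toolbox)
-/

set_option autoImplicit false

open PowerSeries

namespace Fermat.Agent.S16L

/-- the scalar identity `p^(k+e-1) * (p^(1-k) * (p^e)⁻¹) = 1` -/
theorem nu8tr_scal {x : ℚ} (hx : x ≠ 0) (k e : ℕ) (hke : 1 ≤ k + e) :
    x ^ (k + e - 1) * (x ^ (1 - (k : ℤ)) * (x ^ e)⁻¹) = 1 := by
  have e1 : x ^ (k + e - 1) = x ^ ((k : ℤ) + (e : ℤ) - 1) := by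
    rw [← zpow_natCast, Nat.cast_sub hke, Nat.cast_add, Nat.cast_one]
  rw [e1, ← zpow_natCast x e, ← zpow_neg, ← zpow_add₀ hx, ← zpow_add₀ hx]
  have e2 : (k : ℤ) + (e : ℤ) - 1 + (1 - (k : ℤ) + -(e : ℤ)) = 0 := by ring
  rw [e2, zpow_zero]

/-- integral form of the trace formula (TR): if `(W, p^{-e} Ŵ)` is a pair of weight `w` and `φ` is
of level one and weight `k` (all with integral q-expansions `W`, `Ŵ`, `φ`), then
`p^{k+e-1} W · Vφ + U(Ŵ · φ)` is (the integral q-expansion of) a level-one form of weight `w + k`. -/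
theorem nu8_trV_int {p : ℕ} [Fact p.Prime] (D : TraceData p) {w : ℤ} (k e : ℕ) (hke : 1 ≤ k + e)
    (W Wh φ : ℤ⟦X⟧)
    (hW : (W.map (Int.castRingHom ℚ), (((p : ℚ) ^ e)⁻¹) • Wh.map (Int.castRingHom ℚ)) ∈ D.MM w)
    (hφ : φ.map (Int.castRingHom ℚ) ∈ D.LL (k : ℤ)) :
    (PowerSeries.C ((p : ℤ) ^ (k + e - 1)) * (W * psV p φ) + psU p (Wh * φ)).map
        (Int.castRingHom ℚ) ∈ D.LL (w + (k : ℤ)) := by
  have hp : (p : ℚ) ≠ 0 := Nat.cast_ne_zero.mpr (Fact.out : p.Prime).ne_zero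
  have h := cla_trV D hW hφ
  simp only at h
  have h2 := Submodule.smul_mem (D.LL (w + (k : ℤ))) ((p : ℚ) ^ (k + e - 1)) h
  have key : (PowerSeries.C ((p : ℤ) ^ (k + e - 1)) * (W * psV p φ) + psU p (Wh * φ)).map
        (Int.castRingHom ℚ)
      = (p : ℚ) ^ (k + e - 1) • (W.map (Int.castRingHom ℚ) * psV p (φ.map (Int.castRingHom ℚ))
          + (p : ℚ) ^ (1 - (k : ℤ)) • psU p ((((p : ℚ) ^ e)⁻¹ • Wh.map (Int.castRingHom ℚ))
            * φ.map (Int.castRingHom ℚ))) := by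
    rw [smul_mul_assoc, psU_smul, smul_smul, smul_add, smul_smul, nu8tr_scal hp k e hke, one_smul,
      PowerSeries.smul_eq_C_mul, map_add, map_mul, map_mul, PowerSeries.map_C, map_psV, map_psU,
      map_mul]
    simp
  rw [key]
  exact h2

/-- integral form of (TR0): `p^{k-1} Vφ + Uφ` is of level one and weight `k`. -/
theorem nu8_tr0_int {p : ℕ} [Fact p.Prime] (D : TraceData p) (k : ℕ) (hk : 1 ≤ k) (φ : ℤ⟦X⟧)
    (hφ : φ.map (Int.castRingHom ℚ) ∈ D.LL (k : ℤ)) :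
    (PowerSeries.C ((p : ℤ) ^ (k - 1)) * psV p φ + psU p φ).map (Int.castRingHom ℚ)
      ∈ D.LL (k : ℤ) := by
  have hW : ((1 : ℤ⟦X⟧).map (Int.castRingHom ℚ),
      (((p : ℚ) ^ 0)⁻¹) • (1 : ℤ⟦X⟧).map (Int.castRingHom ℚ)) ∈ D.MM 0 := by
    simpa using D.MM_one
  have h := nu8_trV_int D k 0 (by omega) 1 1 φ hW hφ
  simpa using h

end Fermat.Agent.S16L
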