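import Mathlib
import Fermat.Agent.S16L.Defs
import Fermat.Agent.S16L.CLA
import Fermat.Agent.S16L.NU8Pow
import Fermat.Agent.S16L.NU8Tr
import Fermat.Agent.S16L.NU8L1
import Fermat.Agent.S16L.NU8Misc

/-!
# S16L: toolbox shared by (NU8) and (NU9): umbrella file
-/
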