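import Mathlib
import Fermat.Agent.S16L.Defs
import Fermat.Agent.S16L.PS
import Fermat.Agent.S16L.PS

/-!
# S16L: the final order count of (NU8) over `ZMod 2` — plan §4
-/

set_option autoImplicit false

open PowerSeries

namespace Fermat.Agent.S16L

/-- a power series with zero constant term is divisible by `X`. -/
theorem nu8fin_X_dvd {R : Type*} [CommRing R] (f : R⟦X⟧) (h0 : f.coeff 0 = 0) : X ∣ f := by
  rw [PowerSeries.X_dvd_iff, ← PowerSeries.coeff_zero_eq_constantCoeff_apply]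
  exact h0

/-- the constant coefficient of a power is the power of the constant coefficient. -/
theorem nu8fin_coeff_zero_pow {R : Type*} [CommRing R] (f : R⟦X⟧) (n : ℕ) :
    (f ^ n).coeff 0 = (f.coeff 0) ^ n := by
  rw [PowerSeries.coeff_zero_eq_constantCoeff_apply, map_pow,
    ← PowerSeries.coeff_zero_eq_constantCoeff_apply]

/-- a power series of order one: the `n`-th coefficient of its `n`-th power is `1`. -/
theorem nu8fin_coeff_pow_self {R : Type*} [CommRing R] (f : R⟦X⟧) (h0 : f.coeff 0 = 0)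
    (h1 : f.coeff 1 = 1) (n : ℕ) : (f ^ n).coeff n = 1 := by
  obtain ⟨g, rfl⟩ := nu8fin_X_dvd f h0
  have hg : g.coeff 0 = 1 := by
    have h2 := h1
    rw [show (1 : ℕ) = 0 + 1 from rfl, PowerSeries.coeff_succ_X_mul] at h2
    exact h2
  rw [mul_pow, PowerSeries.coeff_X_pow_mul', if_pos le_rfl, Nat.sub_self,
    nu8fin_coeff_zero_pow, hg, one_pow]

/-- `Π^{3p} (V δ^p + U δ^p)` has order `≥ 3p + 1` if `Π`, `δ` have zero constant term. -/
theorem nu8_final_order {R : Type*} [CommRing R] (p : ℕ) (hp : 0 < p) (Pi δ : R⟦X⟧)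
    (hPi0 : Pi.coeff 0 = 0) (hδ0 : δ.coeff 0 = 0) :
    ∀ j, j ≤ 3 * p → (Pi ^ (3 * p) * (psV p (δ ^ p) + psU p (δ ^ p))).coeff j = 0 := by
  intro j hj
  obtain ⟨a, ha⟩ := nu8fin_X_dvd Pi hPi0
  have hδp : (δ ^ p).coeff 0 = 0 := by
    rw [nu8fin_coeff_zero_pow, hδ0, zero_pow hp.ne']
  have hB0 : (psV p (δ ^ p) + psU p (δ ^ p)).coeff 0 = 0 := by
    rw [map_add, coeff_zero_psV, coeff_zero_psU, hδp, add_zero]
  obtain ⟨b, hb⟩ := nu8fin_X_dvd _ hB0
  rw [ha, hb, mul_pow]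
  have hre : X ^ (3 * p) * a ^ (3 * p) * (X * b) = X ^ (3 * p + 1) * (a ^ (3 * p) * b) := by
    ring
  rw [hre, PowerSeries.coeff_X_pow_mul', if_neg (by omega)]

/-- `Π^{3p} (V δ^p + U δ^p) ≠ 0` over `ZMod 2` if `Π = X + …`, `δ = X + …`. -/
theorem nu8_final_ne_zero (p : ℕ) (hp : 1 < p) (Pi δ : (ZMod 2)⟦X⟧)
    (hPi1 : Pi.coeff 1 = 1) (hδ0 : δ.coeff 0 = 0) (hδ1 : δ.coeff 1 = 1) :
    Pi ^ (3 * p) * (psV p (δ ^ p) + psU p (δ ^ p)) ≠ 0 := by
  have : Fact (Nat.Prime 2) := ⟨Nat.prime_two⟩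
  have hPi : Pi ≠ 0 := by
    intro h
    rw [h, map_zero] at hPi1
    exact zero_ne_one hPi1
  have hcp : (δ ^ p).coeff p = 1 := nu8fin_coeff_pow_self δ hδ0 hδ1 p
  have hB : psV p (δ ^ p) + psU p (δ ^ p) ≠ 0 := by
    intro h
    have h1 : (psV p (δ ^ p) + psU p (δ ^ p)).coeff 1 = 0 := by rw [h, map_zero]
    rw [map_add, coeff_one_psV p hp, coeff_psU, mul_one, hcp, zero_add] at h1
    exact one_ne_zero h1
  exact mul_ne_zero (pow_ne_zero _ hPi) hB

end Fermat.Agent.S16L
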