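import Mathlib
import Fermat.Agent.S16L.Defs
import Fermat.Agent.S16L.PS

/-!
# S16L: reduction mod 2 of the trace element of (NU8)
-/

set_option autoImplicit false

open PowerSeries

namespace Fermat.Agent.S16L

/-- a nonzero element of `ZMod 2` is `1`. -/
theorem nu8fm_zmod2_eq_one : ∀ x : ZMod 2, x ≠ 0 → x = 1 := by decide

/-- an odd natural number is `1` in `ZMod 2`. -/
theorem nu8fm_intCast_eq_one (p : ℕ) (hodd : ¬ 2 ∣ p) : (((p : ℕ) : ℤ) : ZMod 2) = 1 := by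
  have h : ((p : ℕ) : ZMod 2) ≠ 0 := (ZMod.natCast_eq_zero_iff p 2).not.mpr hodd
  rw [Int.cast_natCast]
  exact nu8fm_zmod2_eq_one _ h

/-- the constant `p ^ e` reduces to `1` mod 2 (`p` odd). -/
theorem nu8fm_map_C_pow (p : ℕ) (hodd : ¬ 2 ∣ p) (e : ℕ) :
    (PowerSeries.C ((p : ℤ) ^ e)).map (Int.castRingHom (ZMod 2)) = 1 := by
  have h : (Int.castRingHom (ZMod 2)) ((p : ℤ) ^ e) = 1 := by
    rw [map_pow, eq_intCast, nu8fm_intCast_eq_one p hodd, one_pow]
  rw [PowerSeries.map_C, h, map_one]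

/-- reduction mod 2 of the trace element: `p` odd. -/
theorem nu8_final_map (p : ℕ) (hp : 0 < p) (hodd : ¬ 2 ∣ p) (e : ℕ) (W Wh S3 φ : ℤ⟦X⟧)
    (hW : W.map (Int.castRingHom (ZMod 2)) = (S3 + S3 ^ 2).map (Int.castRingHom (ZMod 2)))
    (hWh : Wh.map (Int.castRingHom (ZMod 2))
      = (psV p S3 + psV p S3 ^ 2).map (Int.castRingHom (ZMod 2))) (n : ℕ) :
    (PowerSeries.C ((p : ℤ) ^ e) * (W ^ n * psV p φ) + psU p (Wh ^ n * φ)).map
        (Int.castRingHom (ZMod 2))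
      = ((S3 + S3 ^ 2).map (Int.castRingHom (ZMod 2))) ^ n
          * (psV p (φ.map (Int.castRingHom (ZMod 2))) + psU p (φ.map (Int.castRingHom (ZMod 2)))) := by
  have hWh' : Wh.map (Int.castRingHom (ZMod 2))
      = psV p ((S3 + S3 ^ 2).map (Int.castRingHom (ZMod 2))) := by
    rw [hWh, map_add, map_pow, map_psV, map_add, map_pow, psV_add, psV_pow p hp]
  rw [map_add, map_mul, map_mul, map_pow _ W n, map_psV, map_psU, map_mul, map_pow _ Wh n,
    nu8fm_map_C_pow p hodd e, hW, hWh', ← psV_pow p hp,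
    mul_comm (psV p _) (φ.map (Int.castRingHom (ZMod 2))), psU_mul_psV p hp]
  ring

end Fermat.Agent.S16L
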