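import Mathlib
import Fermat.Agent.S16L.Defs
import Fermat.Agent.S16L.PS

/-!
# S16L: divisor sums mod 8 and mod 2 — plan §4 (NU8), "Facts"
-/

set_option autoImplicit false

open PowerSeries

namespace Fermat.Agent.S16L

/-- `8 ∣ d⁵ - d³`. -/
theorem nu8_eight_dvd_pow (d : ℤ) : (8 : ℤ) ∣ d ^ 5 - d ^ 3 := by
  have h : ∀ x : ZMod 8, x ^ 5 - x ^ 3 = 0 := by decide
  have h2 := (ZMod.intCast_zmod_eq_zero_iff_dvd (d ^ 5 - d ^ 3) 8).1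
    (by push_cast; exact h (d : ZMod 8))
  exact_mod_cast h2

/-- `8 ∣ σ₅(n) - σ₃(n)`. -/
theorem nu8_eight_dvd_sigma (n : ℕ) :
    (8 : ℤ) ∣ (ArithmeticFunction.sigma 5 n : ℤ) - (ArithmeticFunction.sigma 3 n : ℤ) := by
  rw [ArithmeticFunction.sigma_apply, ArithmeticFunction.sigma_apply]
  push_cast
  rw [← Finset.sum_sub_distrib]
  exact Finset.dvd_sum fun d _ => nu8_eight_dvd_pow d

/-- `45 σ₃(n) + 63 σ₅(n) = 4 (27 σ₃(n) + 126 k)` when `σ₅(n) - σ₃(n) = 8 k`. -/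
theorem nu8sig_eq_four_mul (n : ℕ) (k : ℤ)
    (hk : (ArithmeticFunction.sigma 5 n : ℤ) - (ArithmeticFunction.sigma 3 n : ℤ) = 8 * k) :
    45 * (ArithmeticFunction.sigma 3 n : ℤ) + 63 * (ArithmeticFunction.sigma 5 n : ℤ)
      = 4 * (27 * (ArithmeticFunction.sigma 3 n : ℤ) + 126 * k) := by
  linarith

/-- `4 ∣ 45 σ₃(n) + 63 σ₅(n)`. -/
theorem nu8sig_four_dvd (n : ℕ) :
    (4 : ℤ) ∣ 45 * (ArithmeticFunction.sigma 3 n : ℤ) + 63 * (ArithmeticFunction.sigma 5 n : ℤ) := by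
  obtain ⟨k, hk⟩ := nu8_eight_dvd_sigma n
  exact ⟨_, nu8sig_eq_four_mul n k hk⟩

/-- the quotient `(45 σ₃(n) + 63 σ₅(n)) / 4`. -/
theorem nu8sig_div_eq (n : ℕ) (k : ℤ)
    (hk : (ArithmeticFunction.sigma 5 n : ℤ) - (ArithmeticFunction.sigma 3 n : ℤ) = 8 * k) :
    (45 * (ArithmeticFunction.sigma 3 n : ℤ) + 63 * (ArithmeticFunction.sigma 5 n : ℤ)) / 4
      = 27 * (ArithmeticFunction.sigma 3 n : ℤ) + 126 * k :=
  Int.ediv_eq_of_eq_mul_right (by norm_num) (nu8sig_eq_four_mul n k hk)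

/-- `T = (45 S₃ + 63 S₅)/4`. -/
noncomputable def nu8_T : ℤ⟦X⟧ :=
  PowerSeries.mk fun n =>
    (45 * (ArithmeticFunction.sigma 3 n : ℤ) + 63 * (ArithmeticFunction.sigma 5 n : ℤ)) / 4

theorem nu8_four_T : 4 * nu8_T = 45 * psSigmaZ 3 + 63 * psSigmaZ 5 := by
  ext n
  have e4 : (4 : ℤ⟦X⟧) = C (4 : ℤ) := (map_ofNat C 4).symm
  have e45 : (45 : ℤ⟦X⟧) = C (45 : ℤ) := (map_ofNat C 45).symm
  have e63 : (63 : ℤ⟦X⟧) = C (63 : ℤ) := (map_ofNat C 63).symm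
  rw [e4, e45, e63, map_add, coeff_C_mul, coeff_C_mul, coeff_C_mul, nu8_T, psSigmaZ, psSigmaZ,
    coeff_mk, coeff_mk, coeff_mk]
  exact Int.mul_ediv_cancel' (nu8sig_four_dvd n)

/-- `T ≡ S₃ mod 2`. -/
theorem nu8_T_mod_two :
    nu8_T.map (Int.castRingHom (ZMod 2)) = (psSigmaZ 3).map (Int.castRingHom (ZMod 2)) := by
  ext n
  obtain ⟨k, hk⟩ := nu8_eight_dvd_sigma n
  rw [coeff_map, coeff_map, nu8_T, psSigmaZ, coeff_mk, coeff_mk, nu8sig_div_eq n k hk,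
    eq_intCast, eq_intCast]
  have h27 : (27 : ZMod 2) = 1 := by decide
  have h126 : (126 : ZMod 2) = 0 := by decide
  push_cast
  rw [h27, h126, one_mul, zero_mul, add_zero]

theorem nu8_coeff_one_psSigmaZ (k : ℕ) : (psSigmaZ k).coeff 1 = 1 := by
  rw [psSigmaZ, coeff_mk, ArithmeticFunction.sigma_apply, Nat.divisors_one, Finset.sum_singleton,
    one_pow, Nat.cast_one]

/-- `V` commutes with the defining relation of `T`. -/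
theorem nu8_four_VT (p : ℕ) (hp : 0 < p) :
    4 * psV p nu8_T = 45 * psV p (psSigmaZ 3) + 63 * psV p (psSigmaZ 5) := by
  have h := congrArg (psV p) nu8_four_T
  have e4 : psV p (4 : ℤ⟦X⟧) = 4 := by
    rw [← map_ofNat (C : ℤ →+* ℤ⟦X⟧) 4, psV_C]
  have e45 : psV p (45 : ℤ⟦X⟧) = 45 := by
    rw [← map_ofNat (C : ℤ →+* ℤ⟦X⟧) 45, psV_C]
  have e63 : psV p (63 : ℤ⟦X⟧) = 63 := by
    rw [← map_ofNat (C : ℤ →+* ℤ⟦X⟧) 63, psV_C]
  rw [psV_add, psV_mul p hp, psV_mul p hp, psV_mul p hp, e4, e45, e63] at h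
  exact h

/-- `V T ≡ V S₃ mod 2`. -/
theorem nu8_VT_mod_two (p : ℕ) :
    (psV p nu8_T).map (Int.castRingHom (ZMod 2))
      = (psV p (psSigmaZ 3)).map (Int.castRingHom (ZMod 2)) := by
  rw [map_psV, map_psV, nu8_T_mod_two]

/-- `E₄ = 1 + 240 S₃`, `E₆ = 1 - 504 S₅` in ring form. -/
theorem nu8_psE4Z_eq : psE4Z = 1 + 240 * psSigmaZ 3 := by
  rw [psE4Z, zsmul_eq_mul, Int.cast_ofNat]

theorem nu8_psE6Z_eq : psE6Z = 1 - 504 * psSigmaZ 5 := by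
  rw [psE6Z, zsmul_eq_mul, Int.cast_ofNat]

end Fermat.Agent.S16L
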