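import Mathlib
import Fermat.Agent.S16L.Defs
import Fermat.Agent.S16L.CLA
import Fermat.Agent.S16L.NU8Base
import Fermat.Agent.S16L.NU8Sigma
import Fermat.Agent.S16L.NU8Alg

/-!
# S16L: the weight-4 pair `(K, p⁻² K̂)` of (NU8)
-/

set_option autoImplicit false

open PowerSeries

namespace Fermat.Agent.S16L

/-- first component: `K = (A² - c² E₄)/16` over `ℚ`. -/
theorem nu8pk_fst (c : ℤ) (h : ℤ⟦X⟧) :
    (nu8_K c h (psSigmaZ 3)).map (Int.castRingHom ℚ)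
      = (1 / 16 : ℚ) • ((C c + 8 * h).map (Int.castRingHom ℚ)
            * (C c + 8 * h).map (Int.castRingHom ℚ) - ((c : ℚ) ^ 2) • psE4) := by
  have e1 : 16 * nu8_K c h (psSigmaZ 3) = (C c + 8 * h) ^ 2 - C (c ^ 2) * psE4Z := by
    rw [nu8_psE4Z_eq]
    exact nu8_K_eq c h (psSigmaZ 3)
  have e2 := congrArg (PowerSeries.map (Int.castRingHom ℚ)) e1
  rw [map_mul, map_sub, map_pow, map_mul, map_psE4Z, PowerSeries.map_C, map_ofNat] at e2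
  have hc : (C ((Int.castRingHom ℚ) (c ^ 2)) : ℚ⟦X⟧) = C ((c : ℚ) ^ 2) := by
    simp
  rw [hc] at e2
  have h16 : (C (1 / 16 : ℚ) : ℚ⟦X⟧) * 16 = 1 := by
    rw [← map_ofNat (C : ℚ →+* ℚ⟦X⟧) 16, ← map_mul]
    norm_num
  rw [smul_eq_C_mul, smul_eq_C_mul]
  linear_combination (C (1 / 16 : ℚ)) * e2
    - ((nu8_K c h (psSigmaZ 3)).map (Int.castRingHom ℚ)) * h16

/-- the integral identity behind the second component. -/
theorem nu8pk_int {p : ℕ} (hp0 : 0 < p) (c m : ℤ) (h : ℤ⟦X⟧) (hp : (p : ℤ) = 8 * m - 1) :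
    16 * nu8_Kh c m (psU p h) (psV p (psSigmaZ 3))
      = psU p (C c + 8 * h) ^ 2 - C (c ^ 2 * (p : ℤ) ^ 2) * psV p psE4Z := by
  have hU : psU p (C c + 8 * h) = C c + 8 * psU p h := by
    have h1 := nu8_psU_decomp p hp0 c 8 h
    have h8 : (C (8 : ℤ) : ℤ⟦X⟧) = 8 := map_ofNat (C : ℤ →+* ℤ⟦X⟧) 8
    rw [h8] at h1
    exact h1
  have hV : psV p psE4Z = 1 + 240 * psV p (psSigmaZ 3) := by
    have h240 : (C (240 : ℤ) : ℤ⟦X⟧) = 240 := map_ofNat (C : ℤ →+* ℤ⟦X⟧) 240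
    rw [nu8_psE4Z_eq, psV_add, psV_one, psV_mul p hp0, ← h240, psV_C]
  rw [hU, hV, hp]
  exact nu8_Kh_eq c m (psU p h) (psV p (psSigmaZ 3))

/-- second component: `p⁻² K̂ = (b² - c² V E₄)/16` over `ℚ`, where `b = -p⁻¹ U a`. -/
theorem nu8pk_snd {p : ℕ} (hp0 : 0 < p) (c m : ℤ) (h : ℤ⟦X⟧) (hp : (p : ℤ) = 8 * m - 1)
    (b : ℚ⟦X⟧)
    (hb : b = (-(p : ℚ)⁻¹) • psU p ((C c + 8 * h).map (Int.castRingHom ℚ))) :
    (((p : ℚ) ^ 2)⁻¹) • (nu8_Kh c m (psU p h) (psV p (psSigmaZ 3))).map (Int.castRingHom ℚ)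
      = (1 / 16 : ℚ) • (b * b - ((c : ℚ) ^ 2) • psV p psE4) := by
  have hpQ : (p : ℚ) ≠ 0 := Nat.cast_ne_zero.mpr hp0.ne'
  have e2 := congrArg (PowerSeries.map (Int.castRingHom ℚ)) (nu8pk_int hp0 c m h hp)
  rw [map_mul, map_sub, map_pow, map_mul, map_psU, map_psV, map_psE4Z, PowerSeries.map_C,
    map_ofNat] at e2
  have hc : (C ((Int.castRingHom ℚ) (c ^ 2 * (p : ℤ) ^ 2)) : ℚ⟦X⟧)
      = C ((c : ℚ) ^ 2 * (p : ℚ) ^ 2) := by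
    simp
  rw [hc] at e2
  have h16 : (C (1 / 16 : ℚ) : ℚ⟦X⟧) * 16 = 1 := by
    rw [← map_ofNat (C : ℚ →+* ℚ⟦X⟧) 16, ← map_mul]
    norm_num
  have hβ : (C (-(p : ℚ)⁻¹) : ℚ⟦X⟧) * C (-(p : ℚ)⁻¹) = C (((p : ℚ) ^ 2)⁻¹) := by
    rw [← map_mul]
    congr 1
    field_simp
  have hγ : (C (((p : ℚ) ^ 2)⁻¹) : ℚ⟦X⟧) * C ((c : ℚ) ^ 2 * (p : ℚ) ^ 2) = C ((c : ℚ) ^ 2) := by
    rw [← map_mul]
    congr 1
    field_simp
  rw [hb, smul_eq_C_mul, smul_eq_C_mul, smul_eq_C_mul, smul_eq_C_mul]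
  linear_combination (C (1 / 16 : ℚ) * C (((p : ℚ) ^ 2)⁻¹)) * e2
    - (C (((p : ℚ) ^ 2)⁻¹)
        * (nu8_Kh c m (psU p h) (psV p (psSigmaZ 3))).map (Int.castRingHom ℚ)) * h16
    - (C (1 / 16 : ℚ) * psU p ((C c + 8 * h).map (Int.castRingHom ℚ)) ^ 2) * hβ
    - (C (1 / 16 : ℚ) * psV p psE4) * hγ

/-- the weight-4 pair `(K, p⁻² K̂)`. -/
theorem nu8_K_pair_mem {p : ℕ} [Fact p.Prime] (D : TraceData p) (A : ℤ⟦X⟧) (hA : InM2 D A)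
    (c m : ℤ) (h : ℤ⟦X⟧) (hAc : A = C c + 8 * h) (hp : (p : ℤ) = 8 * m - 1) :
    ((nu8_K c h (psSigmaZ 3)).map (Int.castRingHom ℚ),
      (((p : ℚ) ^ 2)⁻¹) • (nu8_Kh c m (psU p h) (psV p (psSigmaZ 3))).map (Int.castRingHom ℚ))
      ∈ D.MM 4 := by
  have hp0 : 0 < p := (Fact.out : p.Prime).pos
  obtain ⟨b, hab⟩ := hA
  have hb : b = (-(p : ℚ)⁻¹) • psU p (A.map (Int.castRingHom ℚ)) := D.MM_two hab
  have h4 := D.MM_mul hab hab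
  have hE := D.MM_of_LL D.E4_mem
  have hmem : (1 / 16 : ℚ) • ((A.map (Int.castRingHom ℚ) * A.map (Int.castRingHom ℚ), b * b)
      - ((c : ℚ) ^ 2) • (psE4, psV p psE4)) ∈ D.MM 4 := by
    apply Submodule.smul_mem
    apply Submodule.sub_mem
    · have h22 : (2 : ℤ) + 2 = 4 := by norm_num
      rw [h22] at h4
      exact h4
    · exact Submodule.smul_mem _ _ hE
  have heq : ((nu8_K c h (psSigmaZ 3)).map (Int.castRingHom ℚ),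
      (((p : ℚ) ^ 2)⁻¹) • (nu8_Kh c m (psU p h) (psV p (psSigmaZ 3))).map (Int.castRingHom ℚ))
      = (1 / 16 : ℚ) • ((A.map (Int.castRingHom ℚ) * A.map (Int.castRingHom ℚ), b * b)
          - ((c : ℚ) ^ 2) • (psE4, psV p psE4)) := by
    rw [Prod.smul_mk, Prod.mk_sub_mk, Prod.smul_mk]
    rw [hAc] at hb ⊢
    rw [nu8pk_fst c h, nu8pk_snd hp0 c m h hp b hb]
  rw [heq]
  exact hmem

end Fermat.Agent.S16L
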