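import Mathlib
import Fermat.Agent.S16L.Defs
import Fermat.Agent.S16L.CLA
import Fermat.Agent.S16L.NU8Base
import Fermat.Agent.S16L.NU8Sigma
import Fermat.Agent.S16L.NU8Alg

/-!
# S16L: the weight-6 pair `(M, -p⁻³ M̂)` of (NU8)
-/

set_option autoImplicit false

open PowerSeries

namespace Fermat.Agent.S16L

/-- a `ℚ`-linear combination of three pairs, written with `C`-multiplications. -/
theorem nu8pm_comb (M : Submodule ℚ (ℚ⟦X⟧ × ℚ⟦X⟧)) {x1 y1 x2 y2 x3 y3 : ℚ⟦X⟧} (r s t : ℚ)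
    (h1 : (x1, y1) ∈ M) (h2 : (x2, y2) ∈ M) (h3 : (x3, y3) ∈ M) :
    (C r * (x1 - C s * x2 + C t * x3), C r * (y1 - C s * y2 + C t * y3)) ∈ M := by
  have key := M.smul_mem r (M.add_mem (M.sub_mem h1 (M.smul_mem s h2)) (M.smul_mem t h3))
  have e : r • ((x1, y1) - s • (x2, y2) + t • (x3, y3))
      = (C r * (x1 - C s * x2 + C t * x3), C r * (y1 - C s * y2 + C t * y3)) := by
    simp only [Prod.smul_mk, Prod.mk_sub_mk, Prod.mk_add_mk, PowerSeries.smul_eq_C_mul]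
  rw [e] at key
  exact key

/-- `U_p (8 h) = 8 U_p h`. -/
theorem nu8pm_psU_eight (p : ℕ) (h : ℤ⟦X⟧) : psU p (8 * h) = 8 * psU p h := by
  have h8 : (8 : ℤ⟦X⟧) = C (8 : ℤ) := (map_ofNat (C : ℤ →+* ℤ⟦X⟧) 8).symm
  rw [h8, cla_psU_C_mul]

/-- `V_p E₄ = 1 + 240 V_p S₃` over `ℤ`. -/
theorem nu8pm_psV_E4 (p : ℕ) (hp : 0 < p) :
    1 + 240 * psV p (psSigmaZ 3) = psV p psE4Z := by
  have h240 : (240 : ℤ⟦X⟧) = C (240 : ℤ) := (map_ofNat (C : ℤ →+* ℤ⟦X⟧) 240).symm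
  rw [nu8_psE4Z_eq, psV_add, psV_one, psV_mul p hp, h240, psV_C]

/-- `V_p E₆ = 1 - 504 V_p S₅` over `ℤ`. -/
theorem nu8pm_psV_E6 (p : ℕ) (hp : 0 < p) :
    1 - 504 * psV p (psSigmaZ 5) = psV p psE6Z := by
  have h504 : (504 : ℤ⟦X⟧) = C (504 : ℤ) := (map_ofNat (C : ℤ →+* ℤ⟦X⟧) 504).symm
  rw [nu8_psE6Z_eq, psV_sub, psV_one, psV_mul p hp, h504, psV_C]

/-- the identity `64 M = A³ - 3 c² A E₄ + 2 c³ E₆`, over `ℚ`. -/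
theorem nu8pm_I1 (A : ℤ⟦X⟧) (c : ℤ) (h : ℤ⟦X⟧) (hAc : A = C c + 8 * h) :
    64 * (nu8_M c h (psSigmaZ 3) nu8_T).map (Int.castRingHom ℚ)
      = (A.map (Int.castRingHom ℚ)) ^ 3
        - 3 * ((c : ℤ) : ℚ⟦X⟧) ^ 2 * A.map (Int.castRingHom ℚ) * psE4
        + 2 * ((c : ℤ) : ℚ⟦X⟧) ^ 3 * psE6 := by
  have e := nu8_M_eq c h (psSigmaZ 3) (psSigmaZ 5) nu8_T nu8_four_T
  rw [← hAc, ← nu8_psE4Z_eq, ← nu8_psE6Z_eq] at e
  have e' := congrArg (PowerSeries.map (Int.castRingHom ℚ)) e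
  simp only [map_mul, map_sub, map_add, map_pow, map_ofNat, map_psE4Z,
      map_psE6Z, eq_intCast, map_intCast] at e'
  exact e'

/-- the identity `64 M̂ = A'³ - 3 c² p² A' V E₄ - 2 c³ p³ V E₆`, over `ℚ`. -/
theorem nu8pm_I2 (p : ℕ) (hp0 : 0 < p) (A : ℤ⟦X⟧) (c m : ℤ) (h : ℤ⟦X⟧) (hAc : A = C c + 8 * h)
    (hp : (p : ℤ) = 8 * m - 1) :
    64 * (nu8_Mh c m (psU p h) (psV p (psSigmaZ 3)) (psV p nu8_T)).map (Int.castRingHom ℚ)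
      = (psU p (A.map (Int.castRingHom ℚ))) ^ 3
        - 3 * (((c : ℤ) : ℚ⟦X⟧) ^ 2 * ((p : ℕ) : ℚ⟦X⟧) ^ 2) * psU p (A.map (Int.castRingHom ℚ))
            * psV p psE4
        - 2 * (((c : ℤ) : ℚ⟦X⟧) ^ 3 * ((p : ℕ) : ℚ⟦X⟧) ^ 3) * psV p psE6 := by
  have hU : C c + 8 * psU p h = psU p A := by
    rw [hAc, psU_add, psU_C p hp0, nu8pm_psU_eight]
  have e := nu8_Mh_eq c m (psU p h) (psV p (psSigmaZ 3)) (psV p (psSigmaZ 5)) (psV p nu8_T)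
    (nu8_four_VT p hp0)
  rw [hU, nu8pm_psV_E4 p hp0, nu8pm_psV_E6 p hp0, ← hp] at e
  have e' := congrArg (PowerSeries.map (Int.castRingHom ℚ)) e
  simp only [map_mul, map_sub, map_pow, map_ofNat, map_psE4Z,
      map_psE6Z, map_psU, map_psV, eq_intCast, map_intCast, map_natCast] at e'
  exact e'

/-- commutative algebra for the first component. -/
theorem nu8pm_alg1 {R : Type*} [CommRing R] (k64 Mq a cq E4 E6 : R) (hk : k64 * 64 = 1)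
    (I1 : 64 * Mq = a ^ 3 - 3 * cq ^ 2 * a * E4 + 2 * cq ^ 3 * E6) :
    Mq = k64 * (a * a * a - 3 * cq ^ 2 * (a * E4) + 2 * cq ^ 3 * E6) := by
  linear_combination k64 * I1 - Mq * hk

/-- commutative algebra for the second component. -/
theorem nu8pm_alg2 {R : Type*} [CommRing R] (k64 Mh a' cq P Pi VE4 VE6 : R) (hk : k64 * 64 = 1)
    (hP : P * Pi = 1)
    (I2 : 64 * Mh = a' ^ 3 - 3 * (cq ^ 2 * P ^ 2) * a' * VE4 - 2 * (cq ^ 3 * P ^ 3) * VE6) :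
    -Pi ^ 3 * Mh = k64 * ((-Pi * a') * (-Pi * a') * (-Pi * a')
      - 3 * cq ^ 2 * ((-Pi * a') * VE4) + 2 * cq ^ 3 * VE6) := by
  linear_combination (-Pi ^ 3 * k64) * I2 + (Pi ^ 3 * Mh) * hk
    + (k64 * (3 * cq ^ 2 * a' * VE4 * Pi * (P * Pi + 1)
        + 2 * cq ^ 3 * VE6 * ((P * Pi) ^ 2 + P * Pi + 1))) * hP

/-- the weight-6 pair `(M, -p⁻³ M̂)`. -/
theorem nu8_M_pair_mem {p : ℕ} [Fact p.Prime] (D : TraceData p) (A : ℤ⟦X⟧) (hA : InM2 D A)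
    (c m : ℤ) (h : ℤ⟦X⟧) (hAc : A = C c + 8 * h) (hp : (p : ℤ) = 8 * m - 1) :
    ((nu8_M c h (psSigmaZ 3) nu8_T).map (Int.castRingHom ℚ),
      (-((p : ℚ) ^ 3)⁻¹) • (nu8_Mh c m (psU p h) (psV p (psSigmaZ 3)) (psV p nu8_T)).map
        (Int.castRingHom ℚ)) ∈ D.MM 6 := by
  have hp0 : 0 < p := (Fact.out : p.Prime).pos
  have hpQ : (p : ℚ) ≠ 0 := Nat.cast_ne_zero.mpr (Fact.out : p.Prime).ne_zero
  obtain ⟨b, hab⟩ := hA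
  have hb : b = (-(p : ℚ)⁻¹) • psU p (A.map (Int.castRingHom ℚ)) := D.MM_two hab
  -- the three pairs
  have h4 : (psE4, psV p psE4) ∈ D.MM 4 := D.MM_of_LL D.E4_mem
  have h6 : (psE6, psV p psE6) ∈ D.MM 6 := D.MM_of_LL D.E6_mem
  have h222 : (A.map (Int.castRingHom ℚ) * A.map (Int.castRingHom ℚ) * A.map (Int.castRingHom ℚ),
      b * b * b) ∈ D.MM 6 := by
    have e : (2 + 2 + 2 : ℤ) = 6 := by norm_num
    have := D.MM_mul (D.MM_mul hab hab) hab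
    rw [e] at this
    exact this
  have h24 : (A.map (Int.castRingHom ℚ) * psE4, b * psV p psE4) ∈ D.MM 6 := by
    have e : (2 + 4 : ℤ) = 6 := by norm_num
    have := D.MM_mul hab h4
    rw [e] at this
    exact this
  have key := nu8pm_comb (D.MM 6) (1 / 64 : ℚ) (3 * (c : ℚ) ^ 2) (2 * (c : ℚ) ^ 3) h222 h24 h6
  -- constants
  have hk64 : (C (1 / 64 : ℚ) : ℚ⟦X⟧) * 64 = 1 := by
    have h64 : (64 : ℚ⟦X⟧) = C (64 : ℚ) := (map_ofNat (C : ℚ →+* ℚ⟦X⟧) 64).symm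
    rw [h64, ← map_mul]
    norm_num
  have hPPi : ((p : ℕ) : ℚ⟦X⟧) * C ((p : ℚ)⁻¹) = 1 := by
    rw [← map_natCast (C : ℚ →+* ℚ⟦X⟧) p, ← map_mul, mul_inv_cancel₀ hpQ, map_one]
  have hs : (C (3 * (c : ℚ) ^ 2) : ℚ⟦X⟧) = 3 * ((c : ℤ) : ℚ⟦X⟧) ^ 2 := by
    rw [map_mul, map_pow, map_ofNat, map_intCast]
  have ht : (C (2 * (c : ℚ) ^ 3) : ℚ⟦X⟧) = 2 * ((c : ℤ) : ℚ⟦X⟧) ^ 3 := by
    rw [map_mul, map_pow, map_ofNat, map_intCast]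
  have hb' : b = -(C ((p : ℚ)⁻¹)) * psU p (A.map (Int.castRingHom ℚ)) := by
    rw [hb, PowerSeries.smul_eq_C_mul, map_neg]
  have hPi3 : (C (-((p : ℚ) ^ 3)⁻¹) : ℚ⟦X⟧) = -(C ((p : ℚ)⁻¹)) ^ 3 := by
    rw [map_neg, ← inv_pow, map_pow]
  rw [hs, ht, hb'] at key
  -- the two components
  have e1 := nu8pm_alg1 (C (1 / 64 : ℚ) : ℚ⟦X⟧)
    ((nu8_M c h (psSigmaZ 3) nu8_T).map (Int.castRingHom ℚ)) (A.map (Int.castRingHom ℚ))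
    ((c : ℤ) : ℚ⟦X⟧) psE4 psE6 hk64 (nu8pm_I1 A c h hAc)
  have e2 := nu8pm_alg2 (C (1 / 64 : ℚ) : ℚ⟦X⟧)
    ((nu8_Mh c m (psU p h) (psV p (psSigmaZ 3)) (psV p nu8_T)).map (Int.castRingHom ℚ))
    (psU p (A.map (Int.castRingHom ℚ))) ((c : ℤ) : ℚ⟦X⟧) ((p : ℕ) : ℚ⟦X⟧) (C ((p : ℚ)⁻¹))
    (psV p psE4) (psV p psE6) hk64 hPPi (nu8pm_I2 p hp0 A c m h hAc hp)
  rw [e1, PowerSeries.smul_eq_C_mul, hPi3, e2]
  exact key

end Fermat.Agent.S16L
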