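import Mathlib
import Fermat.Agent.S16L.Defs
import Fermat.Agent.S16L.CLA
import Fermat.Agent.S16L.NU8Base
import Fermat.Agent.S16L.NU8Sigma
import Fermat.Agent.S16L.NU8Alg
import Fermat.Agent.S16L.NU8PairK
import Fermat.Agent.S16L.NU8PairM

/-!
# S16L: the weight-8 pair `(W, p⁻⁴ Ŵ)` of (NU8) — plan §4
-/

set_option autoImplicit false

open PowerSeries

namespace Fermat.Agent.S16L

/-- the weight-8 pair `(W, p⁻⁴ Ŵ)`. -/
theorem nu8_pair_mem {p : ℕ} [Fact p.Prime] (D : TraceData p) (A : ℤ⟦X⟧) (hA : InM2 D A)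
    (c m : ℤ) (h : ℤ⟦X⟧) (hAc : A = C c + 8 * h) (hp : (p : ℤ) = 8 * m - 1) :
    ((nu8_W c h (psSigmaZ 3) nu8_T).map (Int.castRingHom ℚ),
      (((p : ℚ) ^ 4)⁻¹) • (nu8_Wh c m (psU p h) (psV p (psSigmaZ 3)) (psV p nu8_T)).map
        (Int.castRingHom ℚ)) ∈ D.MM 8 := by
  have hp0 : 0 < p := (Fact.out : p.Prime).pos
  have hA' : InM2 D A := hA
  obtain ⟨b, hab⟩ := hA
  have hb : b = (-(p : ℚ)⁻¹) • psU p (A.map (Int.castRingHom ℚ)) := D.MM_two hab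
  have hU : psU p A = C c + 8 * psU p h := by
    have h8 : (8 : ℤ⟦X⟧) = C (8 : ℤ) := (map_ofNat (C : ℤ →+* ℤ⟦X⟧) 8).symm
    rw [hAc, psU_add, psU_C p hp0, h8, cla_psU_C_mul]
  have hK := nu8_K_pair_mem D A hA' c m h hAc hp
  have hM := nu8_M_pair_mem D A hA' c m h hAc hp
  have h1 := D.MM_mul hab hM
  have h2 := D.MM_mul hK hK
  have e1 : (2 : ℤ) + 6 = 8 := by norm_num
  have e2 : (4 : ℤ) + 4 = 8 := by norm_num
  rw [e1] at h1
  rw [e2] at h2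
  have h3 := Submodule.add_mem _ h1 h2
  have s1 : (-(p : ℚ)⁻¹) * (-((p : ℚ) ^ 3)⁻¹) = ((p : ℚ) ^ 4)⁻¹ := by
    rw [neg_mul_neg, ← mul_inv]
    congr 1
    ring
  have s2 : (((p : ℚ) ^ 2)⁻¹) * (((p : ℚ) ^ 2)⁻¹) = ((p : ℚ) ^ 4)⁻¹ := by
    rw [← mul_inv]
    congr 1
    ring
  convert h3 using 1
  refine Prod.ext ?_ ?_
  · rw [Prod.fst_add]
    show (nu8_W c h (psSigmaZ 3) nu8_T).map (Int.castRingHom ℚ)
      = A.map (Int.castRingHom ℚ) * (nu8_M c h (psSigmaZ 3) nu8_T).map (Int.castRingHom ℚ)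
        + (nu8_K c h (psSigmaZ 3)).map (Int.castRingHom ℚ)
          * (nu8_K c h (psSigmaZ 3)).map (Int.castRingHom ℚ)
    rw [nu8_W, ← hAc, map_add, map_mul, map_pow, sq]
  · rw [Prod.snd_add]
    show (((p : ℚ) ^ 4)⁻¹) • (nu8_Wh c m (psU p h) (psV p (psSigmaZ 3)) (psV p nu8_T)).map
          (Int.castRingHom ℚ)
      = b * ((-((p : ℚ) ^ 3)⁻¹) • (nu8_Mh c m (psU p h) (psV p (psSigmaZ 3)) (psV p nu8_T)).map
          (Int.castRingHom ℚ))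
        + ((((p : ℚ) ^ 2)⁻¹) • (nu8_Kh c m (psU p h) (psV p (psSigmaZ 3))).map (Int.castRingHom ℚ))
          * ((((p : ℚ) ^ 2)⁻¹) • (nu8_Kh c m (psU p h) (psV p (psSigmaZ 3))).map
            (Int.castRingHom ℚ))
    rw [hb, ← map_psU, hU, nu8_Wh, map_add, map_mul, map_pow, smul_mul_smul_comm,
      smul_mul_smul_comm, s1, s2, ← smul_add, sq]

end Fermat.Agent.S16L
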