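import Mathlib
import Fermat.Agent.S16L.Defs
import Fermat.Agent.S16L.CLA
import Fermat.Agent.S16L.NU8Base
import Fermat.Agent.S16L.NU8Sigma
import Fermat.Agent.S16L.NU8Alg
import Fermat.Agent.S16L.NU8Pair
import Fermat.Agent.S16L.NU8Final
import Fermat.Agent.S16L.NU8FinalMap
import Fermat.Agent.S16L.NU8AlgMod

/-!
# S16L: no weight-2 form on `Γ₀(p)`, `p ≠ 2`, is congruent to a unit constant mod 8 — plan §4 (NU8)
-/

set_option autoImplicit false

open PowerSeries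

namespace Fermat.Agent.S16L

/-- the reduction mod 2 of `S₃ + S₃²` is `X + …`. -/
theorem nu8_coeff_zero_Pi :
    ((psSigmaZ 3 + psSigmaZ 3 ^ 2).map (Int.castRingHom (ZMod 2))).coeff 0 = 0 := by
  rw [PowerSeries.coeff_map, map_add, PowerSeries.coeff_zero_eq_constantCoeff, map_pow,
    ← PowerSeries.coeff_zero_eq_constantCoeff, coeff_zero_psSigmaZ]
  simp

theorem nu8_coeff_one_Pi :
    ((psSigmaZ 3 + psSigmaZ 3 ^ 2).map (Int.castRingHom (ZMod 2))).coeff 1 = 1 := by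
  have h2 : (psSigmaZ 3 ^ 2).coeff 1 = 0 := by
    rw [pow_two, PowerSeries.coeff_mul]
    apply Finset.sum_eq_zero
    intro x hx
    rcases x with ⟨a, b⟩
    have hx' : a + b = 1 := Finset.HasAntidiagonal.mem_antidiagonal.1 hx
    have hab : a = 0 ∨ b = 0 := by
      omega
    rcases hab with h | h
    · simp only [h, coeff_zero_psSigmaZ, zero_mul]
    · simp only [h, coeff_zero_psSigmaZ, mul_zero]
  rw [PowerSeries.coeff_map, map_add, h2, nu8_coeff_one_psSigmaZ]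
  simp

theorem nu8 (p : ℕ) [Fact p.Prime] (D : TraceData p) (hp : p ≠ 2)
    (A : ℤ⟦X⟧) (hA : InM2 D A) (hU : IsUnitConstMod 2 3 A) : False := by
  have hpp : p.Prime := Fact.out
  have hp0 : 0 < p := hpp.pos
  have hp1 : 1 < p := hpp.one_lt
  have hodd : ¬ 2 ∣ p := fun h => hp ((Nat.prime_dvd_prime_iff_eq Nat.prime_two hpp).1 h).symm
  -- (CLA): `8 ∣ p + 1`
  have hcla : ((2 : ℕ) : ℤ) ^ 3 ∣ (p : ℤ) + 1 :=
    cla p D 2 3 Nat.prime_two (Ne.symm hp) (by norm_num) A hA hU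
  obtain ⟨m, hm⟩ := hcla
  have hpm : (p : ℤ) = 8 * m - 1 := by
    push_cast at hm
    linarith
  -- `A = c + 8 h`
  obtain ⟨hU0, hU1⟩ := hU
  obtain ⟨h, -, hAh⟩ := nu8_exists_decomp 8 A (fun k hk => by
    have := hU1 k hk
    norm_num at this
    exact this)
  have hAc : A = C (A.coeff 0) + 8 * h := by
    rw [show (8 : ℤ⟦X⟧) = C 8 from (map_ofNat C 8).symm]
    exact hAh
  have hcodd : ¬ (2 : ℤ) ∣ A.coeff 0 := by
    simpa using hU0
  -- the weight-8 pair and its `3p`-th power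
  have hpair := nu8_pair_mem D A hA (A.coeff 0) m h hAc hpm
  have hpow' : (((nu8_W (A.coeff 0) h (psSigmaZ 3) nu8_T) ^ (3 * p)).map (Int.castRingHom ℚ),
      (((p : ℚ) ^ (12 * p))⁻¹) •
        ((nu8_Wh (A.coeff 0) m (psU p h) (psV p (psSigmaZ 3)) (psV p nu8_T)) ^ (3 * p)).map
          (Int.castRingHom ℚ)) ∈ D.MM (((3 * p : ℕ) : ℤ) * 8) := by
    have h1 := nu8_MM_pow D hpair (3 * p)
    have e : (((p : ℚ) ^ 4)⁻¹) ^ (3 * p) = ((p : ℚ) ^ (12 * p))⁻¹ := by
      rw [inv_pow, ← pow_mul]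
      congr 2
      ring
    simp only [smul_pow, e, ← map_pow] at h1
    exact h1
  -- the trace against `Δ^p`
  have hδ := nu8_deltaZ_pow_mem D p
  have htr := nu8_trV_int D (12 * p) (12 * p) (by omega) _ _ _ hpow' hδ
  -- reduction mod 2
  have hWm := nu8_W_mod_two (A.coeff 0) hcodd h (psSigmaZ 3) nu8_T nu8_T_mod_two
  have hWhm := nu8_Wh_mod_two (A.coeff 0) m hcodd (psU p h) (psV p (psSigmaZ 3)) (psV p nu8_T)
    (nu8_VT_mod_two p)
  have hmap := nu8_final_map p hp0 hodd (12 * p + 12 * p - 1) _ _ (psSigmaZ 3) (psDeltaZ ^ p)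
    hWm hWhm (3 * p)
  have hδp : (psDeltaZ ^ p).map (Int.castRingHom (ZMod 2))
      = (psDeltaZ.map (Int.castRingHom (ZMod 2))) ^ p := map_pow _ _ _
  rw [hδp] at hmap
  have hδ0 : (psDeltaZ.map (Int.castRingHom (ZMod 2))).coeff 0 = 0 := by
    rw [PowerSeries.coeff_map, coeff_zero_psDeltaZ, map_zero]
  have hδ1 : (psDeltaZ.map (Int.castRingHom (ZMod 2))).coeff 1 = 1 := by
    rw [PowerSeries.coeff_map, coeff_one_psDeltaZ, map_one]
  have hord := nu8_final_order p hp0 _ _ nu8_coeff_zero_Pi hδ0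
  have hne := nu8_final_ne_zero p hp1 _ _ nu8_coeff_one_Pi hδ0 hδ1
  -- L1b: the trace element vanishes mod 2
  have hzero := nu8_l1b_order D 2 _ _ htr (fun j hj => by
    have hj' : j ≤ 3 * p := by
      push_cast at hj
      omega
    rw [← PowerSeries.coeff_map, hmap]
    exact hord j hj')
  rw [hmap] at hzero
  exact hne hzero

end Fermat.Agent.S16L
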