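import Mathlib
import Fermat.Agent.S16L.Defs
import Fermat.Agent.S16L.PS
import Fermat.Agent.S16L.CLA

/-!
# S16L / NU9alt (helper1 team): facts about `Δ` and `Δ^p`

* `h1nu9_theta_dbar`: `θ Δ̄ = Δ̄` over `ZMod 3` (Ramanujan `θΔ = E₂Δ`, `E₂ ≡ 1 mod 3`)
* `h1nu9_delta_pow_mem`: `Δ^n ∈ LL (12 n)`
* `h1nu9_delta_pow_coeff`: the `q¹`-coefficient of `U_p(Δ^p) - V_p(Δ^p)` is `1`
Statements FROZEN.
-/

set_option autoImplicit false

open PowerSeries

namespace Fermat.Agent.S16L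

/-- the integral Ramanujan identity `θ Δ = (1 - 24 S₁) Δ` -/
theorem h1nu9_dl_theta_deltaZ {p : ℕ} (D : TraceData p) :
    psTheta psDeltaZ = (1 - (24 : ℤ) • psSigmaZ 1) * psDeltaZ := by
  apply map_int_injective
  rw [map_psTheta, map_mul, map_sub, map_one, psint_map_zsmul, map_psSigmaZ, map_psDeltaZ,
    D.theta_delta, smul_eq_C_mul, Int.cast_ofNat]

/-- `24 = 0` in `(ZMod 3)⟦X⟧` -/
theorem h1nu9_dl_cast_24 : ((24 : ℤ) : (ZMod 3)⟦X⟧) = 0 := by
  have h : ((24 : ℤ) : ZMod 3) = 0 := by decide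
  rw [← map_intCast (C : ZMod 3 →+* (ZMod 3)⟦X⟧) 24, h, map_zero]

theorem h1nu9_theta_dbar {p : ℕ} (D : TraceData p) :
    psTheta (psDeltaZ.map (Int.castRingHom (ZMod 3))) = psDeltaZ.map (Int.castRingHom (ZMod 3)) := by
  have h := congrArg (PowerSeries.map (Int.castRingHom (ZMod 3))) (h1nu9_dl_theta_deltaZ D)
  rw [map_psTheta, map_mul, map_sub, map_one, zsmul_eq_mul, map_mul, map_intCast,
    h1nu9_dl_cast_24, zero_mul, sub_zero, one_mul] at h
  exact h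

theorem h1nu9_delta_pow_mem {p : ℕ} (D : TraceData p) (n : ℕ) :
    (psDeltaZ ^ n).map (Int.castRingHom ℚ) ∈ D.LL ((12 * n : ℕ) : ℤ) := by
  induction n with
  | zero =>
    rw [pow_zero, map_one, Nat.mul_zero, Nat.cast_zero]
    exact D.one_mem_LL
  | succ n ih =>
    have e : ((12 * (n + 1) : ℕ) : ℤ) = ((12 * n : ℕ) : ℤ) + 12 := by
      push_cast
      ring
    rw [e, pow_succ, map_mul, map_psDeltaZ]
    exact D.LL_mul ih (cla_delta_mem D)

/-- the coefficient of `q ^ n` in `Δ ^ n` is `1` -/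
theorem h1nu9_dl_coeff_pow (n : ℕ) : (psDeltaZ ^ n).coeff n = 1 := by
  obtain ⟨u, hu0, hu⟩ := exists_psDeltaZ_eq
  have hc : (u ^ n).coeff 0 = 1 := by
    rw [coeff_zero_eq_constantCoeff_apply, map_pow, ← coeff_zero_eq_constantCoeff_apply, hu0,
      one_pow]
  rw [hu, mul_pow, coeff_X_pow_mul', if_pos le_rfl, Nat.sub_self, hc]

theorem h1nu9_delta_pow_coeff (p : ℕ) (hp : p.Prime) :
    (psU p ((psDeltaZ ^ p).map (Int.castRingHom (ZMod 3))) -
      psV p ((psDeltaZ ^ p).map (Int.castRingHom (ZMod 3)))).coeff 1 = 1 := by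
  rw [map_sub, coeff_psU, coeff_one_psV p hp.one_lt, sub_zero, mul_one, PowerSeries.coeff_map,
    h1nu9_dl_coeff_pow, map_one]

end Fermat.Agent.S16L
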