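import Mathlib
import Fermat.Agent.S16L.Defs
import Fermat.Agent.S16L.PS

/-!
# S16L / NU9alt (helper1 team): polynomials in a power series of order one

* `h1nu9_aeval_injective`: `f ↦ f(δ)` is injective when `δ = q + …`
* `h1nu9_theta_aeval`: chain rule `θ (f(δ)) = f'(δ) · θ δ`
Statements FROZEN.
-/

set_option autoImplicit false

open PowerSeries

namespace Fermat.Agent.S16L

/-- the constant coefficient of `g(δ)` is `g(0)` when `δ` has no constant term -/
theorem h1nu9_de_coeff_zero_aeval (δ : (ZMod 3)⟦X⟧) (hδ0 : δ.coeff 0 = 0)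
    (g : Polynomial (ZMod 3)) : (Polynomial.aeval δ g).coeff 0 = g.coeff 0 := by
  induction g using Polynomial.induction_on' with
  | add p q hp hq => rw [map_add, map_add, hp, hq, Polynomial.coeff_add]
  | monomial n a =>
    rw [Polynomial.aeval_monomial, ← Algebra.smul_def, PowerSeries.coeff_smul,
      Polynomial.coeff_monomial]
    rcases Nat.eq_zero_or_pos n with rfl | hn
    · rw [pow_zero, if_pos rfl, PowerSeries.coeff_zero_eq_constantCoeff_apply, map_one,
        smul_eq_mul, mul_one]
    · rw [if_neg hn.ne', PowerSeries.coeff_zero_eq_constantCoeff_apply, map_pow,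
        ← PowerSeries.coeff_zero_eq_constantCoeff_apply, hδ0, zero_pow hn.ne', smul_zero]

/-- `f(δ) = 0` forces `f = 0` when `δ = q + …` -/
theorem h1nu9_de_eq_zero_of_aeval_eq_zero (δ : (ZMod 3)⟦X⟧) (hδ0 : δ.coeff 0 = 0)
    (hδ1 : δ.coeff 1 = 1) (f : Polynomial (ZMod 3)) (hf : Polynomial.aeval δ f = 0) : f = 0 := by
  by_contra hne
  obtain ⟨g, hfg, hg⟩ := Polynomial.exists_eq_pow_rootMultiplicity_mul_and_not_dvd f hne 0
  rw [map_zero, sub_zero] at hfg hg
  have hg0 : g.coeff 0 ≠ 0 := fun h => hg (Polynomial.X_dvd_iff.mpr h)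
  have hδ : δ ≠ 0 := by
    intro h
    rw [h, map_zero] at hδ1
    exact zero_ne_one hδ1
  rw [hfg, map_mul, map_pow, Polynomial.aeval_X] at hf
  rcases mul_eq_zero.mp hf with h | h
  · exact pow_ne_zero _ hδ h
  · apply hg0
    rw [← h1nu9_de_coeff_zero_aeval δ hδ0 g, h, map_zero]

theorem h1nu9_aeval_injective (δ : (ZMod 3)⟦X⟧) (hδ0 : δ.coeff 0 = 0) (hδ1 : δ.coeff 1 = 1) :
    Function.Injective (fun f : Polynomial (ZMod 3) => Polynomial.aeval δ f) := by
  intro f g hfg
  have h : Polynomial.aeval δ (f - g) = 0 := by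
    rw [map_sub]
    exact sub_eq_zero.mpr hfg
  exact sub_eq_zero.mp (h1nu9_de_eq_zero_of_aeval_eq_zero δ hδ0 hδ1 (f - g) h)

theorem h1nu9_theta_aeval (δ : (ZMod 3)⟦X⟧) (f : Polynomial (ZMod 3)) :
    psTheta (Polynomial.aeval δ f) = Polynomial.aeval δ (Polynomial.derivative f) * psTheta δ := by
  induction f using Polynomial.induction_on' with
  | add p q hp hq =>
    rw [map_add, psTheta_add, hp, hq, Polynomial.derivative_add, map_add, add_mul]
  | monomial n a =>
    rw [Polynomial.derivative_monomial, Polynomial.aeval_monomial, Polynomial.aeval_monomial,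
      ← Algebra.smul_def, ← Algebra.smul_def, psTheta_smul]
    rcases n with _ | m
    · rw [pow_zero, Nat.cast_zero, mul_zero, zero_smul, zero_mul, ← map_one (C (R := ZMod 3)),
        psTheta_C, smul_zero]
    · rw [psTheta_pow, Nat.add_sub_cancel, smul_mul_assoc, mul_smul]

end Fermat.Agent.S16L
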