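import Mathlib
import Fermat.Agent.S16L.Defs
import Fermat.Agent.S16L.PS

/-!
# S16L / NU9alt (helper1 team): Frobenius on `(ZMod 3)⟦X⟧` is `V₃`.  Statement FROZEN.
-/

set_option autoImplicit false

open PowerSeries

namespace Fermat.Agent.S16L

theorem h1nu9_frob (x : (ZMod 3)⟦X⟧) : x ^ 3 = psV 3 x := by
  have : Fact (Nat.Prime 3) := ⟨by norm_num⟩
  have h3 : (3 : ℕ) ≠ 0 := by norm_num
  have h := MvPowerSeries.map_frobenius_expand (σ := Unit) (R := ZMod 3) 3 h3 (f := x)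
  rw [ZMod.frobenius_zmod, MvPowerSeries.map_id] at h
  rw [psops_psV_eq_expand 3 h3]
  exact h.symm

end Fermat.Agent.S16L
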