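import Mathlib
import Fermat.Agent.S16L.Defs
import Fermat.Agent.S16L.PS

/-!
# S16L / NU9alt (helper1 team): divisor sums mod 3

With `P̄ = ∑ σ(n) q^n` over `ZMod 3`:  `σ₃ ≡ σ` mod 3 and `θ P̄ = P̄ - V₃ P̄`
(`σ(n) ≡ 0` for `n ≡ 2 mod 3`, `σ(3m) ≡ σ(m)` mod 3).  Statements FROZEN.
-/

set_option autoImplicit false

open PowerSeries

namespace Fermat.Agent.S16L

/-- the coefficients of the reduction mod 3 of `∑ σ_k(n) q^n` -/
theorem h1nu9_sg_coeff (k n : ℕ) :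
    ((psSigmaZ k).map (Int.castRingHom (ZMod 3))).coeff n = ∑ d ∈ n.divisors, (d : ZMod 3) ^ k := by
  simp [psSigmaZ, ArithmeticFunction.sigma_apply]

/-- the coefficients of `P̄` -/
theorem h1nu9_sg_coeff_one (n : ℕ) :
    ((psSigmaZ 1).map (Int.castRingHom (ZMod 3))).coeff n = ∑ d ∈ n.divisors, (d : ZMod 3) := by
  rw [h1nu9_sg_coeff]
  simp only [pow_one]

/-- `σ(n) ≡ 0 mod 3` for `n ≡ 2 mod 3` (pair `d` with `n / d`). -/
theorem h1nu9_sg_sum_eq_zero {n : ℕ} (hn : n % 3 = 2) :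
    ∑ d ∈ n.divisors, (d : ZMod 3) = 0 := by
  have h2 : ∑ d ∈ n.divisors, ((n / d : ℕ) : ZMod 3) = ∑ d ∈ n.divisors, (d : ZMod 3) :=
    Nat.sum_div_divisors n (fun d => (d : ZMod 3))
  have hn' : (n : ZMod 3) = 2 := by
    rw [← ZMod.natCast_mod n 3, hn]
    rfl
  have h3 : ∑ d ∈ n.divisors, ((d : ZMod 3) + ((n / d : ℕ) : ZMod 3)) = 0 := by
    apply Finset.sum_eq_zero
    intro d hd
    have hdvd : d ∣ n := Nat.dvd_of_mem_divisors hd
    have hmul : (d : ZMod 3) * ((n / d : ℕ) : ZMod 3) = 2 := by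
      rw [← Nat.cast_mul, Nat.mul_div_cancel' hdvd, hn']
    have key : ∀ x y : ZMod 3, x * y = 2 → x + y = 0 := by decide
    exact key _ _ hmul
  rw [Finset.sum_add_distrib, h2] at h3
  have key2 : ∀ x : ZMod 3, x + x = 0 → x = 0 := by decide
  exact key2 _ h3

/-- mod 3 only the divisors prime to 3 contribute -/
theorem h1nu9_sg_sum_filter (n : ℕ) :
    ∑ d ∈ n.divisors, (d : ZMod 3) =
      ∑ d ∈ n.divisors.filter (fun d => ¬ 3 ∣ d), (d : ZMod 3) := by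
  symm
  apply Finset.sum_filter_of_ne
  intro d _ hd h3
  exact hd ((ZMod.natCast_eq_zero_iff d 3).mpr h3)

/-- the divisors prime to 3 of `3 m` and of `m` agree -/
theorem h1nu9_sg_filter_eq {m : ℕ} (hm : m ≠ 0) :
    (3 * m).divisors.filter (fun d => ¬ 3 ∣ d) = m.divisors.filter (fun d => ¬ 3 ∣ d) := by
  ext d
  simp only [Finset.mem_filter, Nat.mem_divisors]
  constructor
  · rintro ⟨⟨hd, _⟩, h3⟩
    refine ⟨⟨?_, hm⟩, h3⟩
    have hcop : Nat.Coprime d 3 :=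
      ((Nat.Prime.coprime_iff_not_dvd Nat.prime_three).mpr h3).symm
    exact hcop.dvd_of_dvd_mul_left hd
  · rintro ⟨⟨hd, _⟩, h3⟩
    exact ⟨⟨Dvd.dvd.mul_left hd 3, by omega⟩, h3⟩

/-- `σ(3m) ≡ σ(m) mod 3` -/
theorem h1nu9_sg_sum_three_mul (m : ℕ) :
    ∑ d ∈ (3 * m).divisors, (d : ZMod 3) = ∑ d ∈ m.divisors, (d : ZMod 3) := by
  rcases Nat.eq_zero_or_pos m with rfl | hm
  · simp
  · rw [h1nu9_sg_sum_filter (3 * m), h1nu9_sg_sum_filter m, h1nu9_sg_filter_eq hm.ne']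

theorem h1nu9_sigma3 :
    (psSigmaZ 3).map (Int.castRingHom (ZMod 3)) = (psSigmaZ 1).map (Int.castRingHom (ZMod 3)) := by
  ext n
  rw [h1nu9_sg_coeff, h1nu9_sg_coeff]
  refine Finset.sum_congr rfl (fun d _ => ?_)
  have key : ∀ x : ZMod 3, x ^ 3 = x ^ 1 := by decide
  exact key _

theorem h1nu9_theta_P :
    psTheta ((psSigmaZ 1).map (Int.castRingHom (ZMod 3))) =
      (psSigmaZ 1).map (Int.castRingHom (ZMod 3)) -
        psV 3 ((psSigmaZ 1).map (Int.castRingHom (ZMod 3))) := by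
  ext n
  rw [coeff_psTheta, map_sub, coeff_psV, h1nu9_sg_coeff_one]
  have hcases : n % 3 = 0 ∨ n % 3 = 1 ∨ n % 3 = 2 := by omega
  rcases hcases with h | h | h
  · obtain ⟨m, rfl⟩ := Nat.dvd_of_mod_eq_zero h
    have h0 : ((3 * m : ℕ) : ZMod 3) = 0 :=
      (ZMod.natCast_eq_zero_iff (3 * m) 3).mpr (dvd_mul_right 3 m)
    rw [if_pos (dvd_mul_right 3 m), Nat.mul_div_cancel_left m (by norm_num),
      h1nu9_sg_coeff_one, h1nu9_sg_sum_three_mul, sub_self, h0, zero_mul]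
  · have hndvd : ¬ 3 ∣ n := by omega
    have h1 : (n : ZMod 3) = 1 := by
      rw [← ZMod.natCast_mod n 3, h]
      rfl
    rw [if_neg hndvd, sub_zero, h1, one_mul]
  · have hndvd : ¬ 3 ∣ n := by omega
    rw [if_neg hndvd, sub_zero, h1nu9_sg_sum_eq_zero h, mul_zero]

theorem h1nu9_coeff_P0 : ((psSigmaZ 1).map (Int.castRingHom (ZMod 3))).coeff 0 = 0 := by
  rw [h1nu9_sg_coeff_one]
  simp

theorem h1nu9_coeff_P1 : ((psSigmaZ 1).map (Int.castRingHom (ZMod 3))).coeff 1 = 1 := by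
  rw [h1nu9_sg_coeff_one]
  simp

end Fermat.Agent.S16L
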