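import Mathlib
import Fermat.Agent.S16L.Defs
import Fermat.Agent.S16L.PS
import Fermat.Agent.S16L.CLA
import Fermat.Agent.S16L.NU9altSigma

/-!
# S16L / NU9alt (helper1 team): the weight-4 pair `κ = (A² - c² E₄)/3` (plan §4 (NU9))

For `A = c + 9h` (`3 ∤ c`) of weight 2 on `Γ₀(p)`: `κ = (A² - c²E₄)/3` is integral, `≡ P̄ mod 3`,
and its partner is `p⁻² κ'` with `κ'` integral, `≡ V_p P̄ mod 3`.  Statement FROZEN.
-/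

set_option autoImplicit false

open PowerSeries

namespace Fermat.Agent.S16L

theorem h1nu9_ka_sq_eq_one (x : ZMod 3) (hx : x ≠ 0) : x ^ 2 = 1 := by
  revert x; decide

theorem h1nu9_ka_three : (3 : (ZMod 3)⟦X⟧) = 0 := by
  have h0 : (3 : ZMod 3) = 0 := by decide
  rw [← map_ofNat (C (R := ZMod 3)) 3, h0, map_zero]

theorem h1nu9_ka_intCast_sq (c : ℤ) (hc : ¬ ((3 : ℕ) : ℤ) ∣ c) :
    ((c : ℤ) : (ZMod 3)⟦X⟧) ^ 2 = 1 := by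
  have hc0 : (c : ZMod 3) ≠ 0 := fun h0 => hc ((ZMod.intCast_zmod_eq_zero_iff_dvd c 3).mp h0)
  rw [← map_intCast (C (R := ZMod 3)) c, ← map_pow, h1nu9_ka_sq_eq_one _ hc0, map_one]

theorem h1nu9_ka_natCast_sq (p : ℕ) (hp : ¬ 3 ∣ p) : ((p : ℕ) : (ZMod 3)⟦X⟧) ^ 2 = 1 := by
  have hp0 : (p : ZMod 3) ≠ 0 := fun h0 => hp ((ZMod.natCast_eq_zero_iff p 3).mp h0)
  rw [← map_natCast (C (R := ZMod 3)) p, ← map_pow, h1nu9_ka_sq_eq_one _ hp0, map_one]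

/-- `A = c + 9 h` with `3 ∤ c`. -/
theorem h1nu9_ka_decomp (A : ℤ⟦X⟧) (hU : IsUnitConstMod 3 2 A) :
    ∃ (c : ℤ) (h : ℤ⟦X⟧), A = (c : ℤ⟦X⟧) + 9 * h ∧ ¬ ((3 : ℕ) : ℤ) ∣ c := by
  obtain ⟨hU0, hUk⟩ := hU
  refine ⟨A.coeff 0, PowerSeries.mk fun k => if k = 0 then 0 else A.coeff k / 9, ?_, hU0⟩
  ext n
  rw [map_add, ← map_intCast (C (R := ℤ)) (A.coeff 0), ← map_ofNat (C (R := ℤ)) 9, coeff_C_mul,
    coeff_mk, coeff_C]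
  split_ifs with hn
  · subst hn; simp
  · have h9 : (9 : ℤ) ∣ A.coeff n := by
      have := hUk n (Nat.one_le_iff_ne_zero.mpr hn)
      norm_num at this
      exact this
    rw [zero_add, Int.mul_ediv_cancel' h9]

theorem h1nu9_kappa (p : ℕ) [Fact p.Prime] (D : TraceData p) (hp : p ≠ 3)
    (A : ℤ⟦X⟧) (hA : InM2 D A) (hU : IsUnitConstMod 3 2 A) :
    ∃ κ κ' : ℤ⟦X⟧,
      (κ.map (Int.castRingHom ℚ), ((p : ℚ) ^ (-2 : ℤ)) • κ'.map (Int.castRingHom ℚ)) ∈ D.MM 4 ∧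
      κ.map (Int.castRingHom (ZMod 3)) = (psSigmaZ 1).map (Int.castRingHom (ZMod 3)) ∧
      κ'.map (Int.castRingHom (ZMod 3)) =
        psV p ((psSigmaZ 1).map (Int.castRingHom (ZMod 3))) := by
  have hpp : p.Prime := Fact.out
  have hp0 : 0 < p := hpp.pos
  have hpQ : (p : ℚ) ≠ 0 := Nat.cast_ne_zero.mpr hpp.ne_zero
  have hp3 : ¬ 3 ∣ p := fun h0 => hp ((Nat.prime_dvd_prime_iff_eq Nat.prime_three hpp).mp h0).symm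
  -- `9 ∣ p + 1`, hence `p ^ 2 - 1 = 9 μ`
  have h9 : ((3 : ℕ) : ℤ) ^ 2 ∣ (p : ℤ) + 1 :=
    cla p D 3 2 Nat.prime_three (fun h => hp h.symm) (by norm_num) A hA hU
  obtain ⟨t, ht⟩ := h9
  push_cast at ht
  obtain ⟨μ, hμ⟩ : ∃ μ : ℤ, (p : ℤ) ^ 2 - 1 = 9 * μ :=
    ⟨t * ((p : ℤ) - 1), by linear_combination ((p : ℤ) - 1) * ht⟩
  -- `A = c + 9 h`
  obtain ⟨c, h, hAh, hc3⟩ := h1nu9_ka_decomp A hU
  obtain ⟨b, hb⟩ := hA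
  have hb2 : b = (-(p : ℚ)⁻¹) • psU p (A.map (Int.castRingHom ℚ)) := D.MM_two hb
  refine ⟨6 * (c : ℤ⟦X⟧) * h + 27 * h ^ 2 - 80 * (c : ℤ⟦X⟧) ^ 2 * psSigmaZ 3,
    6 * (c : ℤ⟦X⟧) * psU p h + 27 * psU p h ^ 2 - 3 * (c : ℤ⟦X⟧) ^ 2 * (μ : ℤ⟦X⟧)
      - 80 * (c : ℤ⟦X⟧) ^ 2 * (p : ℤ⟦X⟧) ^ 2 * psV p (psSigmaZ 3), ?_, ?_, ?_⟩
  · -- the pair lies in `MM 4`
    have hκ : (6 * (c : ℤ⟦X⟧) * h + 27 * h ^ 2 - 80 * (c : ℤ⟦X⟧) ^ 2 * psSigmaZ 3).map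
          (Int.castRingHom ℚ)
        = 6 * (c : ℚ⟦X⟧) * h.map (Int.castRingHom ℚ) + 27 * h.map (Int.castRingHom ℚ) ^ 2
          - 80 * (c : ℚ⟦X⟧) ^ 2 * psSigma 3 := by
      simp only [map_add, map_sub, map_mul, map_pow, map_ofNat, map_intCast, map_psSigmaZ]
    have hκ' : (6 * (c : ℤ⟦X⟧) * psU p h + 27 * psU p h ^ 2 - 3 * (c : ℤ⟦X⟧) ^ 2 * (μ : ℤ⟦X⟧)
        - 80 * (c : ℤ⟦X⟧) ^ 2 * (p : ℤ⟦X⟧) ^ 2 * psV p (psSigmaZ 3)).map (Int.castRingHom ℚ)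
        = 6 * (c : ℚ⟦X⟧) * psU p (h.map (Int.castRingHom ℚ))
          + 27 * psU p (h.map (Int.castRingHom ℚ)) ^ 2 - 3 * (c : ℚ⟦X⟧) ^ 2 * (μ : ℚ⟦X⟧)
          - 80 * (c : ℚ⟦X⟧) ^ 2 * (p : ℚ⟦X⟧) ^ 2 * psV p (psSigma 3) := by
      simp only [map_add, map_sub, map_mul, map_pow, map_ofNat, map_intCast, map_natCast,
        map_psSigmaZ, map_psU, map_psV]
    have hAQ : A.map (Int.castRingHom ℚ) = (c : ℚ⟦X⟧) + 9 * h.map (Int.castRingHom ℚ) := by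
      rw [hAh, map_add, map_mul, map_ofNat, map_intCast]
    have hE4 : psE4 = 1 + 240 * psSigma 3 := by
      rw [psE4, smul_eq_C_mul, map_ofNat]
    have hUA : psU p (A.map (Int.castRingHom ℚ))
        = (c : ℚ⟦X⟧) + 9 * psU p (h.map (Int.castRingHom ℚ)) := by
      rw [hAQ, psU_add, ← map_intCast (C (R := ℚ)) c, psU_C p hp0, ← map_ofNat (C (R := ℚ)) 9,
        cla_psU_C_mul]
    have hVE4 : psV p psE4 = 1 + 240 * psV p (psSigma 3) := by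
      rw [hE4, psV_add, psV_one, psV_mul p hp0, ← map_ofNat (C (R := ℚ)) 240, psV_C]
    have hPM : (p : ℚ⟦X⟧) ^ 2 - 1 = 9 * (μ : ℚ⟦X⟧) := by
      have h2 := congrArg (fun z : ℤ => (z : ℚ⟦X⟧)) hμ
      push_cast at h2
      exact h2
    have hPi : (C ((p : ℚ)⁻¹) : ℚ⟦X⟧) * (p : ℚ⟦X⟧) = 1 := by
      rw [← map_natCast (C (R := ℚ)) p, ← map_mul, inv_mul_cancel₀ hpQ, map_one]
    have hzp : (p : ℚ) ^ (-2 : ℤ) = ((p : ℚ)⁻¹) ^ 2 := by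
      rw [zpow_neg, inv_pow]; norm_cast
    have h22 : (2 : ℤ) + 2 = 4 := by norm_num
    have hAA : (A.map (Int.castRingHom ℚ) * A.map (Int.castRingHom ℚ), b * b) ∈ D.MM 4 := by
      have := D.MM_mul hb hb
      rw [h22] at this
      exact this
    have hE : (psE4, psV p psE4) ∈ D.MM 4 := D.MM_of_LL D.E4_mem
    have hy := Submodule.sub_mem _ hAA (Submodule.smul_mem _ ((c : ℚ) ^ 2) hE)
    have e1 : A.map (Int.castRingHom ℚ) * A.map (Int.castRingHom ℚ) - ((c : ℚ) ^ 2) • psE4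
        = (3 : ℚ) • (6 * (c : ℚ⟦X⟧) * h.map (Int.castRingHom ℚ)
          + 27 * h.map (Int.castRingHom ℚ) ^ 2 - 80 * (c : ℚ⟦X⟧) ^ 2 * psSigma 3) := by
      rw [smul_eq_C_mul, smul_eq_C_mul, map_pow, map_intCast, map_ofNat, hAQ, hE4]
      ring
    have e2 : b * b - ((c : ℚ) ^ 2) • psV p psE4
        = (3 : ℚ) • ((p : ℚ) ^ (-2 : ℤ) • (6 * (c : ℚ⟦X⟧) * psU p (h.map (Int.castRingHom ℚ))
          + 27 * psU p (h.map (Int.castRingHom ℚ)) ^ 2 - 3 * (c : ℚ⟦X⟧) ^ 2 * (μ : ℚ⟦X⟧)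
          - 80 * (c : ℚ⟦X⟧) ^ 2 * (p : ℚ⟦X⟧) ^ 2 * psV p (psSigma 3))) := by
      rw [hb2, hzp, smul_eq_C_mul, smul_eq_C_mul, smul_eq_C_mul, smul_eq_C_mul, hUA, hVE4,
        map_pow, map_pow, map_intCast, map_ofNat, map_neg]
      linear_combination (-(C ((p : ℚ)⁻¹) ^ 2 * (c : ℚ⟦X⟧) ^ 2)) * hPM
        + (c : ℚ⟦X⟧) ^ 2 * (1 + 240 * psV p (psSigma 3))
          * (C ((p : ℚ)⁻¹) * (p : ℚ⟦X⟧) + 1) * hPi
    have e3 : (A.map (Int.castRingHom ℚ) * A.map (Int.castRingHom ℚ), b * b)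
        - ((c : ℚ) ^ 2) • (psE4, psV p psE4)
        = (3 : ℚ) • ((6 * (c : ℚ⟦X⟧) * h.map (Int.castRingHom ℚ)
          + 27 * h.map (Int.castRingHom ℚ) ^ 2 - 80 * (c : ℚ⟦X⟧) ^ 2 * psSigma 3),
          (p : ℚ) ^ (-2 : ℤ) • (6 * (c : ℚ⟦X⟧) * psU p (h.map (Int.castRingHom ℚ))
          + 27 * psU p (h.map (Int.castRingHom ℚ)) ^ 2 - 3 * (c : ℚ⟦X⟧) ^ 2 * (μ : ℚ⟦X⟧)
          - 80 * (c : ℚ⟦X⟧) ^ 2 * (p : ℚ⟦X⟧) ^ 2 * psV p (psSigma 3))) := by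
      rw [Prod.smul_mk, Prod.smul_mk, Prod.mk_sub_mk, e1, e2]
    rw [e3] at hy
    have hz := Submodule.smul_mem (D.MM 4) (1 / 3 : ℚ) hy
    rw [smul_smul, show (1 / 3 : ℚ) * 3 = 1 by norm_num, one_smul] at hz
    rw [hκ, hκ']
    exact hz
  · -- `κ ≡ P` mod 3
    have hg := h1nu9_ka_intCast_sq c hc3
    have h3 := h1nu9_ka_three
    have hκ : (6 * (c : ℤ⟦X⟧) * h + 27 * h ^ 2 - 80 * (c : ℤ⟦X⟧) ^ 2 * psSigmaZ 3).map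
          (Int.castRingHom (ZMod 3))
        = 6 * (c : (ZMod 3)⟦X⟧) * h.map (Int.castRingHom (ZMod 3))
          + 27 * h.map (Int.castRingHom (ZMod 3)) ^ 2
          - 80 * (c : (ZMod 3)⟦X⟧) ^ 2 * (psSigmaZ 3).map (Int.castRingHom (ZMod 3)) := by
      simp only [map_add, map_sub, map_mul, map_pow, map_ofNat, map_intCast]
    rw [hκ, ← h1nu9_sigma3]
    linear_combination (2 * (c : (ZMod 3)⟦X⟧) * h.map (Int.castRingHom (ZMod 3))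
        + 9 * h.map (Int.castRingHom (ZMod 3)) ^ 2
        - 27 * (psSigmaZ 3).map (Int.castRingHom (ZMod 3))) * h3
      - 80 * (psSigmaZ 3).map (Int.castRingHom (ZMod 3)) * hg
  · -- `κ' ≡ V P` mod 3
    have hg := h1nu9_ka_intCast_sq c hc3
    have hPb := h1nu9_ka_natCast_sq p hp3
    have h3 := h1nu9_ka_three
    have hκ' : (6 * (c : ℤ⟦X⟧) * psU p h + 27 * psU p h ^ 2 - 3 * (c : ℤ⟦X⟧) ^ 2 * (μ : ℤ⟦X⟧)
        - 80 * (c : ℤ⟦X⟧) ^ 2 * (p : ℤ⟦X⟧) ^ 2 * psV p (psSigmaZ 3)).map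
          (Int.castRingHom (ZMod 3))
        = 6 * (c : (ZMod 3)⟦X⟧) * psU p (h.map (Int.castRingHom (ZMod 3)))
          + 27 * psU p (h.map (Int.castRingHom (ZMod 3))) ^ 2
          - 3 * (c : (ZMod 3)⟦X⟧) ^ 2 * (μ : (ZMod 3)⟦X⟧)
          - 80 * (c : (ZMod 3)⟦X⟧) ^ 2 * (p : (ZMod 3)⟦X⟧) ^ 2
            * psV p ((psSigmaZ 3).map (Int.castRingHom (ZMod 3))) := by
      simp only [map_add, map_sub, map_mul, map_pow, map_ofNat, map_intCast, map_natCast,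
        map_psU, map_psV]
    rw [hκ', ← h1nu9_sigma3]
    linear_combination (2 * (c : (ZMod 3)⟦X⟧) * psU p (h.map (Int.castRingHom (ZMod 3)))
        + 9 * psU p (h.map (Int.castRingHom (ZMod 3))) ^ 2
        - (c : (ZMod 3)⟦X⟧) ^ 2 * (μ : (ZMod 3)⟦X⟧)
        - 27 * psV p ((psSigmaZ 3).map (Int.castRingHom (ZMod 3)))) * h3
      - 80 * psV p ((psSigmaZ 3).map (Int.castRingHom (ZMod 3))) * (p : (ZMod 3)⟦X⟧) ^ 2 * hg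
      - 80 * psV p ((psSigmaZ 3).map (Int.castRingHom (ZMod 3))) * hPb

end Fermat.Agent.S16L
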