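import Mathlib
import Fermat.Agent.S16L.Defs
import Fermat.Agent.S16L.PS

/-!
# S16L / NU9alt (helper1 team): plan L1b for `ℓ = 3`

An integral q-expansion of a level-one form reduces mod 3 to a polynomial in `Δ̄`
(`E₄ ≡ E₆ ≡ 1 mod 3`, induction via `LL_decomp`).  Statement FROZEN.
-/

set_option autoImplicit false

open PowerSeries

namespace Fermat.Agent.S16L

/-- an integer multiple of `3` vanishes in `(ZMod 3)⟦X⟧` -/
theorem h1nu9_po_intCast_eq_zero (m : ℤ) (hm : (3 : ℤ) ∣ m) : ((m : ℤ) : (ZMod 3)⟦X⟧) = 0 := by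
  have h3 : ((m : ℤ) : ZMod 3) = 0 := (ZMod.intCast_zmod_eq_zero_iff_dvd m 3).2 hm
  rw [← map_intCast (PowerSeries.C : ZMod 3 →+* (ZMod 3)⟦X⟧), h3, map_zero]

/-- `E₄ ≡ 1 mod 3` -/
theorem h1nu9_po_map_psE4Z : psE4Z.map (Int.castRingHom (ZMod 3)) = 1 := by
  rw [psE4Z, map_add, map_one, zsmul_eq_mul, map_mul, map_intCast,
    h1nu9_po_intCast_eq_zero 240 (by norm_num), zero_mul, add_zero]

/-- `E₆ ≡ 1 mod 3` -/
theorem h1nu9_po_map_psE6Z : psE6Z.map (Int.castRingHom (ZMod 3)) = 1 := by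
  rw [psE6Z, map_sub, map_one, zsmul_eq_mul, map_mul, map_intCast,
    h1nu9_po_intCast_eq_zero 504 (by norm_num), zero_mul, sub_zero]

/-- the weights without level-one forms -/
theorem h1nu9_po_of_bot {p : ℕ} (D : TraceData p) (k : ℤ) (ψ : ℤ⟦X⟧)
    (h : ψ.map (Int.castRingHom ℚ) ∈ D.LL k) (hk : k < 0 ∨ Odd k ∨ k = 2) :
    ∃ a : Polynomial (ZMod 3),
      ψ.map (Int.castRingHom (ZMod 3)) =
        Polynomial.aeval (psDeltaZ.map (Int.castRingHom (ZMod 3))) a := by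
  rw [D.LL_eq_bot hk, Submodule.mem_bot] at h
  have hψ : ψ = 0 := map_int_injective (by rw [h, map_zero])
  exact ⟨0, by rw [hψ, map_zero, map_zero]⟩

/-- a nonnegative even weight other than `2` is of the form `4 x + 6 y` -/
theorem h1nu9_po_exists_xy (k : ℤ) (hk0 : 0 ≤ k) (hodd : ¬ Odd k) (hk2 : k ≠ 2) :
    ∃ x y : ℕ, 4 * (x : ℤ) + 6 * (y : ℤ) = k := by
  have heven : Even k := Int.not_odd_iff_even.1 hodd
  obtain ⟨m, hm⟩ := heven
  rcases Int.emod_two_eq_zero_or_one m with h0 | h1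
  · refine ⟨(k / 4).toNat, 0, ?_⟩
    omega
  · refine ⟨((k - 6) / 4).toNat, 1, ?_⟩
    omega

/-- the induction: all weights `k < n` -/
theorem h1nu9_po_aux {p : ℕ} (D : TraceData p) (n : ℕ) : ∀ (k : ℤ), k < n → ∀ ψ : ℤ⟦X⟧,
    ψ.map (Int.castRingHom ℚ) ∈ D.LL k →
    ∃ a : Polynomial (ZMod 3),
      ψ.map (Int.castRingHom (ZMod 3)) =
        Polynomial.aeval (psDeltaZ.map (Int.castRingHom (ZMod 3))) a := by
  induction n with
  | zero =>
    intro k hk ψ h
    exact h1nu9_po_of_bot D k ψ h (Or.inl (by simpa using hk))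
  | succ n ih =>
    intro k hk ψ h
    by_cases hbot : k < 0 ∨ Odd k ∨ k = 2
    · exact h1nu9_po_of_bot D k ψ h hbot
    · have hk0 : 0 ≤ k := not_lt.1 fun hlt => hbot (Or.inl hlt)
      have hodd : ¬ Odd k := fun ho => hbot (Or.inr (Or.inl ho))
      have hk2 : k ≠ 2 := fun h2 => hbot (Or.inr (Or.inr h2))
      obtain ⟨x, y, hxy⟩ := h1nu9_po_exists_xy k hk0 hodd hk2
      obtain ⟨φ', hφ', hdec⟩ := D.LL_decomp x y h hxy
      have hc : (ψ.map (Int.castRingHom ℚ)).coeff 0 = Int.castRingHom ℚ (ψ.coeff 0) :=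
        PowerSeries.coeff_map _ _ _
      have hψ1 : psDelta * φ' =
          (ψ - C (ψ.coeff 0) * psE4Z ^ x * psE6Z ^ y).map (Int.castRingHom ℚ) := by
        rw [map_sub, map_mul, map_mul, map_pow, map_pow, PowerSeries.map_C, map_psE4Z,
          map_psE6Z, ← hc]
        exact eq_sub_of_add_eq' hdec.symm
      obtain ⟨φZ, hφZ⟩ := exists_int_of_psDelta_mul φ' _ hψ1
      have hψeq : ψ = C (ψ.coeff 0) * psE4Z ^ x * psE6Z ^ y + psDeltaZ * φZ := by
        apply map_int_injective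
        have h1 : (psDeltaZ * φZ).map (Int.castRingHom ℚ) =
            (ψ - C (ψ.coeff 0) * psE4Z ^ x * psE6Z ^ y).map (Int.castRingHom ℚ) := by
          rw [map_mul, map_psDeltaZ, hφZ, hψ1]
        rw [map_add, h1, ← map_add, add_sub_cancel]
      obtain ⟨a', ha'⟩ := ih (k - 12) (by push_cast at hk; omega) φZ (by rw [hφZ]; exact hφ')
      refine ⟨Polynomial.C (Int.castRingHom (ZMod 3) (ψ.coeff 0)) + Polynomial.X * a', ?_⟩
      rw [map_add, map_mul, Polynomial.aeval_C, Polynomial.aeval_X, ← ha',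
        ← PowerSeries.C_eq_algebraMap]
      conv_lhs => rw [hψeq]
      rw [map_add, map_mul, map_mul, map_mul, map_pow, map_pow, h1nu9_po_map_psE4Z,
        h1nu9_po_map_psE6Z, one_pow, one_pow, mul_one, mul_one, PowerSeries.map_C]

theorem h1nu9_poly_of_LL {p : ℕ} (D : TraceData p) (k : ℤ) (ψ : ℤ⟦X⟧)
    (h : ψ.map (Int.castRingHom ℚ) ∈ D.LL k) :
    ∃ a : Polynomial (ZMod 3),
      ψ.map (Int.castRingHom (ZMod 3)) =
        Polynomial.aeval (psDeltaZ.map (Int.castRingHom (ZMod 3))) a := by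
  exact h1nu9_po_aux D (k.toNat + 1) k (by push_cast; omega) ψ h

end Fermat.Agent.S16L
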