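import Mathlib
import Fermat.Agent.S16L.Defs
import Fermat.Agent.S16L.PS
import Fermat.Agent.S16L.CLA

/-!
# S16L / NU9alt (helper1 team): the two level-one forms `Ψ₀`, `Ψ₁` (plan §4 (NU9))

For `p ≡ -1 mod 3`, a weight-4 pair `(κ, p⁻² κ')` and an integral level-one `φ` of even weight `k > 0`:
`Ψ₀ = p^(k-1) Vφ + Uφ ∈ LL k` and `Ψ₁ = p^(k+1) κ Vφ + U(κ' φ) ∈ LL (4+k)`; mod 3,
`Ψ₀ ≡ Uφ - Vφ` and `Ψ₁ ≡ U(κ' φ) - κ Vφ`.  Statement FROZEN.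
-/

set_option autoImplicit false

open PowerSeries

namespace Fermat.Agent.S16L

/-- `p ≡ -1 mod 3`. -/
theorem h1nu9_ps_cast_p (p : ℕ) (h3 : (3 : ℤ) ∣ (p : ℤ) + 1) :
    Int.castRingHom (ZMod 3) (p : ℤ) = -1 := by
  have h : (((p : ℤ) + 1 : ℤ) : ZMod 3) = 0 :=
    (ZMod.intCast_zmod_eq_zero_iff_dvd ((p : ℤ) + 1) 3).2 (by exact_mod_cast h3)
  rw [eq_intCast]
  push_cast at h ⊢
  exact eq_neg_of_add_eq_zero_left h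

/-- `(a)`: `p^(k-1) Vφ + Uφ` is of level one and weight `k`. -/
theorem h1nu9_ps_psi0_mem (p : ℕ) [Fact p.Prime] (D : TraceData p) (k : ℕ) (hk0 : 0 < k)
    (φ : ℤ⟦X⟧) (hφ : φ.map (Int.castRingHom ℚ) ∈ D.LL (k : ℤ)) :
    (C ((p : ℤ) ^ (k - 1)) * psV p φ + psU p φ).map (Int.castRingHom ℚ) ∈ D.LL (k : ℤ) := by
  have hp : (p : ℚ) ≠ 0 := Nat.cast_ne_zero.mpr (Fact.out : p.Prime).ne_zero
  have h := (D.LL (k : ℤ)).smul_mem ((p : ℚ) ^ (k - 1)) (cla_tr0 D hφ)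
  have e1 : (p : ℚ) ^ (k - 1) * (p : ℚ) ^ (1 - (k : ℤ)) = 1 := by
    rw [← zpow_natCast, ← zpow_add₀ hp]
    have e : ((k - 1 : ℕ) : ℤ) + (1 - (k : ℤ)) = 0 := by omega
    rw [e, zpow_zero]
  have e : (p : ℚ) ^ (k - 1) • (psV p (φ.map (Int.castRingHom ℚ)) +
      (p : ℚ) ^ (1 - (k : ℤ)) • psU p (φ.map (Int.castRingHom ℚ)))
      = (C ((p : ℤ) ^ (k - 1)) * psV p φ + psU p φ).map (Int.castRingHom ℚ) := by
    rw [smul_add, smul_smul, e1, one_smul, map_add, map_mul, PowerSeries.map_C, map_psV, map_psU,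
      PowerSeries.smul_eq_C_mul]
    simp
  rw [e] at h
  exact h

/-- `(b)`: `p^(k+1) κ Vφ + U(κ' φ)` is of level one and weight `4 + k`. -/
theorem h1nu9_ps_psi1_mem (p : ℕ) [Fact p.Prime] (D : TraceData p) (κ κ' : ℤ⟦X⟧)
    (hκ : (κ.map (Int.castRingHom ℚ), ((p : ℚ) ^ (-2 : ℤ)) • κ'.map (Int.castRingHom ℚ)) ∈ D.MM 4)
    (k : ℕ) (φ : ℤ⟦X⟧) (hφ : φ.map (Int.castRingHom ℚ) ∈ D.LL (k : ℤ)) :
    (C ((p : ℤ) ^ (k + 1)) * (κ * psV p φ) + psU p (κ' * φ)).map (Int.castRingHom ℚ)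
      ∈ D.LL (4 + (k : ℤ)) := by
  have hp : (p : ℚ) ≠ 0 := Nat.cast_ne_zero.mpr (Fact.out : p.Prime).ne_zero
  have h := (D.LL (4 + (k : ℤ))).smul_mem ((p : ℚ) ^ (k + 1)) (cla_trV D hκ hφ)
  simp only at h
  have e1 : (p : ℚ) ^ (k + 1) * (p : ℚ) ^ (1 - (k : ℤ)) * (p : ℚ) ^ (-2 : ℤ) = 1 := by
    rw [← zpow_natCast, ← zpow_add₀ hp, ← zpow_add₀ hp]
    have e : ((k + 1 : ℕ) : ℤ) + (1 - (k : ℤ)) + (-2) = 0 := by omega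
    rw [e, zpow_zero]
  have e : (p : ℚ) ^ (k + 1) • (κ.map (Int.castRingHom ℚ) * psV p (φ.map (Int.castRingHom ℚ)) +
      (p : ℚ) ^ (1 - (k : ℤ)) •
        psU p (((p : ℚ) ^ (-2 : ℤ)) • κ'.map (Int.castRingHom ℚ) * φ.map (Int.castRingHom ℚ)))
      = (C ((p : ℤ) ^ (k + 1)) * (κ * psV p φ) + psU p (κ' * φ)).map (Int.castRingHom ℚ) := by
    rw [smul_mul_assoc, psU_smul, smul_add, smul_smul, smul_smul, e1, one_smul, map_add, map_mul,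
      map_mul, PowerSeries.map_C, map_psV, map_psU, map_mul, PowerSeries.smul_eq_C_mul]
    simp
  rw [e] at h
  exact h

theorem h1nu9_psi (p : ℕ) [Fact p.Prime] (D : TraceData p) (h3 : (3 : ℤ) ∣ (p : ℤ) + 1)
    (κ κ' : ℤ⟦X⟧)
    (hκ : (κ.map (Int.castRingHom ℚ), ((p : ℚ) ^ (-2 : ℤ)) • κ'.map (Int.castRingHom ℚ)) ∈ D.MM 4)
    (k : ℕ) (hk : Even k) (hk0 : 0 < k) (φ : ℤ⟦X⟧)
    (hφ : φ.map (Int.castRingHom ℚ) ∈ D.LL (k : ℤ)) :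
    ∃ Ψ₀ Ψ₁ : ℤ⟦X⟧,
      Ψ₀.map (Int.castRingHom ℚ) ∈ D.LL (k : ℤ) ∧
      Ψ₁.map (Int.castRingHom ℚ) ∈ D.LL (4 + (k : ℤ)) ∧
      Ψ₀.map (Int.castRingHom (ZMod 3)) =
        psU p (φ.map (Int.castRingHom (ZMod 3))) - psV p (φ.map (Int.castRingHom (ZMod 3))) ∧
      Ψ₁.map (Int.castRingHom (ZMod 3)) =
        psU p (κ'.map (Int.castRingHom (ZMod 3)) * φ.map (Int.castRingHom (ZMod 3))) -
          κ.map (Int.castRingHom (ZMod 3)) * psV p (φ.map (Int.castRingHom (ZMod 3))) := by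
  have hodd1 : Odd (k - 1) := Nat.Even.sub_odd hk0 hk odd_one
  have hodd2 : Odd (k + 1) := hk.add_one
  refine ⟨C ((p : ℤ) ^ (k - 1)) * psV p φ + psU p φ,
    C ((p : ℤ) ^ (k + 1)) * (κ * psV p φ) + psU p (κ' * φ),
    h1nu9_ps_psi0_mem p D k hk0 φ hφ, h1nu9_ps_psi1_mem p D κ κ' hκ k φ hφ, ?_, ?_⟩
  · rw [map_add, map_mul, PowerSeries.map_C, map_psV, map_psU, map_pow, h1nu9_ps_cast_p p h3,
      hodd1.neg_one_pow, map_neg, map_one]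
    ring
  · rw [map_add, map_mul, PowerSeries.map_C, map_mul, map_psV, map_psU, map_mul, map_pow,
      h1nu9_ps_cast_p p h3, hodd2.neg_one_pow, map_neg, map_one]
    ring

end Fermat.Agent.S16L
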