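import Mathlib
import Fermat.Agent.S16L.Defs
import Fermat.Agent.S16L.PS
import Fermat.Agent.S16L.NU9altDeriv

/-!
# S16L / NU9alt (helper1 team): `P̄` is not a rational function of `Δ̄` (plan §4 (NU9), last step)

If `θ δ = δ`, `θ P = P - P³`, `δ = q + …`, `P = q + …`, then `a(δ) = P · b(δ)` with
`b(δ) ≠ 0` is impossible.  Statement FROZEN.
-/

set_option autoImplicit false

open PowerSeries

namespace Fermat.Agent.S16L

/-- Applying `θ` to `a(δ) = P · b(δ)` and clearing denominators gives a polynomial identity. -/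
theorem h1nu9_ra_poly_identity (δ P : (ZMod 3)⟦X⟧) (hδ0 : δ.coeff 0 = 0) (hδ1 : δ.coeff 1 = 1)
    (hθδ : psTheta δ = δ) (hθP : psTheta P = P - P ^ 3)
    (a b : Polynomial (ZMod 3))
    (hab : Polynomial.aeval δ a = P * Polynomial.aeval δ b) :
    Polynomial.X * Polynomial.derivative a * b ^ 2 =
      a * b ^ 2 - a ^ 3 + Polynomial.X * a * Polynomial.derivative b * b := by
  apply h1nu9_aeval_injective δ hδ0 hδ1
  show Polynomial.aeval δ (Polynomial.X * Polynomial.derivative a * b ^ 2) =
    Polynomial.aeval δ (a * b ^ 2 - a ^ 3 + Polynomial.X * a * Polynomial.derivative b * b)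
  have h1 := congrArg psTheta hab
  rw [h1nu9_theta_aeval, psTheta_mul, h1nu9_theta_aeval, hθδ, hθP] at h1
  simp only [map_add, map_sub, map_mul, map_pow, Polynomial.aeval_X]
  rw [hab]
  linear_combination (Polynomial.aeval δ b) ^ 2 * h1

/-- The coprime case of `h1nu9_no_rational`. -/
theorem h1nu9_ra_coprime (δ P : (ZMod 3)⟦X⟧) (hδ0 : δ.coeff 0 = 0) (hδ1 : δ.coeff 1 = 1)
    (hθδ : psTheta δ = δ) (hθP : psTheta P = P - P ^ 3) (hP1 : P.coeff 1 = 1)
    (a b : Polynomial (ZMod 3)) (hcop : IsCoprime a b)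
    (hab : Polynomial.aeval δ a = P * Polynomial.aeval δ b) : False := by
  have hid := h1nu9_ra_poly_identity δ P hδ0 hδ1 hθδ hθP a b hab
  -- `b` divides `a ^ 3`, hence is a unit, hence a nonzero constant
  have hdvd : b ∣ a ^ 3 :=
    ⟨a * b + Polynomial.X * a * Polynomial.derivative b - Polynomial.X * Polynomial.derivative a * b,
      by linear_combination hid⟩
  have hunit : IsUnit b := (hcop.pow_left (m := 3)).isUnit_of_dvd' hdvd dvd_rfl
  obtain ⟨β, hβ, rfl⟩ := Polynomial.isUnit_iff.mp hunit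
  have hβ0 : β ≠ 0 := hβ.ne_zero
  simp only [Polynomial.derivative_C, mul_zero, zero_mul, add_zero] at hid
  have ha3 : a ^ 3 = Polynomial.C (β ^ 2) * (a - Polynomial.X * Polynomial.derivative a) := by
    rw [Polynomial.C_pow]
    linear_combination hid
  -- comparing degrees, `a` is constant
  have hdeg : a.natDegree = 0 := by
    by_contra hne
    have h1 : (Polynomial.derivative a).natDegree < a.natDegree :=
      Polynomial.natDegree_derivative_lt hne
    have h2 : (Polynomial.X * Polynomial.derivative a).natDegree ≤ a.natDegree := by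
      have h2a := Polynomial.natDegree_mul_le (p := (Polynomial.X : Polynomial (ZMod 3)))
        (q := Polynomial.derivative a)
      have h2b := Polynomial.natDegree_X_le (R := ZMod 3)
      omega
    have h3 : (a - Polynomial.X * Polynomial.derivative a).natDegree ≤ a.natDegree :=
      (Polynomial.natDegree_sub_le _ _).trans (max_le le_rfl h2)
    have h4 : (a ^ 3).natDegree = 3 * a.natDegree := Polynomial.natDegree_pow a 3
    have h5 : (a ^ 3).natDegree ≤ a.natDegree := by
      rw [ha3]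
      exact (Polynomial.natDegree_C_mul_le _ _).trans h3
    omega
  rw [Polynomial.eq_C_of_natDegree_eq_zero hdeg] at hab
  -- compare the coefficients of `q ^ 1`
  have h6 := congrArg (PowerSeries.coeff 1) hab
  rw [Polynomial.aeval_C, Polynomial.aeval_C, ← PowerSeries.C_eq_algebraMap,
    ← PowerSeries.C_eq_algebraMap, PowerSeries.coeff_mul_C, PowerSeries.coeff_C, hP1, one_mul,
    if_neg one_ne_zero] at h6
  exact hβ0 h6.symm

theorem h1nu9_no_rational (δ P : (ZMod 3)⟦X⟧) (hδ0 : δ.coeff 0 = 0) (hδ1 : δ.coeff 1 = 1)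
    (hθδ : psTheta δ = δ) (hθP : psTheta P = P - P ^ 3)
    (hP0 : P.coeff 0 = 0) (hP1 : P.coeff 1 = 1)
    (a b : Polynomial (ZMod 3)) (hb : Polynomial.aeval δ b ≠ 0)
    (hab : Polynomial.aeval δ a = P * Polynomial.aeval δ b) : False := by
  -- (the hypothesis `hP0` is not needed)
  have _ := hP0
  have hb0 : b ≠ 0 := by
    rintro rfl
    exact hb (map_zero _)
  have hgab := EuclideanDomain.gcd_eq_gcd_ab a b
  obtain ⟨a₁, ha₁⟩ := EuclideanDomain.gcd_dvd_left a b
  obtain ⟨b₁, hb₁⟩ := EuclideanDomain.gcd_dvd_right a b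
  generalize EuclideanDomain.gcd a b = g at hgab ha₁ hb₁
  generalize EuclideanDomain.gcdA a b = x at hgab
  generalize EuclideanDomain.gcdB a b = y at hgab
  have hg0 : g ≠ 0 := by
    rintro rfl
    rw [zero_mul] at hb₁
    exact hb0 hb₁
  have hcop : IsCoprime a₁ b₁ :=
    ⟨x, y, mul_left_cancel₀ hg0 (by linear_combination -hgab - x * ha₁ - y * hb₁)⟩
  have hev : Polynomial.aeval δ g ≠ 0 := by
    intro h0
    apply hb
    rw [hb₁, map_mul, h0, zero_mul]
  have hab₁ : Polynomial.aeval δ a₁ = P * Polynomial.aeval δ b₁ := by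
    apply mul_left_cancel₀ hev
    rw [← map_mul, ← ha₁, hab, hb₁, map_mul]
    ring
  exact h1nu9_ra_coprime δ P hδ0 hδ1 hθδ hθP hP1 a₁ b₁ hcop hab₁

end Fermat.Agent.S16L
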