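import Mathlib
import Fermat.Agent.S16L.Defs
import Fermat.Agent.S16L.PS
import Fermat.Agent.S16L.CLA
import Fermat.Agent.S16L.NU9altSigma
import Fermat.Agent.S16L.NU9altFrob
import Fermat.Agent.S16L.NU9altPoly
import Fermat.Agent.S16L.NU9altDeriv
import Fermat.Agent.S16L.NU9altRat
import Fermat.Agent.S16L.NU9altKappa
import Fermat.Agent.S16L.NU9altPsi
import Fermat.Agent.S16L.NU9altDelta

/-!
# S16L / NU9alt (helper1 team): second implementation of `nu9` (plan §4 (NU9)) — assembly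
-/

set_option autoImplicit false

open PowerSeries

namespace Fermat.Agent.S16L

theorem h1nu9_nu9 (p : ℕ) [Fact p.Prime] (D : TraceData p) (hp : p ≠ 3)
    (A : ℤ⟦X⟧) (hA : InM2 D A) (hU : IsUnitConstMod 3 2 A) : False := by
  have hpp : p.Prime := Fact.out
  have h9 : ((3 : ℕ) : ℤ) ^ 2 ∣ (p : ℤ) + 1 :=
    cla p D 3 2 Nat.prime_three (fun h => hp h.symm) (by norm_num) A hA hU
  have h3 : (3 : ℤ) ∣ (p : ℤ) + 1 := dvd_trans ⟨3, by norm_num⟩ h9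
  obtain ⟨κ, κ', hκ, hκ1, hκ2⟩ := h1nu9_kappa p D hp A hA hU
  have hk : Even (12 * p) := ⟨6 * p, by ring⟩
  have hk0 : 0 < 12 * p := by have := hpp.pos; omega
  obtain ⟨Ψ₀, Ψ₁, hΨ₀, hΨ₁, h0, h1⟩ :=
    h1nu9_psi p D h3 κ κ' hκ (12 * p) hk hk0 (psDeltaZ ^ p) (h1nu9_delta_pow_mem D p)
  obtain ⟨b, hb⟩ := h1nu9_poly_of_LL D _ Ψ₀ hΨ₀
  obtain ⟨a, ha⟩ := h1nu9_poly_of_LL D _ Ψ₁ hΨ₁
  set P : (ZMod 3)⟦X⟧ := (psSigmaZ 1).map (Int.castRingHom (ZMod 3)) with hP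
  set δ : (ZMod 3)⟦X⟧ := psDeltaZ.map (Int.castRingHom (ZMod 3)) with hδ
  set φ : (ZMod 3)⟦X⟧ := (psDeltaZ ^ p).map (Int.castRingHom (ZMod 3)) with hφ
  have hδ0 : δ.coeff 0 = 0 := by
    rw [hδ, PowerSeries.coeff_map, coeff_zero_psDeltaZ, map_zero]
  have hδ1 : δ.coeff 1 = 1 := by
    rw [hδ, PowerSeries.coeff_map, coeff_one_psDeltaZ, map_one]
  have hθP : psTheta P = P - P ^ 3 := by
    rw [h1nu9_frob P]; exact h1nu9_theta_P
  have e1 : Ψ₁.map (Int.castRingHom (ZMod 3)) = P * Ψ₀.map (Int.castRingHom (ZMod 3)) := by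
    rw [h1, h0, hκ1, hκ2, mul_comm (psV p P) φ, psU_mul_psV p hpp.pos]
    ring
  have hbne : Polynomial.aeval δ b ≠ 0 := by
    rw [← hb, h0]
    intro h
    have := h1nu9_delta_pow_coeff p hpp
    rw [h] at this
    simp at this
  refine h1nu9_no_rational δ P hδ0 hδ1 (h1nu9_theta_dbar D) hθP h1nu9_coeff_P0 h1nu9_coeff_P1
    a b hbne ?_
  rw [← ha, ← hb]
  exact e1

end Fermat.Agent.S16L
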