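import Mathlib
import Fermat.Agent.S16L.Defs
import Fermat.Agent.S16L.CLA
import Fermat.Agent.S16L.NU9alt

/-!
# S16L: no weight-2 form on `Γ₀(p)`, `p ≠ 3`, is congruent to a unit constant mod 9 — plan §4 (NU9)
-/

set_option autoImplicit false

open PowerSeries

namespace Fermat.Agent.S16L

theorem nu9 (p : ℕ) [Fact p.Prime] (D : TraceData p) (hp : p ≠ 3)
    (A : ℤ⟦X⟧) (hA : InM2 D A) (hU : IsUnitConstMod 3 2 A) : False :=
  h1nu9_nu9 p D hp A hA hU

end Fermat.Agent.S16L
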