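import Mathlib
import Fermat.Agent.S16L.Defs
import Fermat.Agent.S49Aux

/-!
# S16L upper bound: the integral weight-2 form `24 (E - f) / ℓ^t`
-/

set_option autoImplicit false

open PowerSeries

namespace Fermat.Agent.S16L

/-- If `f` is a cusp form with integral q-expansion `c`, `ℓ^t ∥ p - 1` and
`ℓ^(t+a) ∣ 24 (σ'(k) - c k)` for all `k ≥ 1`, then `A := 24 (E - f) / ℓ^t` is an integral
weight-2 form on `Γ₀(p)` congruent to a unit constant modulo `ℓ^a`. -/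
theorem ub_key (p : ℕ) [Fact p.Prime] (D : TraceData p)
    (f : CuspForm (CongruenceSubgroup.Gamma0 p) 2) (c : ℕ → ℤ)
    (hc : ∀ k, ModularFormClass.qCoeff (⇑f) k = (c k : ℂ))
    (ℓ t a : ℕ) (hℓ : ℓ.Prime)
    (ht : (ℓ : ℤ) ^ t ∣ (p : ℤ) - 1) (ht' : ¬ (ℓ : ℤ) ^ (t + 1) ∣ (p : ℤ) - 1)
    (hdiv : ∀ k, 1 ≤ k → (ℓ : ℤ) ^ (t + a) ∣ 24 * ((sigmaP p k : ℤ) - c k)) :
    ∃ A : ℤ⟦X⟧, InM2 D A ∧ IsUnitConstMod ℓ a A := by
  have hc0 : c 0 = 0 := by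
    have h := hc 0
    rw [Fermat.Agent.S49Aux.qc_zero_coeff f] at h
    exact_mod_cast h.symm
  have hℓ0 : (ℓ : ℤ) ≠ 0 := by exact_mod_cast hℓ.ne_zero
  have hL : ((ℓ : ℤ) ^ t) ≠ 0 := pow_ne_zero _ hℓ0
  have hLq : ((ℓ : ℚ) ^ t) ≠ 0 := pow_ne_zero _ (by exact_mod_cast hℓ.ne_zero)
  obtain ⟨m0, hm0⟩ := ht
  have hg : ∀ k : ℕ, ∃ g : ℤ, 1 ≤ k → 24 * ((sigmaP p k : ℤ) - c k) = (ℓ : ℤ) ^ (t + a) * g := by
    intro k
    by_cases hk : 1 ≤ k
    · obtain ⟨g, hg⟩ := hdiv k hk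
      exact ⟨g, fun _ => hg⟩
    · exact ⟨0, fun h => absurd h hk⟩
  choose g hg using hg
  obtain ⟨bf, hbf⟩ := D.cusp_mem f (PowerSeries.mk fun n => (c n : ℚ)) (by
    intro n
    rw [PowerSeries.coeff_mk, hc n]
    push_cast
    rfl)
  obtain ⟨bE, hbE⟩ := D.eis_mem
  refine ⟨PowerSeries.mk fun k => if k = 0 then m0 else (ℓ : ℤ) ^ a * g k, ?_, ?_, ?_⟩
  · refine ⟨((24 : ℚ) / (ℓ : ℚ) ^ t) • (bE - bf), ?_⟩
    have hmem := (D.MM 2).smul_mem ((24 : ℚ) / (ℓ : ℚ) ^ t) ((D.MM 2).sub_mem hbE hbf)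
    have heq : (PowerSeries.map (Int.castRingHom ℚ)
          (PowerSeries.mk fun k => if k = 0 then m0 else (ℓ : ℤ) ^ a * g k),
          ((24 : ℚ) / (ℓ : ℚ) ^ t) • (bE - bf))
        = ((24 : ℚ) / (ℓ : ℚ) ^ t) •
          ((psEis p, bE) - ((PowerSeries.mk fun n => (c n : ℚ) : ℚ⟦X⟧), bf)) := by
      refine Prod.ext ?_ rfl
      ext k
      simp only [PowerSeries.coeff_map, PowerSeries.coeff_mk, Prod.smul_fst, Prod.fst_sub,
        psEis, map_smul, map_sub, smul_eq_mul, eq_intCast]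
      by_cases hk : k = 0
      · subst hk
        simp only [if_true, hc0, Int.cast_zero, sub_zero]
        have h1 : ((p : ℚ) - 1) = (ℓ : ℚ) ^ t * (m0 : ℚ) := by exact_mod_cast hm0
        rw [h1]
        field_simp
      · simp only [if_neg hk]
        have h1 := hg k (Nat.one_le_iff_ne_zero.mpr hk)
        have h2 : (24 : ℚ) * ((sigmaP p k : ℚ) - (c k : ℚ))
            = (ℓ : ℚ) ^ (t + a) * (g k : ℚ) := by exact_mod_cast h1
        rw [div_mul_eq_mul_div, h2, pow_add]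
        push_cast
        field_simp
    rw [heq]
    exact hmem
  · rw [PowerSeries.coeff_mk, if_pos rfl]
    rintro ⟨n, hn⟩
    apply ht'
    refine ⟨n, ?_⟩
    rw [hm0, hn, pow_succ]
    ring
  · intro k hk
    rw [PowerSeries.coeff_mk, if_neg (by omega)]
    exact dvd_mul_right _ _

end Fermat.Agent.S16L
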