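import Mathlib
import Fermat.Agent.S07
import Fermat.Agent.S20

/-!
# S16L upper bound: there are no weight-2 cusp forms on `Γ₀(2)` and `Γ₀(3)`
-/

set_option autoImplicit false

namespace Fermat.Agent.S16L

theorem ub_S2_two (f : CuspForm (CongruenceSubgroup.Gamma0 2) 2) : f = 0 :=
  Fermat.Agent.S07.result f

theorem ub_small_psi_three : ModularCurve.dedekindPsi 3 = 4 := by
  have hd : Nat.divisors 3 = {1, 3} := by decide
  have h3 : Squarefree 3 := Nat.prime_three.squarefree
  unfold ModularCurve.dedekindPsi
  rw [hd, Finset.filter_true_of_mem (by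
    intro x hx
    simp only [Finset.mem_insert, Finset.mem_singleton] at hx
    rcases hx with rfl | rfl
    · exact squarefree_one
    · exact h3)]
  decide

theorem ub_small_cusp_three : ModularCurve.cuspCount 3 = 2 := by
  decide

theorem ub_small_nuTwo_three : ModularCurve.nuTwo 3 = 0 := by
  unfold ModularCurve.nuTwo
  rw [Nat.card_eq_fintype_card, Fintype.card_subtype]
  decide

theorem ub_small_nuThree_three : ModularCurve.nuThree 3 = 1 := by
  unfold ModularCurve.nuThree
  rw [Nat.card_eq_fintype_card, Fintype.card_subtype]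
  decide

theorem ub_small_genus_three : ModularCurve.genusFormula 3 = 0 := by
  unfold ModularCurve.genusFormula
  rw [ub_small_psi_three, ub_small_cusp_three, ub_small_nuTwo_three, ub_small_nuThree_three]
  norm_num

theorem ub_S2_three (f : CuspForm (CongruenceSubgroup.Gamma0 3) 2) : f = 0 := by
  have h := Fermat.Agent.S20.result 3
  rw [ub_small_genus_three] at h
  have h0 : Module.finrank ℂ (CuspForm (CongruenceSubgroup.Gamma0 3) 2) = 0 := by
    exact_mod_cast h
  have : FiniteDimensional ℂ (CuspForm (CongruenceSubgroup.Gamma0 3) 2) :=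
    Fermat.Agent.S20T.dm_finiteDimensional_cuspForm 3 2
  have : Subsingleton (CuspForm (CongruenceSubgroup.Gamma0 3) 2) :=
    Module.finrank_zero_iff.mp h0
  exact Subsingleton.elim _ _

end Fermat.Agent.S16L
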