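import Mathlib
import Fermat.Agent.S16L.Defs
import Fermat.Agent.S16L.CLA
import Fermat.Agent.S16L.NU5
import Fermat.Agent.S16L.NU9
import Fermat.Agent.S16L.NU8
import Fermat.Agent.S16L.UBKey
import Fermat.Agent.S16L.UBSmall

/-!
# S16L: the upper bound (UB) — plan §4 (U0)
A cusp form with integral q-expansion congruent to `∑ σ'(k) q^k` modulo `M` forces `M ∣ n`.
-/

set_option autoImplicit false

open PowerSeries

namespace Fermat.Agent.S16L

/-- arithmetic: if `ℓ^(e+j) ∣ p - 1`, `ℓ^j ∣ 12` and `ℓ` is prime to `12 / ℓ^j`, then `ℓ^e ∣ n`. -/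
theorem ub_dvd_numerator (p ℓ e j : ℕ) (hj12 : ℓ ^ j ∣ 12) (hj : Nat.Coprime ℓ (12 / ℓ ^ j))
    (h : ℓ ^ (e + j) ∣ p - 1) : ℓ ^ e ∣ ModularCurve.eisensteinNumerator p := by
  unfold ModularCurve.eisensteinNumerator
  set g := Nat.gcd (p - 1) 12 with hg
  have hg1 : g ∣ p - 1 := Nat.gcd_dvd_left _ _
  have hg12 : g ∣ 12 := Nat.gcd_dvd_right _ _
  set n := (p - 1) / g with hn
  have hpn : p - 1 = g * n := (Nat.mul_div_cancel' hg1).symm
  obtain ⟨u, hu⟩ := hg12
  obtain ⟨w, hw⟩ := hj12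
  have hℓpos : 0 < ℓ ^ j := by
    rcases Nat.eq_zero_or_pos (ℓ ^ j) with h0 | h0
    · rw [h0] at hw; omega
    · exact h0
  have hw' : 12 / ℓ ^ j = w := by rw [hw, Nat.mul_div_cancel_left _ hℓpos]
  rw [hw'] at hj
  -- ℓ^(e+j) ∣ 12 n = ℓ^j w n
  have h1 : ℓ ^ (e + j) ∣ ℓ ^ j * (w * n) := by
    have : ℓ ^ j * (w * n) = u * (p - 1) := by
      rw [hpn, ← mul_assoc, ← hw, hu]; ring
    rw [this]
    exact Dvd.dvd.mul_left h u
  rw [pow_add, mul_comm (ℓ ^ e)] at h1
  have h2 : ℓ ^ e ∣ w * n := Nat.dvd_of_mul_dvd_mul_left hℓpos h1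
  exact (Nat.Coprime.pow_left e hj).dvd_of_dvd_mul_left h2

/-- divisibility bookkeeping for `ub_key`. -/
theorem ub_hdiv (ℓ e j t a : ℕ) (hj : (ℓ : ℤ) ^ j ∣ 24) (hta : t + a ≤ e + j) (x y : ℤ)
    (hx : (ℓ : ℤ) ^ e ∣ x - y) : (ℓ : ℤ) ^ (t + a) ∣ 24 * (y - x) := by
  have h1 : (ℓ : ℤ) ^ (t + a) ∣ (ℓ : ℤ) ^ (e + j) := pow_dvd_pow _ hta
  refine h1.trans ?_
  rw [pow_add, mul_comm]
  have hx' : (ℓ : ℤ) ^ e ∣ y - x := by
    have := (dvd_neg (a := (ℓ : ℤ) ^ e) (b := x - y)).mpr hx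
    rwa [neg_sub] at this
  exact mul_dvd_mul hj hx'

theorem ub_prime_pow (p : ℕ) [Fact p.Prime] (D : TraceData p) (hp5 : 5 ≤ p)
    (f : CuspForm (CongruenceSubgroup.Gamma0 p) 2) (c : ℕ → ℤ)
    (hc : ∀ k, ModularFormClass.qCoeff (⇑f) k = (c k : ℂ))
    (ℓ e : ℕ) (hℓ : ℓ.Prime) (he : 1 ≤ e)
    (hcong : ∀ k, 1 ≤ k → (ℓ : ℤ) ^ e ∣ c k - (sigmaP p k : ℤ)) :
    ℓ ^ e ∣ ModularCurve.eisensteinNumerator p := by
  have hpr : p.Prime := Fact.out
  have : Fact ℓ.Prime := ⟨hℓ⟩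
  have hp1 : p - 1 ≠ 0 := by omega
  have hcast : ((p - 1 : ℕ) : ℤ) = (p : ℤ) - 1 := by
    rw [Nat.cast_sub (by omega)]; simp
  -- the exact power of ℓ in p - 1
  set v := padicValNat ℓ (p - 1) with hv
  have hv1 : ℓ ^ v ∣ p - 1 := pow_padicValNat_dvd
  have hv2 : ¬ ℓ ^ (v + 1) ∣ p - 1 := pow_succ_padicValNat_not_dvd hp1
  have hv1' : (ℓ : ℤ) ^ v ∣ (p : ℤ) - 1 := by
    rw [← hcast]; exact_mod_cast hv1
  have hv2' : ¬ (ℓ : ℤ) ^ (v + 1) ∣ (p : ℤ) - 1 := by
    rw [← hcast]; exact_mod_cast hv2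
  -- the key construction, with exponents `t = v` and `a`
  have key : ∀ (j a : ℕ), (ℓ : ℤ) ^ j ∣ 24 → v + a ≤ e + j →
      ∃ A : ℤ⟦X⟧, InM2 D A ∧ IsUnitConstMod ℓ a A := fun j a hj hta =>
    ub_key p D f c hc ℓ v a hℓ hv1' hv2'
      (fun k hk => ub_hdiv ℓ e j v a hj hta _ _ (hcong k hk))
  by_cases hℓp : ℓ = p
  · -- ℓ = p: impossible by `nup`
    exfalso
    have hv0 : v = 0 := by
      by_contra hne
      have h1 : ℓ ∣ p - 1 := (dvd_pow_self ℓ hne).trans hv1
      rw [hℓp] at h1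
      have := Nat.le_of_dvd (by omega) h1
      omega
    obtain ⟨A, hA, hU⟩ := key 0 1 (by simp) (by omega)
    subst hℓp
    exact nup ℓ D hp5 A hA hU
  · have hℓ2 := hℓ.two_le
    rcases Nat.lt_or_ge ℓ 5 with hlt | h5
    · have h23 : ℓ = 2 ∨ ℓ = 3 := by
        interval_cases ℓ
        · left; rfl
        · right; rfl
        · exact absurd hℓ (by decide)
      rcases h23 with rfl | rfl
      · -- ℓ = 2
        have hodd : 2 ∣ p - 1 := by
          rcases hpr.eq_two_or_odd with h2 | h2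
          · omega
          · omega
        have hv_pos : 1 ≤ v := by
          by_contra hne
          have hv0 : v = 0 := by omega
          rw [hv0] at hv2
          exact hv2 (by simpa using hodd)
        by_cases hv1eq : v = 1
        · exfalso
          obtain ⟨A, hA, hU⟩ := key 3 3 (by norm_num) (by omega)
          exact nu8 p D (by omega) A hA hU
        · by_cases hle : e + 2 ≤ v
          · exact ub_dvd_numerator p 2 e 2 (by norm_num) (by norm_num)
              ((pow_dvd_pow 2 hle).trans hv1)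
          · exfalso
            obtain ⟨A, hA, hU⟩ := key 3 2 (by norm_num) (by omega)
            have h4 := cla p D 2 2 Nat.prime_two hℓp (by norm_num) A hA hU
            have h4' : (4 : ℤ) ∣ (p : ℤ) - 1 := by
              have : (2 : ℤ) ^ 2 ∣ (2 : ℤ) ^ v := pow_dvd_pow _ (by omega)
              exact (by norm_num : (4 : ℤ) = 2 ^ 2) ▸ this.trans (by exact_mod_cast hv1')
            have h4'' : (4 : ℤ) ∣ (p : ℤ) + 1 := by
              have : ((2 : ℕ) : ℤ) ^ 2 = 4 := by norm_num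
              rw [this] at h4
              exact h4
            omega
      · -- ℓ = 3
        by_cases hv0 : v = 0
        · exfalso
          obtain ⟨A, hA, hU⟩ := key 1 2 (by norm_num) (by omega)
          exact nu9 p D (by omega) A hA hU
        · by_cases hle : e + 1 ≤ v
          · exact ub_dvd_numerator p 3 e 1 (by norm_num) (by norm_num)
              ((pow_dvd_pow 3 hle).trans hv1)
          · exfalso
            obtain ⟨A, hA, hU⟩ := key 1 1 (by norm_num) (by omega)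
            have h3 := cla p D 3 1 Nat.prime_three hℓp (by norm_num) A hA hU
            have h3' : (3 : ℤ) ∣ (p : ℤ) - 1 := by
              have : (3 : ℤ) ^ 1 ∣ (3 : ℤ) ^ v := pow_dvd_pow _ (by omega)
              exact (by norm_num : (3 : ℤ) = 3 ^ 1) ▸ this.trans (by exact_mod_cast hv1')
            have h3'' : (3 : ℤ) ∣ (p : ℤ) + 1 := by
              have : ((3 : ℕ) : ℤ) ^ 1 = 3 := by norm_num
              rw [this] at h3
              exact h3
            omega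
    · -- ℓ ≥ 5, ℓ ≠ p
      by_cases hle : e ≤ v
      · have hcop : Nat.Coprime ℓ 12 := by
          rw [Nat.Prime.coprime_iff_not_dvd hℓ]
          intro hd
          have h12 : (12 : ℕ) = 2 ^ 2 * 3 := by norm_num
          rw [h12] at hd
          rcases (Nat.Prime.dvd_mul hℓ).mp hd with h | h
          · have := Nat.le_of_dvd (by norm_num) (hℓ.dvd_of_dvd_pow h)
            omega
          · have := Nat.le_of_dvd (by norm_num) h
            omega
        exact ub_dvd_numerator p ℓ e 0 (by simp) (by simpa using hcop)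
          ((pow_dvd_pow ℓ (by omega : e + 0 ≤ v)).trans hv1)
      · exfalso
        obtain ⟨A, hA, hU⟩ := key 0 1 (by simp) (by omega)
        exact nu5 p D ℓ hℓ h5 hℓp A hA hU

theorem ub_sigmaP_one (p : ℕ) (hp : p.Prime) : sigmaP p 1 = 1 := by
  unfold sigmaP
  rw [Nat.divisors_one, Finset.filter_singleton, if_pos (by
    intro h
    exact hp.one_lt.ne' (Nat.dvd_one.mp h))]
  simp

/-- the case of no cusp forms (`p = 2, 3`). -/
theorem ub_of_eq_zero (p : ℕ) [Fact p.Prime] (M : ℕ)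
    (f : CuspForm (CongruenceSubgroup.Gamma0 p) 2) (c : ℕ → ℤ) (hf : f = 0)
    (hc : ∀ k, ModularFormClass.qCoeff (⇑f) k = (c k : ℂ))
    (hcong : ∀ k, 1 ≤ k → (M : ℤ) ∣ c k - (sigmaP p k : ℤ)) :
    M ∣ ModularCurve.eisensteinNumerator p := by
  have hpr : p.Prime := Fact.out
  have h1 := hc 1
  rw [hf, P2MW.S_CuspForm_intLattice_fg.W3WsD.qCoeff_zero'] at h1
  have hc1 : c 1 = 0 := by exact_mod_cast h1.symm
  have h2 := hcong 1 le_rfl
  rw [hc1, ub_sigmaP_one p hpr] at h2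
  have h3 : (M : ℤ) ∣ 1 := by
    have := (dvd_neg (a := (M : ℤ)) (b := (0 : ℤ) - ((1 : ℕ) : ℤ))).mpr h2
    simpa using this
  have h4 : M ∣ 1 := by exact_mod_cast h3
  exact h4.trans (one_dvd _)

theorem ub_core (p : ℕ) [Fact p.Prime] (D : TraceData p) (M : ℕ) (hM : 0 < M)
    (f : CuspForm (CongruenceSubgroup.Gamma0 p) 2) (c : ℕ → ℤ)
    (hc : ∀ k, ModularFormClass.qCoeff (⇑f) k = (c k : ℂ))
    (hcong : ∀ k, 1 ≤ k → (M : ℤ) ∣ c k - (sigmaP p k : ℤ)) :
    M ∣ ModularCurve.eisensteinNumerator p := by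
  have hpr : p.Prime := Fact.out
  have _hM := hM
  by_cases hp2 : p = 2
  · subst hp2
    exact ub_of_eq_zero 2 M f c (ub_S2_two f) hc hcong
  by_cases hp3 : p = 3
  · subst hp3
    exact ub_of_eq_zero 3 M f c (ub_S2_three f) hc hcong
  have hp5 : 5 ≤ p := by
    have h2 := hpr.two_le
    by_contra hlt
    have h4 : p = 4 := by omega
    rw [h4] at hpr
    exact absurd hpr (by decide)
  rw [Nat.dvd_iff_prime_pow_dvd_dvd]
  intro ℓ e hℓ hd
  rcases Nat.eq_zero_or_pos e with rfl | he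
  · simp
  · refine ub_prime_pow p D hp5 f c hc ℓ e hℓ he (fun k hk => ?_)
    have h1 : ((ℓ ^ e : ℕ) : ℤ) ∣ (M : ℤ) := Int.natCast_dvd_natCast.mpr hd
    rw [Nat.cast_pow] at h1
    exact h1.trans (hcong k hk)

end Fermat.Agent.S16L
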